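import Mathlib
import Fermat.Prelude.Def_ModularCurve_ReductionModL
import Fermat.Prelude.Def_ModularCurve_HeckeModule
import Fermat.Prelude.Def_EllipticCurve_ZeroComponentAt
import Fermat.Agent.MU.S17.H.Setup.Cusp

section MergeWrap_E_S15_Interfaces -- from E/S15/Interfaces.lean

set_option autoImplicit false

noncomputable section

open ModularCurve AlgebraicCurve WeierstrassCurve WeierstrassCurve.Affine

set_option synthInstance.maxHeartbeats 400000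

namespace Fermat.Agent.ES15

local notation "Qb" => AlgebraicClosure ℚ
local notation "GQb" => (AlgebraicClosure ℚ ≃ₐ[ℚ] AlgebraicClosure ℚ)

/-- the places of `X₀(p)` over `ℚ̄`. -/
abbrev Pl (p : ℕ) : Type := Place Qb (modularFunctionFieldBar p)

/-- `j(q^d)`, `d ∣ N`, as a function on `X₀(N)` over `ℚ̄`. -/
def jdB (N d : ℕ) [NeZero d] (hd : d ∣ N) : modularFunctionFieldBar N :=
  ⟨coeffEmb Qb (qExpand ℚ d jq), coeffEmb_mem_laurentBaseChange Qb (jqd_mem_full N hd)⟩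

/-- `j`. -/
def jB (p : ℕ) : modularFunctionFieldBar p := jdB p 1 (one_dvd p)

/-- `j_p = j(q^p)`. -/
def jpB (p : ℕ) [NeZero p] : modularFunctionFieldBar p := jdB p p dvd_rfl

/-- the cusp `∞`. -/
abbrev cuspInf (p : ℕ) : Pl p := Fermat.Agent.S17.Setup.cuspPlace p

/-- "`P0` is the cusp `0`": the pole of `j` different from `∞`. -/
def IsCuspZero (p : ℕ) (P0 : Pl p) : Prop :=
  P0 ≠ cuspInf p ∧ P0.ord (jB p) < 0

/-- the class of a divisor (`0` if its degree is not `0`). -/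
def clsOf (p : ℕ) (D : Divisor Qb (modularFunctionFieldBar p)) : JZero p :=
  open Classical in
  if h : D ∈ Divisor.degZero (K := Qb) (F := modularFunctionFieldBar p) then Pic0.mk ⟨D, h⟩ else 0

/-- the class of `(P) - (P')`. -/
def clsDiff (p : ℕ) (P P' : Pl p) : JZero p :=
  clsOf p (Finsupp.single P 1 - Finsupp.single P' 1)

/-- the cuspidal class `c = cl((0) - (∞))`. -/
def cuspClass (p : ℕ) (P0 : Pl p) : JZero p := clsDiff p P0 (cuspInf p)

/-- "`f(x) = a`" (junk-safe). -/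
abbrev ValAt {p : ℕ} (x : Pl p) (f : modularFunctionFieldBar p) (a : Qb) : Prop :=
  Fermat.Agent.S17.Pts.CongAt x f a

/-! ### the seats -/

/-- **(D0)** the cusp `0` exists, is unique and Galois-fixed. -/
structure CuspZeroData (p : ℕ) : Prop where
  ex : ∃ P0 : Pl p, IsCuspZero p P0
  uniq : ∀ P0 P0' : Pl p, IsCuspZero p P0 → IsCuspZero p P0' → P0 = P0'
  deg_one : ∀ P : Pl p, P.deg = 1

/-- **(D2)** `(p - 1) c = 0` (modular unit `Δ(pz)/Δ(z)`). -/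
def CuspTorsion (p : ℕ) : Prop :=
  ∀ P0 : Pl p, IsCuspZero p P0 → (p - 1) • cuspClass p P0 = 0

/-- **(B)** the reduction inputs of the Prelude hold at every place over a prime `ℓ ≠ p`. -/
def RedInputs (p : ℕ) : Prop :=
  ∀ ℓ : ℕ, ℓ.Prime → ℓ ≠ p → ∀ A : ValuationSubring Qb, A.LiesOverPrime ℓ →
    ReductionInputsModL A p

/-- **(C)** where a point near a cusp goes under ANY place reduction. -/
def CuspReduction (p : ℕ) [NeZero p] : Prop :=
  ∀ ℓ : ℕ, ℓ.Prime → ℓ ≠ p → ∀ A : ValuationSubring Qb, A.LiesOverPrime ℓ →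
    ∀ r : Pl p → Place (IsLocalRing.ResidueField A)
        (modularFunctionFieldFullC (IsLocalRing.ResidueField A) p),
      IsPlaceReductionModL A p r →
      ∀ P0 : Pl p, IsCuspZero p P0 →
      ∀ (a b : Qb) (x : Pl p), ValAt x (jB p) a → ValAt x (jpB p) b → a ∉ A →
        (A.valuation b = A.valuation a ^ p → r x = r (cuspInf p)) ∧
        (A.valuation a = A.valuation b ^ p → r x = r P0) ∧
        (r x = r (cuspInf p) → ∀ x' : Pl p, ValAt x' (jB p) a → r x' = r (cuspInf p) → x' = x)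

/-- **(F)** the kernel of the reduction is stable under `T_r`, `r ∉ {ℓ, p}`. -/
def HeckeRedStable (p : ℕ) [NeZero p] : Prop :=
  ∀ ℓ : ℕ, ℓ.Prime → ℓ ≠ p → ∀ A : ValuationSubring Qb, A.LiesOverPrime ℓ →
    ∀ r : Nat.Primes, (r : ℕ) ≠ ℓ → (r : ℕ) ≠ p → ∀ z : JZero p,
      reductionModL A p z = 0 → reductionModL A p (heckeOperatorBar p r z) = 0

/-- **(EL)** a rational point of order `p` in the zero component at a multiplicative prime
`ℓ ≠ p` forces `p ∣ ℓ² - 1`. -/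
def ZeroCompOrder (p : ℕ) : Prop :=
  ∀ (W : WeierstrassCurve ℤ) (Q : ((W.map (Int.castRingHom ℚ))⁄Qb).Point),
    (∀ σ : GQb, σ • Q = Q) → addOrderOf Q = p →
    ∀ ℓ : ℕ, ℓ.Prime → ℓ ≠ p → (ℓ : ℤ) ∣ W.Δ → ¬ (ℓ : ℤ) ∣ W.c₄ →
    ∀ A : ValuationSubring Qb, A.LiesOverPrime ℓ → W.InZeroComponentAt A Q → p ∣ ℓ ^ 2 - 1

/-- **(MP)** the moduli point of `(W, ⟨Q⟩)` on `X₀(p)` and its position at the multiplicative
primes. -/
def ModuliPoint (p : ℕ) [NeZero p] : Prop :=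
  ∀ (W : WeierstrassCurve ℤ), W.Δ ≠ 0 →
    ∀ Q : ((W.map (Int.castRingHom ℚ))⁄Qb).Point,
    (∀ σ : GQb, σ • Q = Q) → addOrderOf Q = p →
    ∃ (a b : ℚ) (x : Pl p),
      ValAt x (jB p) (algebraMap ℚ Qb a) ∧ ValAt x (jpB p) (algebraMap ℚ Qb b) ∧
      ∀ ℓ : ℕ, ℓ.Prime → ℓ ≠ p → (ℓ : ℤ) ∣ W.Δ → ¬ (ℓ : ℤ) ∣ W.c₄ →
        ∀ A : ValuationSubring Qb, A.LiesOverPrime ℓ →
          algebraMap ℚ Qb a ∉ A ∧
          (¬ W.InZeroComponentAt A Q →
            A.valuation (algebraMap ℚ Qb a) = A.valuation (algebraMap ℚ Qb b) ^ p) ∧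
          (W.InZeroComponentAt A Q →
            A.valuation (algebraMap ℚ Qb b) = A.valuation (algebraMap ℚ Qb a) ^ p)

/-- the Hecke operators `T_r`, `r ∉ S`, as endomorphisms of `J`. -/
def heckeSet (p : ℕ) [NeZero p] (S : Finset ℕ) : Set (Module.End ℤ (JZero p)) :=
  {T | ∃ r : Nat.Primes, (r : ℕ) ∉ S ∧ T = heckeOperatorBar p r}

/-- **(DESC)** Mazur's descent, in the form used by the assembly: for every finite set `S` of
primes there is `t ∈ ℤ[T_r : r ∉ S]` which maps `J(ℚ)` into the torsion and does not kill the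
cuspidal class. -/
def EisensteinDescent (p : ℕ) [NeZero p] : Prop :=
  ∀ S : Finset ℕ, ∃ t ∈ Algebra.adjoin ℤ (heckeSet p S),
    (∀ z : JZero p, (∀ σ : GQb, σ • z = z) → ∃ m : ℕ, 0 < m ∧ m • t z = 0) ∧
    ∀ P0 : Pl p, IsCuspZero p P0 → t (cuspClass p P0) ≠ 0

/-- the frozen statement S15 at the prime `p`. -/
def S15At (p : ℕ) : Prop :=
  ∀ (W : WeierstrassCurve ℤ), W.Δ ≠ 0 →
    ∀ Q : ((W.map (Int.castRingHom ℚ))⁄Qb).Point,
    (∀ σ : GQb, σ • Q = Q) → addOrderOf Q = p →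
    (2 : ℤ) ∣ W.Δ → ¬ (2 : ℤ) ∣ W.c₄ →
    (∀ A : ValuationSubring Qb, A.LiesOverPrime 2 → ¬ W.InZeroComponentAt A Q) →
    (3 : ℤ) ∣ W.Δ → ¬ (3 : ℤ) ∣ W.c₄ →
    (∀ A : ValuationSubring Qb, A.LiesOverPrime 3 → ¬ W.InZeroComponentAt A Q) →
    ∀ ℓ : ℕ, ℓ.Prime → ℓ ≠ p → (ℓ : ℤ) ∣ W.Δ → ¬ (ℓ : ℤ) ∣ W.c₄ →
    ∀ A : ValuationSubring Qb, A.LiesOverPrime ℓ → ¬ W.InZeroComponentAt A Q

end Fermat.Agent.ES15
end
end MergeWrap_E_S15_Interfaces
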