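import Mathlib
import Fermat.Agent.MU.E.S15.CuspDiv
import Fermat.Agent.MU.E.S15.CuspCore

section MergeWrap_E_S15_CuspOrder -- from E/S15/CuspOrder.lean

/-!
# Cluster E' / S15-D (helper98): the order of the cuspidal class (Ogg)

`p` prime, `c = cuspClass p P0 = cl((0) - (∞)) ∈ J₀(p)`.

* `dvd_of_pow_eq_mul_uF_pow_level` : Ogg's lemma (function-field form) at any level `N` with
  `q ∥ N`: `G ^ e = c₀ u ^ m ⟹ e ∣ 12 m`;
* `exists_const_of_forall_ord_eq_zero` : a function without zeros and poles is constant;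
* **`dvd_of_nsmul_cuspClass`** : `m • c = 0 ⟹ (p - 1) ∣ 12 m`;
* `addOrderOf_cuspClass_dvd` : `ord c ∣ p - 1`;  `dvd_twelve_mul_addOrderOf` : `(p-1) ∣ 12 ord c`;
* `cuspClass_ne_zero` : `c ≠ 0` if `¬ (p - 1) ∣ 12`, in particular (`cuspClass_ne_zero'`) for
  `p ∉ {2, 3, 5, 7, 13}`;
* `exists_prime_dvd_addOrderOf` : for such `p` there is a prime `ℓ' ∣ ord c`, and
  `zsmul_cuspClass_ne_zero` : `n • c ≠ 0` for every integer `n` prime to `ℓ'`.
-/

set_option autoImplicit false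
set_option linter.unusedSectionVars false
set_option linter.style.haveILetI false

noncomputable section

open AlgebraicCurve ModularCurve Fermat.Agent.RR Fermat.Agent.BadRed Fermat.Agent.AtkinLehner

set_option synthInstance.maxHeartbeats 400000

namespace Fermat.Agent.ES15

local notation "Qb" => AlgebraicClosure ℚ

/-- **Ogg's lemma, function-field form, at any level `N` with `q ∥ N`.** -/
theorem dvd_of_pow_eq_mul_uF_pow_level (N q : ℕ) [NeZero N] [NeZero q] (hq : q.Prime)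
    (hqN : q ∣ N) (hcop : Nat.Coprime q (N / q)) (G : modularFunctionFieldBar N) {e : ℕ}
    (he : 0 < e) (m : ℕ) (c₀ : Qb) (hc₀ : c₀ ≠ 0)
    (hG : G ^ e = algebraMap Qb (modularFunctionFieldBar N) c₀ * uF N q hqN ^ m) :
    e ∣ 12 * m := by
  obtain ⟨D, hDQ, hDR⟩ := ALData.exists_of_coprime hq.pos
    (Nat.div_pos (Nat.le_of_dvd (NeZero.pos N) hqN) hq.pos) hcop
  have hN : D.Q * D.R = N := by rw [hDQ, hDR, Nat.mul_div_cancel' hqN]
  subst hDQ
  subst hN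
  exact Fermat.Agent.ED.dvd_of_pow_eq_mul_uF_pow D hq G he m c₀ hc₀ hG

/-- a function without zeros and poles is a nonzero constant. -/
theorem exists_const_of_forall_ord_eq_zero {K F : Type*} [Field K] [Field F] [Algebra K F]
    (hF : IsRRField K F) {f : F} (hf : f ≠ 0) (h : ∀ P : Place K F, P.ord f = 0) :
    ∃ c : K, c ≠ 0 ∧ f = algebraMap K F c := by
  have hmem : f ∈ riemannRochSpace (0 : Divisor K F) := by
    rw [mem_riemannRochSpace_iff]
    intro v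
    right
    rw [h v]
    simp
  obtain ⟨c, hc⟩ := (mem_riemannRochSpace_zero_iff hF f).mp hmem
  refine ⟨c, ?_, hc.symm⟩
  rintro rfl
  rw [map_zero] at hc
  exact hf hc.symm

variable {p : ℕ} [NeZero p]

/-- **Ogg: `m • c = 0 ⟹ (p - 1) ∣ 12 m`.** -/
theorem dvd_of_nsmul_cuspClass (hp : p.Prime) {P0 : Pl p} (h0 : IsCuspZero p P0) (m : ℕ)
    (hm : m • cuspClass p P0 = 0) : (p - 1) ∣ 12 * m := by
  have hRR := Fermat.Agent.RRMod.isRRField_bar p
  have h1 := hRR.deg_one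
  have hp2 := hp.two_le
  unfold cuspClass at hm
  rw [clsDiff_eq h1] at hm
  have hm' : Pic0.mk (m • (⟨_, single_sub_single_mem_degZero h1 P0 (cuspInf p)⟩ :
      Divisor.degZero (K := Qb) (F := modularFunctionFieldBar p))) = 0 := by
    rw [← hm]
    exact QuotientAddGroup.mk_nsmul _ _ _
  have hmem := (QuotientAddGroup.eq_zero_iff _).mp hm'
  rw [AddSubgroup.mem_addSubgroupOf, AddSubgroup.coe_nsmul] at hmem
  obtain ⟨G, hG0, hG⟩ := hmem
  set u := uF p p dvd_rfl with hu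
  have hu0 : u ≠ 0 := uF_ne_zero p p dvd_rfl
  -- `G ^ (p - 1) / u ^ m` has no zeros and poles
  have hf0 : G ^ (p - 1) * (u ^ m)⁻¹ ≠ 0 :=
    mul_ne_zero (pow_ne_zero _ hG0) (inv_ne_zero (pow_ne_zero _ hu0))
  have hord : ∀ v : Pl p, v.ord (G ^ (p - 1) * (u ^ m)⁻¹) = 0 := by
    intro v
    rw [Place.ord_mul _ (pow_ne_zero _ hG0) (inv_ne_zero (pow_ne_zero _ hu0)), Place.ord_inv,
      ← zpow_natCast, ← zpow_natCast, Place.ord_zpow, Place.ord_zpow, ← hG v,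
      ord_uF_eq hp h0 v]
    simp only [Finsupp.smul_apply, nsmul_eq_mul]
    ring
  obtain ⟨c, hc0, hc⟩ := exists_const_of_forall_ord_eq_zero hRR hf0 hord
  have hGe : G ^ (p - 1) = algebraMap Qb (modularFunctionFieldBar p) c * u ^ m := by
    rw [← hc, mul_assoc, inv_mul_cancel₀ (pow_ne_zero _ hu0), mul_one]
  refine dvd_of_pow_eq_mul_uF_pow_level p p hp dvd_rfl ?_ G (by omega) m c hc0 hGe
  rw [Nat.div_self hp.pos]
  exact Nat.coprime_one_right p

/-- `ord c ∣ p - 1`. -/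
theorem addOrderOf_cuspClass_dvd (hp : p.Prime) {P0 : Pl p} (h0 : IsCuspZero p P0) :
    addOrderOf (cuspClass p P0) ∣ p - 1 :=
  addOrderOf_dvd_of_nsmul_eq_zero (cuspTorsion hp P0 h0)

theorem addOrderOf_cuspClass_pos (hp : p.Prime) {P0 : Pl p} (h0 : IsCuspZero p P0) :
    0 < addOrderOf (cuspClass p P0) := by
  have hp2 := hp.two_le
  exact Nat.pos_of_dvd_of_pos (addOrderOf_cuspClass_dvd hp h0) (by omega)

/-- `(p - 1) ∣ 12 ord c`. -/
theorem dvd_twelve_mul_addOrderOf (hp : p.Prime) {P0 : Pl p} (h0 : IsCuspZero p P0) :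
    (p - 1) ∣ 12 * addOrderOf (cuspClass p P0) :=
  dvd_of_nsmul_cuspClass hp h0 _ (addOrderOf_nsmul_eq_zero _)

/-- `c ≠ 0` if `p - 1 ∤ 12`. -/
theorem cuspClass_ne_zero (hp : p.Prime) (h12 : ¬ (p - 1) ∣ 12) {P0 : Pl p}
    (h0 : IsCuspZero p P0) : cuspClass p P0 ≠ 0 := by
  intro hc
  apply h12
  have h := dvd_of_nsmul_cuspClass hp h0 1 (by rw [one_nsmul]; exact hc)
  simpa using h

/-- `p - 1 ∤ 12` for a prime `p ∉ {2, 3, 5, 7, 13}`. -/
theorem not_pred_dvd_twelve (hp : p.Prime) (h2 : p ≠ 2) (h3 : p ≠ 3) (h5 : p ≠ 5) (h7 : p ≠ 7)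
    (h13 : p ≠ 13) : ¬ (p - 1) ∣ 12 := by
  intro h
  have hle : p - 1 ≤ 12 := Nat.le_of_dvd (by norm_num) h
  have hp2 := hp.two_le
  have h4 : p ≠ 4 := by
    rintro rfl
    exact absurd hp (by decide)
  have : p ≤ 13 := by omega
  interval_cases p <;> omega

/-- `c ≠ 0` for a prime `p ∉ {2, 3, 5, 7, 13}`. -/
theorem cuspClass_ne_zero' (hp : p.Prime) (h2 : p ≠ 2) (h3 : p ≠ 3) (h5 : p ≠ 5) (h7 : p ≠ 7)
    (h13 : p ≠ 13) {P0 : Pl p} (h0 : IsCuspZero p P0) : cuspClass p P0 ≠ 0 :=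
  cuspClass_ne_zero hp (not_pred_dvd_twelve hp h2 h3 h5 h7 h13) h0

/-- for `p ∉ {2, 3, 5, 7, 13}` a prime `ℓ'` divides the order of `c`. -/
theorem exists_prime_dvd_addOrderOf (hp : p.Prime) (h12 : ¬ (p - 1) ∣ 12) {P0 : Pl p}
    (h0 : IsCuspZero p P0) : ∃ ℓ' : ℕ, ℓ'.Prime ∧ ℓ' ∣ addOrderOf (cuspClass p P0) := by
  apply Nat.exists_prime_and_dvd
  intro h1
  exact cuspClass_ne_zero hp h12 h0 (AddMonoid.addOrderOf_eq_one_iff.mp h1)

/-- an integer prime to a prime divisor of `ord c` does not kill `c`. -/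
theorem zsmul_cuspClass_ne_zero {P0 : Pl p} {ℓ' : ℕ}
    (hdvd : ℓ' ∣ addOrderOf (cuspClass p P0)) {n : ℤ} (hn : ¬ (ℓ' : ℤ) ∣ n) :
    n • cuspClass p P0 ≠ 0 := by
  intro h
  apply hn
  have h1 : (addOrderOf (cuspClass p P0) : ℤ) ∣ n := (addOrderOf_dvd_iff_zsmul_eq_zero).mpr h
  exact (Int.natCast_dvd_natCast.mpr hdvd).trans h1

end Fermat.Agent.ES15
end
end MergeWrap_E_S15_CuspOrder
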