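import Mathlib
import Fermat.Prelude.Def_ModularCurve_X0ModL
import Fermat.Prelude.Def_ModularCurve_ReductionModL
import Fermat.Agent.MU.E.S15.CuspDiv
import Fermat.Agent.MU.Lib.BadRed.Mod.UParamW
import Fermat.Agent.MU.Lib.BadRed.AtkinLehner
import Fermat.Agent.MU.Lib.RR.Hurwitz.Fibres
import Fermat.Agent.S17.Pts.Eval
import Fermat.Agent.MU.E.S15.Interfaces
import Fermat.Agent.MU.E.S15.CuspOrd
import Fermat.Agent.MU.Lib.GenusEq.Inputs
import Fermat.Agent.MU.Lib.RR.OfModularCFinal
import Fermat.Agent.MU.Lib.RR.OfModularBar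
import Fermat.Agent.MU.Lib.RR.Hurwitz.Count
import Fermat.Agent.Lib.FrobTrace.Residue

section MergeWrap_E_S15_CuspJp -- from E/S15/CuspJp.lean

/-!
# Cluster E' / S15-D (helper98): the dual modular equation and the divisor of `j_p`

* `ucMap`, `ucOfMap` : the modular equation `UCuspEq K q j u` is
  transported by homomorphisms of `K`-algebras (fields);
* `uCuspEq_dual_AL D` : at level `N = Q R`, `Q` prime: `UCuspEq ℚ̄ Q j_Q (Q¹² / u)`
  (apply the Atkin–Lehner involution `w_Q` to the modular equation of `u` over `ℚ̄(j)`);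
* `uCuspEq_ser q`, `uCuspEq_ser_dual q` : the two equations in `ℚ̄((t))`, for every prime `q`;
* `ucDualOrd` : the bookkeeping at a place `v`: either `v` is no pole of `j`, `j'`
  and `ord u = 0`; or `ord u < 0`, `ord j' = q ord j`; or `ord u > 0`, `ord j = q ord j'`;
* level `p`: `ord_cuspInf_jpB : ord_∞ j_p = -p`, `ord_cuspZero_jpB : ord_0 j_p = -1`,
  `ord_jpB_neg_iff : ord_v j_p < 0 ↔ ord_v j < 0`.
-/

set_option autoImplicit false
set_option linter.unusedSectionVars false
set_option linter.style.haveILetI false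

noncomputable section

open AlgebraicCurve ModularCurve Polynomial Fermat.Agent.RR Fermat.Agent.BadRed
  Fermat.Agent.AtkinLehner

set_option synthInstance.maxHeartbeats 400000

namespace Fermat.Agent.ES15

local notation "Qb" => AlgebraicClosure ℚ

section Abstract

variable {K F F' : Type*} [Field K] [Field F] [Field F'] [Algebra K F] [Algebra K F']

/-- the modular equation is transported by algebra homomorphisms. -/
theorem ucMap {q : ℕ} {j u : F} (h : UCuspEq K q j u) (φ : F →ₐ[K] F') :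
    UCuspEq K q (φ j) (φ u) := by
  obtain ⟨c, hc0, hcq, hci, hroot⟩ := h.exists_coeff
  refine ⟨h.two_le, c, hc0, hcq, hci, ?_⟩
  have h1 := congrArg φ hroot
  rw [map_add, map_pow, map_sum, map_zero] at h1
  refine Eq.trans ?_ h1
  congr 1
  refine Finset.sum_congr rfl fun i _ => ?_
  rw [map_mul, map_pow, Polynomial.aeval_algHom_apply]

/-- the modular equation descends along (injective) algebra homomorphisms of fields. -/
theorem ucOfMap {q : ℕ} {j u : F} (φ : F →ₐ[K] F')
    (h : UCuspEq K q (φ j) (φ u)) : UCuspEq K q j u := by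
  obtain ⟨c, hc0, hcq, hci, hroot⟩ := h.exists_coeff
  refine ⟨h.two_le, c, hc0, hcq, hci, ?_⟩
  have hinj : Function.Injective φ := φ.toRingHom.injective
  apply hinj
  rw [map_add, map_pow, map_sum, map_zero]
  refine Eq.trans ?_ hroot
  congr 1
  refine Finset.sum_congr rfl fun i _ => ?_
  rw [map_mul, map_pow, Polynomial.aeval_algHom_apply]

/-- the order of `c / u`. -/
lemma ord_const_mul_inv (v : Place K F) {c : K} (hc : c ≠ 0) (u : F) :
    v.ord (algebraMap K F c * u⁻¹) = -v.ord u := by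
  rcases eq_or_ne u 0 with rfl | hu
  · simp
  have hc' : algebraMap K F c ≠ 0 := by
    rwa [ne_eq, map_eq_zero_iff _ (algebraMap K F).injective]
  rw [Place.ord_mul _ hc' (inv_ne_zero hu), Place.ord_inv, Fermat.Agent.S24Res.ord_algebraMap,
    zero_add]

/-- **bookkeeping at a place** for the pair of modular equations of `(j, u)` and
`(j', c / u)`. -/
theorem ucDualOrd {q : ℕ} {j j' u : F} {c : K} (hc : c ≠ 0) (h : UCuspEq K q j u)
    (h' : UCuspEq K q j' (algebraMap K F c * u⁻¹)) (v : Place K F) :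
    (0 ≤ v.ord j ∧ 0 ≤ v.ord j' ∧ v.ord u = 0) ∨
      (v.ord u < 0 ∧ v.ord j < 0 ∧ v.ord j' = (q : ℤ) * v.ord j ∧
        v.ord u = ((q : ℤ) - 1) * v.ord j) ∨
      (0 < v.ord u ∧ v.ord j' < 0 ∧ v.ord j = (q : ℤ) * v.ord j' ∧
        v.ord u = -(((q : ℤ) - 1) * v.ord j')) := by
  have hq := h.two_le
  have hq1 : ((q : ℤ) - 1) ≠ 0 := by omega
  have hinv := ord_const_mul_inv v hc u
  rcases lt_or_ge (v.ord j) 0 with hj | hj
  · rcases h.ord_of_pole v hj with ⟨h1, h2⟩ | ⟨h1, h2⟩
    · right; left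
      have h3 : 0 < v.ord (algebraMap K F c * u⁻¹) := by rw [hinv]; omega
      obtain ⟨h4, h5⟩ := h'.ord_eq_of_pos v h3
      rw [hinv, h1] at h5
      refine ⟨h2, hj, ?_, h1⟩
      have h6 : ((q : ℤ) - 1) * v.ord j' = ((q : ℤ) - 1) * ((q : ℤ) * v.ord j) := by
        linarith
      exact mul_left_cancel₀ hq1 h6
    · right; right
      have h3 : v.ord (algebraMap K F c * u⁻¹) < 0 := by rw [hinv]; omega
      obtain ⟨h4, h5⟩ := h'.ord_eq_of_neg v h3
      rw [hinv] at h5
      refine ⟨h2, h4, ?_, by linarith⟩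
      have h6 : ((q : ℤ) - 1) * v.ord j = ((q : ℤ) - 1) * ((q : ℤ) * v.ord j') := by
        have : (q : ℤ) * v.ord u = -(((q : ℤ) - 1) * v.ord j) := h1
        have h7 : (q : ℤ) * (-(v.ord u)) = (q : ℤ) * (((q : ℤ) - 1) * v.ord j') := by
          rw [h5]
        linarith
      exact mul_left_cancel₀ hq1 h6
  · left
    have h1 := h.ord_eq_zero_of_nonneg v hj
    refine ⟨hj, ?_, h1⟩
    by_contra hj'
    have h2 := (h'.ord_j_neg_iff v).mp (not_le.mp hj')
    rw [hinv, h1] at h2
    exact h2 rfl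

end Abstract

section AL

/-- `jF N 1 = jBar N`. -/
lemma jF_one_eq_jBar (N : ℕ) [NeZero N] :
    jF N 1 (one_dvd N) = Fermat.Agent.S24.jBar N := by
  apply Subtype.ext
  rw [coe_jF, Fermat.Agent.S24.coe_jBar_eq_jqModC, qExpand_one_apply]

/-- **the dual modular equation** at level `N = Q R`: `UCuspEq ℚ̄ Q j_Q (Q¹² / u)`. -/
theorem uCuspEq_dual_AL (D : ALData) [NeZero D.Q] [NeZero (D.Q * D.R)] (hQ : D.Q.Prime) :
    UCuspEq Qb D.Q (jF (D.Q * D.R) D.Q (Dvd.intro _ rfl))
      (algebraMap Qb (modularFunctionFieldBar (D.Q * D.R)) ((D.Q : Qb) ^ 12) *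
        (uF (D.Q * D.R) D.Q (Dvd.intro _ rfl))⁻¹) := by
  have h := ucMap (uCuspEq_uF_prime (N := D.Q * D.R) hQ (Dvd.intro _ rfl))
    (atkinLehner D).toAlgHom
  have e1 : (atkinLehner D).toAlgHom (Fermat.Agent.S24.jBar (D.Q * D.R)) =
      jF (D.Q * D.R) D.Q (Dvd.intro _ rfl) := by
    rw [← jF_one_eq_jBar]
    exact atkinLehner_j D
  have e2 : (atkinLehner D).toAlgHom (uF (D.Q * D.R) D.Q (Dvd.intro _ rfl)) =
      algebraMap Qb (modularFunctionFieldBar (D.Q * D.R)) ((D.Q : Qb) ^ 12) *
        (uF (D.Q * D.R) D.Q (Dvd.intro _ rfl))⁻¹ := by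
    show atkinLehner D (uF (D.Q * D.R) D.Q (Dvd.intro _ rfl)) = _
    rw [atkinLehner_uF, map_pow, map_natCast, div_eq_mul_inv]
  rw [e1, e2] at h
  exact h

variable (q : ℕ) [NeZero q]

/-- the modular equation of `u` over `ℚ̄(j)` in `ℚ̄((t))`. -/
theorem uCuspEq_ser (hq : q.Prime) :
    UCuspEq Qb q (jqModC Qb) (uSer Qb q) := by
  have h := ucMap (uCuspEq_uF_prime (N := q) hq dvd_rfl) (modularFunctionFieldBar q).val
  have e1 : (modularFunctionFieldBar q).val (Fermat.Agent.S24.jBar q) = jqModC Qb :=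
    Fermat.Agent.S24.coe_jBar_eq_jqModC q
  have e2 : (modularFunctionFieldBar q).val (uF q q dvd_rfl) = uSer Qb q := rfl
  rw [e1, e2] at h
  exact h

/-- the dual modular equation in `ℚ̄((t))`. -/
theorem uCuspEq_ser_dual (hq : q.Prime) :
    UCuspEq Qb q (qExpand Qb q (jqModC Qb))
      (algebraMap Qb (LaurentSeries Qb) ((q : Qb) ^ 12) * (uSer Qb q)⁻¹) := by
  obtain ⟨D, hDQ, hDR⟩ := ALData.exists_of_coprime (Q := q) (R := 1) hq.pos one_pos
    (Nat.coprime_one_right q)
  subst hDQ
  haveI : NeZero (D.Q * D.R) := ⟨Nat.mul_ne_zero (NeZero.ne _) (by rw [hDR]; exact one_ne_zero)⟩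
  have h := ucMap (uCuspEq_dual_AL D hq) (modularFunctionFieldBar (D.Q * D.R)).val
  exact h

end AL

section LevelP

variable {p : ℕ} [NeZero p]

/-- `jpB p` of the interface is `jF p p`. -/
lemma jpB_eq_jF : jpB p = jF p p dvd_rfl := by
  apply Subtype.ext
  show coeffEmb Qb (qExpand ℚ p jq) = qExpand Qb p (jqModC Qb)
  exact coeffEmb_qExpand_jq p

/-- the dual modular equation at level `p`. -/
theorem uCuspEq_dual_prime (hp : p.Prime) :
    UCuspEq Qb p (jpB p)
      (algebraMap Qb (modularFunctionFieldBar p) ((p : Qb) ^ 12) * (uF p p dvd_rfl)⁻¹) := by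
  apply ucOfMap (modularFunctionFieldBar p).val
  have h := uCuspEq_ser_dual p hp
  have e1 : (modularFunctionFieldBar p).val (jpB p) = qExpand Qb p (jqModC Qb) := by
    rw [jpB_eq_jF]
    rfl
  have e2 : (modularFunctionFieldBar p).val
      (algebraMap Qb (modularFunctionFieldBar p) ((p : Qb) ^ 12) * (uF p p dvd_rfl)⁻¹) =
      algebraMap Qb (LaurentSeries Qb) ((p : Qb) ^ 12) * (uSer Qb p)⁻¹ := rfl
  rw [e1, e2]
  exact h

/-- the bookkeeping at a place of `X₀(p)`. -/
theorem ord_trichotomy (hp : p.Prime) (v : Pl p) :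
    (0 ≤ v.ord (jB p) ∧ 0 ≤ v.ord (jpB p) ∧ v.ord (uF p p dvd_rfl) = 0) ∨
      (v.ord (uF p p dvd_rfl) < 0 ∧ v.ord (jB p) < 0 ∧
        v.ord (jpB p) = (p : ℤ) * v.ord (jB p) ∧
        v.ord (uF p p dvd_rfl) = ((p : ℤ) - 1) * v.ord (jB p)) ∨
      (0 < v.ord (uF p p dvd_rfl) ∧ v.ord (jpB p) < 0 ∧
        v.ord (jB p) = (p : ℤ) * v.ord (jpB p) ∧
        v.ord (uF p p dvd_rfl) = -(((p : ℤ) - 1) * v.ord (jpB p))) := by
  have hp0 : ((p : Qb) ^ 12) ≠ 0 := pow_ne_zero 12 (by exact_mod_cast hp.ne_zero)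
  have h1 := uCuspEq_uF_prime (N := p) hp dvd_rfl
  rw [← jB_eq_jBar] at h1
  exact ucDualOrd hp0 h1 (uCuspEq_dual_prime hp) v

/-- the poles of `j_p` are the poles of `j`. -/
theorem ord_jpB_neg_iff (hp : p.Prime) (v : Pl p) : v.ord (jpB p) < 0 ↔ v.ord (jB p) < 0 := by
  have hp2 := hp.two_le
  rcases ord_trichotomy hp v with ⟨h1, h2, -⟩ | ⟨-, h1, h2, -⟩ | ⟨-, h1, h2, -⟩
  · constructor <;> intro h <;> omega
  · constructor
    · intro _; exact h1
    · intro _
      rw [h2]
      exact mul_neg_of_pos_of_neg (by exact_mod_cast hp.pos) h1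
  · constructor
    · intro _
      rw [h2]
      exact mul_neg_of_pos_of_neg (by exact_mod_cast hp.pos) h1
    · intro _; exact h1

/-- `ord_∞ j_p = -p`. -/
theorem ord_cuspInf_jpB (hp : p.Prime) : (cuspInf p).ord (jpB p) = -(p : ℤ) := by
  have hu := ord_cuspInf_uF p
  have hj := ord_cuspInf_jB p
  have hp2 := hp.two_le
  rcases ord_trichotomy hp (cuspInf p) with ⟨-, -, h3⟩ | ⟨-, -, h3, -⟩ | ⟨h3, -⟩
  · omega
  · rw [h3, hj]; ring
  · omega

/-- `ord_0 j_p = -1`, `ord_0 j = -p`, `ord_0 u = p - 1`. -/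
theorem ord_cuspZero (hp : p.Prime) {P0 : Pl p} (h0 : IsCuspZero p P0) :
    P0.ord (jpB p) = -1 ∧ P0.ord (jB p) = -(p : ℤ) ∧
      P0.ord (uF p p dvd_rfl) = (p : ℤ) - 1 := by
  obtain ⟨P1, hne, hu, hj, hz⟩ := exists_cuspZero_div hp
  have hp2 := hp.two_le
  have hj' : P1.ord (jB p) < 0 := by rw [hj]; omega
  obtain rfl := (isCuspZero_iff_of hp hne hj' hz P0).mp h0
  refine ⟨?_, hj, hu⟩
  rcases ord_trichotomy hp P0 with ⟨h1, -, -⟩ | ⟨h1, -⟩ | ⟨-, -, h3, -⟩
  · omega
  · omega
  · rw [hj] at h3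
    have hp0 : (p : ℤ) ≠ 0 := by exact_mod_cast hp.ne_zero
    have h4 : (p : ℤ) * P0.ord (jpB p) = (p : ℤ) * (-1) := by linarith
    exact mul_left_cancel₀ hp0 h4

/-- every pole of `j` is `∞` or the cusp `0`. -/
theorem eq_cusp_of_ord_jB_neg (hp : p.Prime) {P0 : Pl p} (h0 : IsCuspZero p P0) {v : Pl p}
    (hv : v.ord (jB p) < 0) : v = cuspInf p ∨ v = P0 := by
  by_cases h : v = cuspInf p
  · exact Or.inl h
  · exact Or.inr ((cuspZeroData hp).uniq v P0 ⟨h, hv⟩ h0)

end LevelP

end Fermat.Agent.ES15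
end
end MergeWrap_E_S15_CuspJp

section MergeWrap_E_S15_CuspRedCore -- from E/S15/CuspRedCore.lean

/-!
# Cluster E' (Mazur, S15), seat S15-C: cusps under a place reduction — the abstract core

`F / K`, `Fk / k` function fields, `r : Place K F → Place k Fk` a map of places, and
`Push r f f̄` : "`r_* (div f) = div f̄`".  Given the pole data of `j`, `j_p` (two cusps `∞`, `0`,
orders `(1, p)` and `(p, 1)`) and of `j̄`, `j̄_p`, and the push property for the five functions
`j`, `j_p`, `j / a - 1` (`a ∉ A`), `j_p / j ^ p - β`, `j / j_p ^ p - β` (`β` a unit of `A`), a place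
`x` with `j(x) = a ∉ A`, `j_p(x) = b` goes to `r ∞` if `v(b) = v(a) ^ p`, to `r 0` if
`v(a) = v(b) ^ p`, and only one place over `a` goes to `r ∞`.
-/

set_option autoImplicit false
set_option linter.unusedSectionVars false
set_option linter.unusedVariables false

noncomputable section

open AlgebraicCurve

namespace Fermat.Agent.ES15C

open Fermat.Agent.RR Fermat.Agent.S17 Fermat.Agent.RRHur

variable {K F k Fk : Type*} [Field K] [Field F] [Algebra K F] [Field k] [Field Fk] [Algebra k Fk]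

/-- "`r_* (div f) = div f̄`" -/
def Push (r : Place K F → Place k Fk) (f : F) (fbar : Fk) : Prop :=
  ∀ D : Divisor K F, (∀ P, D P = P.ord f) → ∀ Q, Finsupp.mapDomain r D Q = Q.ord fbar

open Classical in
theorem mapDomain_apply_sum (r : Place K F → Place k Fk) (D : Divisor K F) (Q : Place k Fk) :
    Finsupp.mapDomain r D Q = ∑ P ∈ D.support, if r P = Q then D P else 0 := by
  rw [Finsupp.mapDomain, Finsupp.sum_apply, Finsupp.sum]
  refine Finset.sum_congr rfl fun P _ => ?_
  rw [Finsupp.single_apply]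

open Classical in
/-- the sum of the orders of `f` over the places in a fibre of `r`, over any finite set
containing the support of `div f` -/
theorem push_sum (h : IsRRField K F) {r : Place K F → Place k Fk} {f : F} {fbar : Fk}
    (hpush : Push r f fbar) (Q : Place k Fk) (U : Finset (Place K F))
    (hU : (divOf h f).support ⊆ U) :
    ∑ P ∈ U, (if r P = Q then P.ord f else 0) = Q.ord fbar := by
  rw [← hpush (divOf h f) (fun P => divOf_apply h f P) Q, mapDomain_apply_sum]
  symm
  have h1 : ∀ P ∈ (divOf h f).support, (if r P = Q then (divOf h f) P else 0)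
      = if r P = Q then P.ord f else 0 := fun P _ => by rw [divOf_apply]
  rw [Finset.sum_congr rfl h1]
  refine Finset.sum_subset hU fun P _ hP => ?_
  rw [Finsupp.notMem_support_iff, divOf_apply] at hP
  rw [hP]
  simp

open Classical in
/-- the key bound: the places outside the exceptional set `T` contribute nonnegatively -/
theorem push_bound (h : IsRRField K F) {r : Place K F → Place k Fk} {f : F} {fbar : Fk}
    (hpush : Push r f fbar) (Q : Place k Fk) (T : Finset (Place K F))
    (hT : ∀ P, P ∉ T → r P = Q → 0 ≤ P.ord f) (V : Finset (Place K F))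
    (hVT : Disjoint V T) (hV : ∀ P ∈ V, r P = Q) :
    ∑ P ∈ V, P.ord f + ∑ P ∈ T, (if r P = Q then P.ord f else 0) ≤ Q.ord fbar := by
  set U : Finset (Place K F) := (divOf h f).support ∪ T ∪ V with hU
  have hsum := push_sum h hpush Q U (fun P hP => by
    rw [hU]
    exact Finset.mem_union_left _ (Finset.mem_union_left _ hP))
  have hTU : T ⊆ U := fun P hP => by
    rw [hU]
    exact Finset.mem_union_left _ (Finset.mem_union_right _ hP)
  have hVU : V ⊆ U \ T := fun P hP => by
    rw [Finset.mem_sdiff]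
    refine ⟨?_, fun hPT => Finset.disjoint_left.1 hVT hP hPT⟩
    rw [hU]
    exact Finset.mem_union_right _ hP
  rw [← Finset.sum_sdiff hTU] at hsum
  have h1 : ∑ P ∈ V, P.ord f = ∑ P ∈ V, (if r P = Q then P.ord f else 0) :=
    Finset.sum_congr rfl fun P hP => by rw [if_pos (hV P hP)]
  have h2 : ∑ P ∈ V, (if r P = Q then P.ord f else 0)
      ≤ ∑ P ∈ U \ T, (if r P = Q then P.ord f else 0) := by
    refine Finset.sum_le_sum_of_subset_of_nonneg hVU fun P hP _ => ?_
    rw [Finset.mem_sdiff] at hP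
    split_ifs with hrP
    · exact hT P hP.2 hrP
    · exact le_rfl
  linarith

open Classical in
theorem sum_pair {oo P0 : Place K F} (hne : oo ≠ P0) (g : Place K F → ℤ) :
    ∑ P ∈ ({oo, P0} : Finset (Place K F)), g P = g oo + g P0 := by
  rw [Finset.sum_insert (by rw [Finset.mem_singleton]; exact hne), Finset.sum_singleton]

/-- `ord (f - β) = 0` if `0 < ord f` and `β ≠ 0` -/
theorem ord_sub_const_of_pos {E : Type*} {L : Type*} [Field L] [Field E] [Algebra L E]
    (v : Place L E) {f : E} {β : L} (hβ : β ≠ 0) (hf : 0 < v.ord f) :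
    v.ord (f - algebraMap L E β) = 0 := by
  have h1 : 0 < v.ord (f - algebraMap L E 0) := by rwa [map_zero, sub_zero]
  exact ord_sub_const_eq_zero v (Ne.symm hβ) h1

/-- `0 ≤ ord (f - β)` if `0 ≤ ord f` -/
theorem ord_sub_const_nonneg (v : Place K F) {f : F} (β : K) (hf : 0 ≤ v.ord f) :
    0 ≤ v.ord (f - algebraMap K F β) := by
  have h1 : f ∈ v.toValuationSubring := Fermat.Agent.S24Res.mem_of_ord_nonneg v hf
  have h2 : algebraMap K F β ∈ v.toValuationSubring :=
    Fermat.Agent.S24Res.mem_of_ord_nonneg v (by rw [Fermat.Agent.S24Res.ord_algebraMap])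
  exact Fermat.Agent.S24Res.ord_nonneg_of_mem v (sub_mem h1 h2)


open Classical in
/-- `push_bound` with two exceptional places -/
theorem push_bound_pair (h : IsRRField K F) {r : Place K F → Place k Fk} {f : F} {fbar : Fk}
    (hpush : Push r f fbar) (Q : Place k Fk) {oo P0 : Place K F} (hne : oo ≠ P0)
    (hreg : ∀ P, P ≠ oo → P ≠ P0 → r P = Q → 0 ≤ P.ord f) (V : Finset (Place K F))
    (hVoo : oo ∉ V) (hVP0 : P0 ∉ V) (hV : ∀ P ∈ V, r P = Q) :
    ∑ P ∈ V, P.ord f + ((if r oo = Q then oo.ord f else 0) +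
      (if r P0 = Q then P0.ord f else 0)) ≤ Q.ord fbar := by
  have hb := push_bound h hpush Q ({oo, P0} : Finset (Place K F))
    (fun P hP hrP => hreg P (fun e => hP (by rw [e]; exact Finset.mem_insert_self _ _))
      (fun e => hP (by
        rw [e]
        exact Finset.mem_insert_of_mem (Finset.mem_singleton_self _))) hrP) V
    (by
      rw [Finset.disjoint_left]
      intro P hPV hPT
      rw [Finset.mem_insert, Finset.mem_singleton] at hPT
      rcases hPT with rfl | rfl
      · exact hVoo hPV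
      · exact hVP0 hPV) hV
  rwa [sum_pair hne (fun P => if r P = Q then P.ord f else 0)] at hb

/-- the two cusps in characteristic zero: `j` has poles of order `1`, `p` at `∞`, `0`;
`j_p` has poles of order `p`, `≤ 1`. -/
structure Cusps0 (p : ℕ) (j jp : F) (oo P0 : Place K F) : Prop where
  ne : oo ≠ P0
  j_oo : oo.ord j = -1
  j_P0 : P0.ord j = -(p : ℤ)
  j_reg : ∀ P : Place K F, P ≠ oo → P ≠ P0 → 0 ≤ P.ord j
  jp_oo : oo.ord jp = -(p : ℤ)
  jp_P0 : -1 ≤ P0.ord jp
  jp_reg : ∀ P : Place K F, P ≠ oo → P ≠ P0 → 0 ≤ P.ord jp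

/-- the two cusps in characteristic `ℓ`. -/
structure CuspsL (p : ℕ) (jbar jpbar : Fk) (oobar zbar : Place k Fk) : Prop where
  ne : oobar ≠ zbar
  j_oo : oobar.ord jbar = -1
  j_z : zbar.ord jbar ≤ -(p : ℤ)
  jp_oo : oobar.ord jpbar = -(p : ℤ)

section Core

variable (h : IsRRField K F) {p : ℕ} {r : Place K F → Place k Fk}
  {j jp : F} {jbar jpbar : Fk} {oo P0 : Place K F} {oobar zbar : Place k Fk}

include h

/-- **Step 1**: the cusps go to the cusps, and the other places over the cusps are not zeros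
of `j`. -/
theorem step_j (hp : 2 ≤ p) (c0 : Cusps0 p j jp oo P0) (cl : CuspsL p jbar jpbar oobar zbar)
    (hj : Push r j jbar) :
    r oo = oobar ∧ r P0 = zbar ∧
      ∀ P : Place K F, P ≠ oo → P ≠ P0 → (r P = oobar ∨ r P = zbar) → P.ord j = 0 := by
  classical
  have hp' : (2 : ℤ) ≤ p := by exact_mod_cast hp
  have hB := fun (Q : Place k Fk) (V : Finset (Place K F)) =>
    push_bound_pair h hj Q c0.ne (fun P h1 h2 _ => c0.j_reg P h1 h2) V
  -- `r P0 = zbar`
  have hP0 : r P0 = zbar := by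
    by_contra hne
    have h1 := hB zbar ∅ (Finset.notMem_empty _) (Finset.notMem_empty _)
      (fun P hP => absurd hP (Finset.notMem_empty _))
    rw [Finset.sum_empty, if_neg hne, c0.j_oo] at h1
    have h2 := cl.j_z
    split_ifs at h1 <;> omega
  have hP0' : r P0 ≠ oobar := by rw [hP0]; exact cl.ne.symm
  have hoo : r oo = oobar := by
    by_contra hne
    have h1 := hB oobar ∅ (Finset.notMem_empty _) (Finset.notMem_empty _)
      (fun P hP => absurd hP (Finset.notMem_empty _))
    rw [Finset.sum_empty, if_neg hne, if_neg hP0', cl.j_oo] at h1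
    omega
  have hoo' : r oo ≠ zbar := by rw [hoo]; exact cl.ne
  refine ⟨hoo, hP0, fun P h1 h2 hr => ?_⟩
  have hge := c0.j_reg P h1 h2
  rcases hr with hr | hr
  · have h3 := hB oobar {P} (by rw [Finset.mem_singleton]; exact h1.symm)
      (by rw [Finset.mem_singleton]; exact h2.symm)
      (fun P' hP' => by rw [Finset.mem_singleton] at hP'; rw [hP']; exact hr)
    rw [Finset.sum_singleton, if_pos hoo, if_neg hP0', c0.j_oo, cl.j_oo] at h3
    omega
  · have h3 := hB zbar {P} (by rw [Finset.mem_singleton]; exact h1.symm)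
      (by rw [Finset.mem_singleton]; exact h2.symm)
      (fun P' hP' => by rw [Finset.mem_singleton] at hP'; rw [hP']; exact hr)
    rw [Finset.sum_singleton, if_neg hoo', if_pos hP0, c0.j_P0] at h3
    have h4 := cl.j_z
    omega

/-- **Step 1'**: the same for `j_p` over `∞`, and the order of `j̄_p` at `0`. -/
theorem step_jp (c0 : Cusps0 p j jp oo P0) (cl : CuspsL p jbar jpbar oobar zbar)
    (hjp : Push r jp jpbar) (hoo : r oo = oobar) (hP0 : r P0 = zbar) :
    (-1 ≤ zbar.ord jpbar) ∧
      ∀ P : Place K F, P ≠ oo → P ≠ P0 → r P = oobar → P.ord jp = 0 := by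
  classical
  have hB := fun (Q : Place k Fk) (V : Finset (Place K F)) =>
    push_bound_pair h hjp Q c0.ne (fun P h1 h2 _ => c0.jp_reg P h1 h2) V
  have hP0' : r P0 ≠ oobar := by rw [hP0]; exact cl.ne.symm
  have hoo' : r oo ≠ zbar := by rw [hoo]; exact cl.ne
  refine ⟨?_, fun P h1 h2 hr => ?_⟩
  · have h1 := hB zbar ∅ (Finset.notMem_empty _) (Finset.notMem_empty _)
      (fun P hP => absurd hP (Finset.notMem_empty _))
    rw [Finset.sum_empty, if_neg hoo', if_pos hP0] at h1
    have h2 := c0.jp_P0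
    omega
  · have hge := c0.jp_reg P h1 h2
    have h3 := hB oobar {P} (by rw [Finset.mem_singleton]; exact h1.symm)
      (by rw [Finset.mem_singleton]; exact h2.symm)
      (fun P' hP' => by rw [Finset.mem_singleton] at hP'; rw [hP']; exact hr)
    rw [Finset.sum_singleton, if_pos hoo, if_neg hP0', c0.jp_oo, cl.jp_oo] at h3
    omega

/-- a place where `j` takes a finite value is not a cusp. -/
theorem ne_cusps_of_congAt (c0 : Cusps0 p j jp oo P0) (hp : 2 ≤ p) {a : K} {x : Place K F}
    (hx : Pts.CongAt x j a) : x ≠ oo ∧ x ≠ P0 := by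
  have h0 := hx.ord_nonneg
  constructor
  · rintro rfl
    rw [c0.j_oo] at h0
    omega
  · rintro rfl
    rw [c0.j_P0] at h0
    omega

/-- `j` is not constant. -/
theorem pos_ord_of_congAt (c0 : Cusps0 p j jp oo P0) {a : K} {x : Place K F}
    (hx : Pts.CongAt x j a) : 0 < x.ord (j - algebraMap K F a) := by
  rcases hx with hx | hx
  · exfalso
    have h1 := c0.j_oo
    rw [hx, Fermat.Agent.S24Res.ord_algebraMap] at h1
    omega
  · exact hx

/-- **Step 2**: the places over `a ∉ A` go to the cusps, and only one of them goes to `∞`. -/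
theorem step_const (hp : 2 ≤ p) (c0 : Cusps0 p j jp oo P0) {a : K}
    (hconst : Push r (j - algebraMap K F a) (1 : Fk)) (hne : r oo ≠ r P0)
    {x : Place K F} (hx : Pts.CongAt x j a) :
    (r x = r oo ∨ r x = r P0) ∧
      (r x = r oo → ∀ x' : Place K F, Pts.CongAt x' j a → r x' = r oo → x' = x) := by
  classical
  have hp' : (2 : ℤ) ≤ p := by exact_mod_cast hp
  have hreg : ∀ P : Place K F, P ≠ oo → P ≠ P0 → 0 ≤ P.ord (j - algebraMap K F a) :=
    fun P h1 h2 => ord_sub_const_nonneg P a (c0.j_reg P h1 h2)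
  have hB := fun (Q : Place k Fk) (V : Finset (Place K F)) =>
    push_bound_pair h hconst Q c0.ne (fun P h1 h2 _ => hreg P h1 h2) V
  have hoo : oo.ord (j - algebraMap K F a) = -1 := by
    rw [ord_sub_const_of_pole oo a (by rw [c0.j_oo]; omega), c0.j_oo]
  have hP0 : P0.ord (j - algebraMap K F a) = -(p : ℤ) := by
    rw [ord_sub_const_of_pole P0 a (by rw [c0.j_P0]; omega), c0.j_P0]
  have hxc := ne_cusps_of_congAt h c0 hp hx
  have hxpos := pos_ord_of_congAt h c0 hx
  constructor
  · by_contra hcon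
    rw [not_or] at hcon
    have h3 := hB (r x) {x} (by rw [Finset.mem_singleton]; exact hxc.1.symm)
      (by rw [Finset.mem_singleton]; exact hxc.2.symm)
      (fun P' hP' => by rw [Finset.mem_singleton] at hP'; rw [hP'])
    rw [Finset.sum_singleton, if_neg (fun e => hcon.1 e.symm), if_neg (fun e => hcon.2 e.symm),
      Place.ord_one] at h3
    omega
  · intro hrx x' hx' hrx'
    by_contra hxx
    have hxc' := ne_cusps_of_congAt h c0 hp hx'
    have hxpos' := pos_ord_of_congAt h c0 hx'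
    have h3 := hB (r oo) {x', x} (by
        rw [Finset.mem_insert, Finset.mem_singleton, not_or]
        exact ⟨hxc'.1.symm, hxc.1.symm⟩)
      (by
        rw [Finset.mem_insert, Finset.mem_singleton, not_or]
        exact ⟨hxc'.2.symm, hxc.2.symm⟩)
      (fun P' hP' => by
        rw [Finset.mem_insert, Finset.mem_singleton] at hP'
        rcases hP' with rfl | rfl
        · exact hrx'
        · exact hrx)
    rw [Finset.sum_insert (by rw [Finset.mem_singleton]; exact hxx), Finset.sum_singleton,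
      if_pos rfl, if_neg (fun e => hne e.symm), hoo, Place.ord_one] at h3
    omega


omit h in
theorem ord_pow_nat (v : Place K F) (f : F) (n : ℕ) : v.ord (f ^ n) = n * v.ord f := by
  rw [← zpow_natCast, Place.ord_zpow]

omit h in
theorem ord_div_pow (v : Place K F) {f g : F} (hf : f ≠ 0) (hg : g ≠ 0) (n : ℕ) :
    v.ord (f / g ^ n) = v.ord f - n * v.ord g := by
  rw [div_eq_mul_inv, v.ord_mul hf (inv_ne_zero (pow_ne_zero n hg)), v.ord_inv, ord_pow_nat]
  ring

omit h in
theorem ne_zero_of_ord_ne_zero (v : Place K F) {f : F} (hf : v.ord f ≠ 0) : f ≠ 0 := by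
  rintro rfl
  exact hf v.ord_zero

/-- the value of `f / g ^ n` -/
theorem congAt_div_pow {x : Place K F} {f g : F} {a b : K} (hf0 : f ≠ 0) (hg0 : g ≠ 0)
    (hb : b ≠ 0) (hf : Pts.CongAt x f a) (hg : Pts.CongAt x g b) (n : ℕ) :
    Pts.CongAt x (f / g ^ n) (a / b ^ n) := by
  have hgn := hg.ord_nonneg
  have hfn := hf.ord_nonneg
  have hev : Pts.ev x g = b := Pts.ev_eq_of_congAt hg
  have hg0' : x.ord g = 0 := by
    by_contra hne
    have hpos : 0 < x.ord g := lt_of_le_of_ne hgn (Ne.symm hne)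
    have := (Pts.ev_eq_zero_iff h x hg0 hgn).mpr hpos
    rw [hev] at this
    exact hb this
  have hgp : x.ord (g ^ n) = 0 := by rw [ord_pow_nat, hg0', mul_zero]
  have hy : 0 ≤ x.ord (f / g ^ n) := by
    rw [ord_div_pow x hf0 hg0, hg0', mul_zero, sub_zero]
    exact hfn
  have h1 := Pts.congAt_ev h x hy
  rwa [Pts.ev_div h x hfn hgp, Pts.ev_pow h x hgn, hev, Pts.ev_eq_of_congAt hf] at h1

/-- **Step 3**, general form: a place `x` with `y(x) = β ≠ 0` does not go to `Q`, if `y` and `ȳ`
vanish at the cusp `c` over `Q` resp. at `Q`. -/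
theorem step_y {y : F} {ybar : Fk} {β : K} (hβ0 : β ≠ 0) {βbar : k} (hβ : βbar ≠ 0)
    (hpush : Push r (y - algebraMap K F β) (ybar - algebraMap k Fk βbar))
    {c c' : Place K F} (hcc : c ≠ c') {Q : Place k Fk} (hrc : r c = Q) (hrc' : r c' ≠ Q)
    (hyc : 0 < c.ord y) (hyQ : 0 < Q.ord ybar)
    (hreg : ∀ P : Place K F, P ≠ c → P ≠ c' → r P = Q → 0 ≤ P.ord y)
    {x : Place K F} (hxc : x ≠ c) (hxc' : x ≠ c') (hx : Pts.CongAt x y β) : r x ≠ Q := by
  classical
  intro hrx
  have hxpos : 0 < x.ord (y - algebraMap K F β) := by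
    rcases hx with hx | hx
    · exfalso
      rw [hx, Fermat.Agent.S24Res.ord_algebraMap] at hyc
      exact lt_irrefl _ hyc
    · exact hx
  have h3 := push_bound_pair h hpush Q hcc
    (fun P h1 h2 hr => ord_sub_const_nonneg P β (hreg P h1 h2 hr)) {x}
    (by rw [Finset.mem_singleton]; exact hxc.symm)
    (by rw [Finset.mem_singleton]; exact hxc'.symm)
    (fun P' hP' => by rw [Finset.mem_singleton] at hP'; rw [hP']; exact hrx)
  rw [Finset.sum_singleton, if_pos hrc, if_neg hrc', ord_sub_const_of_pos c hβ0 hyc,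
    ord_sub_const_of_pos Q hβ hyQ] at h3
  omega

/-- **the core of S15-C**. -/
theorem cusp_core (hp : 2 ≤ p) (c0 : Cusps0 p j jp oo P0) (cl : CuspsL p jbar jpbar oobar zbar)
    (hj : Push r j jbar) (hjp : Push r jp jpbar) {a b : K} (ha : a ≠ 0)
    {x : Place K F} (hxa : Pts.CongAt x j a) (hxb : Pts.CongAt x jp b)
    (hconst : Push r (j - algebraMap K F a) (1 : Fk)) :
    (b ≠ 0 → (∃ βbar : k, βbar ≠ 0 ∧ Push r (jp / j ^ p - algebraMap K F (b / a ^ p))
        (jpbar / jbar ^ p - algebraMap k Fk βbar)) → r x = r oo) ∧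
    (b ≠ 0 → (∃ βbar : k, βbar ≠ 0 ∧ Push r (j / jp ^ p - algebraMap K F (a / b ^ p))
        (jbar / jpbar ^ p - algebraMap k Fk βbar)) → r x = r P0) ∧
    (r x = r oo → ∀ x' : Place K F, Pts.CongAt x' j a → r x' = r oo → x' = x) := by
  have hp' : (2 : ℤ) ≤ p := by exact_mod_cast hp
  have hpp : (4 : ℤ) ≤ (p : ℤ) * p := by nlinarith
  obtain ⟨hoo, hP0, hjzero⟩ := step_j h hp c0 cl hj
  obtain ⟨hjpz, hjpzero⟩ := step_jp h c0 cl hjp hoo hP0
  have hne : r oo ≠ r P0 := by rw [hoo, hP0]; exact cl.ne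
  obtain ⟨hcusp, huniq⟩ := step_const h hp c0 hconst hne hxa
  obtain ⟨hxoo, hxP0⟩ := ne_cusps_of_congAt h c0 hp hxa
  have hj0 : j ≠ 0 := ne_zero_of_ord_ne_zero oo (by rw [c0.j_oo]; omega)
  have hjp0 : jp ≠ 0 := ne_zero_of_ord_ne_zero oo (by rw [c0.jp_oo]; omega)
  have hjb0 : jbar ≠ 0 := ne_zero_of_ord_ne_zero oobar (by rw [cl.j_oo]; omega)
  have hjpb0 : jpbar ≠ 0 := ne_zero_of_ord_ne_zero oobar (by rw [cl.jp_oo]; omega)
  refine ⟨?_, ?_, huniq⟩
  · rintro hb ⟨βbar, hβ, hpush⟩
    rcases hcusp with hc | hc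
    · exact hc
    · exfalso
      refine step_y h (div_ne_zero hb (pow_ne_zero p ha)) hβ hpush c0.ne.symm hP0
        (by rw [hoo]; exact cl.ne) ?_ ?_ ?_ hxP0 hxoo (congAt_div_pow h hjp0 hj0 ha hxb hxa p)
        (hc.trans hP0)
      · rw [ord_div_pow P0 hjp0 hj0, c0.j_P0]
        have := c0.jp_P0
        nlinarith
      · rw [ord_div_pow zbar hjpb0 hjb0]
        have := cl.j_z
        nlinarith
      · intro P h1 h2 hr
        rw [ord_div_pow P hjp0 hj0, hjzero P h2 h1 (Or.inr hr), mul_zero, sub_zero]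
        exact c0.jp_reg P h2 h1
  · rintro hb ⟨βbar, hβ, hpush⟩
    rcases hcusp with hc | hc
    · exfalso
      refine step_y h (div_ne_zero ha (pow_ne_zero p hb)) hβ hpush c0.ne hoo
        (by rw [hP0]; exact cl.ne.symm) ?_ ?_ ?_ hxoo hxP0
        (congAt_div_pow h hj0 hjp0 hb hxa hxb p) (hc.trans hoo)
      · rw [ord_div_pow oo hj0 hjp0, c0.j_oo, c0.jp_oo]
        nlinarith
      · rw [ord_div_pow oobar hjb0 hjpb0, cl.j_oo, cl.jp_oo]
        nlinarith
      · intro P h1 h2 hr
        rw [ord_div_pow P hj0 hjp0, hjzero P h1 h2 (Or.inl hr), hjpzero P h1 h2 hr, mul_zero,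
          sub_zero]
    · exact hc


omit h in
/-- `Push` only depends on the divisors. -/
theorem Push.congr {f f' : F} {fbar fbar' : Fk} (hpush : Push r f fbar)
    (hf : ∀ P : Place K F, P.ord f' = P.ord f) (hfbar : ∀ Q : Place k Fk, Q.ord fbar' = Q.ord fbar) :
    Push r f' fbar' := by
  intro D hD Q
  rw [hfbar Q]
  exact hpush D (fun P => by rw [hD P, hf P]) Q

/-- **the cusps in characteristic `ℓ`** from the degree of `j̄`: if the pole divisor of `j̄` has
degree `p + 1`, and `∞̄` is a simple pole of `j̄`, then `r ∞ = ∞̄`, `r 0 ≠ ∞̄` is a pole of order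
`p` of `j̄`. -/
theorem cuspsL_of_degree (hp : 2 ≤ p) (c0 : Cusps0 p j jp oo P0)
    (hj : Push r j jbar) {oobar : Place k Fk} (hoo : oobar.ord jbar = -1)
    (hjpoo : oobar.ord jpbar = -(p : ℤ))
    (hdeg : ∀ s : Finset (Place k Fk), (∀ v, v ∈ s ↔ v.ord jbar < 0) →
      ∑ v ∈ s, (-v.ord jbar) = (p : ℤ) + 1) :
    CuspsL p jbar jpbar oobar (r P0) := by
  classical
  have hp' : (2 : ℤ) ≤ p := by exact_mod_cast hp
  have hB := fun Q : Place k Fk => push_bound_pair h hj Q c0.ne
    (fun P h1 h2 _ => c0.j_reg P h1 h2) ∅ (Finset.notMem_empty _) (Finset.notMem_empty _)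
    (fun P hP => absurd hP (Finset.notMem_empty _))
  have hpole : ∀ Q : Place k Fk, Q.ord jbar < 0 → Q = r oo ∨ Q = r P0 := by
    intro Q hQ
    by_contra hcon
    rw [not_or] at hcon
    have h1 := hB Q
    rw [Finset.sum_empty, if_neg (Ne.symm hcon.1), if_neg (Ne.symm hcon.2)] at h1
    omega
  have hoo' : oobar = r oo ∨ oobar = r P0 := hpole oobar (by rw [hoo]; omega)
  by_cases hQ : r oo = r P0
  · exfalso
    have hs : ∀ v : Place k Fk, v ∈ ({oobar} : Finset (Place k Fk)) ↔ v.ord jbar < 0 := by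
      intro v
      rw [Finset.mem_singleton]
      constructor
      · rintro rfl
        rw [hoo]
        omega
      · intro hv
        have e1 : v = r P0 := by
          rcases hpole v hv with e | e
          · rw [e, hQ]
          · exact e
        have e2 : oobar = r P0 := by
          rcases hoo' with e | e
          · rw [e, hQ]
          · exact e
        rw [e1, e2]
    have h1 := hdeg _ hs
    rw [Finset.sum_singleton, hoo] at h1
    omega
  · have h1 := hB (r oo)
    rw [Finset.sum_empty, if_pos rfl, if_neg (Ne.symm hQ), c0.j_oo] at h1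
    have h2 := hB (r P0)
    rw [Finset.sum_empty, if_neg hQ, if_pos rfl, c0.j_P0] at h2
    have hs : ∀ v : Place k Fk,
        v ∈ ({r oo, r P0} : Finset (Place k Fk)).filter (fun v => v.ord jbar < 0) ↔
          v.ord jbar < 0 := by
      intro v
      rw [Finset.mem_filter, Finset.mem_insert, Finset.mem_singleton]
      exact ⟨fun hv => hv.2, fun hv => ⟨hpole v hv, hv⟩⟩
    have hd := hdeg _ hs
    rw [Finset.sum_filter, Finset.sum_pair hQ] at hd
    have e1 : (r oo).ord jbar = -1 ∧ (r P0).ord jbar = -(p : ℤ) := by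
      split_ifs at hd <;> omega
    refine ⟨?_, hoo, e1.2.le, hjpoo⟩
    rcases hoo' with e | e
    · rw [e]
      exact hQ
    · exfalso
      rw [e, e1.2] at hoo
      omega

end Core

end Fermat.Agent.ES15C
end
end MergeWrap_E_S15_CuspRedCore

section MergeWrap_E_S15_CuspRedInt -- from E/S15/CuspRedInt.lean

/-!
# Cluster E' (Mazur, S15), seat S15-C: the integral models of `j(q^d)`, `j(q^d)⁻¹`

`jdSer R d = j(q^d) ∈ R((q))`, a unit of `R((q))` (any commutative ring `R`), compatible with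
`coeffMap`; its order is `-d`; `push_of_integral`: the push property of a place reduction for
a function with an integral `q`-expansion.
-/

set_option autoImplicit false
set_option linter.unusedSectionVars false
set_option linter.unusedVariables false
set_option synthInstance.maxHeartbeats 400000

noncomputable section

open AlgebraicCurve ModularCurve HahnSeries

namespace Fermat.Agent.ES15C

section Ser

variable (R : Type*) [CommRing R]

/-- `j(q^d)` over `R`. -/
def jdSer (d : ℕ) [NeZero d] : LaurentSeries R := qExpand R d (jqModC R)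

theorem jdSer_one : jdSer R 1 = jqModC R := qExpand_one_apply _

variable {R} in
theorem coeffMap_jdSer {S : Type*} [CommRing S] (f : R →+* S) (d : ℕ) [NeZero d] :
    coeffMap f (jdSer R d) = jdSer S d := by
  rw [jdSer, coeffMap_qExpand, coeffMap_jqModC]
  rfl

theorem isUnit_jqModC : IsUnit (jqModC R) := by
  unfold jqModC
  refine IsUnit.mul ?_ ?_
  · refine IsUnit.of_mul_eq_one (HahnSeries.single (1 : ℤ) (1 : R)) ?_
    rw [HahnSeries.single_mul_single]
    simp
  · apply IsUnit.map
    rw [PowerSeries.isUnit_iff_constantCoeff]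
    have h1 : PowerSeries.constantCoeff (jNum.map (Int.castRingHom R)) = 1 := by
      rw [← PowerSeries.coeff_zero_eq_constantCoeff, PowerSeries.coeff_map,
        PowerSeries.coeff_zero_eq_constantCoeff, constantCoeff_jNum]
      simp
    rw [h1]
    exact isUnit_one

theorem isUnit_jdSer (d : ℕ) [NeZero d] : IsUnit (jdSer R d) :=
  (isUnit_jqModC R).map (qExpand R d)

/-- `j(q^d)⁻¹` over `R`. -/
def jdInv (d : ℕ) [NeZero d] : LaurentSeries R :=
  (((isUnit_jdSer R d).unit⁻¹ : (LaurentSeries R)ˣ) : LaurentSeries R)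

theorem jdSer_mul_jdInv (d : ℕ) [NeZero d] : jdSer R d * jdInv R d = 1 :=
  (isUnit_jdSer R d).mul_val_inv

variable {R} in
theorem coeffMap_jdInv {L : Type*} [Field L] (f : R →+* L) (d : ℕ) [NeZero d] :
    coeffMap f (jdInv R d) = (jdSer L d)⁻¹ := by
  have h1 := congrArg (coeffMap f) (jdSer_mul_jdInv R d)
  rw [map_mul, map_one, coeffMap_jdSer] at h1
  exact eq_inv_of_mul_eq_one_right h1

variable {R} in
theorem coeffMap_C {S : Type*} [CommRing S] (f : R →+* S) (c : R) :
    coeffMap f (HahnSeries.C c : LaurentSeries R) = HahnSeries.C (f c) := by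
  show coeffMap f (HahnSeries.single 0 c) = HahnSeries.single 0 (f c)
  rw [coeffMap_single]

theorem C_eq_algebraMap (L : Type*) [Field L] (c : L) :
    (HahnSeries.C c : LaurentSeries L) = algebraMap L (LaurentSeries L) c := by
  rw [algebraMap_laurentSeries_eq_single]
  rfl

end Ser

section Order

variable {L : Type*} [Field L]

/-- the order of `f(q^N)`. -/
theorem order_qExpand (N : ℕ) [NeZero N] {f : LaurentSeries L} (hf : f ≠ 0) :
    (qExpand L N f).order = (N : ℤ) * f.order := by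
  have hcoeff' : (qExpand L N f).coeff ((N : ℤ) * f.order) ≠ 0 := by
    rw [qExpand_coeff_mul]
    exact fun h0 => hf (HahnSeries.coeff_order_eq_zero.mp h0)
  have hne : qExpand L N f ≠ 0 := HahnSeries.ne_zero_of_coeff_ne_zero hcoeff'
  have hbelow : ∀ k : ℤ, k < (N : ℤ) * f.order → (qExpand L N f).coeff k = 0 := by
    intro k hk
    by_cases hdvd : (N : ℤ) ∣ k
    · obtain ⟨j, rfl⟩ := hdvd
      rw [qExpand_coeff_mul]
      refine HahnSeries.coeff_eq_zero_of_lt_order ?_
      have hp : (0 : ℤ) < (N : ℤ) := by exact_mod_cast Nat.pos_of_ne_zero (NeZero.ne N)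
      exact lt_of_mul_lt_mul_left hk hp.le
    · exact qExpand_coeff_of_not_dvd N f hdvd
  refine le_antisymm (HahnSeries.order_le_of_coeff_ne_zero hcoeff') ?_
  by_contra hlt
  rw [not_le] at hlt
  exact hne (HahnSeries.coeff_order_eq_zero.mp (hbelow _ hlt))

theorem order_jqModC' (L : Type*) [Field L] : (jqModC L).order = -1 := by
  have h1 : (jqModC L).coeff (-1 : ℤ) ≠ 0 := by
    rw [coeff_jqModC_neg_one]
    exact one_ne_zero
  have hle : (jqModC L).order ≤ -1 := HahnSeries.order_le_of_coeff_ne_zero h1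
  refine le_antisymm hle ?_
  by_contra hlt
  rw [not_le] at hlt
  have hne : jqModC L ≠ 0 := jqModC_ne_zero_of_nontrivial L
  exact hne (HahnSeries.coeff_order_eq_zero.mp (coeff_jqModC_of_lt L hlt))

theorem order_jdSer (L : Type*) [Field L] (d : ℕ) [NeZero d] : (jdSer L d).order = -(d : ℤ) := by
  rw [jdSer, order_qExpand d (jqModC_ne_zero_of_nontrivial L), order_jqModC']
  ring

theorem jdSer_ne_zero (L : Type*) [Field L] (d : ℕ) [NeZero d] : jdSer L d ≠ 0 :=
  (isUnit_jdSer L d).ne_zero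

end Order

section Push

variable {A : ValuationSubring (AlgebraicClosure ℚ)} {N : ℕ}
  {r : Place (AlgebraicClosure ℚ) (modularFunctionFieldBar N) →
    Place (IsLocalRing.ResidueField A) (modularFunctionFieldFullC (IsLocalRing.ResidueField A) N)}

/-- the push property of a place reduction, for a function with an integral `q`-expansion. -/
theorem push_of_integral (hr : IsPlaceReductionModL A N r) (y : LaurentSeries A)
    {f : modularFunctionFieldBar N}
    {fbar : modularFunctionFieldFullC (IsLocalRing.ResidueField A) N}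
    (hf : (f : LaurentSeries (AlgebraicClosure ℚ)) = coeffMap A.subtype y)
    (hfbar : (fbar : LaurentSeries (IsLocalRing.ResidueField A)) =
      coeffMap (IsLocalRing.residue A) y)
    (hne : fbar ≠ 0) : Push r f fbar := by
  intro D hD Q
  have hy : coeffMap A.subtype y ∈ modularFunctionFieldBar N := by
    rw [← hf]
    exact f.2
  have hyk : coeffMap (IsLocalRing.residue A) y ∈
      modularFunctionFieldFullC (IsLocalRing.ResidueField A) N := by
    rw [← hfbar]
    exact fbar.2
  have e1 : (⟨coeffMap A.subtype y, hy⟩ : modularFunctionFieldBar N) = f := Subtype.ext hf.symm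
  have e2 : (⟨coeffMap (IsLocalRing.residue A) y, hyk⟩ :
      modularFunctionFieldFullC (IsLocalRing.ResidueField A) N) = fbar := Subtype.ext hfbar.symm
  have h1 := hr.2 y hy hyk (by
    intro h0
    apply hne
    apply Subtype.ext
    rw [hfbar, h0]
    rfl) D (fun P => by rw [hD P, e1]) Q
  rw [h1, e2]

end Push

end Fermat.Agent.ES15C
end
end MergeWrap_E_S15_CuspRedInt

section MergeWrap_E_S15_CuspRed -- from E/S15/CuspRed.lean

/-!
# Cluster E' (Mazur, S15), seat S15-C (helper17): where a point near a cusp goes under a place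
reduction

`cuspReduction (hp : p.Prime) : CuspReduction p` (`E/S15/Interfaces.lean`): for ANY place
reduction `r` modulo a place `A` of `ℚ̄` over `ℓ ≠ p`, and a place `x` of `X₀(p)` with
`j(x) = a ∉ A`, `j_p(x) = b`:
* `v(b) = v(a)^p  →  r x = r ∞`;  `v(a) = v(b)^p  →  r x = r 0`;
* only one place over `a` goes to `r ∞`.

Proof: the abstract core `ES15C.cusp_core` (`CuspRedCore.lean`), the divisors of `j`, `j_p` in
characteristic `0` (helper98, `CuspJp.lean`), the degree `[F_k(p) : k(j̄)] = p + 1`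
(`GenusEq.degreeModL`), and the integral `q`-expansions of `j`, `j_p`, `j / a - 1`,
`j_p / j ^ p - β`, `j / j_p ^ p - β` (`CuspRedInt.lean`).
-/

set_option autoImplicit false
set_option linter.unusedSectionVars false
set_option linter.unusedVariables false
set_option linter.style.haveILetI false
set_option synthInstance.maxHeartbeats 400000

noncomputable section

open AlgebraicCurve ModularCurve HahnSeries

namespace Fermat.Agent.ES15C

open Fermat.Agent.ES15 Fermat.Agent.RR

local notation "Qb" => AlgebraicClosure ℚ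

/-! ### the functions -/

section Functions

variable (k : Type*) [Field k] (N : ℕ)

/-- `j(q^d)` in `F_k(N)`. -/
def jdC (d : ℕ) [NeZero d] (hd : d ∣ N) : modularFunctionFieldFullC k N :=
  ⟨jdSer k d, jqModCd_mem_full k N hd⟩

theorem coe_jdC (d : ℕ) [NeZero d] (hd : d ∣ N) :
    ((jdC k N d hd : modularFunctionFieldFullC k N) : LaurentSeries k) = jdSer k d := rfl

theorem jdC_ne_zero (d : ℕ) [NeZero d] (hd : d ∣ N) : jdC k N d hd ≠ 0 := by
  intro h0
  exact jdSer_ne_zero k d (congrArg Subtype.val h0)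

theorem coe_jdB (d : ℕ) [NeZero d] (hd : d ∣ N) :
    ((jdB N d hd : modularFunctionFieldBar N) : LaurentSeries Qb) = jdSer Qb d := by
  show coeffEmb Qb (qExpand ℚ d jq) = jdSer Qb d
  unfold coeffEmb
  rw [← jqModC_rat]
  exact coeffMap_jdSer (algebraMap ℚ Qb) d

theorem jdB_ne_zero (d : ℕ) [NeZero d] (hd : d ∣ N) : jdB N d hd ≠ 0 := by
  intro h0
  have h1 := congrArg Subtype.val h0
  rw [coe_jdB] at h1
  exact jdSer_ne_zero Qb d h1

end Functions

/-! ### characteristic `ℓ`: the place `∞̄` and the degree -/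

section CharL

variable (k : Type*) [Field k] (N : ℕ) [NeZero N]

theorem exists_poleC : ∃ f : modularFunctionFieldFullC k N, ∃ n : ℤ, n < 0 ∧
    (f : LaurentSeries k).coeff n ≠ 0 := by
  refine ⟨jdC k N 1 (one_dvd N), -1, by norm_num, ?_⟩
  rw [coe_jdC, jdSer_one, coeff_jqModC_neg_one]
  exact one_ne_zero

/-- the cusp `∞` of `X₀(N)` in characteristic `ℓ`. -/
def cuspInfC : Place k (modularFunctionFieldFullC k N) :=
  Fermat.Agent.S17.Setup.laurentPlace (modularFunctionFieldFullC k N) (exists_poleC k N)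

/-- the order at `∞̄` is the order of the `q`-expansion. -/
theorem ord_cuspInfC {f : modularFunctionFieldFullC k N} (hf : f ≠ 0) :
    (cuspInfC k N).ord f = (f : LaurentSeries k).order := by
  have ht : (((jdC k N 1 (one_dvd N))⁻¹ : modularFunctionFieldFullC k N) :
      LaurentSeries k).order = 1 := by
    have h2 : (((jdC k N 1 (one_dvd N))⁻¹ : modularFunctionFieldFullC k N) : LaurentSeries k) =
        ((jdC k N 1 (one_dvd N) : modularFunctionFieldFullC k N) : LaurentSeries k)⁻¹ := rfl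
    rw [h2, coe_jdC, Fermat.Agent.ED.order_inv_laurent (jdSer_ne_zero k 1), order_jdSer]
    norm_num
  exact Fermat.Agent.ED.ord_laurentPlace (modularFunctionFieldFullC k N) (exists_poleC k N) ht hf

theorem ord_cuspInfC_jdC (d : ℕ) [NeZero d] (hd : d ∣ N) :
    (cuspInfC k N).ord (jdC k N d hd) = -(d : ℤ) := by
  rw [ord_cuspInfC k N (jdC_ne_zero k N d hd), coe_jdC, order_jdSer]

theorem jdC_one_eq_jC : jdC k N 1 (one_dvd N) = Fermat.Agent.RRMod.jC k N :=
  Subtype.ext (jdSer_one k)

end CharL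

/-! ### valuation rings -/

section Val

variable {K : Type*} [Field K] (A : ValuationSubring K)

theorem inv_mem_of_notMem {a : K} (ha : a ∉ A) : a⁻¹ ∈ A :=
  (A.mem_or_inv_mem a).resolve_left ha

theorem ne_zero_of_notMem {a : K} (ha : a ∉ A) : a ≠ 0 := by
  rintro rfl
  exact ha (zero_mem A)

theorem residue_inv_of_notMem {a : K} (ha : a ∉ A) :
    IsLocalRing.residue A ⟨a⁻¹, inv_mem_of_notMem A ha⟩ = 0 := by
  rw [IsLocalRing.residue_eq_zero_iff, IsLocalRing.mem_maximalIdeal, mem_nonunits_iff]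
  intro hu
  apply ha
  obtain ⟨u, hu⟩ := hu
  have h1 : ((u⁻¹ : Aˣ) : K) = a := by
    have h2 : ((u : A) : K) * ((u⁻¹ : Aˣ) : K) = 1 := by
      rw [← Subring.coe_mul]
      simp
    rw [hu] at h2
    have h3 : a⁻¹ * ((u⁻¹ : Aˣ) : K) = 1 := h2
    have ha0 := ne_zero_of_notMem A ha
    field_simp at h3
    exact h3
  rw [← h1]
  exact (u⁻¹ : Aˣ).1.2

theorem val_gt_one_of_notMem {a : K} (ha : a ∉ A) : 1 < A.valuation a := by
  rw [← not_le, A.valuation_le_one_iff]
  exact ha

/-- an element of valuation `1` is a unit of `A`. -/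
theorem exists_unit_of_val_eq_one {u : K} (hu : A.valuation u = 1) :
    ∃ β : A, (β : K) = u ∧ IsLocalRing.residue A β ≠ 0 := by
  have hmem : u ∈ A := (A.valuation_le_one_iff u).mp hu.le
  refine ⟨⟨u, hmem⟩, rfl, ?_⟩
  rw [IsLocalRing.residue_ne_zero_iff_isUnit, A.valuation_eq_one_iff]
  exact hu

end Val

/-! ### the data in characteristic zero (helper98) -/

section Main

variable {p : ℕ} [NeZero p]

/-- the two cusps in characteristic zero. -/
theorem cusps0 (hp : p.Prime) {P0 : Pl p} (h0 : IsCuspZero p P0) :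
    Cusps0 p (jB p) (jpB p) (cuspInf p) P0 where
  ne := h0.1.symm
  j_oo := ord_cuspInf_jB p
  j_P0 := (ord_cuspZero hp h0).2.1
  j_reg := fun P h1 h2 => by
    by_contra hlt
    rw [not_le] at hlt
    rcases eq_cusp_of_ord_jB_neg hp h0 hlt with e | e
    · exact h1 e
    · exact h2 e
  jp_oo := ord_cuspInf_jpB hp
  jp_P0 := by rw [(ord_cuspZero hp h0).1]
  jp_reg := fun P h1 h2 => by
    by_contra hlt
    rw [not_le] at hlt
    rcases eq_cusp_of_ord_jB_neg hp h0 ((ord_jpB_neg_iff hp P).mp hlt) with e | e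
    · exact h1 e
    · exact h2 e

/-- the degree of the pole divisor of `j̄` is `p + 1`. -/
theorem sum_poles_jC (hp : p.Prime) {ℓ : ℕ} (hℓ : ℓ.Prime) (hℓp : ℓ ≠ p)
    (A : ValuationSubring Qb) (hA : A.LiesOverPrime ℓ)
    (s : Finset (Place (IsLocalRing.ResidueField A)
      (modularFunctionFieldFullC (IsLocalRing.ResidueField A) p)))
    (hs : ∀ v, v ∈ s ↔ v.ord (Fermat.Agent.RRMod.jC (IsLocalRing.ResidueField A) p) < 0) :
    ∑ v ∈ s, (-v.ord (Fermat.Agent.RRMod.jC (IsLocalRing.ResidueField A) p)) = (p : ℤ) + 1 := by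
  haveI : IsAlgClosed (IsLocalRing.ResidueField A) :=
    Fermat.Agent.FrobTrace.isAlgClosed_residueField A
  have hk := Fermat.Agent.RRMod.isRRField_fullC' (IsLocalRing.ResidueField A) p
  haveI := Fermat.Agent.RRMod.finiteDimensional_fullC' (IsLocalRing.ResidueField A) p
  have hℓp' : ¬ ℓ ∣ p := fun hd => hℓp ((Nat.prime_dvd_prime_iff_eq hℓ hp).mp hd)
  rw [← Fermat.Agent.RR.degree_poleDiv hk _ s hs,
    Fermat.Agent.RRHur.degree_poleDiv_eq_finrank hk
      (Fermat.Agent.RRMod.transcendental_jC (IsLocalRing.ResidueField A) p),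
    Fermat.Agent.GenusEq.degreeModL p ℓ hℓ hℓp' A hA]
  have h := Fermat.Agent.S20.dedekindPsi_prime_pow (p := p) (k := 0) hp
  rw [zero_add, pow_one, pow_zero] at h
  rw [h]
  push_cast
  ring

variable {A : ValuationSubring Qb}
  {r : Pl p → Place (IsLocalRing.ResidueField A)
    (modularFunctionFieldFullC (IsLocalRing.ResidueField A) p)}

/-- the push for `j(q^d)`. -/
theorem push_jd (hr : IsPlaceReductionModL A p r) (d : ℕ) [NeZero d] (hd : d ∣ p) :
    Push r (jdB p d hd) (jdC (IsLocalRing.ResidueField A) p d hd) :=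
  push_of_integral hr (jdSer A d)
    (by rw [coe_jdB, coeffMap_jdSer])
    (by rw [coe_jdC, coeffMap_jdSer])
    (jdC_ne_zero _ p d hd)

/-- the push for `j - a`, `a ∉ A` (constant reduction). -/
theorem push_const (hr : IsPlaceReductionModL A p r) {a : Qb} (haA : a ∉ A) :
    Push r (jB p - algebraMap Qb (modularFunctionFieldBar p) a)
      (1 : modularFunctionFieldFullC (IsLocalRing.ResidueField A) p) := by
  have ha0 := ne_zero_of_notMem A haA
  have h1 : Push r (algebraMap Qb (modularFunctionFieldBar p) a⁻¹ * jB p - 1)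
      (-1 : modularFunctionFieldFullC (IsLocalRing.ResidueField A) p) := by
    refine push_of_integral hr
      (HahnSeries.C (⟨a⁻¹, inv_mem_of_notMem A haA⟩ : A) * jdSer A 1 - 1) ?_ ?_ ?_
    · rw [map_sub, map_mul, map_one, coeffMap_C, coeffMap_jdSer, C_eq_algebraMap]
      show algebraMap Qb (LaurentSeries Qb) a⁻¹ *
        ((jdB p 1 (one_dvd p) : modularFunctionFieldBar p) : LaurentSeries Qb) - 1 = _
      rw [coe_jdB]
      rfl
    · rw [map_sub, map_mul, map_one, coeffMap_C, residue_inv_of_notMem A haA, map_zero,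
        zero_mul, zero_sub]
      rfl
    · exact neg_ne_zero.mpr one_ne_zero
  refine h1.congr (fun P => ?_) (fun Q => ?_)
  · have e : algebraMap Qb (modularFunctionFieldBar p) a⁻¹ * jB p - 1 =
        algebraMap Qb (modularFunctionFieldBar p) a⁻¹ *
          (jB p - algebraMap Qb (modularFunctionFieldBar p) a) := by
      rw [mul_sub, ← map_mul, inv_mul_cancel₀ ha0, map_one]
    rw [e]
    rcases eq_or_ne (jB p - algebraMap Qb (modularFunctionFieldBar p) a) 0 with h0 | h0
    · rw [h0, mul_zero]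
    · rw [P.ord_mul ((map_ne_zero _).mpr (inv_ne_zero ha0)) h0,
        Fermat.Agent.S24Res.ord_algebraMap, zero_add]
  · have e : (-1 : modularFunctionFieldFullC (IsLocalRing.ResidueField A) p) =
        algebraMap (IsLocalRing.ResidueField A) _ (-1) := by
      rw [map_neg, map_one]
    rw [Place.ord_one, e, Fermat.Agent.S24Res.ord_algebraMap]

/-- the push for `j(q^d) / j(q^e) ^ n - β`, `β ∈ A`. -/
theorem push_ratio (hr : IsPlaceReductionModL A p r) (d e : ℕ) [NeZero d] [NeZero e]
    (hd : d ∣ p) (he : e ∣ p) (n : ℕ) (β : A)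
    (hne : jdC (IsLocalRing.ResidueField A) p d hd / jdC (IsLocalRing.ResidueField A) p e he ^ n -
      algebraMap (IsLocalRing.ResidueField A) _ (IsLocalRing.residue A β) ≠ 0) :
    Push r (jdB p d hd / jdB p e he ^ n - algebraMap Qb (modularFunctionFieldBar p) (β : Qb))
      (jdC (IsLocalRing.ResidueField A) p d hd / jdC (IsLocalRing.ResidueField A) p e he ^ n -
        algebraMap (IsLocalRing.ResidueField A) _ (IsLocalRing.residue A β)) := by
  refine push_of_integral hr (jdSer A d * jdInv A e ^ n - HahnSeries.C β) ?_ ?_ hne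
  · rw [map_sub, map_mul, map_pow, coeffMap_C, coeffMap_jdSer, coeffMap_jdInv, C_eq_algebraMap]
    show ((jdB p d hd : modularFunctionFieldBar p) : LaurentSeries Qb) /
        ((jdB p e he : modularFunctionFieldBar p) : LaurentSeries Qb) ^ n -
        algebraMap Qb (LaurentSeries Qb) (β : Qb) = _
    rw [coe_jdB, coe_jdB, div_eq_mul_inv, inv_pow]
    rfl
  · rw [map_sub, map_mul, map_pow, coeffMap_C, coeffMap_jdSer, coeffMap_jdInv, C_eq_algebraMap]
    show ((jdC (IsLocalRing.ResidueField A) p d hd :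
          modularFunctionFieldFullC (IsLocalRing.ResidueField A) p) :
          LaurentSeries (IsLocalRing.ResidueField A)) /
        ((jdC (IsLocalRing.ResidueField A) p e he :
          modularFunctionFieldFullC (IsLocalRing.ResidueField A) p) :
          LaurentSeries (IsLocalRing.ResidueField A)) ^ n -
        algebraMap (IsLocalRing.ResidueField A) (LaurentSeries (IsLocalRing.ResidueField A))
          (IsLocalRing.residue A β) = _
    rw [coe_jdC, coe_jdC, div_eq_mul_inv, inv_pow]


/-- the ratios `j̄_p / j̄ ^ p`, `j̄ / j̄_p ^ p` are not constant. -/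
theorem ratio_sub_const_ne_zero {K F k Fk : Type*} [Field K] [Field F] [Algebra K F] [Field k]
    [Field Fk] [Algebra k Fk] (h : IsRRField K F) {q : ℕ} {r : Place K F → Place k Fk}
    {j jp : F} {jbar jpbar : Fk} {oo P0 : Place K F} {oobar zbar : Place k Fk}
    (hq : 2 ≤ q) (c0 : Cusps0 q j jp oo P0) (cl : CuspsL q jbar jpbar oobar zbar)
    (hj : Push r j jbar) (hjp : Push r jp jpbar) (βbar : k) :
    jpbar / jbar ^ q - algebraMap k Fk βbar ≠ 0 ∧ jbar / jpbar ^ q - algebraMap k Fk βbar ≠ 0 := by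
  have hq' : (2 : ℤ) ≤ q := by exact_mod_cast hq
  have hqq : (4 : ℤ) ≤ (q : ℤ) * q := by nlinarith
  obtain ⟨hoo, hP0, -⟩ := step_j h hq c0 cl hj
  obtain ⟨hjpz, -⟩ := step_jp h c0 cl hjp hoo hP0
  have hjb0 : jbar ≠ 0 := ne_zero_of_ord_ne_zero oobar (by rw [cl.j_oo]; omega)
  have hjpb0 : jpbar ≠ 0 := ne_zero_of_ord_ne_zero oobar (by rw [cl.jp_oo]; omega)
  constructor
  · intro h0
    have h1 : zbar.ord (jpbar / jbar ^ q) = 0 := by
      rw [sub_eq_zero.mp h0, Fermat.Agent.S24Res.ord_algebraMap]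
    rw [ord_div_pow zbar hjpb0 hjb0] at h1
    have := cl.j_z
    nlinarith
  · intro h0
    have h1 : oobar.ord (jbar / jpbar ^ q) = 0 := by
      rw [sub_eq_zero.mp h0, Fermat.Agent.S24Res.ord_algebraMap]
    rw [ord_div_pow oobar hjb0 hjpb0, cl.j_oo, cl.jp_oo] at h1
    nlinarith

/-- **S15-C**: where a point near a cusp goes under any place reduction. -/
theorem cuspReduction (hp : p.Prime) : CuspReduction p := by
  intro ℓ hℓ hℓp A hA r hr P0 hP0 a b x hxa hxb haA
  have hF := Fermat.Agent.RRMod.isRRField_bar p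
  have c0 := cusps0 hp hP0
  have hj := push_jd hr 1 (one_dvd p)
  have hjp := push_jd hr p dvd_rfl
  have cl : CuspsL p (jdC (IsLocalRing.ResidueField A) p 1 (one_dvd p))
      (jdC (IsLocalRing.ResidueField A) p p dvd_rfl)
      (cuspInfC (IsLocalRing.ResidueField A) p) (r P0) := by
    refine cuspsL_of_degree hF hp.two_le c0 hj (ord_cuspInfC_jdC _ p 1 (one_dvd p)) ?_ ?_
    · exact ord_cuspInfC_jdC _ p p dvd_rfl
    · intro s hs
      rw [jdC_one_eq_jC] at hs ⊢
      exact sum_poles_jC hp hℓ hℓp A hA s hs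
  have ha0 := ne_zero_of_notMem A haA
  have hva := val_gt_one_of_notMem A haA
  have hva0 : A.valuation a ≠ 0 := (zero_lt_one.trans hva).ne'
  have hne := fun βbar => ratio_sub_const_ne_zero hF hp.two_le c0 cl hj hjp βbar
  obtain ⟨h1, h2, h3⟩ := cusp_core hF hp.two_le c0 cl hj hjp ha0 hxa hxb (push_const hr haA)
  refine ⟨fun hv => ?_, fun hv => ?_, h3⟩
  · have hb0 : b ≠ 0 := by
      rintro rfl
      rw [map_zero] at hv
      exact hva0 (pow_eq_zero_iff (hp.ne_zero) |>.mp hv.symm)
    have hβ : A.valuation (b / a ^ p) = 1 := by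
      rw [map_div₀, map_pow, hv, div_self (pow_ne_zero p hva0)]
    obtain ⟨β, hβe, hβr⟩ := exists_unit_of_val_eq_one A hβ
    refine h1 hb0 ⟨IsLocalRing.residue A β, hβr, ?_⟩
    have h4 := push_ratio hr p 1 dvd_rfl (one_dvd p) p β (hne _).1
    rwa [hβe] at h4
  · have hb0 : b ≠ 0 := by
      rintro rfl
      rw [map_zero, zero_pow hp.ne_zero] at hv
      exact hva0 hv
    have hvb0 : A.valuation b ≠ 0 := (map_ne_zero _).mpr hb0
    have hβ : A.valuation (a / b ^ p) = 1 := by
      rw [map_div₀, map_pow, hv, div_self (pow_ne_zero p hvb0)]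
    obtain ⟨β, hβe, hβr⟩ := exists_unit_of_val_eq_one A hβ
    refine h2 hb0 ⟨IsLocalRing.residue A β, hβr, ?_⟩
    have h4 := push_ratio hr 1 p (one_dvd p) dvd_rfl p β (hne _).2
    rwa [hβe] at h4

end Main

end Fermat.Agent.ES15C
end
end MergeWrap_E_S15_CuspRed
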