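import Mathlib
import Fermat.Agent.MU.E.S15.Interfaces
import Fermat.Agent.MU.E.Desc.MainDefs

section MergeWrap_E_S15_DescWire -- from E/S15/DescWire.lean

set_option autoImplicit false

noncomputable section

open ModularCurve AlgebraicCurve

set_option synthInstance.maxHeartbeats 400000

namespace Fermat.Agent.ES15

open Fermat.Agent.EDesc

local notation "Qb" => AlgebraicClosure ℚ
local notation "GQb" => (AlgebraicClosure ℚ ≃ₐ[ℚ] AlgebraicClosure ℚ)

/-- the integral Eisenstein character `T_r ↦ 1 + r` of the free Hecke ring. -/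
def eisCharZ (S : Finset ℕ) : FreeAlgebra ℤ (OutPrimes S) →ₐ[ℤ] ℤ :=
  FreeAlgebra.lift ℤ fun r => ((1 + (r.1 : ℕ) : ℕ) : ℤ)

theorem eisCharZ_ι (S : Finset ℕ) (r : OutPrimes S) :
    eisCharZ S (FreeAlgebra.ι ℤ r) = ((1 + (r.1 : ℕ) : ℕ) : ℤ) :=
  FreeAlgebra.lift_ι_apply _ _

/-- the Eisenstein character mod `l'` is the reduction of the integral one. -/
theorem eisChar_eq_cast (l' : ℕ) (S : Finset ℕ) (t : FreeAlgebra ℤ (OutPrimes S)) :
    eisChar l' S t = ((eisCharZ S t : ℤ) : ZMod l') := by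
  have h : eisChar l' S = ((Int.castRingHom (ZMod l')).toIntAlgHom).comp (eisCharZ S) := by
    apply FreeAlgebra.hom_ext
    funext r
    simp only [Function.comp_apply, AlgHom.comp_apply, eisCharZ_ι]
    rw [eisChar, FreeAlgebra.lift_ι_apply]
    simp
  rw [h]
  rfl

variable (p : ℕ) [NeZero p]

theorem heckeAct_ι (S : Finset ℕ) (r : OutPrimes S) :
    heckeAct p S (FreeAlgebra.ι ℤ r) = heckeOperatorBar p r.1 :=
  FreeAlgebra.lift_ι_apply _ _

/-- the image of the free Hecke ring lies in `ℤ[T_r : r ∉ S₀]` for `S₀ ⊆ S`. -/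
theorem heckeAct_mem_adjoin {S₀ S : Finset ℕ} (hS : S₀ ⊆ S) (t : FreeAlgebra ℤ (OutPrimes S)) :
    heckeAct p S t ∈ Algebra.adjoin ℤ (heckeSet p S₀) := by
  induction t using FreeAlgebra.induction with
  | grade0 n =>
    rw [AlgHom.commutes]
    exact Subalgebra.algebraMap_mem _ n
  | grade1 r =>
    rw [heckeAct_ι]
    exact Algebra.subset_adjoin ⟨r.1, fun h => r.2 (hS h), rfl⟩
  | mul a b ha hb =>
    rw [map_mul]
    exact Subalgebra.mul_mem _ ha hb
  | add a b ha hb =>
    rw [map_add]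
    exact Subalgebra.add_mem _ ha hb

/-- the free Hecke ring acts on an Eisenstein class through the integral Eisenstein
character. -/
theorem heckeAct_apply_of_eis (S : Finset ℕ) {c : JZero p}
    (hc : ∀ r : OutPrimes S, heckeOperatorBar p r.1 c = (1 + (r.1 : ℕ)) • c)
    (t : FreeAlgebra ℤ (OutPrimes S)) :
    heckeAct p S t c = eisCharZ S t • c := by
  induction t using FreeAlgebra.induction with
  | grade0 n =>
    rw [AlgHom.commutes, AlgHom.commutes]
    rfl
  | grade1 r =>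
    rw [heckeAct_ι, eisCharZ_ι, hc r, natCast_zsmul]
  | mul a b ha hb =>
    rw [map_mul, map_mul, Module.End.mul_apply, hb, map_zsmul, ha, ← mul_smul, mul_comm]
  | add a b ha hb =>
    rw [map_add, map_add, LinearMap.add_apply, ha, hb, add_zsmul]

/-- **DESC-WIRE**: Mazur's descent at one Eisenstein prime `l'` dividing the order of the
cuspidal class gives `EisensteinDescent p`. -/
theorem eisensteinDescent_of (l' : ℕ)
    (hdesc : ∀ S : Finset ℕ, p ∈ S → l' ∈ S → EisDescentAt p l' S)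
    (hT : ∀ P0 : Pl p, IsCuspZero p P0 → ∀ r : Nat.Primes, (r : ℕ) ≠ p →
      heckeOperatorBar p r (cuspClass p P0) = (1 + (r : ℕ)) • cuspClass p P0)
    (hord : ∀ P0 : Pl p, IsCuspZero p P0 → ∀ n : ℕ, n • cuspClass p P0 = 0 → l' ∣ n) :
    EisensteinDescent p := by
  classical
  intro S
  set S' : Finset ℕ := insert p (insert l' S) with hS'
  have hpS' : p ∈ S' := Finset.mem_insert_self _ _
  have hlS' : l' ∈ S' := Finset.mem_insert_of_mem (Finset.mem_insert_self _ _)
  have hSS' : S ⊆ S' := fun x hx => Finset.mem_insert_of_mem (Finset.mem_insert_of_mem hx)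
  obtain ⟨t, ht, htors⟩ := hdesc S' hpS' hlS'
  refine ⟨heckeAct p S' t, heckeAct_mem_adjoin p hSS' t, fun z hz => htors z hz, ?_⟩
  intro P0 hP0 h0
  have hc : ∀ r : OutPrimes S', heckeOperatorBar p r.1 (cuspClass p P0) =
      (1 + (r.1 : ℕ)) • cuspClass p P0 := fun r =>
    hT P0 hP0 r.1 (fun h => r.2 (h ▸ hpS'))
  rw [heckeAct_apply_of_eis p S' hc t] at h0
  -- `l' ∣ ε_ℤ(t)`, contradicting `ε(t) ≠ 0`
  have hnat : (eisCharZ S' t).natAbs • cuspClass p P0 = 0 := by
    rcases Int.natAbs_eq (eisCharZ S' t) with h | h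
    · rw [← natCast_zsmul, ← h]
      exact h0
    · have h1 : ((eisCharZ S' t).natAbs : ℤ) = -eisCharZ S' t := by rw [h, neg_neg, ← h]
      rw [← natCast_zsmul, h1, neg_smul, h0, neg_zero]
  have hdvd : l' ∣ (eisCharZ S' t).natAbs := hord P0 hP0 _ hnat
  apply ht
  rw [eisChar_eq_cast, ZMod.intCast_zmod_eq_zero_iff_dvd]
  exact Int.natCast_dvd.mpr hdvd

end Fermat.Agent.ES15
end
end MergeWrap_E_S15_DescWire
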