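import Mathlib
import Fermat.Prelude.Def_ModularCurve_X0ModL
import Fermat.Prelude.Thm_ModularCurve_coeffMap_qExpand
import Fermat.Agent.E.MC.Statements
import Fermat.Agent.MU.S24.GensExp
import Fermat.Agent.MU.S24.JFun
import Fermat.Agent.MU.S24.Invariants
import Fermat.Agent.MU.E.MC.ChordLim
import Fermat.Agent.E.MC.WPDeriv
import Fermat.Agent.E.MC.Statements2
import Fermat.Agent.MU.Lib.Torsion.Card
import Fermat.Agent.E.MC.Defs
import Fermat.Agent.MU.S17.H.Closed
import Fermat.Agent.S17.H.ClosedDVR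
import Fermat.Agent.MU.Lib.RR.OfModularBar
import Fermat.Agent.MU.E.S15.Interfaces
import Fermat.Agent.E.S12.Leaves
import Fermat.Agent.MU.E.S12.StepAux
import Fermat.Agent.MU.E.S12.VeluVC
import Fermat.Agent.MU.S24.JLocal
import Fermat.Agent.E.MC.Descent
import Fermat.Agent.MU.E.S12.AtTwo
import Fermat.Agent.MU.E.S12.L1
import Fermat.Agent.MU.Lib.MultRed.E0Tors
import Fermat.Agent.MU.Lib.MultRed.Main
import Fermat.Agent.Lib.MultRed.Comp.Half
import Fermat.Agent.Lib.MultRed.Char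
import Fermat.Agent.MU.Lib.MultRed.Comp.VeluVal
import Fermat.Agent.MU.E.S12.Dual
import Fermat.Agent.MU.E.Velu.Final
import Fermat.Agent.MU.E.Velu.V1x
import Fermat.Agent.MU.E.S15.Assembly
import Fermat.Agent.MU.E.S15.CuspDiv
import Fermat.Agent.MU.E.S15.CuspOrder
import Fermat.Agent.MU.E.S15.CuspHecke
import Fermat.Agent.MU.E.S15.CuspRed
import Fermat.Agent.MU.E.S15.ZeroCompOrder
import Fermat.Agent.MU.E.S15.DescWire

section MergeWrap_E_MC_AnModEq -- from E/MC/AnModEq.lean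

set_option autoImplicit false

noncomputable section

namespace Fermat.Agent.EMC

open UpperHalfPlane Polynomial ModularCurve Fermat.Agent.S24
open scoped MatrixGroups

/-- evaluation at a point of `ℍ`, as a ring homomorphism. -/
def amEvalAt (τ : ℍ) : Fun →+* ℂ where
  toFun f := f τ
  map_one' := rfl
  map_mul' _ _ := rfl
  map_zero' := rfl
  map_add' _ _ := rfl

theorem amEvalAt_apply (τ : ℍ) (f : Fun) : amEvalAt τ f = f τ := rfl

/-- the expansion of an integer. -/
theorem am_hasExp_intCast (M : ℕ) (n : ℤ) :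
    HasExp M (Int.castRingHom Fun n) (Int.castRingHom (LaurentSeries Kbar) n) := by
  have h := HasExp.algebraMap M (n : Kbar)
  rwa [map_intCast, map_intCast] at h

/-- the expansion of `Q(f)`, `Q ∈ ℤ[X]`. -/
theorem am_hasExp_eval₂ {M : ℕ} [NeZero M] {f : Fun} {a : LaurentSeries Kbar}
    (hf : HasExp M f a) (Q : Polynomial ℤ) :
    HasExp M (Q.eval₂ (Int.castRingHom Fun) f)
      (Q.eval₂ (Int.castRingHom (LaurentSeries Kbar)) a) := by
  induction Q using Polynomial.induction_on' with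
  | add Q R hQ hR =>
    rw [eval₂_add, eval₂_add]
    exact hQ.add hR
  | monomial n c =>
    rw [eval₂_monomial, eval₂_monomial]
    refine (am_hasExp_intCast M c).mul ?_
    induction n with
    | zero =>
      rw [pow_zero, pow_zero]
      have h := am_hasExp_intCast M 1
      rwa [map_one, map_one] at h
    | succ n ih =>
      rw [pow_succ, pow_succ]
      exact ih.mul hf

/-- the expansion of `P(f, g)`, `P ∈ ℤ[X][Y]`. -/
theorem am_hasExp_eval2 {M : ℕ} [NeZero M] {f g : Fun} {a b : LaurentSeries Kbar}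
    (hf : HasExp M f a) (hg : HasExp M g b) (P : Polynomial (Polynomial ℤ)) :
    HasExp M (eval2 P f g) (eval2 P a b) := by
  unfold eval2
  induction P using Polynomial.induction_on' with
  | add Q R hQ hR =>
    rw [eval₂_add, eval₂_add]
    exact hQ.add hR
  | monomial n c =>
    rw [eval₂_monomial, eval₂_monomial]
    refine (am_hasExp_eval₂ hf c).mul ?_
    induction n with
    | zero =>
      rw [pow_zero, pow_zero]
      have h := am_hasExp_intCast M 1
      rwa [map_one, map_one] at h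
    | succ n ih =>
      rw [pow_succ, pow_succ]
      exact ih.mul hg

theorem am_eval2_apply (P : Polynomial (Polynomial ℤ)) (f g : Fun) (τ : ℍ) :
    (eval2 P f g) τ = eval2 P (f τ) (g τ) := by
  unfold eval2
  have h := Polynomial.hom_eval₂ P (Polynomial.eval₂RingHom (Int.castRingHom Fun) f)
    (amEvalAt τ) g
  rw [amEvalAt_apply] at h
  rw [h, amEvalAt_apply]
  congr 1
  refine Polynomial.ringHom_ext' (Subsingleton.elim _ _) ?_
  simp [amEvalAt_apply]

/-- the formal relation over `ℚ̄`, in the variable `q ^ (1/1)` replaced by `u ^ p`. -/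
theorem am_rel_Kbar (p : ℕ) [NeZero p] (P : Polynomial (Polynomial ℤ)) (hP : IsJRel p P) :
    eval2 P (qExpand Kbar p (jqModC Kbar)) (qExpand Kbar (p * p) (jqModC Kbar)) = 0 := by
  set φ : LaurentSeries ℚ →+* LaurentSeries Kbar :=
    (qExpand Kbar p).comp (coeffMap (algebraMap ℚ Kbar)) with hφ
  have h1 := congrArg φ hP
  rw [map_zero, Polynomial.hom_eval₂] at h1
  have h2 : φ (jqN p) = qExpand Kbar (p * p) (jqModC Kbar) := by
    rw [hφ, RingHom.comp_apply, jqN, coeffMap_qExpand, qExpand_qExpand, ← jqModC_rat,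
      coeffMap_jqModC]
  have h3 : φ.comp evalAtJ =
      Polynomial.eval₂RingHom (Int.castRingHom (LaurentSeries Kbar))
        (qExpand Kbar p (jqModC Kbar)) := by
    refine Polynomial.ringHom_ext' (Subsingleton.elim _ _) ?_
    rw [RingHom.comp_apply, evalAtJ_X, hφ, RingHom.comp_apply, ← jqModC_rat, coeffMap_jqModC]
    simp
  rw [h2, h3] at h1
  exact h1

/-- the analytic modular equation at `τ' = p τ`. -/
theorem am_eval2_scale (p : ℕ) [NeZero p] (P : Polynomial (Polynomial ℤ)) (hP : IsJRel p P)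
    (τ : ℍ) : eval2 P (jFun τ) (jFun (scale p τ)) = 0 := by
  have h1 : HasExp p jFun (qExpand Kbar p (jqModC Kbar)) := Fermat.Agent.S24Inv.hasExp_jFun p
  have h2 : HasExp p (jd p) (qExpand Kbar (p * p) (jqModC Kbar)) := hasExp_jd p p dvd_rfl
  have h3 := am_hasExp_eval2 h1 h2 P
  rw [am_rel_Kbar p P hP] at h3
  have h0 : HasExp p (0 : Fun) (0 : LaurentSeries Kbar) := by
    have h := HasExp.algebraMap p (0 : Kbar)
    rwa [map_zero, map_zero] at h
  have h4 := HasExp.fun_unique h3 h0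
  have h5 : (eval2 P jFun (jd p)) τ = (0 : Fun) τ := by rw [h4]
  rw [am_eval2_apply] at h5
  exact h5

/-- **AN4a.** -/
theorem anModEq (p : ℕ) [NeZero p] : AnModEqStatement p := by
  intro P hP τ τ' h
  have hp0 : (p : ℂ) ≠ 0 := by exact_mod_cast NeZero.ne p
  rcases h with h | ⟨a, ha⟩
  · have e : τ' = scale p τ := by
      apply UpperHalfPlane.ext
      rw [h, coe_scale]
    rw [e]
    exact am_eval2_scale p P hP τ
  · -- `σ = S T^a τ`
    set σ : ℍ := ModularGroup.S • (ModularGroup.T ^ a • τ) with hσ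
    have h1 : jFun σ = jFun τ := by
      rw [hσ, jFun_smul_apply, jFun_smul_apply]
    have hσc : (σ : ℂ) = -((τ : ℂ) + (a : ℂ))⁻¹ := by
      rw [hσ, UpperHalfPlane.modular_S_smul, UpperHalfPlane.modular_T_zpow_smul]
      simp only [UpperHalfPlane.coe_vadd]
      push_cast
      rw [add_comm (a : ℂ), inv_neg]
    have h2 : scale p σ = ModularGroup.S • τ' := by
      apply UpperHalfPlane.ext
      rw [coe_scale, hσc, UpperHalfPlane.modular_S_smul, ← ha]
      have hτ' : (τ' : ℂ) ≠ 0 := UpperHalfPlane.ne_zero τ'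
      field_simp
    have h3 : jFun (scale p σ) = jFun τ' := by
      rw [h2, jFun_smul_apply]
    have h4 := am_eval2_scale p P hP σ
    rw [h1, h3] at h4
    exact h4

end Fermat.Agent.EMC
end
end MergeWrap_E_MC_AnModEq

section MergeWrap_E_MC_ChordConst -- from E/MC/ChordConst.lean

set_option autoImplicit false

noncomputable section

namespace Fermat.Agent.EMC

open Filter Topology
open scoped PeriodPair

variable {L : PeriodPair}

/-- **B6** `chordX L u ε = ℘(u)` for all small `ε ≠ 0`. -/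
theorem eventually_chordX_eq {u : ℂ} (hu : u ∉ L.lattice) :
    ∀ᶠ ε in 𝓝[≠] (0 : ℂ), chordX L u ε = ℘[L] u :=
  eventually_eq_of_hasDerivAt_zero_of_tendsto
    ((eventually_chordGood hu).mono fun _ h => hasDerivAt_chordX h) (tendsto_chordX hu)

/-- `ε · chordM L u ε → 2`. -/
theorem tendsto_mul_chordM {u : ℂ} (hu : u ∉ L.lattice) :
    Tendsto (fun ε : ℂ => ε * chordM L u ε) (𝓝[≠] (0 : ℂ)) (𝓝 2) := by
  set num : ℂ × ℂ × ℂ × ℂ × ℂ → ℂ := fun t => t.1 ^ 3 * t.2.2.1 + t.2.2.2.2 with hnum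
  set den : ℂ × ℂ × ℂ × ℂ × ℂ → ℂ := fun t => t.1 ^ 2 * t.2.1 - t.2.2.2.1 with hden
  have hnumc : Continuous num := by fun_prop
  have hdenc : Continuous den := by fun_prop
  have ht := tendsto_chord_tuple (L := L) hu
  have h1 := (hnumc.tendsto _).comp ht
  have h2 := (hdenc.tendsto _).comp ht
  have hd0 : den (0, ℘[L] u, ℘'[L] u, 1, -2) ≠ 0 := by
    simp only [hden]
    norm_num
  have h3 := h1.div h2 hd0
  have hval : num (0, ℘[L] u, ℘'[L] u, 1, -2) / den (0, ℘[L] u, ℘'[L] u, 1, -2) = 2 := by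
    simp only [hnum, hden]
    norm_num
  rw [hval] at h3
  refine h3.congr' ?_
  filter_upwards [eventually_chordGood hu, self_mem_nhdsWithin] with ε hε hε0
  obtain ⟨g1, g2, g3⟩ := hε
  have hε0' : ε ≠ 0 := hε0
  have hne : ℘[L] (u + ε) - ℘[L] ε ≠ 0 := sub_ne_zero.mpr g3
  simp only [Pi.div_apply, Function.comp_apply, hnum, hden, chordM]
  have hne2 : ε ^ 2 * ℘[L] (u + ε) - ε ^ 2 * ℘[L] ε ≠ 0 := by
    rw [← mul_sub]
    exact mul_ne_zero (pow_ne_zero 2 hε0') hne
  field_simp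

/-- the slope of `℘` at `u`. -/
theorem tendsto_slope_wp {u : ℂ} (hu : u ∉ L.lattice) :
    Tendsto (fun ε : ℂ => ε⁻¹ * (℘[L] (u + ε) - ℘[L] u)) (𝓝[≠] (0 : ℂ)) (𝓝 (℘'[L] u)) := by
  have h := (hasDerivAt_iff_tendsto_slope_zero.mp (hasDerivAt_wp L hu))
  simpa [smul_eq_mul] using h

/-- **B7** `chordQ L u ε → ℘'(u)`. -/
theorem tendsto_chordQ {u : ℂ} (hu : u ∉ L.lattice) :
    Tendsto (chordQ L u) (𝓝[≠] (0 : ℂ)) (𝓝 (℘'[L] u)) := by
  have h1 := ((tendsto_mul_chordM hu).mul (tendsto_slope_wp hu)).sub (tendsto_wp'_shift hu)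
  have hval : (2 : ℂ) * ℘'[L] u - ℘'[L] u = ℘'[L] u := by ring
  rw [hval] at h1
  refine h1.congr' ?_
  filter_upwards [eventually_chordX_eq hu, self_mem_nhdsWithin] with ε hX hε0
  have hε0' : ε ≠ 0 := hε0
  simp only [chordQ, hX]
  field_simp
  ring

/-- `chordQ L u ε = ℘'(u)` for all small `ε ≠ 0`. -/
theorem eventually_chordQ_eq {u : ℂ} (hu : u ∉ L.lattice) :
    ∀ᶠ ε in 𝓝[≠] (0 : ℂ), chordQ L u ε = ℘'[L] u :=
  eventually_eq_of_hasDerivAt_zero_of_tendsto
    ((eventually_chordGood hu).mono fun _ h => hasDerivAt_chordQ h) (tendsto_chordQ hu)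

/-- **the local addition theorem in coordinates**. -/
theorem eventually_chord {u : ℂ} (hu : u ∉ L.lattice) :
    ∀ᶠ ε in 𝓝[≠] (0 : ℂ), ε ∈ chordGood L u ∧ chordX L u ε = ℘[L] u ∧
      chordQ L u ε = ℘'[L] u := by
  filter_upwards [eventually_chordGood hu, eventually_chordX_eq hu, eventually_chordQ_eq hu]
    with ε a b c
  exact ⟨a, b, c⟩

end Fermat.Agent.EMC
end
end MergeWrap_E_MC_ChordConst

section MergeWrap_E_MC_LatJ -- from E/MC/LatJ.lean

set_option autoImplicit false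

noncomputable section

namespace Fermat.Agent.EMC

open UpperHalfPlane ModularForm EisensteinSeries Complex WeierstrassCurve
open scoped Real MatrixGroups

theorem lj_bernoulli'_five : bernoulli' 5 = 0 :=
  bernoulli'_eq_zero_of_odd (by decide) (by norm_num)

theorem lj_bernoulli'_six : bernoulli' 6 = 1 / 42 := by
  have h1 : Nat.choose 6 2 = 15 := by decide
  have h2 : Nat.choose 6 4 = 15 := by decide
  have h3 : Nat.choose 6 3 = 20 := by decide
  have h5 : Nat.choose 6 5 = 6 := by decide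
  rw [bernoulli'_def]
  simp only [Finset.sum_range_succ, Finset.sum_range_zero, lj_bernoulli'_five, bernoulli'_four,
    bernoulli'_three, bernoulli'_two, bernoulli'_one, bernoulli'_zero, h1, h2, h3, h5,
    Nat.choose_zero_right, Nat.choose_one_right]
  norm_num

theorem lj_riemannZeta_six : riemannZeta 6 = (π : ℂ) ^ 6 / 945 := by
  have h := riemannZeta_two_mul_nat (k := 3) (by norm_num)
  have hb : bernoulli 6 = 1 / 42 := by
    rw [bernoulli_eq_bernoulli'_of_ne_one (by norm_num), lj_bernoulli'_six]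
  rw [show ((2 : ℂ) * ((3 : ℕ) : ℂ)) = 6 by norm_num] at h
  rw [h]
  simp only [show 2 * 3 = 6 from rfl, hb]
  norm_num [Nat.factorial]
  ring

/-- the lattice sum of `ℤ + ℤτ` as a sum over `ℤ²`. -/
theorem lj_G_stdPair_eq_tsum (τ : ℍ) (k : ℕ) :
    (stdPair τ).G k = ∑' v : Fin 2 → ℤ, eisSummand k v τ := by
  rw [PeriodPair.G]
  rw [← ((stdPair τ).latticeEquivProd.symm.toEquiv).tsum_eq]
  rw [← ((finTwoArrowEquiv ℤ).trans (Equiv.prodComm ℤ ℤ)).tsum_eq]
  refine tsum_congr fun v => ?_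
  simp only [LinearEquiv.coe_toEquiv, Equiv.trans_apply, finTwoArrowEquiv_apply,
    Equiv.prodComm_apply]
  rw [PeriodPair.latticeEquiv_symm_apply, eisSummand]
  simp only [stdPair, mul_one, zpow_neg, zpow_natCast]
  rw [add_comm]
  rfl

theorem lj_G_stdPair (τ : ℍ) {k : ℕ} (hk : 3 ≤ k) :
    (stdPair τ).G k = 2 * riemannZeta k * E hk τ := by
  rw [lj_G_stdPair_eq_tsum, tsum_eisSummand_eq_riemannZeta_mul_eisensteinSeries hk,
    show E hk τ = (1 / 2 : ℂ) • eisensteinSeriesSIF (N := 1) 0 k τ from rfl,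
    eisensteinSeriesSIF_apply 0 k τ, smul_eq_mul]
  ring

theorem lj_Δ (L : PeriodPair) : (latE L).Δ = L.g₂ ^ 3 - 27 * L.g₃ ^ 2 := by
  simp only [latE, WeierstrassCurve.Δ, WeierstrassCurve.b₂, WeierstrassCurve.b₄,
    WeierstrassCurve.b₆, WeierstrassCurve.b₈]
  ring

theorem lj_c₄ (L : PeriodPair) : (latE L).c₄ = 12 * L.g₂ := by
  simp only [latE, WeierstrassCurve.c₄, WeierstrassCurve.b₂, WeierstrassCurve.b₄]
  ring

theorem lj_jInv (L : PeriodPair) :
    jInv (latE L) = (12 * L.g₂) ^ 3 / (L.g₂ ^ 3 - 27 * L.g₃ ^ 2) := by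
  rw [jInv, lj_Δ, lj_c₄]

/-- the lattice sums of homothetic lattices. -/
theorem lj_G_homothety (L L' : PeriodPair) (c : ℂ) (hc : c ≠ 0)
    (h : ∀ z : ℂ, z ∈ L'.lattice ↔ ∃ w ∈ L.lattice, z = c * w) (k : ℕ) :
    L'.G k = (c ^ k)⁻¹ * L.G k := by
  have hmem : ∀ l : L.lattice, c * (l : ℂ) ∈ L'.lattice := fun l => (h _).mpr ⟨l, l.2, rfl⟩
  have hmem' : ∀ l' : L'.lattice, c⁻¹ * (l' : ℂ) ∈ L.lattice := by
    intro l'
    obtain ⟨w, hw, e⟩ := (h _).mp l'.2
    rw [e, ← mul_assoc, inv_mul_cancel₀ hc, one_mul]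
    exact hw
  let e : L.lattice ≃ L'.lattice :=
    { toFun := fun l => ⟨c * l, hmem l⟩
      invFun := fun l' => ⟨c⁻¹ * l', hmem' l'⟩
      left_inv := fun l => Subtype.ext (by
        show c⁻¹ * (c * (l : ℂ)) = l
        rw [← mul_assoc, inv_mul_cancel₀ hc, one_mul])
      right_inv := fun l' => Subtype.ext (by
        show c * (c⁻¹ * (l' : ℂ)) = l'
        rw [← mul_assoc, mul_inv_cancel₀ hc, one_mul]) }
  rw [PeriodPair.G, PeriodPair.G, ← e.tsum_eq, ← tsum_mul_left]
  refine tsum_congr fun l => ?_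
  show ((c * (l : ℂ)) ^ k)⁻¹ = (c ^ k)⁻¹ * ((l : ℂ) ^ k)⁻¹
  rw [mul_pow, mul_inv]

theorem lj_g₂_homothety (L L' : PeriodPair) (c : ℂ) (hc : c ≠ 0)
    (h : ∀ z : ℂ, z ∈ L'.lattice ↔ ∃ w ∈ L.lattice, z = c * w) :
    L'.g₂ = (c ^ 4)⁻¹ * L.g₂ := by
  rw [PeriodPair.g₂, PeriodPair.g₂, lj_G_homothety L L' c hc h]
  ring

theorem lj_g₃_homothety (L L' : PeriodPair) (c : ℂ) (hc : c ≠ 0)
    (h : ∀ z : ℂ, z ∈ L'.lattice ↔ ∃ w ∈ L.lattice, z = c * w) :
    L'.g₃ = (c ^ 6)⁻¹ * L.g₃ := by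
  rw [PeriodPair.g₃, PeriodPair.g₃, lj_G_homothety L L' c hc h]
  ring

theorem lj_Δ_homothety (L L' : PeriodPair) (c : ℂ) (hc : c ≠ 0)
    (h : ∀ z : ℂ, z ∈ L'.lattice ↔ ∃ w ∈ L.lattice, z = c * w) :
    (latE L').Δ = (c ^ 12)⁻¹ * (latE L).Δ := by
  rw [lj_Δ, lj_Δ, lj_g₂_homothety L L' c hc h, lj_g₃_homothety L L' c hc h]
  field_simp

/-- **AN2b**. -/
theorem latHomothety : LatHomothetyStatement := by
  intro L L' c hc h
  rw [lj_jInv, lj_jInv, lj_g₂_homothety L L' c hc h, lj_g₃_homothety L L' c hc h]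
  have hc12 : c ^ 12 ≠ 0 := pow_ne_zero _ hc
  have e1 : (12 * ((c ^ 4)⁻¹ * L.g₂)) ^ 3 = (c ^ 12)⁻¹ * (12 * L.g₂) ^ 3 := by
    field_simp
  have e2 : ((c ^ 4)⁻¹ * L.g₂) ^ 3 - 27 * ((c ^ 6)⁻¹ * L.g₃) ^ 2 =
      (c ^ 12)⁻¹ * (L.g₂ ^ 3 - 27 * L.g₃ ^ 2) := by
    field_simp
  rw [e1, e2, mul_div_mul_left _ _ (inv_ne_zero hc12)]

theorem lj_g₂_stdPair (τ : ℍ) : (stdPair τ).g₂ = 4 * (π : ℂ) ^ 4 / 3 * E₄ τ := by
  rw [PeriodPair.g₂, lj_G_stdPair τ (by norm_num : 3 ≤ 4)]
  rw [show ((4 : ℕ) : ℂ) = 4 by norm_num, riemannZeta_four]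
  ring

theorem lj_g₃_stdPair (τ : ℍ) : (stdPair τ).g₃ = 8 * (π : ℂ) ^ 6 / 27 * E₆ τ := by
  rw [PeriodPair.g₃, lj_G_stdPair τ (by norm_num : 3 ≤ 6)]
  rw [show ((6 : ℕ) : ℂ) = 6 by norm_num, lj_riemannZeta_six]
  ring

theorem lj_Δ_stdPair (τ : ℍ) :
    (latE (stdPair τ)).Δ = (2 * (π : ℂ)) ^ 12 * discriminant τ := by
  rw [lj_Δ, lj_g₂_stdPair, lj_g₃_stdPair, discriminant_eq_E₄_cube_sub_E₆_sq]
  ring

theorem lj_Δ_stdPair_ne_zero (τ : ℍ) : (latE (stdPair τ)).Δ ≠ 0 := by
  rw [lj_Δ_stdPair]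
  refine mul_ne_zero (pow_ne_zero _ (mul_ne_zero two_ne_zero ?_)) (discriminant_ne_zero τ)
  exact_mod_cast Real.pi_ne_zero

/-- **AN2a**. -/
theorem latJ : LatJStatement := by
  intro τ
  have hπ : (π : ℂ) ≠ 0 := by exact_mod_cast Real.pi_ne_zero
  have hΔ := discriminant_ne_zero τ
  have h1 := lj_Δ_stdPair τ
  rw [lj_Δ] at h1
  rw [lj_jInv, h1, lj_g₂_stdPair]
  field_simp
  ring

theorem lj_ω₁_ne_zero (L : PeriodPair) : L.ω₁ ≠ 0 := by
  have h := L.indep.ne_zero 0
  simpa using h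

theorem lj_im_div_ne_zero (L : PeriodPair) : (L.ω₂ / L.ω₁).im ≠ 0 := by
  intro h0
  have hω := lj_ω₁_ne_zero L
  have h1 := LinearIndependent.pair_iff.mp L.indep (-(L.ω₂ / L.ω₁).re) 1 (by
    have e : L.ω₂ = ((L.ω₂ / L.ω₁).re : ℂ) * L.ω₁ := by
      have h2 : L.ω₂ / L.ω₁ = ((L.ω₂ / L.ω₁).re : ℂ) := by
        apply Complex.ext
        · simp
        · simp [h0]
      rw [← h2, div_mul_cancel₀ _ hω]
    simp only [real_smul, ofReal_neg, ofReal_one, one_mul]
    nth_rewrite 2 [e]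
    ring)
  exact one_ne_zero h1.2

/-- every lattice is homothetic to `ℤ + ℤτ`. -/
theorem lj_exists_stdPair (L : PeriodPair) :
    ∃ τ : ℍ, ∀ z : ℂ, z ∈ L.lattice ↔ ∃ w ∈ (stdPair τ).lattice, z = L.ω₁ * w := by
  have hω := lj_ω₁_ne_zero L
  rcases lt_or_gt_of_ne (lj_im_div_ne_zero L) with h | h
  · -- `τ = -ω₂/ω₁`
    refine ⟨⟨-(L.ω₂ / L.ω₁), by simpa using h⟩, fun z => ?_⟩
    constructor
    · intro hz
      obtain ⟨m, n, e⟩ := PeriodPair.mem_lattice.mp hz
      refine ⟨(m : ℂ) + (-n : ℤ) * (-(L.ω₂ / L.ω₁)), ?_, ?_⟩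
      · refine PeriodPair.mem_lattice.mpr ⟨m, -n, ?_⟩
        simp [stdPair]
      · rw [← e]
        push_cast
        field_simp
    · rintro ⟨w, hw, rfl⟩
      obtain ⟨m, n, e⟩ := PeriodPair.mem_lattice.mp hw
      refine PeriodPair.mem_lattice.mpr ⟨m, -n, ?_⟩
      rw [← e]
      simp only [stdPair, mul_one]
      push_cast
      field_simp
  · -- `τ = ω₂/ω₁`
    refine ⟨⟨L.ω₂ / L.ω₁, h⟩, fun z => ?_⟩
    constructor
    · intro hz
      obtain ⟨m, n, e⟩ := PeriodPair.mem_lattice.mp hz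
      refine ⟨(m : ℂ) + (n : ℤ) * (L.ω₂ / L.ω₁), ?_, ?_⟩
      · refine PeriodPair.mem_lattice.mpr ⟨m, n, ?_⟩
        simp [stdPair]
      · rw [← e]
        field_simp
    · rintro ⟨w, hw, rfl⟩
      obtain ⟨m, n, e⟩ := PeriodPair.mem_lattice.mp hw
      refine PeriodPair.mem_lattice.mpr ⟨m, n, ?_⟩
      rw [← e]
      simp only [stdPair, mul_one]
      field_simp

theorem lj_Δ_ne_zero (L : PeriodPair) : (latE L).Δ ≠ 0 := by
  obtain ⟨τ, h⟩ := lj_exists_stdPair L
  have hω := lj_ω₁_ne_zero L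
  rw [lj_Δ_homothety (stdPair τ) L L.ω₁ hω h]
  exact mul_ne_zero (inv_ne_zero (pow_ne_zero _ hω)) (lj_Δ_stdPair_ne_zero τ)

theorem lj_equation (L : PeriodPair) (z : ℂ) (hz : z ∉ L.lattice) :
    (latE L).toAffine.Equation (L.weierstrassP z) (L.derivWeierstrassP z / 2) := by
  rw [WeierstrassCurve.Affine.equation_iff]
  have h := L.derivWeierstrassP_sq z hz
  simp only [latE]
  linear_combination (1 / 4 : ℂ) * h


/-- **AN0**. -/
theorem latCurve : LatCurveStatement := by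
  intro L
  refine ⟨lj_Δ_ne_zero L, fun z hz => ?_⟩
  have h : (latE L).toAffine.Nonsingular (L.weierstrassP z) (L.derivWeierstrassP z / 2) :=
    (WeierstrassCurve.Affine.equation_iff_nonsingular_of_Δ_ne_zero (lj_Δ_ne_zero L)).mp
      (lj_equation L z hz)
  refine ⟨h, ?_⟩
  rw [latMap, dif_pos ⟨hz, h⟩]

end Fermat.Agent.EMC
end
end MergeWrap_E_MC_LatJ

section MergeWrap_E_MC_LatAdd -- from E/MC/LatAdd.lean

set_option autoImplicit false
set_option linter.unusedSectionVars false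

noncomputable section

namespace Fermat.Agent.EMC

open Filter Topology WeierstrassCurve
open scoped PeriodPair

variable [DecidableEq ℂ] {L : PeriodPair}

theorem latMap_of_mem {z : ℂ} (hz : z ∈ L.lattice) : latMap L z = 0 := by
  unfold latMap
  rw [dif_neg]
  exact fun h => h.1 hz

/-- `latMap` only depends on `℘(z)`, `℘'(z)` and on whether `z ∈ Λ`. -/
theorem latMap_congr {z z' : ℂ} (h1 : ℘[L] z = ℘[L] z') (h2 : ℘'[L] z = ℘'[L] z')
    (h3 : z ∈ L.lattice ↔ z' ∈ L.lattice) : latMap L z = latMap L z' := by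
  unfold latMap
  by_cases h : z ∉ L.lattice ∧ (latE L).toAffine.Nonsingular (℘[L] z) (℘'[L] z / 2)
  · have h' : z' ∉ L.lattice ∧ (latE L).toAffine.Nonsingular (℘[L] z') (℘'[L] z' / 2) := by
      rw [← h1, ← h2, ← h3]
      exact h
    rw [dif_pos h, dif_pos h', Affine.Point.some.injEq]
    exact ⟨h1, by rw [h2]⟩
  · have h' : ¬ (z' ∉ L.lattice ∧ (latE L).toAffine.Nonsingular (℘[L] z') (℘'[L] z' / 2)) := by
      rw [← h1, ← h2, ← h3]
      exact h
    rw [dif_neg h, dif_neg h']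

theorem latMap_add_mem (z : ℂ) {l : ℂ} (hl : l ∈ L.lattice) : latMap L (z + l) = latMap L z := by
  refine latMap_congr (L.weierstrassP_add_coe z ⟨l, hl⟩) (L.derivWeierstrassP_add_coe z ⟨l, hl⟩) ?_
  constructor
  · intro h
    have := L.lattice.sub_mem h hl
    simpa using this
  · intro h
    exact L.lattice.add_mem h hl

theorem latMap_mem_add (z : ℂ) {l : ℂ} (hl : l ∈ L.lattice) : latMap L (l + z) = latMap L z := by
  rw [add_comm]
  exact latMap_add_mem z hl

theorem latE_negY (x y : ℂ) : (latE L).toAffine.negY x y = -y := by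
  simp [Affine.negY, latE]

theorem latMap_neg (z : ℂ) : latMap L (-z) = -latMap L z := by
  unfold latMap
  by_cases h : z ∉ L.lattice ∧ (latE L).toAffine.Nonsingular (℘[L] z) (℘'[L] z / 2)
  · have hn : (latE L).toAffine.Nonsingular (℘[L] z) (-(℘'[L] z / 2)) := by
      have := (Affine.nonsingular_neg (W' := (latE L).toAffine) (℘[L] z) (℘'[L] z / 2)).mpr h.2
      rwa [latE_negY] at this
    have h' : -z ∉ L.lattice ∧
        (latE L).toAffine.Nonsingular (℘[L] (-z)) (℘'[L] (-z) / 2) := by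
      rw [L.weierstrassP_neg, L.derivWeierstrassP_neg, neg_div]
      refine ⟨fun hm => h.1 ?_, hn⟩
      simpa using L.lattice.neg_mem hm
    rw [dif_pos h, dif_pos h', Affine.Point.neg_some, Affine.Point.some.injEq]
    refine ⟨L.weierstrassP_neg z, ?_⟩
    rw [latE_negY, L.derivWeierstrassP_neg, neg_div]
  · have h' : ¬ (-z ∉ L.lattice ∧
        (latE L).toAffine.Nonsingular (℘[L] (-z)) (℘'[L] (-z) / 2)) := by
      rintro ⟨a, b⟩
      apply h
      rw [L.weierstrassP_neg, L.derivWeierstrassP_neg, neg_div] at b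
      refine ⟨fun hm => a (L.lattice.neg_mem hm), ?_⟩
      have := (Affine.nonsingular_neg (W' := (latE L).toAffine) (℘[L] z) (-(℘'[L] z / 2))).mpr b
      rwa [latE_negY, neg_neg] at this
    rw [dif_neg h, dif_neg h', Affine.Point.neg_zero]

/-- **B8** the local addition theorem: `π(u + ε) = π(u) + π(ε)` for all small `ε ≠ 0`. -/
theorem eventually_latMap_add (h0 : LatCurveStatement) {u : ℂ} (hu : u ∉ L.lattice) :
    ∀ᶠ ε in 𝓝[≠] (0 : ℂ), latMap L (u + ε) = latMap L u + latMap L ε := by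
  filter_upwards [eventually_chord (L := L) hu] with ε hε
  obtain ⟨⟨g1, g2, g3⟩, hX, hQ⟩ := hε
  obtain ⟨n1, e1⟩ := (h0 L).2 (u + ε) g2
  obtain ⟨n2, e2⟩ := (h0 L).2 ε g1
  obtain ⟨n3, e3⟩ := (h0 L).2 u hu
  have hsub : latMap L (u + ε) + -latMap L ε = latMap L u := by
    rw [e1, e2, e3, Affine.Point.neg_some, Affine.Point.add_of_X_ne g3, Affine.Point.some.injEq]
    have hsl : (latE L).toAffine.slope (℘[L] (u + ε)) (℘[L] ε) (℘'[L] (u + ε) / 2)
        ((latE L).toAffine.negY (℘[L] ε) (℘'[L] ε / 2)) = chordM L u ε / 2 := by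
      rw [Affine.slope_of_X_ne g3, latE_negY, chordM]
      have hne : ℘[L] (u + ε) - ℘[L] ε ≠ 0 := sub_ne_zero.mpr g3
      field_simp
      ring
    have hXX : (latE L).toAffine.addX (℘[L] (u + ε)) (℘[L] ε) (chordM L u ε / 2)
        = chordX L u ε := by
      simp only [Affine.addX, latE, chordX]
      ring
    refine ⟨?_, ?_⟩
    · rw [hsl, hXX, hX]
    · rw [hsl, Affine.addY, Affine.negAddY, latE_negY, hXX, ← hQ, chordQ]
      ring
  rw [← hsub]
  abel

/-- **AN1, the addition theorem**: `z ↦ (℘(z), ℘'(z)/2)` is additive. -/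
theorem latAdd (h0 : LatCurveStatement) : LatAddStatement := by
  intro L z w
  by_cases hw : w ∈ L.lattice
  · rw [latMap_add_mem z hw, latMap_of_mem hw, add_zero]
  by_cases hz : z ∈ L.lattice
  · rw [latMap_mem_add w hz, latMap_of_mem hz, zero_add]
  by_cases hzw : z + w ∈ L.lattice
  · have hwz : latMap L w = -latMap L z := by
      have e : w = -z + (z + w) := by ring
      rw [e, latMap_add_mem _ hzw, latMap_neg]
    rw [latMap_of_mem hzw, hwz, add_neg_cancel]
  -- the main case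
  set V : Set ℂ := {t | t ∉ L.lattice ∧ t + w ∉ L.lattice} with hV
  set D : ℂ → (latE L).toAffine.Point := fun t => latMap L (t + w) - latMap L t with hD
  have hloc : ∀ t ∈ V, ∀ᶠ s in 𝓝 t, D s = D t := by
    intro t ht
    have e1 := eventually_latMap_add h0 (L := L) (u := t + w) ht.2
    have e2 := eventually_latMap_add h0 (L := L) (u := t) ht.1
    have e3 : ∀ᶠ ε in 𝓝[≠] (0 : ℂ), D (t + ε) = D t := by
      filter_upwards [e1, e2] with ε a b
      show latMap L (t + ε + w) - latMap L (t + ε) = latMap L (t + w) - latMap L t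
      have e : t + ε + w = t + w + ε := by ring
      rw [e, a, b]
      abel
    rw [eventually_nhdsWithin_iff] at e3
    have e4 : ∀ᶠ ε in 𝓝 (0 : ℂ), D (t + ε) = D t := by
      filter_upwards [e3] with ε hε
      by_cases h : ε = 0
      · subst h
        rw [add_zero]
      · exact hε h
    have hc : Tendsto (fun s : ℂ => s - t) (𝓝 t) (𝓝 0) := by
      have hcc : Continuous fun s : ℂ => s - t := by fun_prop
      have := hcc.tendsto t
      rwa [sub_self] at this
    have e5 := hc.eventually e4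
    filter_upwards [e5] with s hs
    simpa using hs
  have hcount : ({t : ℂ | t ∈ L.lattice} ∪ {t : ℂ | t + w ∈ L.lattice}).Countable := by
    refine (countable_lattice L).union ?_
    have himg : {t : ℂ | t + w ∈ L.lattice} = (fun s : ℂ => s - w) '' (L.lattice : Set ℂ) := by
      ext t
      constructor
      · intro ht
        exact ⟨t + w, ht, by ring⟩
      · rintro ⟨s, hs, rfl⟩
        show s - w + w ∈ L.lattice
        rwa [sub_add_cancel]
    rw [himg]
    exact (countable_lattice L).image _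
  have hVeq : V = ({t : ℂ | t ∈ L.lattice} ∪ {t : ℂ | t + w ∈ L.lattice})ᶜ := by
    ext t
    simp only [hV, Set.mem_ofPred_eq, Set.mem_compl_iff, Set.mem_union, not_or]
  have hVpre : IsPreconnected V := by
    have h : 1 < Module.rank ℝ ℂ := by
      rw [Complex.rank_real_complex]
      norm_num
    rw [hVeq]
    exact (hcount.isPathConnected_compl_of_one_lt_rank h).isConnected.isPreconnected
  let _ : TopologicalSpace (latE L).toAffine.Point := ⊥
  have : DiscreteTopology (latE L).toAffine.Point := ⟨rfl⟩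
  have hcont : ContinuousOn D V := by
    intro t ht
    rw [ContinuousWithinAt, nhds_discrete, tendsto_pure]
    exact nhdsWithin_le_nhds (hloc t ht)
  obtain ⟨ε, hεV, hε⟩ : ∃ ε ∈ V, D ε = latMap L w := by
    have e1 := eventually_latMap_add h0 (L := L) (u := w) hw
    have e2 := eventually_notMem_lattice L
    have e3 : ∀ᶠ ε in 𝓝[≠] (0 : ℂ), ε + w ∉ L.lattice := by
      have := (tendsto_const_add_punctured w).eventually ((isOpen_compl_lattice L).mem_nhds hw)
      filter_upwards [this] with ε h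
      rw [add_comm]
      exact h
    obtain ⟨ε, a, b, c⟩ := (e1.and (e2.and e3)).exists
    refine ⟨ε, ⟨b, c⟩, ?_⟩
    show latMap L (ε + w) - latMap L ε = latMap L w
    rw [add_comm ε w, a]
    abel
  have hzV : z ∈ V := ⟨hz, hzw⟩
  have hconst := hVpre.constant hcont hzV hεV
  have hDz : latMap L (z + w) - latMap L z = latMap L w := hconst.trans hε
  rw [← hDz]
  abel

end Fermat.Agent.EMC
end
end MergeWrap_E_MC_LatAdd

section MergeWrap_E_MC_LatVeluSums -- from E/MC/LatVeluSums.lean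

set_option autoImplicit false

noncomputable section

namespace Fermat.Agent.EMC

open Filter Topology
open scoped PeriodPair Nat

variable (L : PeriodPair)

/-- The iterated derivatives of `℘` off the lattice are the lattice sums. -/
theorem lv_iteratedDeriv_wp {z : ℂ} (hz : z ∉ L.lattice) {n : ℕ} (hn : n ≠ 0) :
    iteratedDeriv n ℘[L] z = ((n + 1).factorial : ℂ) * L.sumInvPow z (n + 2) := by
  have h := L.iteratedDeriv_weierstrassPExcept_self z (n := n)
  rw [L.weierstrassPExcept_of_notMem z hz, if_neg hn] at h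
  exact h

/-- `℘''' = 12 ℘ ℘'` off the lattice. -/
theorem lv_hasDerivAt_wp'' {z : ℂ} (hz : z ∉ L.lattice) :
    HasDerivAt (fun w => 6 * ℘[L] w ^ 2 - L.g₂ / 2) (12 * ℘[L] z * ℘'[L] z) z := by
  have h1 := ((hasDerivAt_wp L hz).fun_pow 2).const_mul (6 : ℂ)
  have h2 := h1.sub_const (L.g₂ / 2)
  have e : (6 : ℂ) * ((2 : ℕ) * ℘[L] z ^ (2 - 1) * ℘'[L] z) = 12 * ℘[L] z * ℘'[L] z := by
    norm_num
    ring
  rw [e] at h2
  exact h2

/-- `℘'''' = 120 ℘³ - 18 g₂ ℘ - 12 g₃` off the lattice. -/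
theorem lv_hasDerivAt_wp''' {z : ℂ} (hz : z ∉ L.lattice) :
    HasDerivAt (fun w => 12 * ℘[L] w * ℘'[L] w)
      (120 * ℘[L] z ^ 3 - 18 * L.g₂ * ℘[L] z - 12 * L.g₃) z := by
  have h1 := ((hasDerivAt_wp L hz).const_mul (12 : ℂ)).mul (hasDerivAt_wp' L hz)
  have h2 := L.derivWeierstrassP_sq z hz
  have e : (12 : ℂ) * ℘'[L] z * ℘'[L] z + 12 * ℘[L] z * (6 * ℘[L] z ^ 2 - L.g₂ / 2)
      = 120 * ℘[L] z ^ 3 - 18 * L.g₂ * ℘[L] z - 12 * L.g₃ := by
    linear_combination (12 : ℂ) * h2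
  rw [e] at h1
  exact h1

theorem lv_deriv_wp'_eventuallyEq {z : ℂ} (hz : z ∉ L.lattice) :
    deriv ℘'[L] =ᶠ[𝓝 z] fun w => 6 * ℘[L] w ^ 2 - L.g₂ / 2 := by
  filter_upwards [(isOpen_compl_lattice L).mem_nhds hz] with w hw
  exact (hasDerivAt_wp' L hw).deriv

theorem lv_deriv2_wp'_eventuallyEq {z : ℂ} (hz : z ∉ L.lattice) :
    deriv (deriv ℘'[L]) =ᶠ[𝓝 z] fun w => 12 * ℘[L] w * ℘'[L] w := by
  filter_upwards [(isOpen_compl_lattice L).eventually_mem hz] with w hw
  rw [(lv_deriv_wp'_eventuallyEq L hw).deriv_eq]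
  exact (lv_hasDerivAt_wp'' L hw).deriv

theorem lv_iteratedDeriv_two {z : ℂ} (hz : z ∉ L.lattice) :
    iteratedDeriv 2 ℘[L] z = 6 * ℘[L] z ^ 2 - L.g₂ / 2 := by
  rw [iteratedDeriv_succ', iteratedDeriv_one, L.deriv_weierstrassP]
  exact (hasDerivAt_wp' L hz).deriv

theorem lv_iteratedDeriv_four {z : ℂ} (hz : z ∉ L.lattice) :
    iteratedDeriv 4 ℘[L] z = 120 * ℘[L] z ^ 3 - 18 * L.g₂ * ℘[L] z - 12 * L.g₃ := by
  rw [iteratedDeriv_succ', L.deriv_weierstrassP, iteratedDeriv_succ, iteratedDeriv_succ,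
    iteratedDeriv_one]
  rw [(lv_deriv2_wp'_eventuallyEq L hz).deriv_eq]
  exact (lv_hasDerivAt_wp''' L hz).deriv

/-- `Σ_{ω ∈ Λ} (ω - z)⁻⁴ = ℘(z)² - g₂/12`. -/
theorem lv_sumInvPow_four {z : ℂ} (hz : z ∉ L.lattice) :
    L.sumInvPow z 4 = ℘[L] z ^ 2 - L.g₂ / 12 := by
  have h1 := lv_iteratedDeriv_wp L hz (n := 2) (by norm_num)
  rw [lv_iteratedDeriv_two L hz] at h1
  norm_num [Nat.factorial] at h1
  linear_combination (-1 / 6 : ℂ) * h1

/-- `Σ_{ω ∈ Λ} (ω - z)⁻⁶ = ℘(z)³ - (3/20) g₂ ℘(z) - g₃/10`. -/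
theorem lv_sumInvPow_six {z : ℂ} (hz : z ∉ L.lattice) :
    L.sumInvPow z 6 = ℘[L] z ^ 3 - 3 / 20 * L.g₂ * ℘[L] z - L.g₃ / 10 := by
  have h1 := lv_iteratedDeriv_wp L hz (n := 4) (by norm_num)
  rw [lv_iteratedDeriv_four L hz] at h1
  norm_num [Nat.factorial] at h1
  linear_combination (-1 / 120 : ℂ) * h1

end Fermat.Agent.EMC
end
end MergeWrap_E_MC_LatVeluSums

section MergeWrap_E_MC_LatVelu -- from E/MC/LatVelu.lean

set_option autoImplicit false

noncomputable section

namespace Fermat.Agent.EMC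

open WeierstrassCurve Filter Topology
open scoped PeriodPair

/-! ### Basic properties of `latMap` -/

theorem lv_latMap_of_mem (L : PeriodPair) {z : ℂ} (hz : z ∈ L.lattice) : latMap L z = 0 := by
  unfold latMap
  rw [dif_neg]
  exact fun h => h.1 hz

theorem lv_latMap_zero (L : PeriodPair) : latMap L 0 = 0 :=
  lv_latMap_of_mem L L.lattice.zero_mem

theorem lv_latMap_eq_zero_iff (h0 : LatCurveStatement) (L : PeriodPair) {z : ℂ} :
    latMap L z = 0 ↔ z ∈ L.lattice := by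
  refine ⟨fun h => ?_, lv_latMap_of_mem L⟩
  by_contra hz
  obtain ⟨hns, he⟩ := (h0 L).2 z hz
  rw [he] at h
  exact Affine.Point.some_ne_zero _ h

theorem lv_ptX_latMap (h0 : LatCurveStatement) (L : PeriodPair) {z : ℂ} (hz : z ∉ L.lattice) :
    EV.ptX (latMap L z) = ℘[L] z := by
  obtain ⟨hns, he⟩ := (h0 L).2 z hz
  rw [he]
  rfl

theorem lv_latMap_add_mem (L : PeriodPair) (z : ℂ) {l : ℂ} (hl : l ∈ L.lattice) :
    latMap L (z + l) = latMap L z := by
  have e1 : ℘[L] (z + l) = ℘[L] z := L.weierstrassP_add_coe z ⟨l, hl⟩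
  have e2 : ℘'[L] (z + l) = ℘'[L] z := L.derivWeierstrassP_add_coe z ⟨l, hl⟩
  have e3 : z + l ∉ L.lattice ↔ z ∉ L.lattice := by
    rw [not_iff_not]
    exact ⟨fun h => by simpa using L.lattice.sub_mem h hl, fun h => L.lattice.add_mem h hl⟩
  unfold latMap
  by_cases hz : z ∈ L.lattice
  · have hz' : z + l ∈ L.lattice := L.lattice.add_mem hz hl
    rw [dif_neg (fun h => h.1 hz'), dif_neg (fun h => h.1 hz)]
  · have hz' : z + l ∉ L.lattice := e3.mpr hz
    by_cases hns : (latE L).toAffine.Nonsingular (℘[L] z) (℘'[L] z / 2)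
    · have hns' : (latE L).toAffine.Nonsingular (℘[L] (z + l)) (℘'[L] (z + l) / 2) := by
        rw [e1, e2]
        exact hns
      rw [dif_pos ⟨hz', hns'⟩, dif_pos ⟨hz, hns⟩]
      simp only [Affine.Point.some.injEq]
      exact ⟨e1, by rw [e2]⟩
    · have hns' : ¬ (latE L).toAffine.Nonsingular (℘[L] (z + l)) (℘'[L] (z + l) / 2) := by
        rw [e1, e2]
        exact hns
      rw [dif_neg (fun h => hns' h.2), dif_neg (fun h => hns h.2)]

theorem lv_latMap_eq_iff [DecidableEq ℂ] (h0 : LatCurveStatement) (h1 : LatAddStatement)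
    (L : PeriodPair)
    {z w : ℂ} : latMap L z = latMap L w ↔ z - w ∈ L.lattice := by
  constructor
  · intro h
    have h2 := h1 L (z - w) w
    rw [sub_add_cancel, h] at h2
    have h3 : latMap L (z - w) = 0 := by
      have := h2.symm
      rwa [add_eq_right] at this
    exact (lv_latMap_eq_zero_iff h0 L).mp h3
  · intro h
    have := lv_latMap_add_mem L w h
    rwa [add_sub_cancel] at this

/-! ### Finiteness of the image of `Λ'` -/

theorem lv_image_finite (L L' : PeriodPair)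
    (hn : ∃ n : ℕ, 0 < n ∧ ∀ z ∈ L'.lattice, (n : ℂ) * z ∈ L.lattice) :
    (latMap L '' (L'.lattice : Set ℂ)).Finite := by
  obtain ⟨n, hn0, hn⟩ := hn
  have hfin : ((fun ab : ℕ × ℕ => latMap L ((ab.1 : ℂ) * L'.ω₁ + (ab.2 : ℂ) * L'.ω₂)) ''
      ((Finset.range n ×ˢ Finset.range n : Finset (ℕ × ℕ)) : Set (ℕ × ℕ))).Finite :=
    (Finset.finite_toSet _).image _
  refine hfin.subset ?_
  rintro Q ⟨z, hz, rfl⟩
  obtain ⟨a, b, rfl⟩ := PeriodPair.mem_lattice.mp hz
  have hnZ : (0 : ℤ) < n := by exact_mod_cast hn0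
  have hnZ' : (n : ℤ) ≠ 0 := hnZ.ne'
  refine ⟨((a % n).toNat, (b % n).toNat), ?_, ?_⟩
  · simp only [Finset.coe_product, Finset.coe_range, Set.mem_prod, Set.mem_Iio]
    constructor
    · have h1 := Int.emod_nonneg a hnZ'
      have h2 := Int.emod_lt_of_pos a hnZ
      omega
    · have h1 := Int.emod_nonneg b hnZ'
      have h2 := Int.emod_lt_of_pos b hnZ
      omega
  · have ha : (((a % n).toNat : ℕ) : ℂ) = ((a % n : ℤ) : ℂ) := by
      have := Int.toNat_of_nonneg (Int.emod_nonneg a hnZ')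
      exact_mod_cast congrArg (fun t : ℤ => (t : ℂ)) this
    have hb : (((b % n).toNat : ℕ) : ℂ) = ((b % n : ℤ) : ℂ) := by
      have := Int.toNat_of_nonneg (Int.emod_nonneg b hnZ')
      exact_mod_cast congrArg (fun t : ℤ => (t : ℂ)) this
    simp only [ha, hb]
    have hl : ((a / n : ℤ) : ℂ) * L'.ω₁ + ((b / n : ℤ) : ℂ) * L'.ω₂ ∈ L'.lattice :=
      PeriodPair.mem_lattice.mpr ⟨a / n, b / n, rfl⟩
    have hl2 := hn _ hl
    have e : (a : ℂ) * L'.ω₁ + (b : ℂ) * L'.ω₂ =
        (((a % n : ℤ) : ℂ) * L'.ω₁ + ((b % n : ℤ) : ℂ) * L'.ω₂) +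
          (n : ℂ) * (((a / n : ℤ) : ℂ) * L'.ω₁ + ((b / n : ℤ) : ℂ) * L'.ω₂) := by
      have e1 : (a : ℂ) = ((a % n : ℤ) : ℂ) + (n : ℂ) * ((a / n : ℤ) : ℂ) := by
        exact_mod_cast congrArg (fun t : ℤ => (t : ℂ)) (Int.emod_add_mul_ediv a n).symm
      have e2 : (b : ℂ) = ((b % n : ℤ) : ℂ) + (n : ℂ) * ((b / n : ℤ) : ℂ) := by
        exact_mod_cast congrArg (fun t : ℤ => (t : ℂ)) (Int.emod_add_mul_ediv b n).symm
      linear_combination L'.ω₁ * e1 + L'.ω₂ * e2
    rw [e, lv_latMap_add_mem L _ hl2]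

/-! ### The coset decomposition of the lattice sums -/

theorem lv_tsum_fibre_empty (L L' : PeriodPair) {k : ℕ} {Q : (latE L).toAffine.Point}
    (hQ : Q ∉ latMap L '' (L'.lattice : Set ℂ)) :
    ∑' c : {x : L'.lattice // latMap L (x : ℂ) = Q}, (((c.1 : L'.lattice) : ℂ) ^ k)⁻¹ = 0 := by
  have : IsEmpty {x : L'.lattice // latMap L (x : ℂ) = Q} := ⟨fun x => hQ ⟨x.1, x.1.2, x.2⟩⟩
  exact tsum_empty

theorem lv_tsum_fibre_zero (h0 : LatCurveStatement) (L L' : PeriodPair)
    (hLL : L.lattice ≤ L'.lattice) {k : ℕ} :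
    ∑' c : {x : L'.lattice // latMap L (x : ℂ) = 0}, (((c.1 : L'.lattice) : ℂ) ^ k)⁻¹
      = L.G k := by
  let e : L.lattice ≃ {x : L'.lattice // latMap L (x : ℂ) = 0} :=
    { toFun := fun l => ⟨⟨l.1, hLL l.2⟩, lv_latMap_of_mem L l.2⟩
      invFun := fun x => ⟨x.1.1, (lv_latMap_eq_zero_iff h0 L).mp x.2⟩
      left_inv := fun l => rfl
      right_inv := fun x => rfl }
  rw [PeriodPair.G, ← e.tsum_eq]
  rfl

theorem lv_tsum_fibre [DecidableEq ℂ] (h0 : LatCurveStatement) (h1 : LatAddStatement)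
    (L L' : PeriodPair) (hLL : L.lattice ≤ L'.lattice) {k : ℕ} {z₀ : ℂ}
    (hz₀ : z₀ ∈ L'.lattice) :
    ∑' c : {x : L'.lattice // latMap L (x : ℂ) = latMap L z₀}, (((c.1 : L'.lattice) : ℂ) ^ k)⁻¹
      = L.sumInvPow (-z₀) k := by
  let e : L.lattice ≃ {x : L'.lattice // latMap L (x : ℂ) = latMap L z₀} :=
    { toFun := fun l => ⟨⟨z₀ + l.1, L'.lattice.add_mem hz₀ (hLL l.2)⟩,
        lv_latMap_add_mem L z₀ l.2⟩
      invFun := fun x => ⟨x.1.1 - z₀, (lv_latMap_eq_iff h0 h1 L).mp x.2⟩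
      left_inv := fun l => by
        apply Subtype.ext
        simp
      right_inv := fun x => by
        apply Subtype.ext
        apply Subtype.ext
        simp }
  rw [PeriodPair.sumInvPow, ← e.tsum_eq]
  refine tsum_congr fun l => ?_
  show ((z₀ + (l : ℂ)) ^ k)⁻¹ = (((l : ℂ) - -z₀) ^ k)⁻¹
  rw [sub_neg_eq_add, add_comm]

/-- The lattice sum of `Λ'` as the lattice sum of `Λ` plus a finite sum over the nonzero points
of the image of `Λ'` in `E_Λ`. -/
theorem lv_G_decomp [DecidableEq ℂ] (h0 : LatCurveStatement) (h1 : LatAddStatement)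
    (L L' : PeriodPair) (hLL : L.lattice ≤ L'.lattice)
    (hfin : (latMap L '' (L'.lattice : Set ℂ)).Finite) {k : ℕ} (hk : 2 < k) (F : ℂ → ℂ)
    (hF : ∀ z ∉ L.lattice, L.sumInvPow z k = F (℘[L] z)) :
    L'.G k = L.G k +
      ∑ᶠ (Q : (latE L).toAffine.Point) (_ : Q ∈ latMap L '' (L'.lattice : Set ℂ) ∧ Q ≠ 0),
        F (EV.ptX Q) := by
  set C : Set (latE L).toAffine.Point := latMap L '' (L'.lattice : Set ℂ) with hCdef
  set f : L'.lattice → ℂ := fun l => ((l : ℂ) ^ k)⁻¹ with hf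
  have hfs : Summable f := by
    have := (L'.hasSum_sumInvPow 0 hk).summable
    simpa using this
  set T : (latE L).toAffine.Point → ℂ :=
    fun Q => ∑' c : {x : L'.lattice // latMap L (x : ℂ) = Q}, f c.1 with hT
  have hsum : L'.G k = ∑' Q, T Q := by
    rw [PeriodPair.G, ← (Equiv.sigmaFiberEquiv (fun x : L'.lattice => latMap L (x : ℂ))).tsum_eq]
    exact Summable.tsum_sigma ((Equiv.summable_iff _).mpr hfs)
  have hT0 : T 0 = L.G k := lv_tsum_fibre_zero h0 L L' hLL
  have hTC : ∀ Q ∈ C, Q ≠ 0 → T Q = F (EV.ptX Q) := by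
    rintro Q ⟨z₀, hz₀, rfl⟩ hne
    have hz₀L : z₀ ∉ L.lattice := fun h => hne (lv_latMap_of_mem L h)
    have hz₀L' : -z₀ ∉ L.lattice := fun h => hz₀L (by simpa using L.lattice.neg_mem h)
    rw [hT]
    simp only [hf]
    rw [lv_tsum_fibre h0 h1 L L' hLL hz₀, hF _ hz₀L', L.weierstrassP_neg,
      lv_ptX_latMap h0 L hz₀L]
  have hTn : ∀ Q, Q ∉ C → T Q = 0 := fun Q hQ => lv_tsum_fibre_empty L L' hQ
  have hsupp : Function.support T ⊆ C := by
    intro Q hQ
    by_contra h
    exact hQ (hTn Q h)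
  have h0C : (0 : (latE L).toAffine.Point) ∈ C := ⟨0, L'.lattice.zero_mem, lv_latMap_zero L⟩
  set C' : Set (latE L).toAffine.Point := {Q | Q ∈ C ∧ Q ≠ 0} with hC'
  have hC : C = insert 0 C' := by
    ext Q
    simp only [hC', Set.mem_insert_iff, Set.mem_ofPred_eq]
    constructor
    · intro hQ
      by_cases hQ0 : Q = 0
      · exact Or.inl hQ0
      · exact Or.inr ⟨hQ, hQ0⟩
    · rintro (rfl | hQ)
      · exact h0C
      · exact hQ.1
  have hC'fin : C'.Finite := hfin.subset fun Q hQ => hQ.1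
  have h0C' : (0 : (latE L).toAffine.Point) ∉ C' := fun h => h.2 rfl
  have e1 : ∑ᶠ Q ∈ C, T Q = T 0 + ∑ᶠ Q ∈ C', T Q := by
    conv_lhs => rw [hC]
    exact finsum_mem_insert T h0C' hC'fin
  have e0 : ∑ᶠ Q, T Q = ∑ᶠ Q ∈ C, T Q := by
    rw [← finsum_mem_univ T]
    exact finsum_mem_inter_support_eq' T Set.univ C
      fun x hx => ⟨fun _ => hsupp hx, fun _ => trivial⟩
  rw [hsum, tsum_eq_finsum (hfin.subset hsupp), e0, e1, hT0]
  congr 1
  exact finsum_mem_congr rfl fun Q hQ => hTC Q hQ.1 hQ.2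

/-! ### The main theorem -/

theorem lv_veluT (L : PeriodPair) (Q : (latE L).toAffine.Point) :
    EV.veluT (latE L).toAffine Q = 6 * (EV.ptX Q ^ 2 - L.g₂ / 12) := by
  simp only [EV.veluT, latE, WeierstrassCurve.b₂, WeierstrassCurve.b₄]
  ring

theorem lv_veluW (L : PeriodPair) (Q : (latE L).toAffine.Point) :
    EV.veluU (latE L).toAffine Q + EV.ptX Q * EV.veluT (latE L).toAffine Q =
      10 * (EV.ptX Q ^ 3 - 3 / 20 * L.g₂ * EV.ptX Q - L.g₃ / 10) := by
  simp only [EV.veluT, EV.veluU, latE, WeierstrassCurve.b₂, WeierstrassCurve.b₄,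
    WeierstrassCurve.b₆]
  ring

/-- **AN3** from AN0 and AN1. -/
theorem latVelu_of [DecidableEq ℂ] (h0 : LatCurveStatement) (h1 : LatAddStatement) :
    LatVeluStatement := by
  intro L L' hLL hn
  have hfin := lv_image_finite L L' hn
  have h4 := lv_G_decomp h0 h1 L L' hLL hfin (k := 4) (by norm_num)
    (fun x => x ^ 2 - L.g₂ / 12) (fun z hz => lv_sumInvPow_four L hz)
  have h6 := lv_G_decomp h0 h1 L L' hLL hfin (k := 6) (by norm_num)
    (fun x => x ^ 3 - 3 / 20 * L.g₂ * x - L.g₃ / 10) (fun z hz => lv_sumInvPow_six L hz)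
  have hT : EV.veluSumT (latE L).toAffine (latMap L '' (L'.lattice : Set ℂ))
      = 3 * (L'.G 4 - L.G 4) := by
    unfold EV.veluSumT
    simp only [lv_veluT]
    rw [h4]
    have := mul_finsum_mem (s := {Q : (latE L).toAffine.Point |
      Q ∈ latMap L '' (L'.lattice : Set ℂ) ∧ Q ≠ 0})
      (f := fun Q => EV.ptX Q ^ 2 - L.g₂ / 12) (r := (6 : ℂ))
    simp only [Set.mem_ofPred_eq] at this
    rw [← this]
    ring
  have hW : EV.veluSumW (latE L).toAffine (latMap L '' (L'.lattice : Set ℂ))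
      = 5 * (L'.G 6 - L.G 6) := by
    unfold EV.veluSumW
    simp only [lv_veluW]
    rw [h6]
    have := mul_finsum_mem (s := {Q : (latE L).toAffine.Point |
      Q ∈ latMap L '' (L'.lattice : Set ℂ) ∧ Q ≠ 0})
      (f := fun Q => EV.ptX Q ^ 3 - 3 / 20 * L.g₂ * EV.ptX Q - L.g₃ / 10) (r := (10 : ℂ))
    simp only [Set.mem_ofPred_eq] at this
    rw [← this]
    ring
  unfold EV.veluCurve
  rw [hT, hW]
  simp only [latE, WeierstrassCurve.b₂, PeriodPair.g₂, PeriodPair.g₃]
  refine WeierstrassCurve.ext rfl rfl rfl ?_ ?_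
  · show -(60 * L.G 4) / 4 - 5 * (3 * (L'.G 4 - L.G 4)) = -(60 * L'.G 4) / 4
    ring
  · show -(140 * L.G 6) / 4 - ((0 : ℂ) ^ 2 + 4 * 0) * (3 * (L'.G 4 - L.G 4))
      - 7 * (5 * (L'.G 6 - L.G 6)) = -(140 * L'.G 6) / 4
    ring

end Fermat.Agent.EMC
end
end MergeWrap_E_MC_LatVelu

section MergeWrap_E_MC_LatIndex -- from E/MC/LatIndex.lean

set_option autoImplicit false

/-!
# Cluster E' (Mazur, S15), seat E-MC, leaf AN4b (helper18): the lattices of index `p` over `ℤ + ℤτ`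

`latIndex (p) [Fact p.Prime] : LatIndexStatement p` : if `p c ∈ Λ_τ`, `c ∉ Λ_τ`, then `Λ_τ + ℤ c` is
the lattice of a period pair, homothetic to `Λ_τ'` with `τ' = p τ` or `p τ' = τ + a`.

Proof.  `p c = a + b τ`, and `p` does not divide both `a` and `b`.
* `p ∣ b` : `Λ_τ + ℤ c = ℤ (1/p) + ℤ τ = (1/p) (ℤ + ℤ pτ)`, `τ' = p τ`;
* `p ∤ b` : with `b x + p y = 1`, `c' = x c + y τ = (τ + x a) / p`, `Λ_τ + ℤ c = ℤ + ℤ c'`,
  `τ' = c'`.
-/

noncomputable section

namespace Fermat.Agent.EMC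

open UpperHalfPlane

/-- a period pair `(r, z)` with `r` real and nonzero, `z` not real. -/
def li_pair (r : ℝ) (hr : r ≠ 0) (z : ℂ) (hz : z.im ≠ 0) : PeriodPair where
  ω₁ := (r : ℂ)
  ω₂ := z
  indep := by
    rw [LinearIndependent.pair_iff]
    intro s t h
    have him := congrArg Complex.im h
    have hre := congrArg Complex.re h
    simp at him hre
    have ht : t = 0 := by
      rcases him with h1 | h1
      · exact h1
      · exact absurd h1 hz
    subst ht
    simp at hre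
    rcases hre with h1 | h1
    · exact ⟨h1, rfl⟩
    · exact absurd h1 hr

theorem li_mem_pair {r : ℝ} {hr : r ≠ 0} {z : ℂ} {hz : z.im ≠ 0} {x : ℂ} :
    x ∈ (li_pair r hr z hz).lattice ↔ ∃ m n : ℤ, (m : ℂ) * (r : ℂ) + n * z = x :=
  PeriodPair.mem_lattice

theorem li_mem_std {τ : ℍ} {x : ℂ} :
    x ∈ (stdPair τ).lattice ↔ ∃ m n : ℤ, (m : ℂ) + n * (τ : ℂ) = x := by
  rw [PeriodPair.mem_lattice]
  constructor
  · rintro ⟨m, n, h⟩
    refine ⟨m, n, ?_⟩
    rw [← h]
    simp [stdPair]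
  · rintro ⟨m, n, h⟩
    refine ⟨m, n, ?_⟩
    rw [← h]
    simp [stdPair]

/-- **AN4b**: the lattices of index `p` over `ℤ + ℤτ`. -/
theorem latIndex (p : ℕ) [hp : Fact p.Prime] : LatIndexStatement p := by
  intro τ c hc hpc
  have hp0 : (p : ℂ) ≠ 0 := by exact_mod_cast hp.out.ne_zero
  have hpR : (p : ℝ) ≠ 0 := by exact_mod_cast hp.out.ne_zero
  have hppos : (0 : ℝ) < p := by exact_mod_cast hp.out.pos
  have hτim : ((τ : ℂ)).im ≠ 0 := ne_of_gt τ.im_pos
  obtain ⟨a, b, hab⟩ := li_mem_std.mp hpc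
  have hc_eq : c = ((a : ℂ) + b * τ) / p := by
    rw [eq_div_iff hp0]
    linear_combination -hab
  have hpZ : Prime (p : ℤ) := Nat.prime_iff_prime_int.mp hp.out
  by_cases hb : (p : ℤ) ∣ b
  · -- `p ∣ b`: `τ' = p τ`
    obtain ⟨b', rfl⟩ := hb
    have ha : ¬ (p : ℤ) ∣ a := by
      rintro ⟨a', rfl⟩
      apply hc
      rw [li_mem_std]
      refine ⟨a', b', ?_⟩
      rw [hc_eq]
      push_cast
      field_simp
    obtain ⟨x, y, hxy⟩ : IsCoprime (p : ℤ) a := (Prime.coprime_iff_not_dvd hpZ).mpr ha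
    have hxyC : (x : ℂ) * p + y * a = 1 := by exact_mod_cast hxy
    have him : 0 < ((p : ℂ) * (τ : ℂ)).im := by
      rw [Complex.mul_im, Complex.natCast_re, Complex.natCast_im, zero_mul, add_zero]
      exact mul_pos hppos τ.im_pos
    refine ⟨li_pair (1 / (p : ℝ)) (one_div_ne_zero hpR) τ hτim, ⟨(p : ℂ) * τ, him⟩, 1 / (p : ℂ),
      one_div_ne_zero hp0, ?_, ?_, Or.inl rfl⟩
    · intro z
      rw [li_mem_pair]
      constructor
      · rintro ⟨m, n, rfl⟩
        refine ⟨(m * x : ℤ) + (n - m * y * b' : ℤ) * (τ : ℂ), li_mem_std.mpr ⟨_, _, rfl⟩,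
          m * y, ?_⟩
        rw [hc_eq]
        push_cast
        field_simp
        linear_combination (-(m : ℂ)) * hxyC
      · rintro ⟨w, hw, n, rfl⟩
        obtain ⟨m', n', rfl⟩ := li_mem_std.mp hw
        refine ⟨m' * p + n * a, n' + n * b', ?_⟩
        rw [hc_eq]
        push_cast
        field_simp
        ring
    · intro z
      rw [li_mem_pair]
      constructor
      · rintro ⟨m, n, rfl⟩
        refine ⟨(m : ℂ) + n * ((p : ℂ) * τ), li_mem_std.mpr ⟨m, n, rfl⟩, ?_⟩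
        push_cast
        field_simp
      · rintro ⟨w, hw, rfl⟩
        obtain ⟨m, n, rfl⟩ := li_mem_std.mp hw
        refine ⟨m, n, ?_⟩
        show (m : ℂ) * ((1 / (p : ℝ) : ℝ) : ℂ) + n * (τ : ℂ) = 1 / (p : ℂ) * ((m : ℂ) + n * ((p : ℂ) * τ))
        push_cast
        field_simp
  · -- `p ∤ b`: `p τ' = τ + x a`
    obtain ⟨y, x, hxy⟩ : IsCoprime (p : ℤ) b := (Prime.coprime_iff_not_dvd hpZ).mpr hb
    have hxyC : (y : ℂ) * p + x * b = 1 := by exact_mod_cast hxy
    have him : 0 < (((τ : ℂ) + (x * a : ℤ)) / (p : ℂ)).im := by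
      have e : ((τ : ℂ) + (x * a : ℤ)) / (p : ℂ) = ((1 / (p : ℝ) : ℝ) : ℂ) * ((τ : ℂ) + (x * a : ℤ)) := by
        push_cast
        field_simp
      rw [e, Complex.im_ofReal_mul, Complex.add_im, Complex.intCast_im, add_zero]
      exact mul_pos (one_div_pos.mpr hppos) τ.im_pos
    refine ⟨stdPair ⟨((τ : ℂ) + (x * a : ℤ)) / (p : ℂ), him⟩, ⟨((τ : ℂ) + (x * a : ℤ)) / (p : ℂ), him⟩,
      1, one_ne_zero, ?_, ?_, Or.inr ⟨x * a, ?_⟩⟩
    · intro z
      rw [li_mem_std]
      constructor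
      · rintro ⟨m, n, rfl⟩
        refine ⟨(m : ℤ) + (n * y : ℤ) * (τ : ℂ), li_mem_std.mpr ⟨_, _, rfl⟩, n * x, ?_⟩
        show (m : ℂ) + n * (((τ : ℂ) + (x * a : ℤ)) / (p : ℂ)) = _
        rw [hc_eq]
        push_cast
        field_simp
        linear_combination (-(n : ℂ) * τ) * hxyC
      · rintro ⟨w, hw, n, rfl⟩
        obtain ⟨m', n', rfl⟩ := li_mem_std.mp hw
        refine ⟨m' - n' * (x * a) + n * (a * y), n' * p + n * b, ?_⟩
        show _ + _ * (((τ : ℂ) + (x * a : ℤ)) / (p : ℂ)) = _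
        rw [hc_eq]
        push_cast
        field_simp
        linear_combination ((n : ℂ) * a) * hxyC
    · intro z
      constructor
      · intro hz
        exact ⟨z, hz, (one_mul z).symm⟩
      · rintro ⟨w, hw, rfl⟩
        rwa [one_mul]
    · show (p : ℂ) * (((τ : ℂ) + (x * a : ℤ)) / (p : ℂ)) = (τ : ℂ) + ((x * a : ℤ) : ℂ)
      field_simp

end Fermat.Agent.EMC
end
end MergeWrap_E_MC_LatIndex

section MergeWrap_E_MC_Complex -- from E/MC/Complex.lean

set_option autoImplicit false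
set_option linter.unusedSectionVars false

noncomputable section

namespace Fermat.Agent.EMC

open WeierstrassCurve UpperHalfPlane

variable [DecidableEq ℂ]

/-- The modular equation for the lattice curves `E_{ℤ + ℤτ}` (from AN5c). -/
theorem modEq_lattice (p : ℕ) [hp : Fact p.Prime] (hsub : LatSubStatement p) (τ : ℍ)
    (C' : AddSubgroup (latE (stdPair τ)).toAffine.Point) (hC' : Nat.card C' = p)
    (P : Polynomial (Polynomial ℤ)) (hP : @IsJRel p ⟨hp.out.ne_zero⟩ P) :
    eval2 P (jInv (latE (stdPair τ)))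
      (jInv (EV.veluCurve (latE (stdPair τ)).toAffine
        (C' : Set (latE (stdPair τ)).toAffine.Point))) = 0 := by
  have : NeZero p := ⟨hp.out.ne_zero⟩
  have h0 : LatCurveStatement := latCurve
  have h1 : LatAddStatement := latAdd h0
  obtain ⟨c, hc1, hc2, hCeq⟩ := hsub h0 h1 (stdPair τ) C' hC'
  obtain ⟨L', τ', e, he, hL', hL'e, hτ'⟩ := latIndex p τ c hc1 hc2
  have hset : (L'.lattice : Set ℂ) =
      {z : ℂ | ∃ w ∈ (stdPair τ).lattice, ∃ n : ℤ, z = w + (n : ℂ) * c} := by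
    ext z
    exact hL' z
  have hle : (stdPair τ).lattice ≤ L'.lattice := fun z hz => (hL' z).mpr ⟨z, hz, 0, by simp⟩
  have hfin : ∃ n : ℕ, 0 < n ∧ ∀ z ∈ L'.lattice, (n : ℂ) * z ∈ (stdPair τ).lattice := by
    refine ⟨p, hp.out.pos, fun z hz => ?_⟩
    obtain ⟨w, hw, n, rfl⟩ := (hL' z).mp hz
    have e1 : (p : ℂ) * (w + (n : ℂ) * c) = p • w + n • ((p : ℂ) * c) := by
      simp only [nsmul_eq_mul, zsmul_eq_mul]
      ring
    rw [e1]
    exact (stdPair τ).lattice.add_mem ((stdPair τ).lattice.nsmul_mem hw p)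
      ((stdPair τ).lattice.smul_mem n hc2)
  have hV := latVelu_of h0 h1 (stdPair τ) L' hle hfin
  rw [hCeq, ← hset, hV]
  have hh := latHomothety (stdPair τ') L' e he hL'e
  rw [hh, latJ τ, latJ τ']
  exact anModEq p P hP τ τ' hτ'

/-- **AN5** from AN5b (`ReduceStatement`) and AN5c (`LatSubStatement p`). -/
theorem modEqComplex_of (p : ℕ) [hp : Fact p.Prime] (hred : ReduceStatement)
    (hsub : LatSubStatement p) :
    @ModEqComplexStatement _ p ⟨hp.out.ne_zero⟩ := by
  intro W hΔ C hC P hP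
  obtain ⟨τ, φ, hj, hvel⟩ := hred latCurve latJ W hΔ
  have hCfin : (C : Set W.toAffine.Point).Finite := by
    have : Finite C := Nat.finite_of_card_ne_zero (by rw [hC]; exact hp.out.ne_zero)
    exact Set.toFinite _
  rw [hj, hvel C hCfin]
  have hC' : Nat.card (C.map φ.toAddMonoidHom) = p := by
    rw [← hC]
    exact Nat.card_congr (C.equivMapOfInjective φ.toAddMonoidHom φ.injective).symm.toEquiv
  exact modEq_lattice p hsub τ (C.map φ.toAddMonoidHom) hC' P hP

end Fermat.Agent.EMC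
end
end MergeWrap_E_MC_Complex

section MergeWrap_E_MC_LatSub -- from E/MC/LatSub.lean

set_option autoImplicit false
set_option linter.unusedSectionVars false
set_option linter.style.haveILetI false

noncomputable section

namespace Fermat.Agent.EMC

open WeierstrassCurve

variable [DecidableEq ℂ]

/-- `latMap` as an additive homomorphism. -/
def lsHom (h1 : LatAddStatement) (L : PeriodPair) : ℂ →+ (latE L).toAffine.Point where
  toFun := latMap L
  map_zero' := lv_latMap_zero L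
  map_add' := h1 L

theorem lsHom_apply (h1 : LatAddStatement) (L : PeriodPair) (z : ℂ) :
    lsHom h1 L z = latMap L z := rfl

theorem ls_latMap_zsmul (h1 : LatAddStatement) (L : PeriodPair) (n : ℤ) (z : ℂ) :
    latMap L ((n : ℂ) * z) = n • latMap L z := by
  rw [← lsHom_apply h1, ← lsHom_apply h1, ← map_zsmul, zsmul_eq_mul]

/-- The `p`-division points `(a ω₁ + b ω₂) / p`. -/
def lsPt (L : PeriodPair) (p : ℕ) (ab : Fin p × Fin p) : ℂ :=
  (((ab.1 : ℕ) : ℂ) * L.ω₁ + ((ab.2 : ℕ) : ℂ) * L.ω₂) / (p : ℂ)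

theorem ls_mul_lsPt (L : PeriodPair) (p : ℕ) (hp : p ≠ 0) (ab : Fin p × Fin p) :
    (p : ℂ) * lsPt L p ab = ((ab.1 : ℕ) : ℂ) * L.ω₁ + ((ab.2 : ℕ) : ℂ) * L.ω₂ := by
  unfold lsPt
  have : (p : ℂ) ≠ 0 := Nat.cast_ne_zero.2 hp
  field_simp

theorem ls_mul_lsPt_mem (L : PeriodPair) (p : ℕ) (hp : p ≠ 0) (ab : Fin p × Fin p) :
    (p : ℂ) * lsPt L p ab ∈ L.lattice := by
  rw [ls_mul_lsPt L p hp, PeriodPair.mem_lattice]
  exact ⟨((ab.1 : ℕ) : ℤ), ((ab.2 : ℕ) : ℤ), by push_cast; rfl⟩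

/-- integer combinations of the periods vanish only trivially -/
theorem ls_indep (L : PeriodPair) {s t : ℤ} (h : (s : ℂ) * L.ω₁ + (t : ℂ) * L.ω₂ = 0) :
    s = 0 ∧ t = 0 := by
  have hind := LinearIndependent.pair_iff.1 L.indep (s : ℝ) (t : ℝ)
  have h' : ((s : ℝ)) • L.ω₁ + ((t : ℝ)) • L.ω₂ = 0 := by
    rw [Complex.real_smul, Complex.real_smul]
    push_cast
    exact h
  obtain ⟨hs, ht⟩ := hind h'
  exact ⟨by exact_mod_cast hs, by exact_mod_cast ht⟩

theorem ls_fin_eq_of_dvd {p : ℕ} (a a' : Fin p) (m : ℤ)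
    (h : (p : ℤ) * m = ((a : ℕ) : ℤ) - ((a' : ℕ) : ℤ)) : a = a' := by
  have ha := a.2
  have ha' := a'.2
  have hm : m = 0 := by
    by_contra hm
    have hp0 : (0 : ℤ) < p := by
      have : 0 < p := lt_of_le_of_lt (Nat.zero_le _) ha
      exact_mod_cast this
    rcases lt_or_gt_of_ne hm with h1 | h1
    · have : (p : ℤ) * m ≤ (p : ℤ) * (-1) := mul_le_mul_of_nonneg_left (by omega) hp0.le
      omega
    · have : (p : ℤ) * 1 ≤ (p : ℤ) * m := mul_le_mul_of_nonneg_left (by omega) hp0.le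
      omega
  rw [hm, mul_zero] at h
  apply Fin.ext
  omega

theorem ls_lsPt_injective (h0 : LatCurveStatement) (h1 : LatAddStatement) (L : PeriodPair)
    (p : ℕ) (hp : p ≠ 0) :
    Function.Injective (fun ab : Fin p × Fin p => latMap L (lsPt L p ab)) := by
  intro ab ab' h
  have h2 : lsPt L p ab - lsPt L p ab' ∈ L.lattice := (lv_latMap_eq_iff h0 h1 L).1 h
  rw [PeriodPair.mem_lattice] at h2
  obtain ⟨m, n, hmn⟩ := h2
  have hpc : (p : ℂ) ≠ 0 := Nat.cast_ne_zero.2 hp
  have e : (((p : ℤ) * m - (((ab.1 : ℕ) : ℤ) - ((ab'.1 : ℕ) : ℤ)) : ℤ) : ℂ) * L.ω₁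
      + (((p : ℤ) * n - (((ab.2 : ℕ) : ℤ) - ((ab'.2 : ℕ) : ℤ)) : ℤ) : ℂ) * L.ω₂ = 0 := by
    have e1 := ls_mul_lsPt L p hp ab
    have e2 := ls_mul_lsPt L p hp ab'
    have e3 : (p : ℂ) * ((m : ℂ) * L.ω₁ + (n : ℂ) * L.ω₂)
        = (p : ℂ) * lsPt L p ab - (p : ℂ) * lsPt L p ab' := by
      rw [hmn]
      ring
    rw [e1, e2] at e3
    push_cast
    linear_combination e3
  obtain ⟨hs, ht⟩ := ls_indep L e
  have ha : ab.1 = ab'.1 := ls_fin_eq_of_dvd ab.1 ab'.1 m (by omega)
  have hb : ab.2 = ab'.2 := ls_fin_eq_of_dvd ab.2 ab'.2 n (by omega)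
  exact Prod.ext ha hb

/-- every point killed by `p` is the image of a `p`-division point of `Λ` -/
theorem ls_exists_lsPt (h0 : LatCurveStatement) (h1 : LatAddStatement) (L : PeriodPair)
    (p : ℕ) (hp : p ≠ 0) (Q : (latE L).toAffine.Point) (hQ : (p : ℤ) • Q = 0) :
    ∃ ab : Fin p × Fin p, latMap L (lsPt L p ab) = Q := by
  have hΔ : (latE L).toAffine.Δ ≠ 0 := (h0 L).1
  have hp1 : 1 ≤ p := Nat.one_le_iff_ne_zero.2 hp
  haveI : Finite (Submodule.torsionBy ℤ (latE L).toAffine.Point (p : ℤ)) :=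
    Fermat.Agent.Torsion.finite_torsionBy hΔ hp1
  have hcard := Fermat.Agent.Torsion.card_torsionBy hΔ hp1
  have hmem : ∀ ab : Fin p × Fin p,
      latMap L (lsPt L p ab) ∈ Submodule.torsionBy ℤ (latE L).toAffine.Point (p : ℤ) := by
    intro ab
    rw [Submodule.mem_torsionBy_iff, ← ls_latMap_zsmul h1]
    push_cast
    exact lv_latMap_of_mem L (ls_mul_lsPt_mem L p hp ab)
  have hbij : Function.Bijective (fun ab : Fin p × Fin p =>
      (⟨latMap L (lsPt L p ab), hmem ab⟩ :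
        Submodule.torsionBy ℤ (latE L).toAffine.Point (p : ℤ))) := by
    refine Function.Injective.bijective_of_nat_card_le ?_ ?_
    · intro ab ab' h
      exact ls_lsPt_injective h0 h1 L p hp (congrArg Subtype.val h)
    · rw [hcard, Nat.card_prod, Nat.card_fin, sq]
  obtain ⟨ab, hab⟩ := hbij.2 ⟨Q, (Submodule.mem_torsionBy_iff _ _).2 hQ⟩
  exact ⟨ab, congrArg Subtype.val hab⟩

/-- **AN5c**. -/
theorem latSub (p : ℕ) [hp : Fact p.Prime] : LatSubStatement p := by
  intro h0 h1 L C hC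
  have hp0 : p ≠ 0 := hp.out.ne_zero
  haveI : Finite C := Nat.finite_of_card_ne_zero (by rw [hC]; exact hp0)
  obtain ⟨g, hg⟩ := (isAddCyclic_of_prime_card hC).exists_generator
  -- `p g = 0`
  have hpg : (p : ℤ) • (g : (latE L).toAffine.Point) = 0 := by
    have h := card_nsmul_eq_zero' (G := C) (x := g)
    rw [hC] at h
    have h' := congrArg (Subtype.val : C → (latE L).toAffine.Point) h
    rw [natCast_zsmul]
    simpa using h'
  -- `g ≠ 0`
  have hg0 : (g : (latE L).toAffine.Point) ≠ 0 := by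
    intro h
    have hg' : g = 0 := Subtype.ext h
    have hsub : Subsingleton C := by
      refine ⟨fun x y => ?_⟩
      obtain ⟨n, hn⟩ := AddSubgroup.mem_zmultiples_iff.1 (hg x)
      obtain ⟨m, hm⟩ := AddSubgroup.mem_zmultiples_iff.1 (hg y)
      rw [← hn, ← hm, hg', smul_zero, smul_zero]
    have : Nat.card C = 1 := Nat.card_unique
    rw [hC] at this
    exact hp.out.one_lt.ne' this
  obtain ⟨ab, hab⟩ := ls_exists_lsPt h0 h1 L p hp0 g hpg
  refine ⟨lsPt L p ab, ?_, ls_mul_lsPt_mem L p hp0 ab, ?_⟩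
  · intro hmem
    rw [lv_latMap_of_mem L hmem] at hab
    exact hg0 hab.symm
  · ext x
    constructor
    · intro hx
      obtain ⟨n, hn⟩ := AddSubgroup.mem_zmultiples_iff.1 (hg ⟨x, hx⟩)
      have hn' : n • (g : (latE L).toAffine.Point) = x := by
        have := congrArg (Subtype.val : C → (latE L).toAffine.Point) hn
        simpa using this
      refine ⟨(n : ℂ) * lsPt L p ab, ⟨0, L.lattice.zero_mem, n, by rw [zero_add]⟩, ?_⟩
      rw [ls_latMap_zsmul h1, hab, hn']
    · rintro ⟨z, ⟨w, hw, n, rfl⟩, rfl⟩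
      rw [h1 L, lv_latMap_of_mem L hw, zero_add, ls_latMap_zsmul h1, hab]
      exact C.zsmul_mem g.2 n

end Fermat.Agent.EMC
end
end MergeWrap_E_MC_LatSub

section MergeWrap_E_MC_Place -- from E/MC/Place.lean

set_option autoImplicit false
set_option linter.unusedSectionVars false
set_option linter.style.longLine false

/-!
# Cluster E' (S15), seat E-MC, leaf MP2: the place of `X₀(p)` over a point of the plane model

If `a, b ∈ ℚ̄` satisfy `P(a, b) = 0` for every relation `P ∈ ℤ[X][Y]` between `j(q)` and `j(q^p)`,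
then there is a place `x` of the function field of `X₀(p)` over `ℚ̄` at which `j` and `j_p` are
regular with values `j(x) = a` and `j_p(x) = b` (`exists_place_of_isJRel`).

Proof: the relations between `1, j, j_p` over `ℚ̄` are `ℚ̄`-linear combinations of relations over
`ℤ` (`mp2_descent`: the `q`-expansions are rational), and the image of the curve under
`(1 : j : j_p)` is Zariski closed (`S17.Closed.closed_image_of_placesExhaust`).
-/

noncomputable section

open AlgebraicCurve ModularCurve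

namespace Fermat.Agent.EMC

/-! ### descent of linear relations -/

section descent

variable {L : Type*} [Field L] [Algebra ℚ L]

theorem mp2_coeff_algebraMap_mul (c : L) (x : LaurentSeries L) (n : ℤ) :
    (algebraMap L (LaurentSeries L) c * x).coeff n = c * x.coeff n := by
  rw [algebraMap_laurentSeries_eq_single]
  simp

/-- clearing the denominators of finitely many rational numbers -/
theorem mp2_exists_int_mul {ι : Type*} (T : Finset ι) (r : ι → ℚ) :
    ∃ (N : ℤ) (c : ι → ℤ), N ≠ 0 ∧ ∀ m ∈ T, (N : ℚ) * r m = (c m : ℚ) := by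
  classical
  obtain ⟨b, hb⟩ := IsLocalization.exist_integer_multiples_of_finset (nonZeroDivisors ℤ)
    (S := ℚ) (T.image r)
  have hc : ∀ m : ι, ∃ z : ℤ, m ∈ T → (z : ℚ) = ((b : ℤ) : ℚ) * r m := by
    intro m
    by_cases hm : m ∈ T
    · obtain ⟨z, hz⟩ := hb (r m) (Finset.mem_image_of_mem r hm)
      refine ⟨z, fun _ => ?_⟩
      rw [zsmul_eq_mul] at hz
      simpa using hz
    · exact ⟨0, fun h => absurd h hm⟩
  choose c hc using hc
  exact ⟨b, c, nonZeroDivisors.coe_ne_zero b, fun m hm => (hc m hm).symm⟩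

/-- **Descent of linear relations**: a linear relation with coefficients in `L` between power
series with rational coefficients is a combination of relations with integer coefficients. -/
theorem mp2_descent {ι : Type*} (T : Finset ι) (g : ι → L) (t : ι → LaurentSeries ℚ)
    (w : ι → L)
    (H1 : ∑ m ∈ T, algebraMap L (LaurentSeries L) (g m) * coeffEmb L (t m) = 0)
    (H2 : ∀ c : ι → ℤ, ∑ m ∈ T, (c m : ℚ) • t m = 0 → ∑ m ∈ T, (c m : L) * w m = 0) :
    ∑ m ∈ T, g m * w m = 0 := by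
  classical
  -- Step A: the relation, coefficient by coefficient
  have hA : ∀ n : ℤ, ∑ m ∈ T, g m * algebraMap ℚ L ((t m).coeff n) = 0 := by
    intro n
    have h1 := congrArg (fun x : LaurentSeries L => x.coeff n) H1
    simp only [HahnSeries.coeff_zero] at h1
    rw [← h1, HahnSeries.coeff_sum]
    refine Finset.sum_congr rfl fun m _ => ?_
    rw [mp2_coeff_algebraMap_mul, coeffEmb_coeff]
  -- Step B: the span of the coefficients
  set V : Submodule ℚ L := Submodule.span ℚ (g '' (T : Set ι)) with hV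
  have hfin : Module.Finite ℚ V :=
    Module.Finite.span_of_finite ℚ ((T.finite_toSet).image g)
  set b := Module.finBasis ℚ V with hb
  set gV : ι → V := fun m => if h : m ∈ T then
    ⟨g m, Submodule.subset_span ⟨m, Finset.mem_coe.mpr h, rfl⟩⟩ else 0 with hgV
  have hgVcoe : ∀ m ∈ T, ((gV m : V) : L) = g m := by
    intro m hm
    simp only [hgV, dif_pos hm]
  -- Step C: the rational relations
  have hC : ∀ (i : Fin (Module.finrank ℚ V)) (n : ℤ),
      ∑ m ∈ T, b.repr (gV m) i * (t m).coeff n = 0 := by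
    intro i n
    have h1 : ∑ m ∈ T, ((t m).coeff n) • gV m = 0 := by
      apply Subtype.ext
      rw [Submodule.coe_sum, Submodule.coe_zero, ← hA n]
      refine Finset.sum_congr rfl fun m hm => ?_
      rw [Submodule.coe_smul, hgVcoe m hm, Algebra.smul_def, mul_comm]
    have h2 := congrArg (fun x => b.repr x i) h1
    simp only [map_sum, map_smul, Finsupp.coe_finsetSum, Finset.sum_apply, Finsupp.smul_apply,
      map_zero, Finsupp.zero_apply, smul_eq_mul] at h2
    rw [← h2]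
    exact Finset.sum_congr rfl fun m _ => mul_comm _ _
  -- Step D: the integral relations
  have hD : ∀ i : Fin (Module.finrank ℚ V),
      ∑ m ∈ T, algebraMap ℚ L (b.repr (gV m) i) * w m = 0 := by
    intro i
    obtain ⟨N, c, hN, hc⟩ := mp2_exists_int_mul T fun m => b.repr (gV m) i
    have h1 : ∑ m ∈ T, (c m : ℚ) • t m = 0 := by
      ext n
      rw [HahnSeries.coeff_sum, HahnSeries.coeff_zero]
      have h2 : ∀ m ∈ T, ((c m : ℚ) • t m).coeff n =
          (N : ℚ) * (b.repr (gV m) i * (t m).coeff n) := by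
        intro m hm
        rw [HahnSeries.coeff_smul, smul_eq_mul, ← hc m hm, mul_assoc]
      rw [Finset.sum_congr rfl h2, ← Finset.mul_sum, hC i n, mul_zero]
    have h3 := H2 c h1
    have h4 : ∀ m ∈ T, (c m : L) * w m =
        algebraMap ℚ L (N : ℚ) * (algebraMap ℚ L (b.repr (gV m) i) * w m) := by
      intro m hm
      rw [← mul_assoc, ← map_mul, hc m hm]
      simp
    rw [Finset.sum_congr rfl h4, ← Finset.mul_sum] at h3
    have hNL : algebraMap ℚ L (N : ℚ) ≠ 0 := by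
      rw [Ne, map_eq_zero]
      exact_mod_cast hN
    exact (mul_eq_zero.mp h3).resolve_left hNL
  -- Step E: assembling
  have hE : ∀ m ∈ T, g m * w m =
      ∑ i, ((b i : V) : L) * (algebraMap ℚ L (b.repr (gV m) i) * w m) := by
    intro m hm
    have h1 := congrArg (fun x : V => (x : L)) (b.sum_repr (gV m))
    simp only [Submodule.coe_sum, Submodule.coe_smul] at h1
    rw [hgVcoe m hm] at h1
    rw [← h1, Finset.sum_mul]
    refine Finset.sum_congr rfl fun i _ => ?_
    rw [Algebra.smul_def]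
    ring
  rw [Finset.sum_congr rfl hE, Finset.sum_comm]
  refine Finset.sum_eq_zero fun i _ => ?_
  rw [← Finset.mul_sum, hD i, mul_zero]

end descent

/-! ### the relations between `1, j, j_p` -/

section relations

local notation "Qb" => AlgebraicClosure ℚ

variable (p : ℕ) [NeZero p]

/-- the integral relation with coefficients `c` -/
def mp2Poly (T : Finset (Fin 3 →₀ ℕ)) (c : (Fin 3 →₀ ℕ) → ℤ) : Polynomial (Polynomial ℤ) :=
  ∑ d ∈ T, Polynomial.C (Polynomial.C (c d) * Polynomial.X ^ d 1) * Polynomial.X ^ d 2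

theorem mp2Poly_eval₂ (T : Finset (Fin 3 →₀ ℕ)) (c : (Fin 3 →₀ ℕ) → ℤ) :
    (mp2Poly T c).eval₂ evalAtJ (jqN p) = ∑ d ∈ T, (c d : ℚ) • (jq ^ d 1 * jqN p ^ d 2) := by
  unfold mp2Poly
  rw [Polynomial.eval₂_finsetSum]
  refine Finset.sum_congr rfl fun d _ => ?_
  rw [Polynomial.eval₂_mul, Polynomial.eval₂_C, Polynomial.eval₂_pow, Polynomial.eval₂_X,
    map_mul, map_pow, evalAtJ_X, Int.cast_smul_eq_zsmul, zsmul_eq_mul, mul_assoc]
  congr 1
  simp [evalAtJ]

theorem mp2Poly_eval2 (T : Finset (Fin 3 →₀ ℕ)) (c : (Fin 3 →₀ ℕ) → ℤ) (a b : Qb) :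
    eval2 (mp2Poly T c) a b = ∑ d ∈ T, (c d : Qb) * (a ^ d 1 * b ^ d 2) := by
  unfold mp2Poly eval2
  rw [Polynomial.eval₂_finsetSum]
  refine Finset.sum_congr rfl fun d _ => ?_
  rw [Polynomial.eval₂_mul, Polynomial.eval₂_C, Polynomial.eval₂_pow, Polynomial.eval₂_X,
    map_mul, map_pow, mul_assoc]
  congr 1
  · simp
  · simp

/-- every relation over `ℚ̄` between `1, j, j_p` vanishes at `(1, a, b)` -/
theorem mp2_relations (a b : Qb)
    (hab : ∀ P : Polynomial (Polynomial ℤ), IsJRel p P → eval2 P a b = 0)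
    (jx jpx : modularFunctionFieldBar p)
    (hjx : (jx : LaurentSeries Qb) = coeffEmb Qb jq)
    (hjpx : (jpx : LaurentSeries Qb) = coeffEmb Qb (jqN p))
    (G : MvPolynomial (Fin 3) Qb) (hG : MvPolynomial.aeval ![1, jx, jpx] G = 0) :
    MvPolynomial.eval ![1, a, b] G = 0 := by
  rw [MvPolynomial.eval_eq']
  have h1 : ∀ d ∈ G.support, MvPolynomial.coeff d G * ∏ i, (![1, a, b] : Fin 3 → Qb) i ^ d i =
      MvPolynomial.coeff d G * (a ^ d 1 * b ^ d 2) := by
    intro d _
    rw [Fin.prod_univ_three]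
    simp
  rw [Finset.sum_congr rfl h1]
  refine mp2_descent G.support (fun d => MvPolynomial.coeff d G)
    (fun d => jq ^ d 1 * jqN p ^ d 2) (fun d => a ^ d 1 * b ^ d 2) ?_ ?_
  · -- the relation in the field of Laurent series
    have h2 := congrArg (fun x : modularFunctionFieldBar p => (x : LaurentSeries Qb)) hG
    simp only [ZeroMemClass.coe_zero] at h2
    rw [← h2, MvPolynomial.aeval_def, MvPolynomial.eval₂_eq']
    push_cast
    refine Finset.sum_congr rfl fun d _ => ?_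
    rw [Fin.prod_univ_three]
    simp only [Matrix.cons_val_zero, Matrix.cons_val_one, Matrix.cons_val, map_mul, map_pow]
    rw [← hjx, ← hjpx, OneMemClass.coe_one, one_pow, one_mul]
  · intro c hc
    have h3 : IsJRel p (mp2Poly G.support c) := by
      unfold IsJRel
      rw [mp2Poly_eval₂]
      exact hc
    have h4 := hab _ h3
    rwa [mp2Poly_eval2] at h4

end relations

/-! ### the place -/

section main

local notation "Qb" => AlgebraicClosure ℚ

variable (p : ℕ) [NeZero p]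

open Fermat.Agent.S17 in
/-- **MP2**: a point `(a, b)` of the plane model of `X₀(p)` (all relations between `j(q)` and
`j(q^p)` with integer coefficients vanish at `(a, b)`) is the image of a place `x` of the function
field of `X₀(p)` over `ℚ̄`: `j` and `j_p` are regular at `x`, `j(x) = a` and `j_p(x) = b`.
Here `jx`, `jpx` are any elements of the function field with the `q`-expansions `j(q)`, `j(q^p)`. -/
theorem exists_place_of_isJRel (a b : Qb)
    (hab : ∀ P : Polynomial (Polynomial ℤ), IsJRel p P → eval2 P a b = 0)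
    (jx jpx : modularFunctionFieldBar p)
    (hjx : (jx : LaurentSeries Qb) = coeffEmb Qb jq)
    (hjpx : (jpx : LaurentSeries Qb) = coeffEmb Qb (jqN p)) :
    ∃ x : Place Qb (modularFunctionFieldBar p),
      0 ≤ x.ord jx ∧ 0 ≤ x.ord jpx ∧ Pts.ev x jx = a ∧ Pts.ev x jpx = b := by
  have h := Fermat.Agent.RRMod.isRRField_bar p
  have hy : (![1, a, b] : Fin 3 → Qb) ≠ 0 := by
    intro h0
    have := congrFun h0 0
    simp at this
  obtain ⟨P, i₀, c, hz0, hord, hval⟩ := Closed.closed_image_of_placesExhaust h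
    (fun O hO hK => Closed.exists_place_eq h O hO hK)
    (![1, jx, jpx] : Fin 3 → modularFunctionFieldBar p) ![1, a, b] hy
    (fun G _ hG => mp2_relations p a b hab jx jpx hjx hjpx G hG)
  set u : modularFunctionFieldBar p := (![1, jx, jpx] : Fin 3 → modularFunctionFieldBar p) i₀
    with hu
  have h0 := hval 0
  have hord0 := hord 0
  simp only [Matrix.cons_val_zero] at h0 hord0
  have hev : Pts.ev P (1 / u) ≠ 0 := by
    intro h1
    rw [h1, mul_zero] at h0
    exact one_ne_zero h0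
  have hune : (1 / u) ≠ 0 := one_div_ne_zero hz0
  have hordu' : P.ord (1 / u) = 0 := by
    by_contra hcon
    have hpos : 0 < P.ord (1 / u) := lt_of_le_of_ne hord0 (Ne.symm hcon)
    exact hev ((Pts.ev_eq_zero_iff h P hune hord0).2 hpos)
  have hordu : P.ord u = 0 := by
    rw [one_div, P.ord_inv] at hordu'
    omega
  have hevu : Pts.ev P u = c := by
    have h1 := Pts.ev_inv h P hordu
    have hne : Pts.ev P u ≠ 0 := Pts.ev_ne_zero_of_ord_eq_zero h P hz0 hordu
    rw [one_div, h1] at h0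
    field_simp at h0
    exact h0
  have key : ∀ i, 0 ≤ P.ord ((![1, jx, jpx] : Fin 3 → modularFunctionFieldBar p) i) ∧
      Pts.ev P ((![1, jx, jpx] : Fin 3 → modularFunctionFieldBar p) i) =
        (![1, a, b] : Fin 3 → Qb) i := by
    intro i
    have h1 : (![1, jx, jpx] : Fin 3 → modularFunctionFieldBar p) i =
        ((![1, jx, jpx] : Fin 3 → modularFunctionFieldBar p) i / u) * u :=
      (div_mul_cancel₀ _ hz0).symm
    have h2 := hord i
    constructor
    · rcases eq_or_ne ((![1, jx, jpx] : Fin 3 → modularFunctionFieldBar p) i) 0 with h3 | h3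
      · rw [h3, Place.ord_zero]
      · rw [h1, P.ord_mul (div_ne_zero h3 hz0) hz0, hordu, add_zero]
        exact h2
    · rw [h1, Pts.ev_mul h P h2 hordu.ge, hevu, hval i]
      ring
  exact ⟨P, (key 1).1, (key 2).1, (key 1).2, (key 2).2⟩

end main

end Fermat.Agent.EMC
end
end MergeWrap_E_MC_Place

section MergeWrap_E_MC_Moduli -- from E/MC/Moduli.lean

set_option autoImplicit false
set_option linter.unusedSectionVars false

noncomputable section

namespace Fermat.Agent.EMC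

open WeierstrassCurve ModularCurve Fermat.Agent.ES12

/-- **MPQ** rationality: for `W` over `ℤ` and a Galois-fixed point `Q` of order `p`,
`j(W)` and `j(W/⟨Q⟩)` are rational numbers. -/
def RationalStatement (p : ℕ) : Prop :=
  ∀ (W : WeierstrassCurve ℤ), W.Δ ≠ 0 → ∀ Q : Pts W, (∀ σ : GQ, σ • Q = Q) → addOrderOf Q = p →
    ∃ a b : ℚ, algebraMap ℚ Qb a = jInv (CurveQb W) ∧
      algebraMap ℚ Qb b =
        jInv (EV.veluCurve (CurveQb W) (AddSubgroup.zmultiples Q : Set (Pts W)))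

/-- **MP3-zero** (the shape of `ES12.L1Statement`, cases swapped): a point of order `p` in the zero
component at a multiplicative prime `ℓ ≠ p`. -/
def ZeroValStatement (p : ℕ) : Prop :=
  ∀ (W : WeierstrassCurve ℤ), W.Δ ≠ 0 → ∀ ℓ : ℕ, ℓ.Prime → ℓ ≠ p → (ℓ : ℤ) ∣ W.Δ →
    ¬ (ℓ : ℤ) ∣ W.c₄ → ∀ A : ValuationSubring Qb, A.LiesOverPrime ℓ →
      ∀ Q : Pts W, addOrderOf Q = p → W.InZeroComponentAt A Q →
        A.valuation (EV.veluCurve (CurveQb W) (AddSubgroup.zmultiples Q : Set (Pts W))).c₄ = 1 ∧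
        A.valuation (EV.veluCurve (CurveQb W) (AddSubgroup.zmultiples Q : Set (Pts W))).Δ
          = A.valuation ((W.Δ : ℤ) : Qb) ^ p

/-- MP2 in the form used by `ES15.ModuliPoint`. -/
theorem exists_place_valAt (p : ℕ) [NeZero p] (a b : Qb)
    (hab : ∀ P : Polynomial (Polynomial ℤ), IsJRel p P → eval2 P a b = 0) :
    ∃ x : ES15.Pl p, ES15.ValAt x (ES15.jB p) a ∧ ES15.ValAt x (ES15.jpB p) b := by
  obtain ⟨x, h1, h2, h3, h4⟩ := exists_place_of_isJRel p a b hab (ES15.jB p) (ES15.jpB p)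
    (by
      show coeffEmb Qb (qExpand ℚ 1 jq) = coeffEmb Qb jq
      rw [qExpand_one_apply]) rfl
  refine ⟨x, ?_, ?_⟩
  · have := Fermat.Agent.S17.Pts.congAt_ev (Fermat.Agent.RRMod.isRRField_bar p) x h1
    rwa [h3] at this
  · have := Fermat.Agent.S17.Pts.congAt_ev (Fermat.Agent.RRMod.isRRField_bar p) x h2
    rwa [h4] at this

theorem curveQb_Δ (W : WeierstrassCurve ℤ) : (CurveQb W).Δ = ((W.Δ : ℤ) : Qb) := by
  show ((W.map (Int.castRingHom ℚ)).map (algebraMap ℚ Qb)).Δ = _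
  rw [WeierstrassCurve.map_Δ, WeierstrassCurve.map_Δ]
  simp

theorem curveQb_c₄ (W : WeierstrassCurve ℤ) : (CurveQb W).c₄ = ((W.c₄ : ℤ) : Qb) := by
  show ((W.map (Int.castRingHom ℚ)).map (algebraMap ℚ Qb)).c₄ = _
  rw [WeierstrassCurve.map_c₄, WeierstrassCurve.map_c₄]
  simp

/-- **(MP)** the moduli point, from its five inputs. -/
theorem moduliPoint_of {p : ℕ} (hp : p.Prime)
    (hMP1 : @ModEqStatement p ⟨hp.ne_zero⟩) (hQ : RationalStatement p)
    (hL1 : L1Statement p) (hZ : ZeroValStatement p) :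
    @ES15.ModuliPoint p ⟨hp.ne_zero⟩ := by
  have : NeZero p := ⟨hp.ne_zero⟩
  intro W hΔ Q hfix hord
  obtain ⟨a, b, ha, hb⟩ := hQ W hΔ Q hfix hord
  have hcard : Nat.card (AddSubgroup.zmultiples Q) = p := by
    rw [Nat.card_zmultiples, hord]
  have hΔ' : (CurveQb W).Δ ≠ 0 := by
    rw [curveQb_Δ]
    exact_mod_cast hΔ
  have hrel : ∀ P : Polynomial (Polynomial ℤ), IsJRel p P →
      eval2 P (algebraMap ℚ Qb a) (algebraMap ℚ Qb b) = 0 := by
    intro P hP
    rw [ha, hb]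
    exact hMP1 (CurveQb W) hΔ' (AddSubgroup.zmultiples Q) hcard P hP
  obtain ⟨x, hx1, hx2⟩ := exists_place_valAt p _ _ hrel
  refine ⟨a, b, x, hx1, hx2, ?_⟩
  intro ℓ hℓ hℓp hdvd hc4 A hA
  have hvΔ : A.valuation ((W.Δ : ℤ) : Qb) < 1 :=
    (valuation_intCast_lt_one_iff hℓ A hA _).mpr hdvd
  have hvΔ0 : 0 < A.valuation ((W.Δ : ℤ) : Qb) := by
    rw [Valuation.pos_iff]
    exact_mod_cast hΔ
  have hvc4 : A.valuation ((W.c₄ : ℤ) : Qb) = 1 :=
    stepAux_valuation_intCast_eq_one hℓ A hA hc4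
  have hva : A.valuation (algebraMap ℚ Qb a) = (A.valuation ((W.Δ : ℤ) : Qb))⁻¹ := by
    rw [ha, jInv, curveQb_Δ, curveQb_c₄, map_div₀, map_pow, hvc4, one_pow, one_div]
  refine ⟨?_, ?_, ?_⟩
  · rw [← A.valuation_le_one_iff, hva, not_le]
    exact (one_lt_inv₀ hvΔ0).mpr hvΔ
  · intro hnz
    obtain ⟨h1, h2⟩ := hL1 W hΔ ℓ hℓ hdvd hc4 A hA Q hord hnz
    rw [hva, hb, jInv, map_div₀, map_pow, h1, one_pow, one_div, inv_pow, h2]
  · intro hz
    obtain ⟨h1, h2⟩ := hZ W hΔ ℓ hℓ hℓp hdvd hc4 A hA Q hord hz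
    rw [hva, hb, jInv, map_div₀, map_pow, h1, one_pow, one_div, h2, inv_pow]

end Fermat.Agent.EMC
end
end MergeWrap_E_MC_Moduli

section MergeWrap_E_MC_Reduce -- from E/MC/Reduce.lean

set_option autoImplicit false

noncomputable section

namespace Fermat.Agent.EMC

open WeierstrassCurve UpperHalfPlane

/-- `jInv` is the `j`-invariant of an elliptic curve. -/
theorem rd_jInv_eq_j {k : Type*} [Field k] (W : WeierstrassCurve k) [W.IsElliptic] :
    jInv W = W.j := by
  unfold jInv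
  rw [WeierstrassCurve.j, div_eq_mul_inv, mul_comm, Units.val_inv_eq_inv_val, W.coe_Δ']

/-- `c₄³ / Δ` is invariant under changes of variables (also when `Δ = 0`). -/
theorem rd_jInv_eq_of_scaling {k : Type*} [Field k] {V V' : WeierstrassCurve k} {u : k}
    (hu : u ≠ 0) (h4 : V.c₄ = u ^ 4 * V'.c₄) (hD : V.Δ = u ^ 12 * V'.Δ) :
    jInv V = jInv V' := by
  unfold jInv
  rw [h4, hD]
  by_cases hz : V'.Δ = 0
  · rw [hz, mul_zero, div_zero, div_zero]
  · field_simp

variable [DecidableEq ℂ]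

/-- **AN5b**. -/
theorem reduce : ReduceStatement := by
  intro h0 hJ W hΔ
  obtain ⟨τ, hτ⟩ := Fermat.Agent.S24.JLocal.jFun_surjective (jInv W)
  have hΔ' : (latE (stdPair τ)).Δ ≠ 0 := (h0 _).1
  have hj : jInv (latE (stdPair τ)) = jInv W := by
    rw [hJ τ]
    exact hτ
  have : W.IsElliptic := ⟨isUnit_iff_ne_zero.mpr hΔ⟩
  have : (latE (stdPair τ)).IsElliptic := ⟨isUnit_iff_ne_zero.mpr hΔ'⟩
  obtain ⟨𝒞, h𝒞⟩ := exists_variableChange_of_j_eq W (latE (stdPair τ))
    (by rw [← rd_jInv_eq_j, ← rd_jInv_eq_j, hj])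
  have h : (latE (stdPair τ)).toAffine = 𝒞 • W.toAffine := h𝒞.symm
  refine ⟨τ, (EVC.vcEquiv 𝒞 h).symm, hj.symm, ?_⟩
  intro C hC
  have himg : (EVC.vcEquiv 𝒞 h).symm '' (C : Set W.toAffine.Point) =
      (VarChange.vcHom 𝒞 h) ⁻¹' (C : Set W.toAffine.Point) := by
    ext Q
    constructor
    · rintro ⟨P, hP, rfl⟩
      show VarChange.vcHom 𝒞 h ((EVC.vcEquiv 𝒞 h).symm P) ∈ (C : Set W.toAffine.Point)
      rw [← EVC.vcEquiv_apply, AddEquiv.apply_symm_apply]
      exact hP
    · intro hQ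
      refine ⟨VarChange.vcHom 𝒞 h Q, hQ, ?_⟩
      rw [← EVC.vcEquiv_apply, AddEquiv.symm_apply_apply]
  rw [himg]
  exact rd_jInv_eq_of_scaling 𝒞.u.ne_zero (EVC.veluCurve_c₄_vc 𝒞 h _ hC)
    (EVC.veluCurve_Δ_vc 𝒞 h _ hC)

end Fermat.Agent.EMC
end
end MergeWrap_E_MC_Reduce

section MergeWrap_E_MC_ModEq -- from E/MC/ModEq.lean

set_option autoImplicit false

noncomputable section

namespace Fermat.Agent.EMC

open WeierstrassCurve

/-- **AN5** the modular equation for the Vélu quotient over `ℂ`. -/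
theorem modEqComplex [DecidableEq ℂ] (p : ℕ) [hp : Fact p.Prime] :
    @ModEqComplexStatement _ p ⟨hp.out.ne_zero⟩ :=
  modEqComplex_of p reduce (latSub p)

/-- **(MP1)** the modular equation for the Vélu quotient over `ℚ̄`. -/
theorem modEq (p : ℕ) [hp : Fact p.Prime] : @ModEqStatement p ⟨hp.out.ne_zero⟩ := by
  classical
  exact @descent p ⟨hp.out.ne_zero⟩ _ (modEqComplex p)

end Fermat.Agent.EMC
end
end MergeWrap_E_MC_ModEq

section MergeWrap_E_MC_Rational -- from E/MC/Rational.lean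

set_option autoImplicit false

noncomputable section

namespace Fermat.Agent.EMC

open WeierstrassCurve Fermat.Agent.ES12 Fermat.Agent.EV

/-- the subfield `ℚ ⊆ ℚ̄`. -/
def mpqRat : Subfield Qb := (algebraMap ℚ Qb).fieldRange

theorem mpq_mem_iff (x : Qb) : x ∈ mpqRat ↔ ∃ r : ℚ, algebraMap ℚ Qb r = x :=
  RingHom.mem_fieldRange

theorem mpq_intCast_mem (n : ℤ) : ((n : ℤ) : Qb) ∈ mpqRat := intCast_mem mpqRat n

theorem mpq_mem_of_fixed (x : Qb) (h : ∀ σ : GQ, σ x = x) : x ∈ mpqRat := by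
  obtain ⟨r, hr⟩ := Fermat.Agent.EP.exists_ratCast_of_fixed x h
  exact (mpq_mem_iff x).mpr ⟨r, by rw [← hr]; rfl⟩

variable {W : WeierstrassCurve ℤ}

theorem mpq_fixed_of_mem_zmultiples {Q : Pts W} (hfix : ∀ σ : GQ, σ • Q = Q) {P : Pts W}
    (hP : P ∈ AddSubgroup.zmultiples Q) (σ : GQ) : σ • P = P := by
  obtain ⟨n, rfl⟩ := AddSubgroup.mem_zmultiples_iff.mp hP
  rw [WeierstrassCurve.Affine.Point.algEquiv_smul_zsmul, hfix σ]

theorem mpq_ptX_mem {Q : Pts W} (hfix : ∀ σ : GQ, σ • Q = Q) {P : Pts W}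
    (hP : P ∈ AddSubgroup.zmultiples Q) : ptX P ∈ mpqRat := by
  refine mpq_mem_of_fixed _ (fun σ => ?_)
  rw [← ptX_smul, mpq_fixed_of_mem_zmultiples hfix hP σ]

theorem mpq_veluT_mem {Q : Pts W} (hfix : ∀ σ : GQ, σ • Q = Q) {P : Pts W}
    (hP : P ∈ AddSubgroup.zmultiples Q) : veluT (CurveQb W) P ∈ mpqRat := by
  have hx := mpq_ptX_mem hfix hP
  unfold veluT
  rw [curveQb_b₂, curveQb_b₄]
  exact add_mem (add_mem (mul_mem (ofNat_mem _ 6) (pow_mem hx 2))
    (mul_mem (mpq_intCast_mem _) hx)) (mpq_intCast_mem _)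

theorem mpq_veluU_mem {Q : Pts W} (hfix : ∀ σ : GQ, σ • Q = Q) {P : Pts W}
    (hP : P ∈ AddSubgroup.zmultiples Q) : veluU (CurveQb W) P ∈ mpqRat := by
  have hx := mpq_ptX_mem hfix hP
  unfold veluU
  rw [curveQb_b₂, curveQb_b₄, curveQb_b₆]
  exact add_mem (add_mem (add_mem (mul_mem (ofNat_mem _ 4) (pow_mem hx 3))
    (mul_mem (mpq_intCast_mem _) (pow_mem hx 2)))
    (mul_mem (mul_mem (ofNat_mem _ 2) (mpq_intCast_mem _)) hx)) (mpq_intCast_mem _)

theorem mpq_veluSumT_mem {Q : Pts W} (hfix : ∀ σ : GQ, σ • Q = Q) :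
    veluSumT (CurveQb W) (AddSubgroup.zmultiples Q : Set (Pts W)) ∈ mpqRat := by
  unfold veluSumT
  refine div_mem ?_ (ofNat_mem _ 2)
  refine finsum_induction (· ∈ mpqRat) (zero_mem _) (fun _ _ => add_mem) (fun P => ?_)
  refine finsum_induction (· ∈ mpqRat) (zero_mem _) (fun _ _ => add_mem) (fun hP => ?_)
  exact mpq_veluT_mem hfix hP.1

theorem mpq_veluSumW_mem {Q : Pts W} (hfix : ∀ σ : GQ, σ • Q = Q) :
    veluSumW (CurveQb W) (AddSubgroup.zmultiples Q : Set (Pts W)) ∈ mpqRat := by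
  unfold veluSumW
  refine div_mem ?_ (ofNat_mem _ 2)
  refine finsum_induction (· ∈ mpqRat) (zero_mem _) (fun _ _ => add_mem) (fun P => ?_)
  refine finsum_induction (· ∈ mpqRat) (zero_mem _) (fun _ _ => add_mem) (fun hP => ?_)
  exact add_mem (mpq_veluU_mem hfix hP.1)
    (mul_mem (mpq_ptX_mem hfix hP.1) (mpq_veluT_mem hfix hP.1))

/-- `c₄³/Δ` of a curve with coefficients in a subfield lies in the subfield. -/
theorem mpq_jInv_mem {k : Type*} [Field k] (S : Subfield k) (E : WeierstrassCurve k)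
    (h₁ : E.a₁ ∈ S) (h₂ : E.a₂ ∈ S) (h₃ : E.a₃ ∈ S) (h₄ : E.a₄ ∈ S) (h₆ : E.a₆ ∈ S) :
    jInv E ∈ S := by
  have hb₂ : E.b₂ ∈ S := by
    rw [WeierstrassCurve.b₂]
    exact add_mem (pow_mem h₁ 2) (mul_mem (ofNat_mem _ 4) h₂)
  have hb₄ : E.b₄ ∈ S := by
    rw [WeierstrassCurve.b₄]
    exact add_mem (mul_mem (ofNat_mem _ 2) h₄) (mul_mem h₁ h₃)
  have hb₆ : E.b₆ ∈ S := by
    rw [WeierstrassCurve.b₆]
    exact add_mem (pow_mem h₃ 2) (mul_mem (ofNat_mem _ 4) h₆)
  have hb₈ : E.b₈ ∈ S := by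
    rw [WeierstrassCurve.b₈]
    exact sub_mem (add_mem (sub_mem (add_mem (mul_mem (pow_mem h₁ 2) h₆)
      (mul_mem (mul_mem (ofNat_mem _ 4) h₂) h₆)) (mul_mem (mul_mem h₁ h₃) h₄))
      (mul_mem h₂ (pow_mem h₃ 2))) (pow_mem h₄ 2)
  have hc₄ : E.c₄ ∈ S := by
    rw [WeierstrassCurve.c₄]
    exact sub_mem (pow_mem hb₂ 2) (mul_mem (ofNat_mem _ 24) hb₄)
  have hΔ : E.Δ ∈ S := by
    rw [WeierstrassCurve.Δ]
    exact add_mem (sub_mem (sub_mem (mul_mem (neg_mem (pow_mem hb₂ 2)) hb₈)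
      (mul_mem (ofNat_mem _ 8) (pow_mem hb₄ 3))) (mul_mem (ofNat_mem _ 27) (pow_mem hb₆ 2)))
      (mul_mem (mul_mem (mul_mem (ofNat_mem _ 9) hb₂) hb₄) hb₆)
  exact div_mem (pow_mem hc₄ 3) hΔ

/-- **MPQ** (no hypothesis on `Δ` or on the order is needed). -/
theorem rational_of_fixed (W : WeierstrassCurve ℤ) (Q : Pts W) (hfix : ∀ σ : GQ, σ • Q = Q) :
    ∃ a b : ℚ, algebraMap ℚ Qb a = jInv (CurveQb W) ∧
      algebraMap ℚ Qb b =
        jInv (EV.veluCurve (CurveQb W) (AddSubgroup.zmultiples Q : Set (Pts W))) := by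
  have h₁ : (CurveQb W).a₁ ∈ mpqRat := by rw [curveQb_a₁]; exact mpq_intCast_mem _
  have h₂ : (CurveQb W).a₂ ∈ mpqRat := by rw [curveQb_a₂]; exact mpq_intCast_mem _
  have h₃ : (CurveQb W).a₃ ∈ mpqRat := by rw [curveQb_a₃]; exact mpq_intCast_mem _
  have h₄ : (CurveQb W).a₄ ∈ mpqRat := by rw [curveQb_a₄]; exact mpq_intCast_mem _
  have h₆ : (CurveQb W).a₆ ∈ mpqRat := by rw [curveQb_a₆]; exact mpq_intCast_mem _
  have hb₂ : (CurveQb W).b₂ ∈ mpqRat := by rw [curveQb_b₂]; exact mpq_intCast_mem _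
  have hT := mpq_veluSumT_mem hfix
  have hW := mpq_veluSumW_mem hfix
  obtain ⟨a, ha⟩ := (mpq_mem_iff _).mp (mpq_jInv_mem mpqRat (CurveQb W) h₁ h₂ h₃ h₄ h₆)
  obtain ⟨b, hb⟩ := (mpq_mem_iff _).mp (mpq_jInv_mem mpqRat
    (EV.veluCurve (CurveQb W) (AddSubgroup.zmultiples Q : Set (Pts W))) h₁ h₂ h₃
    (sub_mem h₄ (mul_mem (ofNat_mem _ 5) hT))
    (sub_mem (sub_mem h₆ (mul_mem hb₂ hT)) (mul_mem (ofNat_mem _ 7) hW)))
  exact ⟨a, b, ha, hb⟩

/-- **MPQ** in the form of `RationalStatement`. -/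
theorem rational (p : ℕ) : RationalStatement p :=
  fun W _ Q hfix _ => rational_of_fixed W Q hfix

end Fermat.Agent.EMC
end
end MergeWrap_E_MC_Rational

section MergeWrap_E_MC_MP -- from E/MC/MP.lean

set_option autoImplicit false

noncomputable section

namespace Fermat.Agent.EMC

/-- **(MP)** from MP3-zero. -/
theorem moduliPoint_of_zero {p : ℕ} (hp : p.Prime) (hp2 : p ≠ 2) (hZ : ZeroValStatement p) :
    @ES15.ModuliPoint p ⟨hp.ne_zero⟩ :=
  moduliPoint_of hp (@modEq p ⟨hp⟩) (rational p) (ES12.l1Statement hp hp2) hZ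

end Fermat.Agent.EMC
end
end MergeWrap_E_MC_MP

section MergeWrap_E_MC_Zero_Basic -- from E/MC/Zero/Basic.lean

set_option autoImplicit false
set_option linter.unusedSectionVars false

open WeierstrassCurve WeierstrassCurve.Affine

namespace Fermat.Agent.EMZ

open Fermat.Agent.MultRed Fermat.Agent.EllRed IsLocalRing S05H5 S05H65 S05H75

variable {K : Type*} [Field K] [DecidableEq K] {A : ValuationSubring K} {E : Affine K} {α β : K}

/-- a node point is not in the zero component -/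
theorem not_inE0v_of_isNodePt (nf : NodalNF A.valuation E α β) {P : E.Point}
    (hP : IsNodePt A.valuation P) : ¬ InE0v A P := by
  rcases P with _ | ⟨x, y, h⟩
  · exact absurd hP (fun h => h)
  · obtain ⟨hx, hy⟩ := hP
    rintro (hG | ⟨x', y', h', heq, -, hns⟩)
    · rcases hG with h0 | hlt
      · exact absurd h0 (Point.some_ne_zero h)
      · rw [px_some] at hlt
        exact absurd hx (not_lt.mpr hlt.le)
    · simp only [Point.some.injEq] at heq
      obtain ⟨rfl, rfl⟩ := heq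
      exact hns (singular_of_isNode nf hx hy)

/-- a point which is not a node point is in the zero component -/
theorem inE0v_of_not_isNodePt (nf : NodalNF A.valuation E α β) {P : E.Point}
    (hP : ¬ IsNodePt A.valuation P) : InE0v A P := by
  classical
  rw [inE0v_iff nf.intCoeff]
  exact nf.inE0_of_not_isNodePt hP

theorem isNodePt_iff_not_inE0v (nf : NodalNF A.valuation E α β) (P : E.Point) :
    IsNodePt A.valuation P ↔ ¬ InE0v A P :=
  ⟨not_inE0v_of_isNodePt nf, fun h => by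
    by_contra hn
    exact h (inE0v_of_not_isNodePt nf hn)⟩

/-- node point + point of the zero component = node point -/
theorem isNodePt_add (nf : NodalNF A.valuation E α β) {P Q : E.Point}
    (hP : IsNodePt A.valuation P) (hQ : ¬ IsNodePt A.valuation Q) :
    IsNodePt A.valuation (P + Q) := by
  by_contra hn
  have h1 := inE0v_of_not_isNodePt nf hn
  have h2 := inE0v_of_not_isNodePt nf hQ
  have h3 := inE0v_sub nf.intCoeff h1 h2
  rw [add_sub_cancel_right] at h3
  exact not_inE0v_of_isNodePt nf hP h3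

/-- the multiples of a point of the zero component are not node points -/
theorem not_isNodePt_of_mem_zmultiples (nf : NodalNF A.valuation E α β) {Q : E.Point}
    (hQ : ¬ IsNodePt A.valuation Q) {P : E.Point} (hP : P ∈ AddSubgroup.zmultiples Q) :
    ¬ IsNodePt A.valuation P := by
  classical
  intro hn
  apply not_inE0v_of_isNodePt nf hn
  have hQ' : InE0v A Q := inE0v_of_not_isNodePt nf hQ
  have hsub : AddSubgroup.zmultiples Q ≤ E0 (isReduction_redCurve nf.intCoeff) := by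
    rw [AddSubgroup.zmultiples_le]
    exact (inE0v_iff nf.intCoeff Q).mp hQ'
  exact (inE0v_iff nf.intCoeff P).mpr (hsub hP)

/-- a nonzero torsion point of the zero component, of order prime to the residue characteristic,
is integral with nonsingular reduction -/
theorem nsInt_of_torsion (nf : NodalNF A.valuation E α β) {n : ℕ}
    (hn : A.valuation (n : K) = 1) {P : E.Point} (hP0 : P ≠ 0) (hnP : n • P = 0)
    (hP : ¬ IsNodePt A.valuation P) : NsInt A (redCurve A E) P := by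
  classical
  have h := isReduction_redCurve nf.intCoeff
  rcases nf.inE0_of_not_isNodePt hP with hG | hns
  · exact absurd (inG1_torsion_free A.valuation h.val_b₂ h.val_b₄ h.val_b₆ h.val_b₈ hn hG hnP) hP0
  · exact hns

/-- the coordinates of an integral point with nonsingular reduction -/
theorem NsInt_coords {Ek : Affine (ResidueField A)} (h : IsReduction A E Ek) {P : E.Point}
    (hP : NsInt A Ek P) :
    ∃ (x y : K) (hxy : E.Nonsingular x y), P = .some x y hxy ∧ x ∈ A ∧ y ∈ A ∧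
      Ek.Nonsingular (res A x) (res A y) := by
  obtain ⟨x, y, hxy, rfl, hx, hns⟩ := hP
  exact ⟨x, y, hxy, rfl, hx, h.mem_y hxy.1 hx, hns⟩

end Fermat.Agent.EMZ

namespace Fermat.Agent.EMZ

open Fermat.Agent.MultRed Fermat.Agent.EllRed IsLocalRing S05H5 S05H65 S05H75

variable {K : Type*} [Field K] [DecidableEq K] {A : ValuationSubring K} {E : Affine K} {α β : K}
  {p : ℕ} {Q : E.Point}

/-- the setting of MP3-zero: `E` in nodal normal form at `A`, `Q` a point of odd prime order `p`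
(a unit at `A`) in the zero component. -/
structure ZSetup (A : ValuationSubring K) (E : Affine K) (α β : K) (p : ℕ) (Q : E.Point) :
    Prop where
  nf : NodalNF A.valuation E α β
  hp : p.Prime
  hp2 : p ≠ 2
  hvp : A.valuation (p : K) = 1
  h2 : (2 : K) ≠ 0
  hQ : addOrderOf Q = p
  hQ0 : ¬ IsNodePt A.valuation Q

namespace ZSetup

variable (S : ZSetup A E α β p Q)
include S

lemma intCoeff : IntCoeff A E := S.nf.intCoeff

lemma isReduction : IsReduction A E (redCurve A E) := isReduction_redCurve S.nf.intCoeff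

lemma smul_Q : p • Q = 0 := by
  rw [← S.hQ]
  exact addOrderOf_nsmul_eq_zero Q

lemma Q_ne_zero : Q ≠ 0 := by
  intro h0
  have := S.hQ
  rw [h0, addOrderOf_zero] at this
  exact S.hp.one_lt.ne this

lemma smul_mem {P : E.Point} (hP : P ∈ AddSubgroup.zmultiples Q) : p • P = 0 := by
  rw [AddSubgroup.mem_zmultiples_iff] at hP
  obtain ⟨k, rfl⟩ := hP
  rw [smul_comm, S.smul_Q, smul_zero]

lemma not_isNodePt {P : E.Point} (hP : P ∈ AddSubgroup.zmultiples Q) :
    ¬ IsNodePt A.valuation P :=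
  not_isNodePt_of_mem_zmultiples S.nf S.hQ0 hP

lemma inE0v {P : E.Point} (hP : P ∈ AddSubgroup.zmultiples Q) : InE0v A P :=
  inE0v_of_not_isNodePt S.nf (S.not_isNodePt hP)

lemma nsInt {P : E.Point} (hP : P ∈ AddSubgroup.zmultiples Q) (hP0 : P ≠ 0) :
    NsInt A (redCurve A E) P :=
  nsInt_of_torsion S.nf S.hvp hP0 (S.smul_mem hP) (S.not_isNodePt hP)

lemma finite_C : ((AddSubgroup.zmultiples Q : AddSubgroup E.Point) : Set E.Point).Finite := by
  rw [finite_zmultiples, ← addOrderOf_pos_iff, S.hQ]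
  exact S.hp.pos

/-- a node point is not in `C` -/
lemma notMem_of_isNodePt {P : E.Point} (hP : IsNodePt A.valuation P) :
    P ∉ AddSubgroup.zmultiples Q :=
  fun h => S.not_isNodePt h hP

end ZSetup

end Fermat.Agent.EMZ
end MergeWrap_E_MC_Zero_Basic

section MergeWrap_E_MC_Zero_Sums -- from E/MC/Zero/Sums.lean

set_option autoImplicit false
set_option linter.unusedSectionVars false

open WeierstrassCurve WeierstrassCurve.Affine

namespace Fermat.Agent.EMZ

open Fermat.Agent.MultRed Fermat.Agent.MultRed.Comp Fermat.Agent.EllRed Fermat.Agent.EV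
  Fermat.Agent.EVC IsLocalRing S05H5 S05H65 S05H75

variable {K : Type*} [Field K] [DecidableEq K] {A : ValuationSubring K} {E : Affine K} {α β : K}
  {p : ℕ} {Q : E.Point}

namespace ZSetup

variable (S : ZSetup A E α β p Q)
include S

lemma ptX_mem {P : E.Point} (hP : P ∈ AddSubgroup.zmultiples Q) : ptX P ∈ A := by
  by_cases hP0 : P = 0
  · rw [hP0]
    exact A.zero_mem
  · obtain ⟨x, y, hxy, rfl, hx, -⟩ := S.nsInt hP hP0
    exact hx

lemma ptY_mem {P : E.Point} (hP : P ∈ AddSubgroup.zmultiples Q) : ptY P ∈ A := by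
  by_cases hP0 : P = 0
  · rw [hP0]
    exact A.zero_mem
  · obtain ⟨x, y, hxy, rfl, hx, -⟩ := S.nsInt hP hP0
    exact S.isReduction.mem_y hxy.1 hx

lemma veluT_mem {P : E.Point} (hP : P ∈ AddSubgroup.zmultiples Q) : veluT E P ∈ A := by
  have hx := S.ptX_mem hP
  have h := S.isReduction
  unfold veluT
  exact A.add_mem _ _ (A.add_mem _ _ (A.mul_mem _ _ (ofNat_mem A 6) (pow_mem hx 2))
    (A.mul_mem _ _ h.mem_b₂ hx)) h.mem_b₄

lemma veluU_mem {P : E.Point} (hP : P ∈ AddSubgroup.zmultiples Q) : veluU E P ∈ A := by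
  have hx := S.ptX_mem hP
  have h := S.isReduction
  unfold veluU
  exact A.add_mem _ _ (A.add_mem _ _ (A.add_mem _ _ (A.mul_mem _ _ (ofNat_mem A 4) (pow_mem hx 3))
    (A.mul_mem _ _ h.mem_b₂ (pow_mem hx 2)))
    (A.mul_mem _ _ (A.mul_mem _ _ (ofNat_mem A 2) h.mem_b₄) hx)) h.mem_b₆

/-- the finite set of nonzero points of the line -/
lemma finite_nz : (nz (AddSubgroup.zmultiples Q : Set E.Point)).Finite :=
  S.finite_C.subset fun _ hP => hP.1

/-- half of the sum over the nonzero points of an even integral function is integral -/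
theorem half_sum_mem (f : E.Point → K) (hf : ∀ P, f (-P) = f P)
    (hfA : ∀ P ∈ AddSubgroup.zmultiples Q, f P ∈ A) :
    (∑ᶠ P ∈ nz (AddSubgroup.zmultiples Q : Set E.Point), f P) / 2 ∈ A := by
  classical
  have hfin := S.finite_nz
  set T₀ := hfin.toFinset with hT₀
  have memT : ∀ P, P ∈ T₀ ↔ P ∈ AddSubgroup.zmultiples Q ∧ P ≠ 0 := fun P => by
    rw [hT₀, Set.Finite.mem_toFinset]
    rfl
  have hneg : ∀ P ∈ T₀, -P ∈ T₀ := by
    intro P hP
    rw [memT] at hP ⊢
    exact ⟨AddSubgroup.neg_mem _ hP.1, neg_ne_zero.mpr hP.2⟩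
  have hne : ∀ P ∈ T₀, -P ≠ P := by
    intro P hP hPP
    rw [memT] at hP
    have h2P : 2 • P = 0 := by
      rw [two_nsmul]
      nth_rewrite 1 [← hPP]
      exact neg_add_cancel P
    have hodd : p % 2 = 1 := by
      rcases S.hp.eq_two_or_odd with h | h
      · exact absurd h S.hp2
      · exact h
    have : P = 0 := by
      have e : p = 2 * (p / 2) + 1 := by omega
      have h1 : (2 * (p / 2) + 1) • P = 0 := by rw [← e]; exact S.smul_mem hP.1
      rw [add_nsmul, mul_nsmul, h2P, smul_zero, zero_add, one_nsmul] at h1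
      exact h1
    exact hP.2 this
  obtain ⟨T, hTS, hsum⟩ := exists_half (K := K) T₀ hneg hne
  have half : ∀ a : K, (a + a) / 2 = a := fun a => by
    have := S.h2
    field_simp
    ring
  rw [finsum_mem_eq_finite_toFinset_sum _ hfin, ← hT₀, hsum f hf, half]
  exact sum_mem fun P hP => hfA P ((memT P).mp (hTS hP)).1

lemma ptX_neg' (P : E.Point) : ptX (-P) = ptX P := by
  rcases P with _ | ⟨x, y, hxy⟩ <;> rfl

theorem veluSumT_mem : veluSumT E (AddSubgroup.zmultiples Q : Set E.Point) ∈ A := by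
  rw [veluSumT_eq]
  refine S.half_sum_mem _ (fun P => ?_) (fun P hP => S.veluT_mem hP)
  simp only [veluT, S.ptX_neg']

theorem veluSumW_mem : veluSumW E (AddSubgroup.zmultiples Q : Set E.Point) ∈ A := by
  rw [veluSumW_eq]
  refine S.half_sum_mem _ (fun P => ?_)
    (fun P hP => A.add_mem _ _ (S.veluU_mem hP) (A.mul_mem _ _ (S.ptX_mem hP) (S.veluT_mem hP)))
  simp only [veluT, veluU, S.ptX_neg']

/-- **the Vélu model is integral** -/
theorem intCoeff_velu : IntCoeff A (veluCurve E (AddSubgroup.zmultiples Q : Set E.Point)) where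
  mem_a₁ := S.intCoeff.mem_a₁
  mem_a₂ := S.intCoeff.mem_a₂
  mem_a₃ := S.intCoeff.mem_a₃
  mem_a₄ := sub_mem S.intCoeff.mem_a₄ (A.mul_mem _ _ (ofNat_mem A 5) S.veluSumT_mem)
  mem_a₆ := sub_mem (sub_mem S.intCoeff.mem_a₆
    (A.mul_mem _ _ S.isReduction.mem_b₂ S.veluSumT_mem))
    (A.mul_mem _ _ (ofNat_mem A 7) S.veluSumW_mem)

end ZSetup

end Fermat.Agent.EMZ
end MergeWrap_E_MC_Zero_Sums

section MergeWrap_E_MC_Zero_NodeX -- from E/MC/Zero/NodeX.lean

/-!
# MP3-zero, leaf C4a: the `x`-coordinate on a nodal cubic in terms of the character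

`w = s / t`, `s = y - α x`, `t = y - β x`:  `x (1 - w)² = b₂ w`.
-/

set_option autoImplicit false

open WeierstrassCurve

namespace Fermat.Agent.EMZ

open Fermat.Agent.MultRed

theorem nodeChar_x_formula {F : Type*} [Field F] [DecidableEq F] {W : WeierstrassCurve.Affine F}
    {α β : F} (nc : NodeCubic W α β) {x y : F} (h : W.Nonsingular x y) :
    x * (1 - nodeChar W α β (.some x y h)) ^ 2 = W.b₂ * nodeChar W α β (.some x y h) := by
  have ht := nc.t_ne_zero h
  have hst := nc.toTangentForm.st_eq h.1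
  rw [nc.a₆, add_zero] at hst
  have hb₂ : W.b₂ = (α - β) ^ 2 := by
    have h1 := nc.hsum
    have h2 := nc.hprod
    rw [WeierstrassCurve.b₂]
    have ha₁ : W.a₁ = -(α + β) := by rw [h1]; ring
    have ha₂ : W.a₂ = -(α * β) := by rw [h2]; ring
    rw [ha₁, ha₂]
    ring
  have e1 : 1 - (y - α * x) / (y - β * x) = ((α - β) * x) / (y - β * x) := by
    rw [eq_div_iff ht, sub_mul, one_mul, div_mul_cancel₀ _ ht]
    ring
  rw [nodeChar_some, hb₂, e1, div_pow, ← mul_div_assoc, ← mul_div_assoc,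
    div_eq_div_iff (pow_ne_zero 2 ht) ht]
  linear_combination (-(α - β) ^ 2 * (y - β * x)) * hst

end Fermat.Agent.EMZ
end MergeWrap_E_MC_Zero_NodeX

section MergeWrap_E_MC_Zero_Reindex -- from E/MC/Zero/Reindex.lean

/-!
# MP3-zero, leaf C4b: the sum over the nonzero points of a cyclic group
-/

set_option autoImplicit false

namespace Fermat.Agent.EMZ

theorem finsum_nz_zmultiples {G M : Type*} [AddGroup G] [AddCommMonoid M] {Q : G} {p : ℕ}
    (hp : 0 < p) (hQ : addOrderOf Q = p) (F : G → M) :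
    ∑ᶠ P ∈ {P : G | P ∈ (AddSubgroup.zmultiples Q : Set G) ∧ P ≠ 0}, F P
      = ∑ i ∈ Finset.Ico 1 p, F (i • Q) := by
  classical
  have hfin : IsOfFinAddOrder Q := by
    rw [← addOrderOf_pos_iff, hQ]; exact hp
  rw [← finsum_mem_coe_finset (fun i => F (i • Q)) (Finset.Ico 1 p)]
  symm
  refine finsum_mem_eq_of_bijOn (fun i : ℕ => i • Q) ⟨?_, ?_, ?_⟩ (fun _ _ => rfl)
  · intro i hi
    rw [Finset.coe_Ico, Set.mem_Ico] at hi
    refine ⟨AddSubgroup.nsmul_mem_zmultiples Q i, ?_⟩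
    intro h0
    have := addOrderOf_dvd_of_nsmul_eq_zero h0
    rw [hQ] at this
    exact absurd (Nat.le_of_dvd (by omega) this) (by omega)
  · intro i hi j hj hij
    rw [Finset.coe_Ico, Set.mem_Ico] at hi hj
    exact nsmul_injOn_Iio_addOrderOf (by rw [Set.mem_Iio, hQ]; exact hi.2)
      (by rw [Set.mem_Iio, hQ]; exact hj.2) hij
  · rintro P ⟨hP, hP0⟩
    rw [SetLike.mem_coe, hfin.mem_zmultiples_iff_mem_range_addOrderOf, Finset.mem_image] at hP
    obtain ⟨i, hi, rfl⟩ := hP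
    rw [Finset.mem_range, hQ] at hi
    refine ⟨i, ?_, rfl⟩
    rw [Finset.coe_Ico, Set.mem_Ico]
    refine ⟨?_, hi⟩
    rcases Nat.eq_zero_or_pos i with h0 | h0
    · exact absurd (by rw [h0, zero_smul]) hP0
    · exact h0

end Fermat.Agent.EMZ
end MergeWrap_E_MC_Zero_Reindex

section MergeWrap_E_MC_Zero_RootSum -- from E/MC/Zero/RootSum.lean

/-!
# MP3-zero, leaf Z3a: a root-of-unity sum

`ζ` a primitive `n`-th root of unity in a field `k`, `X_i = ζ^i / (1 - ζ^i)^2`.  Then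
`120 * ∑_{0 < i < n} (6 X_i^2 + X_i) = n^4 - 1`  (any characteristic).

Proof: `z_i = 1/(1 - ζ^i)` are the roots of `X^n - (X-1)^n` (degree `n - 1`, leading coefficient `n`),
so `n e_r(z) = C(n, r+1)` (Vieta); `X_i = z_i^2 - z_i`; Newton's identities for `p_1, .., p_4`;
an integer identity between binomial coefficients.
-/

set_option autoImplicit false

open Polynomial Finset

namespace Fermat.Agent.EMZ

namespace RootSumAux

section IntIdentity

/-- `C(n, k+1) (k+1) = C(n, k) (n - k)` in `ℚ`. -/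
theorem choose_succ_rat (n k : ℕ) :
    (n.choose (k + 1) : ℚ) * ((k : ℚ) + 1) = (n.choose k : ℚ) * ((n : ℚ) - k) := by
  have h := Nat.choose_succ_right_eq n k
  rcases le_or_gt k n with hk | hk
  · have := congrArg (Nat.cast : ℕ → ℚ) h
    push_cast [Nat.cast_sub hk] at this
    exact this
  · rw [Nat.choose_eq_zero_of_lt hk, Nat.choose_eq_zero_of_lt (by omega)]
    simp

/-- The integer identity behind the root-of-unity sum. -/
theorem rootSum_int (n : ℕ) :
    (120 : ℤ) * (6 * ((n.choose 2 : ℤ) ^ 4 - 4 * n * (n.choose 2 : ℤ) ^ 2 * n.choose 3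
          + 4 * (n : ℤ) ^ 2 * n.choose 2 * n.choose 4 + 2 * (n : ℤ) ^ 2 * (n.choose 3 : ℤ) ^ 2
          - 4 * (n : ℤ) ^ 3 * n.choose 5)
        - 12 * n * ((n.choose 2 : ℤ) ^ 3 - 3 * n * n.choose 2 * n.choose 3
          + 3 * (n : ℤ) ^ 2 * n.choose 4)
        + 7 * (n : ℤ) ^ 2 * ((n.choose 2 : ℤ) ^ 2 - 2 * n * n.choose 3)
        - (n : ℤ) ^ 3 * n.choose 2)
      = (n : ℤ) ^ 4 * ((n : ℤ) ^ 4 - 1) := by
  have h2 := choose_succ_rat n 1
  have h3 := choose_succ_rat n 2
  have h4 := choose_succ_rat n 3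
  have h5 := choose_succ_rat n 4
  simp only [Nat.choose_one_right, Nat.cast_one, Nat.cast_ofNat, Nat.reduceAdd] at h2 h3 h4 h5
  norm_num at h2 h3 h4 h5
  have e2 : (n.choose 2 : ℚ) = n * (n - 1) / 2 := by linarith
  have e3 : (n.choose 3 : ℚ) = n * (n - 1) * (n - 2) / 6 := by
    rw [e2] at h3; linarith
  have e4 : (n.choose 4 : ℚ) = n * (n - 1) * (n - 2) * (n - 3) / 24 := by
    rw [e3] at h4; linarith
  have e5 : (n.choose 5 : ℚ) = n * (n - 1) * (n - 2) * (n - 3) * (n - 4) / 120 := by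
    rw [e4] at h5; linarith
  have : (120 : ℚ) * (6 * ((n.choose 2 : ℚ) ^ 4 - 4 * n * (n.choose 2 : ℚ) ^ 2 * n.choose 3
          + 4 * (n : ℚ) ^ 2 * n.choose 2 * n.choose 4 + 2 * (n : ℚ) ^ 2 * (n.choose 3 : ℚ) ^ 2
          - 4 * (n : ℚ) ^ 3 * n.choose 5)
        - 12 * n * ((n.choose 2 : ℚ) ^ 3 - 3 * n * n.choose 2 * n.choose 3
          + 3 * (n : ℚ) ^ 2 * n.choose 4)
        + 7 * (n : ℚ) ^ 2 * ((n.choose 2 : ℚ) ^ 2 - 2 * n * n.choose 3)
        - (n : ℚ) ^ 3 * n.choose 2)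
      = (n : ℚ) ^ 4 * ((n : ℚ) ^ 4 - 1) := by
    rw [e2, e3, e4, e5]
    ring
  exact_mod_cast this

end IntIdentity

section Newton

variable {k : Type*} [CommRing k] {m : ℕ} (z : Fin m → k)

/-- elementary symmetric functions of the family -/
noncomputable def esF (r : ℕ) : k := ((Finset.univ : Finset (Fin m)).val.map z).esymm r

theorem aeval_esymm_esF (r : ℕ) :
    MvPolynomial.aeval z (MvPolynomial.esymm (Fin m) k r) = esF z r :=
  MvPolynomial.aeval_esymm_eq_multiset_esymm (Fin m) k r z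

theorem aeval_psum_sum (r : ℕ) :
    MvPolynomial.aeval z (MvPolynomial.psum (Fin m) k r) = ∑ i, z i ^ r := by
  simp [MvPolynomial.psum]

theorem esF_zero : esF z 0 = 1 := by
  simp [esF, Multiset.esymm]

theorem newton1 : ∑ i, z i = esF z 1 := by
  have h := MvPolynomial.mul_esymm_eq_sum (Fin m) k 1
  rw [show (antidiagonal 1).filter (fun a : ℕ × ℕ => a.1 < 1) = {(0, 1)} from by decide,
    Finset.sum_singleton] at h
  have h' := congrArg (MvPolynomial.aeval z) h
  simp only [map_mul, map_pow, map_neg, map_one, map_natCast, aeval_esymm_esF,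
    aeval_psum_sum, esF_zero] at h'
  simp only [pow_one] at h' ⊢
  linear_combination -h'

theorem newton2 : ∑ i, z i ^ 2 = esF z 1 * ∑ i, z i - 2 * esF z 2 := by
  have h := MvPolynomial.mul_esymm_eq_sum (Fin m) k 2
  rw [show (antidiagonal 2).filter (fun a : ℕ × ℕ => a.1 < 2) = {(0, 2), (1, 1)} from by decide,
    Finset.sum_pair (by decide)] at h
  have h' := congrArg (MvPolynomial.aeval z) h
  simp only [map_mul, map_pow, map_neg, map_one, map_add, map_natCast, aeval_esymm_esF,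
    aeval_psum_sum, esF_zero] at h'
  simp only [pow_one] at h' ⊢
  push_cast at h'
  linear_combination h'

theorem newton3 : ∑ i, z i ^ 3 = esF z 1 * ∑ i, z i ^ 2 - esF z 2 * ∑ i, z i + 3 * esF z 3 := by
  have h := MvPolynomial.mul_esymm_eq_sum (Fin m) k 3
  rw [show (antidiagonal 3).filter (fun a : ℕ × ℕ => a.1 < 3) = {(0, 3), (1, 2), (2, 1)}
      from by decide,
    Finset.sum_insert (by decide), Finset.sum_pair (by decide)] at h
  have h' := congrArg (MvPolynomial.aeval z) h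
  simp only [map_mul, map_pow, map_neg, map_one, map_add, map_natCast, aeval_esymm_esF,
    aeval_psum_sum, esF_zero] at h'
  simp only [pow_one] at h' ⊢
  push_cast at h'
  linear_combination -h'

theorem newton4 : ∑ i, z i ^ 4 = esF z 1 * ∑ i, z i ^ 3 - esF z 2 * ∑ i, z i ^ 2
    + esF z 3 * ∑ i, z i - 4 * esF z 4 := by
  have h := MvPolynomial.mul_esymm_eq_sum (Fin m) k 4
  rw [show (antidiagonal 4).filter (fun a : ℕ × ℕ => a.1 < 4)
        = {(0, 4), (1, 3), (2, 2), (3, 1)} from by decide,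
    Finset.sum_insert (by decide), Finset.sum_insert (by decide),
    Finset.sum_pair (by decide)] at h
  have h' := congrArg (MvPolynomial.aeval z) h
  simp only [map_mul, map_pow, map_neg, map_one, map_add, map_natCast, aeval_esymm_esF,
    aeval_psum_sum, esF_zero] at h'
  simp only [pow_one] at h' ⊢
  push_cast at h'
  linear_combination h'

end Newton

section Roots

variable {k : Type*} [Field k]

/-- `z_j = 1/(1 - ζ^(j+1))`, `j < n - 1`. -/
noncomputable def zF (ζ : k) (n : ℕ) : Fin (n - 1) → k := fun j => (1 - ζ ^ ((j : ℕ) + 1))⁻¹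

/-- `X^n - (X-1)^n`. -/
noncomputable def fP (k : Type*) [Field k] (n : ℕ) : k[X] := X ^ n - (X + C (-1)) ^ n

theorem coeff_fP_of_lt {n j : ℕ} (hj : j < n) :
    (fP k n).coeff j = -((-1) ^ (n - j) * (n.choose j : k)) := by
  rw [fP, coeff_sub, coeff_X_pow, if_neg (Nat.ne_of_lt hj), coeff_X_add_C_pow, zero_sub]

theorem coeff_fP_of_le {n j : ℕ} (hj : n ≤ j) : (fP k n).coeff j = 0 := by
  rw [fP, coeff_sub, coeff_X_pow, coeff_X_add_C_pow]
  rcases Nat.eq_or_lt_of_le hj with rfl | h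
  · simp
  · rw [if_neg (Nat.ne_of_gt h), Nat.choose_eq_zero_of_lt h]
    simp

theorem coeff_fP_pred {n : ℕ} (hn : 0 < n) : (fP k n).coeff (n - 1) = n := by
  rw [coeff_fP_of_lt (by omega), show n - (n - 1) = 1 by omega, Nat.choose_symm (by omega : 1 ≤ n),
    Nat.choose_one_right]
  ring

theorem natDegree_fP {n : ℕ} (hn : 0 < n) (h0 : (n : k) ≠ 0) : (fP k n).natDegree = n - 1 := by
  apply le_antisymm
  · rw [natDegree_le_iff_coeff_eq_zero]
    intro N hN
    exact coeff_fP_of_le (by omega)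
  · apply le_natDegree_of_ne_zero
    rw [coeff_fP_pred hn]
    exact h0

theorem leadingCoeff_fP {n : ℕ} (hn : 0 < n) (h0 : (n : k) ≠ 0) : (fP k n).leadingCoeff = n := by
  rw [leadingCoeff, natDegree_fP hn h0, coeff_fP_pred hn]

theorem fP_ne_zero {n : ℕ} (hn : 0 < n) (h0 : (n : k) ≠ 0) : fP k n ≠ 0 := by
  intro h
  have := coeff_fP_pred (k := k) hn
  rw [h, coeff_zero] at this
  exact h0 this.symm

variable {n : ℕ} {ζ : k}

theorem one_sub_pow_ne_zero (hζ : IsPrimitiveRoot ζ n) (j : Fin (n - 1)) :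
    1 - ζ ^ ((j : ℕ) + 1) ≠ 0 := by
  have hj := j.2
  have := hζ.pow_ne_one_of_pos_of_lt (Nat.succ_ne_zero j) (by omega : (j : ℕ) + 1 < n)
  intro h
  exact this (sub_eq_zero.1 h).symm

theorem zF_injective (hζ : IsPrimitiveRoot ζ n) : Function.Injective (zF ζ n) := by
  intro i j h
  simp only [zF] at h
  have h1 := inv_injective h
  have h2 : ζ ^ ((i : ℕ) + 1) = ζ ^ ((j : ℕ) + 1) := by linear_combination -h1
  have hi := i.2
  have hj := j.2
  have := hζ.pow_inj (by omega) (by omega) h2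
  exact Fin.ext (by omega)

theorem isRoot_zF (hζ : IsPrimitiveRoot ζ n) (j : Fin (n - 1)) : (fP k n).IsRoot (zF ζ n j) := by
  have h1 := one_sub_pow_ne_zero hζ j
  have hw : (ζ ^ ((j : ℕ) + 1)) ^ n = 1 := by
    rw [← pow_mul, mul_comm, pow_mul, hζ.pow_eq_one, one_pow]
  have e : zF ζ n j - 1 = ζ ^ ((j : ℕ) + 1) * zF ζ n j := by
    simp only [zF]
    field_simp
    ring
  rw [IsRoot, fP, eval_sub, eval_pow, eval_pow, eval_add, eval_X, eval_C, ← sub_eq_add_neg, e,
    mul_pow, hw, one_mul, sub_self]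

theorem roots_fP (hζ : IsPrimitiveRoot ζ n) (hn : 0 < n) (h0 : (n : k) ≠ 0) :
    (fP k n).roots = (Finset.univ : Finset (Fin (n - 1))).val.map (zF ζ n) := by
  symm
  apply Multiset.eq_of_le_of_card_le
  · rw [Multiset.le_iff_subset ((Finset.univ : Finset (Fin (n - 1))).nodup.map (zF_injective hζ))]
    intro x hx
    obtain ⟨j, -, rfl⟩ := Multiset.mem_map.1 hx
    exact (mem_roots (fP_ne_zero hn h0)).2 (isRoot_zF hζ j)
  · refine (card_roots' _).trans ?_
    rw [natDegree_fP hn h0]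
    simp

theorem card_roots_fP (hζ : IsPrimitiveRoot ζ n) (hn : 0 < n) (h0 : (n : k) ≠ 0) :
    Multiset.card (fP k n).roots = (fP k n).natDegree := by
  rw [roots_fP hζ hn h0, natDegree_fP hn h0]
  simp

/-- **Vieta**: `n e_r(z) = C(n, r+1)`. -/
theorem natCast_mul_esF (hζ : IsPrimitiveRoot ζ n) (hn : 0 < n) (h0 : (n : k) ≠ 0) (r : ℕ) :
    (n : k) * esF (zF ζ n) r = (n.choose (r + 1) : k) := by
  rcases Nat.lt_or_ge (n - 1) r with hr | hr
  · rw [Nat.choose_eq_zero_of_lt (by omega), Nat.cast_zero, esF, Multiset.esymm,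
      Multiset.powersetCard_eq_empty _ (by simpa using hr)]
    simp
  · have h := coeff_eq_esymm_roots_of_card (card_roots_fP hζ hn h0)
      (k := n - 1 - r) (by rw [natDegree_fP hn h0]; omega)
    rw [natDegree_fP hn h0, leadingCoeff_fP hn h0, roots_fP hζ hn h0,
      coeff_fP_of_lt (by omega), show n - (n - 1 - r) = r + 1 by omega,
      show n - 1 - (n - 1 - r) = r by omega,
      show n - 1 - r = n - (r + 1) by omega, Nat.choose_symm (by omega : r + 1 ≤ n)] at h
    have hs : ((-1 : k) ^ r) ≠ 0 := pow_ne_zero _ (neg_ne_zero.2 one_ne_zero)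
    apply mul_left_cancel₀ hs
    rw [esF]
    linear_combination -h

end Roots

end RootSumAux

section Main

open RootSumAux

variable {k : Type*} [Field k] {n : ℕ} {ζ : k}

theorem rootSum_term_eq (hζ : IsPrimitiveRoot ζ n) (j : Fin (n - 1)) :
    6 * (ζ ^ ((j : ℕ) + 1) / (1 - ζ ^ ((j : ℕ) + 1)) ^ 2) ^ 2
        + ζ ^ ((j : ℕ) + 1) / (1 - ζ ^ ((j : ℕ) + 1)) ^ 2
      = 6 * zF ζ n j ^ 4 - 12 * zF ζ n j ^ 3 + 7 * zF ζ n j ^ 2 - zF ζ n j := by
  have h1 := one_sub_pow_ne_zero hζ j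
  simp only [zF]
  field_simp
  ring

theorem rootSum_sum_Ico_eq_sum_fin (n : ℕ) (g : ℕ → k) :
    ∑ i ∈ Finset.Ico 1 n, g i = ∑ j : Fin (n - 1), g ((j : ℕ) + 1) := by
  rw [Finset.sum_Ico_eq_sum_range, Fin.sum_univ_eq_sum_range (fun i => g (i + 1)) (n - 1)]
  exact Finset.sum_congr rfl fun i _ => by rw [add_comm]

/-- **Z3a**: the root-of-unity sum. -/
theorem rootSum (hζ : IsPrimitiveRoot ζ n) (hn : 0 < n) :
    120 * ∑ i ∈ Finset.Ico 1 n, (6 * (ζ ^ i / (1 - ζ ^ i) ^ 2) ^ 2 + ζ ^ i / (1 - ζ ^ i) ^ 2)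
      = (n : k) ^ 4 - 1 := by
  have : NeZero n := ⟨hn.ne'⟩
  have h0 : (n : k) ≠ 0 := (hζ.neZero').out
  rw [rootSum_sum_Ico_eq_sum_fin n
    (fun i => 6 * (ζ ^ i / (1 - ζ ^ i) ^ 2) ^ 2 + ζ ^ i / (1 - ζ ^ i) ^ 2)]
  simp only [rootSum_term_eq hζ]
  rw [Finset.sum_sub_distrib, Finset.sum_add_distrib, Finset.sum_sub_distrib,
    ← Finset.mul_sum, ← Finset.mul_sum, ← Finset.mul_sum]
  set z := zF ζ n with hz
  have he1 := natCast_mul_esF hζ hn h0 1
  have he2 := natCast_mul_esF hζ hn h0 2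
  have he3 := natCast_mul_esF hζ hn h0 3
  have he4 := natCast_mul_esF hζ hn h0 4
  simp only [Nat.reduceAdd] at he1 he2 he3 he4
  rw [← hz] at he1 he2 he3 he4
  have hp1 : (n : k) * ∑ i, z i = (n.choose 2 : k) := by
    rw [newton1, he1]
  have hp2 : (n : k) ^ 2 * ∑ i, z i ^ 2
      = (n.choose 2 : k) ^ 2 - 2 * n * n.choose 3 := by
    calc (n : k) ^ 2 * ∑ i, z i ^ 2
        = ((n : k) * esF z 1) * ((n : k) * ∑ i, z i) - 2 * n * ((n : k) * esF z 2) := by
          rw [newton2]; ring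
      _ = _ := by rw [he1, hp1, he2]; ring
  have hp3 : (n : k) ^ 3 * ∑ i, z i ^ 3
      = (n.choose 2 : k) ^ 3 - 3 * n * n.choose 2 * n.choose 3 + 3 * (n : k) ^ 2 * n.choose 4 := by
    calc (n : k) ^ 3 * ∑ i, z i ^ 3
        = ((n : k) * esF z 1) * ((n : k) ^ 2 * ∑ i, z i ^ 2)
          - n * ((n : k) * esF z 2) * ((n : k) * ∑ i, z i)
          + 3 * (n : k) ^ 2 * ((n : k) * esF z 3) := by
          rw [newton3]; ring
      _ = _ := by rw [he1, hp1, he2, hp2, he3]; ring
  have hp4 : (n : k) ^ 4 * ∑ i, z i ^ 4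
      = (n.choose 2 : k) ^ 4 - 4 * n * (n.choose 2 : k) ^ 2 * n.choose 3
          + 4 * (n : k) ^ 2 * n.choose 2 * n.choose 4 + 2 * (n : k) ^ 2 * (n.choose 3 : k) ^ 2
          - 4 * (n : k) ^ 3 * n.choose 5 := by
    calc (n : k) ^ 4 * ∑ i, z i ^ 4
        = ((n : k) * esF z 1) * ((n : k) ^ 3 * ∑ i, z i ^ 3)
          - n * ((n : k) * esF z 2) * ((n : k) ^ 2 * ∑ i, z i ^ 2)
          + (n : k) ^ 2 * ((n : k) * esF z 3) * ((n : k) * ∑ i, z i)
          - 4 * (n : k) ^ 3 * ((n : k) * esF z 4) := by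
          rw [newton4]; ring
      _ = _ := by rw [he1, hp1, he2, hp2, he3, hp3, he4]; ring
  have key := congrArg (Int.cast : ℤ → k) (rootSum_int n)
  push_cast at key
  apply mul_left_cancel₀ (pow_ne_zero 4 h0)
  calc (n : k) ^ 4 * (120 * (6 * ∑ i, z i ^ 4 - 12 * ∑ i, z i ^ 3 + 7 * ∑ i, z i ^ 2 - ∑ i, z i))
      = 120 * (6 * ((n : k) ^ 4 * ∑ i, z i ^ 4) - 12 * n * ((n : k) ^ 3 * ∑ i, z i ^ 3)
          + 7 * (n : k) ^ 2 * ((n : k) ^ 2 * ∑ i, z i ^ 2) - (n : k) ^ 3 * ((n : k) * ∑ i, z i)) := by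
        ring
    _ = _ := by rw [hp4, hp3, hp2, hp1, key]

end Main

end Fermat.Agent.EMZ
end MergeWrap_E_MC_Zero_RootSum

section MergeWrap_E_MC_Zero_C4 -- from E/MC/Zero/C4.lean

set_option autoImplicit false
set_option linter.unusedSectionVars false

open WeierstrassCurve WeierstrassCurve.Affine

namespace Fermat.Agent.EMZ

open Fermat.Agent.MultRed Fermat.Agent.MultRed.Comp Fermat.Agent.EllRed Fermat.Agent.EV
  Fermat.Agent.EVC IsLocalRing S05H5 S05H65 S05H75

variable {K : Type*} [Field K] [DecidableEq K] {A : ValuationSubring K} {E : Affine K} {α β : K}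
  {p : ℕ} {Q : E.Point}

/-- the residue of a finite sum of integral elements -/
lemma res_finset_sum {ι : Type*} (s : Finset ι) (f : ι → K) (hf : ∀ i ∈ s, f i ∈ A) :
    res A (∑ i ∈ s, f i) = ∑ i ∈ s, res A (f i) := by
  classical
  induction s using Finset.induction_on with
  | empty => simp
  | insert a s ha ih =>
    rw [Finset.sum_insert ha, Finset.sum_insert ha,
      res_add (hf a (Finset.mem_insert_self a s))
        (sum_mem fun i hi => hf i (Finset.mem_insert_of_mem hi)),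
      ih fun i hi => hf i (Finset.mem_insert_of_mem hi)]

/-- the character of the reduction, `χ = nodeChar ∘ red0` -/
noncomputable def chi (A : ValuationSubring K) (E : Affine K) (α β : K)
    [DecidableEq (ResidueField A)] (P : E.Point) : ResidueField A :=
  nodeChar (redCurve A E) (res A α) (res A β) (red0 A (redCurve A E) P)

namespace ZSetup

variable (S : ZSetup A E α β p Q) [DecidableEq (ResidueField A)]
include S

lemma inE0 {P : E.Point} (hP : P ∈ AddSubgroup.zmultiples Q) : InE0 A (redCurve A E) P :=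
  (inE0v_iff S.intCoeff P).mp (S.inE0v hP)

lemma chi_nsmul (i : ℕ) : chi A E α β (i • Q) = chi A E α β Q ^ i := by
  unfold chi
  rw [red0_nsmul S.isReduction (S.inE0 (AddSubgroup.mem_zmultiples Q)),
    S.nf.nodeCubic.nodeChar_nsmul]

lemma chi_ne_one {P : E.Point} (hP : P ∈ AddSubgroup.zmultiples Q) (hP0 : P ≠ 0) :
    chi A E α β P ≠ 1 := by
  unfold chi
  rw [Ne, S.nf.nodeCubic.nodeChar_eq_one_iff]
  exact red0_ne_zero_of_nsInt (S.nsInt hP hP0)

lemma chi_primitive : IsPrimitiveRoot (chi A E α β Q) p := by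
  have h1 : chi A E α β Q ^ p = 1 := by
    rw [← S.chi_nsmul, S.smul_Q]
    unfold chi
    rw [red0_zero, nodeChar_zero]
  have h2 : chi A E α β Q ≠ 1 := S.chi_ne_one (AddSubgroup.mem_zmultiples Q) S.Q_ne_zero
  haveI : Fact p.Prime := ⟨S.hp⟩
  have h3 : orderOf (chi A E α β Q) = p := orderOf_eq_prime h1 h2
  rw [← h3]
  exact IsPrimitiveRoot.orderOf _

lemma res_b₂_ne_zero : res A E.b₂ ≠ 0 := by
  rw [res_ne_zero_iff S.isReduction.mem_b₂]
  have hb : E.b₂ = (α - β) ^ 2 := by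
    have h1 := S.nf.hsum
    have h2 := S.nf.hprod
    simp only [WeierstrassCurve.b₂]
    have ha₁ : E.a₁ = -(α + β) := by rw [h1]; ring
    have ha₂ : E.a₂ = -(α * β) := by rw [h2]; ring
    rw [ha₁, ha₂]
    ring
  rw [hb, map_pow, S.nf.vαβ, one_pow]

lemma b₄_eq_zero : E.b₄ = 0 := by
  simp only [WeierstrassCurve.b₄, S.nf.a₃, S.nf.a₄]
  ring

lemma redCurve_b₂ : (redCurve A E).b₂ = res A E.b₂ := by
  have h := S.isReduction
  simp only [WeierstrassCurve.b₂, redCurve]
  rw [res_add (A.mul_mem _ _ h.mem_a₁ h.mem_a₁ |> fun h' => by simpa [pow_two] using h')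
    (A.mul_mem _ _ (ofNat_mem A 4) h.mem_a₂), res_pow h.mem_a₁, res_mul (ofNat_mem A 4) h.mem_a₂,
    res_ofNat]

/-- the `x`-coordinate of the reduction -/
lemma res_ptX {P : E.Point} (hP : P ∈ AddSubgroup.zmultiples Q) (hP0 : P ≠ 0) :
    res A (ptX P) * (1 - chi A E α β P) ^ 2 = res A E.b₂ * chi A E α β P := by
  obtain ⟨x, y, hxy, rfl, hx, hns⟩ := S.nsInt hP hP0
  unfold chi
  rw [red0_some hxy hx hns, ← S.redCurve_b₂]
  exact nodeChar_x_formula S.nf.nodeCubic hns

lemma res_veluT {P : E.Point} (hP : P ∈ AddSubgroup.zmultiples Q) (hP0 : P ≠ 0) :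
    res A (veluT E P) = res A E.b₂ ^ 2 *
      (6 * (chi A E α β P / (1 - chi A E α β P) ^ 2) ^ 2
        + chi A E α β P / (1 - chi A E α β P) ^ 2) := by
  have hx := S.ptX_mem hP
  have h := S.isReduction
  have h1 : 1 - chi A E α β P ≠ 0 := sub_ne_zero.mpr (S.chi_ne_one hP hP0).symm
  have hX : res A (ptX P) = res A E.b₂ * (chi A E α β P / (1 - chi A E α β P) ^ 2) := by
    rw [← mul_div_assoc, eq_div_iff (pow_ne_zero 2 h1)]
    exact S.res_ptX hP hP0
  unfold veluT
  rw [S.b₄_eq_zero, add_zero, res_add (A.mul_mem _ _ (ofNat_mem A 6) (pow_mem hx 2))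
    (A.mul_mem _ _ h.mem_b₂ hx), res_mul (ofNat_mem A 6) (pow_mem hx 2), res_pow hx,
    res_mul h.mem_b₂ hx, res_ofNat, hX]
  ring

/-- the residue of `2 t` -/
lemma res_two_mul_veluSumT :
    res A (2 * veluSumT E (AddSubgroup.zmultiples Q : Set E.Point)) = res A E.b₂ ^ 2 *
      ∑ i ∈ Finset.Ico 1 p, (6 * (chi A E α β Q ^ i / (1 - chi A E α β Q ^ i) ^ 2) ^ 2
        + chi A E α β Q ^ i / (1 - chi A E α β Q ^ i) ^ 2) := by
  have e : 2 * veluSumT E (AddSubgroup.zmultiples Q : Set E.Point)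
      = ∑ i ∈ Finset.Ico 1 p, veluT E (i • Q) := by
    rw [veluSumT_eq, mul_div_cancel₀ _ S.h2]
    exact finsum_nz_zmultiples S.hp.pos S.hQ (veluT E)
  have hmem : ∀ i : ℕ, i • Q ∈ AddSubgroup.zmultiples Q := fun i =>
    AddSubgroup.nsmul_mem _ (AddSubgroup.mem_zmultiples Q) i
  have hne : ∀ i ∈ Finset.Ico 1 p, i • Q ≠ 0 := by
    intro i hi h0
    rw [Finset.mem_Ico] at hi
    have := addOrderOf_dvd_of_nsmul_eq_zero h0
    rw [S.hQ] at this
    have := Nat.le_of_dvd (by omega) this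
    omega
  rw [e, res_finset_sum _ _ (fun i _ => S.veluT_mem (hmem i)), Finset.mul_sum]
  refine Finset.sum_congr rfl fun i hi => ?_
  rw [S.res_veluT (hmem i) (hne i hi), S.chi_nsmul]

/-- **(Z3)** the residue of `c₄` of the Vélu model is `p⁴ b₂²` -/
theorem res_veluCurve_c₄ :
    res A (veluCurve E (AddSubgroup.zmultiples Q : Set E.Point)).c₄
      = res A E.b₂ ^ 2 * (p : ResidueField A) ^ 4 := by
  have h := S.isReduction
  have ht := S.veluSumT_mem
  have e : (veluCurve E (AddSubgroup.zmultiples Q : Set E.Point)).c₄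
      = E.b₂ ^ 2 + 120 * (2 * veluSumT E (AddSubgroup.zmultiples Q : Set E.Point)) := by
    rw [veluCurve_c₄_normal S.nf.a₃ S.nf.a₄]
    ring
  have h2t : 2 * veluSumT E (AddSubgroup.zmultiples Q : Set E.Point) ∈ A :=
    A.mul_mem _ _ (ofNat_mem A 2) ht
  rw [e, res_add (pow_mem h.mem_b₂ 2) (A.mul_mem _ _ (ofNat_mem A 120) h2t), res_pow h.mem_b₂,
    res_mul (ofNat_mem A 120) h2t, res_ofNat, S.res_two_mul_veluSumT]
  have hroot := rootSum S.chi_primitive S.hp.pos
  linear_combination (res A E.b₂) ^ 2 * hroot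

/-- **(Z3)** `c₄` of the Vélu model is a unit -/
theorem veluCurve_c₄_unit :
    A.valuation (veluCurve E (AddSubgroup.zmultiples Q : Set E.Point)).c₄ = 1 := by
  have hint := S.intCoeff_velu
  have hmem : (veluCurve E (AddSubgroup.zmultiples Q : Set E.Point)).c₄ ∈ A := by
    have h := isReduction_redCurve hint
    simp only [WeierstrassCurve.c₄]
    exact sub_mem (pow_mem h.mem_b₂ 2) (A.mul_mem _ _ (ofNat_mem A 24) h.mem_b₄)
  rw [← res_ne_zero_iff hmem, S.res_veluCurve_c₄]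
  refine mul_ne_zero (pow_ne_zero 2 S.res_b₂_ne_zero) (pow_ne_zero 4 ?_)
  rw [← res_natCast (A := A), res_ne_zero_iff (natCast_mem A p)]
  exact S.hvp

end ZSetup

end Fermat.Agent.EMZ
end MergeWrap_E_MC_Zero_C4

section MergeWrap_E_MC_Zero_Sing -- from E/MC/Zero/Sing.lean

set_option autoImplicit false
set_option linter.unusedSectionVars false

open WeierstrassCurve WeierstrassCurve.Affine

namespace Fermat.Agent.EMZ

open Fermat.Agent.MultRed Fermat.Agent.EllRed Fermat.Agent.EV Fermat.Agent.EVC IsLocalRing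
  S05H5 S05H65 S05H75

variable {K : Type*} [Field K] [DecidableEq K] {A : ValuationSubring K} {E : Affine K} {α β : K}
  {p : ℕ} {Q : E.Point}

/-- an integral affine point of `E⁰` is an integral point with nonsingular reduction -/
theorem sg_nsInt_of_inE0 {E' : Affine K} {Ek : Affine (ResidueField A)} {x y : K}
    (h : E'.Nonsingular x y) (hx : x ∈ A) (hE0 : InE0 A Ek (Point.some x y h)) :
    Ek.Nonsingular (res A x) (res A y) := by
  rcases hE0 with hG | ⟨x', y', hxy', heq, -, hns'⟩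
  · rcases hG with h0 | hlt
    · exact absurd h0 (Point.some_ne_zero h)
    · rw [px_some] at hlt
      exact absurd ((A.valuation_le_one_iff x).mpr hx) (not_le.mpr hlt)
  · simp only [Point.some.injEq] at heq
    obtain ⟨rfl, rfl⟩ := heq
    exact hns'

/-- on an integral model: if `T` and `2 T` are integral affine points with the same reduction,
then `T` has singular reduction -/
theorem sg_isSingPt_of_double {E' : Affine K} (hint : IntCoeff A E') {x y x₂ y₂ : K}
    (h : E'.Nonsingular x y) (h₂ : E'.Nonsingular x₂ y₂)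
    (h2T : (2 : ℕ) • (Point.some x y h : E'.Point) = Point.some x₂ y₂ h₂)
    (hx : x ∈ A) (hx₂ : x₂ ∈ A)
    (hxx : A.valuation (x - x₂) < 1) (hyy : A.valuation (y - y₂) < 1) :
    IsSingPt A.valuation (Point.some x y h : E'.Point) := by
  classical
  by_contra hns
  have hR := isReduction_redCurve hint
  have hE0v : InE0v A (Point.some x y h : E'.Point) := (not_isSingPt_iff_inE0v _).mp hns
  have hE0 : InE0 A (redCurve A E') (Point.some x y h : E'.Point) := (inE0v_iff hint _).mp hE0v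
  have hy : y ∈ A := hR.mem_y h.1 hx
  have hy₂ : y₂ ∈ A := hR.mem_y h₂.1 hx₂
  have hns' := sg_nsInt_of_inE0 h hx hE0
  have hE0₂ := inE0_nsmul hR hE0 2
  rw [h2T] at hE0₂
  have hns₂ := sg_nsInt_of_inE0 h₂ hx₂ hE0₂
  have e1 := red0_nsmul hR hE0 2
  rw [h2T, red0_some h₂ hx₂ hns₂, red0_some h hx hns'] at e1
  have ex : res A x₂ = res A x := by
    rw [res_eq_iff hx₂ hx, ← neg_sub, Valuation.map_neg]
    exact hxx
  have ey : res A y₂ = res A y := by
    rw [res_eq_iff hy₂ hy, ← neg_sub, Valuation.map_neg]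
    exact hyy
  have e2 : (Point.some (res A x₂) (res A y₂) hns₂ : (redCurve A E').Point)
      = Point.some (res A x) (res A y) hns' := by
    simp only [Point.some.injEq]
    exact ⟨ex, ey⟩
  rw [e2, two_nsmul] at e1
  have e3 : (Point.some (res A x) (res A y) hns' : (redCurve A E').Point) = 0 := by
    have := e1.symm
    rwa [add_eq_left] at this
  exact Point.some_ne_zero hns' e3

/-- a singular point on the reduction forces bad reduction -/
theorem sg_Δ_lt_of_isSingPt {E' : Affine K} (hint : IntCoeff A E') {T : E'.Point}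
    (hT : IsSingPt A.valuation T) : A.valuation E'.Δ < 1 := by
  have hR := isReduction_redCurve hint
  rcases T with _ | ⟨x, y, h⟩
  · exact absurd hT (fun h => h)
  · obtain ⟨hx, h1, h2⟩ := hT
    have hxA : x ∈ A := (A.valuation_le_one_iff x).mp hx
    have hyA : y ∈ A := hR.mem_y h.1 hxA
    by_contra hΔ
    have hΔ1 : (redCurve A E').Δ ≠ 0 := by
      rw [← hR.res_Δ, Ne, res_eq_zero_iff hR.mem_Δ]
      exact hΔ
    have hns := hR.nonsingular_res hΔ1 h.1 hxA hyA
    rw [nonsingular_res_iff hint h.1 hxA] at hns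
    exact hns ⟨h1, h2⟩

/-- the coordinates of a node point -/
theorem sg_node_coords {P : E.Point} (hP : IsNodePt A.valuation P) :
    A.valuation (ptX P) < 1 ∧ A.valuation (ptY P) < 1 := by
  rcases P with _ | ⟨x, y, h⟩
  · exact absurd hP (fun h => h)
  · exact hP

namespace ZSetup

variable (S : ZSetup A E α β p Q)
include S

/-- `2 R` is a node point if `R` is a `p`-torsion node point -/
theorem isNodePt_two_nsmul {R : E.Point} (hR : IsNodePt A.valuation R) (hpR : p • R = 0) :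
    IsNodePt A.valuation (2 • R) := by
  classical
  by_contra hn
  have h1 : InE0v A (2 • R) := inE0v_of_not_isNodePt S.nf hn
  have h2 : InE0 A (redCurve A E) (2 • R) := (inE0v_iff S.intCoeff _).mp h1
  have h3 := inE0_nsmul S.isReduction h2 ((p + 1) / 2)
  have hodd : p % 2 = 1 := by
    rcases S.hp.eq_two_or_odd with h | h
    · exact absurd h S.hp2
    · exact h
  have e : ((p + 1) / 2) • (2 • R) = R := by
    rw [← mul_nsmul']
    have : (p + 1) / 2 * 2 = p + 1 := by omega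
    rw [this, add_nsmul, hpR, zero_add, one_nsmul]
  rw [e] at h3
  exact not_inE0v_of_isNodePt S.nf hR ((inE0v_iff S.intCoeff _).mpr h3)

/-- the sum of the `x`-coordinates of the nonzero points of the line is integral -/
theorem sum_ptX_mem :
    (∑ᶠ P ∈ nz (AddSubgroup.zmultiples Q : Set E.Point), ptX P) ∈ A := by
  rw [finsum_mem_eq_finite_toFinset_sum _ S.finite_nz]
  refine sum_mem fun P hP => ?_
  rw [Set.Finite.mem_toFinset] at hP
  exact S.ptX_mem hP.1

/-- the sum of the `y`-coordinates of the nonzero points of the line is integral -/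
theorem sum_ptY_mem :
    (∑ᶠ P ∈ nz (AddSubgroup.zmultiples Q : Set E.Point), ptY P) ∈ A := by
  rw [finsum_mem_eq_finite_toFinset_sum _ S.finite_nz]
  refine sum_mem fun P hP => ?_
  rw [Set.Finite.mem_toFinset] at hP
  exact S.ptY_mem hP.1

/-- `veluX P ≡ -Σ x(Qᵢ)` for a node point `P` -/
theorem veluX_add_sum_lt {P : E.Point} (hP : IsNodePt A.valuation P) :
    A.valuation (veluX E (AddSubgroup.zmultiples Q : Set E.Point) P +
      ∑ᶠ P' ∈ nz (AddSubgroup.zmultiples Q : Set E.Point), ptX P') < 1 := by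
  have hfin := S.finite_nz
  have e : veluX E (AddSubgroup.zmultiples Q : Set E.Point) P +
      ∑ᶠ P' ∈ nz (AddSubgroup.zmultiples Q : Set E.Point), ptX P'
      = ptX P + ∑ᶠ P' ∈ nz (AddSubgroup.zmultiples Q : Set E.Point), ptX (P + P') := by
    have h1 : veluX E (AddSubgroup.zmultiples Q : Set E.Point) P
        = ptX P + ∑ᶠ P' ∈ nz (AddSubgroup.zmultiples Q : Set E.Point),
            (ptX (P + P') - ptX P') := rfl
    rw [h1, finsum_mem_sub_distrib _ _ hfin]
    ring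
  rw [e, finsum_mem_eq_finite_toFinset_sum _ hfin]
  refine lt_of_le_of_lt (Valuation.map_add _ _ _) (max_lt (sg_node_coords hP).1 ?_)
  refine Valuation.map_sum_lt _ one_ne_zero fun P' hP' => ?_
  rw [Set.Finite.mem_toFinset] at hP'
  exact (sg_node_coords (isNodePt_add S.nf hP (S.not_isNodePt hP'.1))).1

/-- `veluY P ≡ -Σ y(Qᵢ)` for a node point `P` -/
theorem veluY_add_sum_lt {P : E.Point} (hP : IsNodePt A.valuation P) :
    A.valuation (veluY E (AddSubgroup.zmultiples Q : Set E.Point) P +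
      ∑ᶠ P' ∈ nz (AddSubgroup.zmultiples Q : Set E.Point), ptY P') < 1 := by
  have hfin := S.finite_nz
  have e : veluY E (AddSubgroup.zmultiples Q : Set E.Point) P +
      ∑ᶠ P' ∈ nz (AddSubgroup.zmultiples Q : Set E.Point), ptY P'
      = ptY P + ∑ᶠ P' ∈ nz (AddSubgroup.zmultiples Q : Set E.Point), ptY (P + P') := by
    have h1 : veluY E (AddSubgroup.zmultiples Q : Set E.Point) P
        = ptY P + ∑ᶠ P' ∈ nz (AddSubgroup.zmultiples Q : Set E.Point),
            (ptY (P + P') - ptY P') := rfl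
    rw [h1, finsum_mem_sub_distrib _ _ hfin]
    ring
  rw [e, finsum_mem_eq_finite_toFinset_sum _ hfin]
  refine lt_of_le_of_lt (Valuation.map_add _ _ _) (max_lt (sg_node_coords hP).2 ?_)
  refine Valuation.map_sum_lt _ one_ne_zero fun P' hP' => ?_
  rw [Set.Finite.mem_toFinset] at hP'
  exact (sg_node_coords (isNodePt_add S.nf hP (S.not_isNodePt hP'.1))).2

/-- `veluX P` is integral for a node point `P` -/
theorem veluX_mem {P : E.Point} (hP : IsNodePt A.valuation P) :
    veluX E (AddSubgroup.zmultiples Q : Set E.Point) P ∈ A := by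
  have h1 : veluX E (AddSubgroup.zmultiples Q : Set E.Point) P +
      ∑ᶠ P' ∈ nz (AddSubgroup.zmultiples Q : Set E.Point), ptX P' ∈ A :=
    (A.valuation_le_one_iff _).mp (S.veluX_add_sum_lt hP).le
  have := sub_mem h1 S.sum_ptX_mem
  rwa [add_sub_cancel_right] at this

/-- the reduction of `(veluX P, veluY P)` does not depend on the node point `P` -/
theorem velu_sub_lt {P P' : E.Point} (hP : IsNodePt A.valuation P)
    (hP' : IsNodePt A.valuation P') :
    A.valuation (veluX E (AddSubgroup.zmultiples Q : Set E.Point) P -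
        veluX E (AddSubgroup.zmultiples Q : Set E.Point) P') < 1 ∧
      A.valuation (veluY E (AddSubgroup.zmultiples Q : Set E.Point) P -
        veluY E (AddSubgroup.zmultiples Q : Set E.Point) P') < 1 := by
  constructor
  · have h1 := S.veluX_add_sum_lt hP
    have h2 := S.veluX_add_sum_lt hP'
    have := lt_of_le_of_lt (Valuation.map_sub _ _ _) (max_lt h1 h2)
    rwa [add_sub_add_right_eq_sub] at this
  · have h1 := S.veluY_add_sum_lt hP
    have h2 := S.veluY_add_sum_lt hP'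
    have := lt_of_le_of_lt (Valuation.map_sub _ _ _) (max_lt h1 h2)
    rwa [add_sub_add_right_eq_sub] at this

/-- **(Z4b)** the image of a `p`-torsion node point has singular reduction on the Vélu model -/
theorem isSingPt_velu
    (φ : E.Point →+ (veluCurve E (AddSubgroup.zmultiples Q : Set E.Point)).Point)
    (hφ : ∀ P : E.Point, P ∉ AddSubgroup.zmultiples Q →
      ∃ h, φ P = .some (veluX E (AddSubgroup.zmultiples Q : Set E.Point) P)
        (veluY E (AddSubgroup.zmultiples Q : Set E.Point) P) h)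
    {R : E.Point} (hR : IsNodePt A.valuation R) (hpR : p • R = 0) :
    IsSingPt A.valuation (φ R) := by
  have hR2 := S.isNodePt_two_nsmul hR hpR
  obtain ⟨h, e⟩ := hφ R (S.notMem_of_isNodePt hR)
  obtain ⟨h₂, e₂⟩ := hφ (2 • R) (S.notMem_of_isNodePt hR2)
  rw [e]
  have h2T : (2 : ℕ) • (Point.some _ _ h :
      (veluCurve E (AddSubgroup.zmultiples Q : Set E.Point)).Point) = Point.some _ _ h₂ := by
    rw [← e, ← e₂, map_nsmul]
  obtain ⟨hxx, hyy⟩ := S.velu_sub_lt hR hR2
  exact sg_isSingPt_of_double S.intCoeff_velu h h₂ h2T (S.veluX_mem hR) (S.veluX_mem hR2) hxx hyy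

/-- the Vélu model has bad reduction -/
theorem veluCurve_Δ_lt
    (φ : E.Point →+ (veluCurve E (AddSubgroup.zmultiples Q : Set E.Point)).Point)
    (hφ : ∀ P : E.Point, P ∉ AddSubgroup.zmultiples Q →
      ∃ h, φ P = .some (veluX E (AddSubgroup.zmultiples Q : Set E.Point) P)
        (veluY E (AddSubgroup.zmultiples Q : Set E.Point) P) h)
    {R : E.Point} (hR : IsNodePt A.valuation R) (hpR : p • R = 0) :
    A.valuation (veluCurve E (AddSubgroup.zmultiples Q : Set E.Point)).Δ < 1 :=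
  sg_Δ_lt_of_isSingPt S.intCoeff_velu (S.isSingPt_velu φ hφ hR hpR)

end ZSetup

end Fermat.Agent.EMZ
end MergeWrap_E_MC_Zero_Sing

section MergeWrap_E_MC_Zero_ExistsR -- from E/MC/Zero/ExistsR.lean

set_option autoImplicit false
set_option linter.unusedSectionVars false

open WeierstrassCurve WeierstrassCurve.Affine

namespace Fermat.Agent.EMZ

open Fermat.Agent.MultRed Fermat.Agent.EllRed Fermat.Agent.Torsion IsLocalRing S05H5 S05H65 S05H75

variable {K : Type*} [Field K] [DecidableEq K] [IsAlgClosed K] [CharZero K]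
  {A : ValuationSubring K} {E : Affine K} {α β : K}

/-- **(Z4a)** some `p`-torsion point is a node point -/
theorem exists_torsion_isNodePt (nf : NodalNF A.valuation E α β) (hΔ : E.Δ ≠ 0) {p : ℕ}
    (hp : p.Prime) (hvp : A.valuation (p : K) = 1) :
    ∃ R : E.Point, p • R = 0 ∧ IsNodePt A.valuation R := by
  classical
  by_contra hcon
  push Not at hcon
  have hred := isReduction_redCurve nf.intCoeff
  have nc := nf.nodeCubic
  have hE0 : ∀ P : E.Point, p • P = 0 → InE0 A (redCurve A E) P := fun P hP =>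
    nf.inE0_of_not_isNodePt (hcon P hP)
  -- the character of the reduction on the `p`-torsion
  let f : {P : E.Point | p • P = 0} → ResidueField A := fun P =>
    nodeChar (redCurve A E) (res A α) (res A β) (red0 A (redCurve A E) P.1)
  have hf_pow : ∀ P, f P ^ p = 1 := by
    intro P
    show nodeChar (redCurve A E) (res A α) (res A β) (red0 A (redCurve A E) P.1) ^ p = 1
    rw [← nc.nodeChar_nsmul, ← red0_nsmul hred (hE0 P.1 P.2), P.2, red0_zero, nodeChar_zero]
  have hf_inj : Function.Injective f := by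
    intro P Q hPQ
    have hP := hE0 P.1 P.2
    have hQ := hE0 Q.1 Q.2
    have hsub : InE0 A (redCurve A E) (P.1 - Q.1) := inE0_sub hred hP hQ
    have h1 : red0 A (redCurve A E) P.1 =
        red0 A (redCurve A E) (P.1 - Q.1) + red0 A (redCurve A E) Q.1 := by
      rw [← red0_add hred hsub hQ, sub_add_cancel]
    have h2 : nodeChar (redCurve A E) (res A α) (res A β) (red0 A (redCurve A E) (P.1 - Q.1)) *
        f Q = f P := by
      show _ * nodeChar (redCurve A E) (res A α) (res A β) (red0 A (redCurve A E) Q.1) =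
        nodeChar (redCurve A E) (res A α) (res A β) (red0 A (redCurve A E) P.1)
      rw [h1, nc.nodeChar_add]
    have hfQ : f Q ≠ 0 := nc.nodeChar_ne_zero _
    have h3 : nodeChar (redCurve A E) (res A α) (res A β)
        (red0 A (redCurve A E) (P.1 - Q.1)) = 1 := by
      rw [hPQ] at h2
      exact mul_right_cancel₀ hfQ (h2.trans (one_mul _).symm)
    have h4 : red0 A (redCurve A E) (P.1 - Q.1) = 0 := (nc.nodeChar_eq_one_iff _).mp h3
    have h5 : InG1 A.valuation (P.1 - Q.1) := (red0_eq_zero_iff hsub).mp h4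
    have h6 : p • (P.1 - Q.1) = 0 := by
      rw [smul_sub, P.2, Q.2, sub_zero]
    have h7 : P.1 - Q.1 = 0 :=
      inG1_torsion_free A.valuation hred.val_b₂ hred.val_b₄ hred.val_b₆ hred.val_b₈ hvp h5 h6
    exact Subtype.ext (sub_eq_zero.mp h7)
  -- counting
  have hcard : Nat.card {P : E.Point | p • P = 0} = p ^ 2 := by
    rw [← tcard_eq_sq hΔ hp.one_le, tcard_eq_ncard, Nat.card_coe_set_eq]
  let g : {P : E.Point | p • P = 0} → (Polynomial.nthRootsFinset p (1 : ResidueField A)) :=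
    fun P => ⟨f P, (Polynomial.mem_nthRootsFinset hp.pos _).mpr (hf_pow P)⟩
  have hg_inj : Function.Injective g := by
    intro P Q hPQ
    exact hf_inj (congrArg Subtype.val hPQ)
  have hle : Nat.card {P : E.Point | p • P = 0} ≤ p := by
    calc Nat.card {P : E.Point | p • P = 0}
        ≤ Nat.card (Polynomial.nthRootsFinset p (1 : ResidueField A)) :=
          Nat.card_le_card_of_injective g hg_inj
      _ = (Polynomial.nthRootsFinset p (1 : ResidueField A)).card := Nat.card_eq_finsetCard _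
      _ ≤ Multiset.card (Polynomial.nthRoots p (1 : ResidueField A)) := by
          rw [Polynomial.nthRootsFinset_def]
          exact Multiset.toFinset_card_le _
      _ ≤ p := Polynomial.card_nthRoots p 1
  rw [hcard] at hle
  have h2 := hp.two_le
  nlinarith

end Fermat.Agent.EMZ
end MergeWrap_E_MC_Zero_ExistsR

section MergeWrap_E_MC_Zero_L1Gen -- from E/MC/Zero/L1Gen.lean

set_option autoImplicit false
set_option linter.unusedSectionVars false

open WeierstrassCurve WeierstrassCurve.Affine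

namespace Fermat.Agent.EMZ

open Fermat.Agent.EV Fermat.Agent.EVC Fermat.Agent.MultRed Fermat.Agent.MultRed.Comp
  Fermat.Agent.VarChange Fermat.Agent.ES12 S05H65 S05H27

section NF

variable {K : Type*} [Field K] [IsAlgClosed K] {Γ₀ : Type*} [LinearOrderedCommGroupWithZero Γ₀]

/-- the nodal normal form of an integral equation with `v Δ < 1`, `v c₄ = 1` -/
theorem exists_nodalNF_of_intCoeff (v : Valuation K Γ₀) (h2 : (2 : K) ≠ 0) (h3 : (3 : K) ≠ 0)
    (W : Affine K) (ha₁ : v W.a₁ ≤ 1) (ha₂ : v W.a₂ ≤ 1) (ha₃ : v W.a₃ ≤ 1) (ha₄ : v W.a₄ ≤ 1)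
    (ha₆ : v W.a₆ ≤ 1) (hΔ : v W.Δ < 1) (hc₄ : v W.c₄ = 1) :
    ∃ r t α β : K, v r ≤ 1 ∧ v t ≤ 1 ∧ NodalNF v ((transl r t) • W).toAffine α β := by
  obtain ⟨r, t, hC⟩ := exists_isCentering v W h2 h3 ha₁ ha₂ ha₃ ha₄ ha₆ hΔ hc₄
  obtain ⟨hb₁, hb₂, -, -, -⟩ := hC.integral ha₁ ha₂
  have hb : v ((transl r t • W).a₁ ^ 2 + 4 * (transl r t • W).a₂) = 1 := hC.b₂
  obtain ⟨α, β, hα, hβ, hsum, hprod, hαβ⟩ := exists_tangent_roots v h2 hb₁ hb₂ hb
  exact ⟨r, t, α, β, hC.r_int, hC.t_int,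
    { a₃ := hC.a₃
      a₄ := hC.a₄
      va₆ := hC.a₆
      hsum := hsum
      hprod := hprod
      vα := hα
      vβ := hβ
      vαβ := hαβ }⟩

end NF

/-- **(L1)** for an integral model over `Q̄`. -/
theorem l1_general {p : ℕ} (hp : p.Prime) (hp2 : p ≠ 2) (A : ValuationSubring Qb)
    (E : Affine Qb) (hint : IntCoeff A E) (hΔ0 : E.Δ ≠ 0) (hΔ : A.valuation E.Δ < 1)
    (hc₄ : A.valuation E.c₄ = 1) (Q : E.Point) (hQ : addOrderOf Q = p)
    (hsing : IsSingPt A.valuation Q) :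
    A.valuation (veluCurve E (AddSubgroup.zmultiples Q : Set E.Point)).c₄ = 1 ∧
      A.valuation (veluCurve E (AddSubgroup.zmultiples Q : Set E.Point)).Δ ^ p
        = A.valuation E.Δ := by
  obtain ⟨r, t, α, β, hr, ht, nf⟩ := exists_nodalNF_of_intCoeff A.valuation two_ne_zero
    three_ne_zero E ((A.valuation_le_one_iff _).mpr hint.mem_a₁)
    ((A.valuation_le_one_iff _).mpr hint.mem_a₂) ((A.valuation_le_one_iff _).mpr hint.mem_a₃)
    ((A.valuation_le_one_iff _).mpr hint.mem_a₄) ((A.valuation_le_one_iff _).mpr hint.mem_a₆)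
    hΔ hc₄
  set E' : Affine Qb := (transl r t) • E with hE'
  -- the point in the normal form
  set Q' : E'.Point := (vcEquiv (W₁ := E) (transl r t) rfl).symm Q with hQ'
  have hQQ' : vcHom (W₁ := E) (transl r t) rfl Q' = Q :=
    (vcEquiv (W₁ := E) (transl r t) rfl).apply_symm_apply Q
  have hordQ' : addOrderOf Q' = p := by
    rw [← addOrderOf_vcHom (W₁ := E) (transl r t) rfl Q', hQQ']
    exact hQ
  have hnode : IsNodePt A.valuation Q' :=
    isNodePt_of_isSingPt A.valuation E ((A.valuation_le_one_iff _).mpr hint.mem_a₁)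
      ((A.valuation_le_one_iff _).mpr hint.mem_a₂) ((A.valuation_le_one_iff _).mpr hint.mem_a₃)
      ((A.valuation_le_one_iff _).mpr hint.mem_a₄) ((A.valuation_le_one_iff _).mpr hint.mem_a₆)
      hr ht nf Q' (by rw [hQQ']; exact hsing)
  have hΔE' : E'.Δ = E.Δ := by
    rw [hE', variableChange_Δ]
    have : (((transl r t).u⁻¹ : Qbˣ) : Qb) = 1 := by
      show (((1 : Qbˣ)⁻¹ : Qbˣ) : Qb) = 1
      simp
    rw [this, one_pow, one_mul]
  have hΔ0' : E'.Δ ≠ 0 := by
    rw [hΔE']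
    exact hΔ0
  have ha₆0 : E'.a₆ ≠ 0 := by
    intro h0
    apply hΔ0'
    rw [Δ_of_normal E' nf.a₃ nf.a₄, h0]
    ring
  -- the additive valuation and the parameters
  set V := ofValuation A.valuation with hV
  obtain ⟨δ, hδ⟩ := IsAlgClosed.exists_pow_nat_eq E'.a₆ (n := 2) (by norm_num)
  have hδ0 : δ ≠ 0 := by
    rintro rfl
    apply ha₆0
    rw [← hδ]
    ring
  set h := V.w δ with hh'
  have ha₆ : V.Ex E'.a₆ (h + h) := by
    rw [← hδ]
    exact (AVal.ex_of_ne hδ0).sq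
  have hh : 0 < h := by
    have h1 : V.Gt E'.a₆ 0 := (lt_one_iff_gt A.valuation _).mp nf.va₆
    have h2 := ha₆.not_gt h1
    by_contra hc
    rw [not_lt] at hc
    have : h + h ≤ 0 := add_nonpos hc hc
    exact absurd h2 (not_lt.mpr this)
  have hb₂ : V.Ex E'.b₂ 0 := by
    rw [← eq_one_iff_ex]
    have hb : E'.b₂ = (α - β) ^ 2 := by
      have h1 := nf.hsum
      have h2 := nf.hprod
      simp only [WeierstrassCurve.b₂]
      have ha₁ : E'.a₁ = -(α + β) := by rw [h1]; ring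
      have ha₂ : E'.a₂ = -(α * β) := by rw [h2]; ring
      rw [ha₁, ha₂]
      ring
    rw [hb, map_pow, nf.vαβ, one_pow]
  have Cn : CoreN V E'.b₂ E'.a₆ h :=
    { h2 := ge_ofNat V 2
      hb₂ := hb₂
      ha₆ := ha₆
      hh := hh }
  have hQ'0 : Q' ≠ 0 := by
    intro h0
    rw [h0] at hnode
    exact hnode
  have hρ : rhoN V h Q' ≠ 0 := by
    rw [rhoN_of_ne hQ'0]
    apply ne_of_gt
    apply cl_pos_of_gt hh
    rw [hV, ← lt_one_iff_gt]
    rcases hQ'' : Q' with _ | ⟨x, y, hxy⟩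
    · exact absurd hQ'' hQ'0
    · rw [hQ''] at hnode
      exact hnode.1
  obtain ⟨g, hg0, hpg, hc₄', hΔ'⟩ :=
    velu_val nf.a₃ nf.a₄ Cn (two_ne_zero) hp hp2 Q' hordQ' hρ
  -- transfer to the original model
  have hfin : ((AddSubgroup.zmultiples Q : Set E.Point)).Finite := by
    rw [finite_zmultiples, ← addOrderOf_pos_iff, hQ]
    exact hp.pos
  have hpre : (vcHom (W₁ := E) (transl r t) rfl) ⁻¹' (AddSubgroup.zmultiples Q : Set E.Point)
      = (AddSubgroup.zmultiples Q' : Set E'.Point) :=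
    preimage_zmultiples (W₁ := E) (transl r t) rfl Q
  have hu : (((transl r t).u : Qbˣ) : Qb) = 1 := rfl
  have e₄ := veluCurve_c₄_vc (W₁ := E) (transl r t) rfl _ hfin
  have eΔ := veluCurve_Δ_vc (W₁ := E) (transl r t) rfl _ hfin
  rw [hpre, hu, one_pow, one_mul] at e₄ eΔ
  constructor
  · rw [e₄, eq_one_iff_ex]
    exact hc₄'
  · rw [eΔ, ← hΔE', ← map_pow, eq_iff_ex A.valuation hΔ0']
    have h1 : V.Ex E'.Δ (h + h) := by
      have : A.valuation E'.Δ = A.valuation E'.a₆ := nf.v_Δ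
      rw [eq_iff_ex A.valuation ha₆0] at this
      exact this.congr ha₆.2
    have h2 := hΔ'.pow p
    rw [hpg] at h2
    exact h2.congr h1.2.symm

end Fermat.Agent.EMZ
end MergeWrap_E_MC_Zero_L1Gen

section MergeWrap_E_MC_Zero_DualQb -- from E/MC/Zero/DualQb.lean

set_option autoImplicit false
set_option linter.unusedSectionVars false
set_option linter.style.haveILetI false

open WeierstrassCurve WeierstrassCurve.Affine Polynomial

namespace Fermat.Agent.EMZ

open Fermat.Agent.EV Fermat.Agent.EU Fermat.Agent.ED Fermat.Agent.Torsion S05H65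

/-- (V1x) for all curves over `k` -/
def VeluXAll (k : Type) [Field k] [DecidableEq k] : Prop :=
  ∀ (W : Affine k), W.Δ ≠ 0 → ∀ C : AddSubgroup W.Point, (C : Set W.Point).Finite →
    Odd (Nat.card C) → VeluXFormula W C

/-- **(DUAL)** over an algebraically closed field of characteristic zero. -/
theorem dual_general {k : Type} [Field k] [DecidableEq k] [IsAlgClosed k] [CharZero k]
    {p : ℕ} (hp : p.Prime) (hp2 : p ≠ 2) (hV : VeluStatement) (hVx : VeluXAll k)
    (E F : Affine k) (hEΔ : E.Δ ≠ 0) (hFΔ : F.Δ ≠ 0)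
    (φ : E.Point →+ F.Point) (hφsurj : Function.Surjective φ) (hφker : Nat.card φ.ker = p)
    (hφx : ∃ n d : Polynomial k, ∀ (x y : k) (h : E.Nonsingular x y),
        (Point.some x y h : E.Point) ∉ φ.ker →
          d.eval x ≠ 0 ∧ ∃ (y' : k) (h' : F.Nonsingular (n.eval x / d.eval x) y'),
            φ (.some x y h) = .some (n.eval x / d.eval x) y' h')
    (P₀ : E.Point) (hP₀ : p • P₀ = 0) (hφP₀ : φ P₀ ≠ 0) :
    (veluCurve F (AddSubgroup.zmultiples (φ P₀) : Set F.Point)).c₄ ^ 3 * E.Δ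
      = E.c₄ ^ 3 * (veluCurve F (AddSubgroup.zmultiples (φ P₀) : Set F.Point)).Δ := by
  have hU : UniqStatementW := uniqStatementW
  obtain ⟨n, d, hφnd⟩ := hφx
  haveI : Fact p.Prime := ⟨hp⟩
  -- the subgroup `C = ⟨φ P₀⟩` of order `p`
  have hpφ : p • φ P₀ = 0 := by rw [← map_nsmul, hP₀, map_zero]
  have hord : addOrderOf (φ P₀) = p := addOrderOf_eq_prime hpφ hφP₀
  have hCcard : Nat.card (AddSubgroup.zmultiples (φ P₀)) = p := by
    rw [Nat.card_zmultiples, hord]
  have hCfin : ((AddSubgroup.zmultiples (φ P₀) : AddSubgroup F.Point) : Set F.Point).Finite := by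
    have : Finite (AddSubgroup.zmultiples (φ P₀)) :=
      Nat.finite_of_card_ne_zero (by rw [hCcard]; exact hp.ne_zero)
    exact Set.toFinite _
  have hCodd : Odd (Nat.card (AddSubgroup.zmultiples (φ P₀))) := by
    rw [hCcard]; exact hp.odd_of_ne_two hp2
  -- Vélu
  obtain ⟨hF''Δ, ψ, hψsurj, hψker, hψX⟩ :=
    hV k F hFΔ (AddSubgroup.zmultiples (φ P₀)) hCfin hCodd
  obtain ⟨n', d', hψnd⟩ := hasXMap_velu F (AddSubgroup.zmultiples (φ P₀)) hCfin
    (hVx F hFΔ _ hCfin hCodd) ψ hψker hψX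
  -- the kernel of the composite is `E[p]`
  have hK0 : (ψ.comp φ).ker = AddSubgroup.comap φ (AddSubgroup.zmultiples (φ P₀)) := by
    ext x
    constructor
    · intro hx
      have h1 : φ x ∈ ψ.ker := hx
      rw [hψker] at h1
      exact h1
    · intro hx
      have h1 : φ x ∈ ψ.ker := by rw [hψker]; exact hx
      exact h1
  have hK : (ψ.comp φ).ker = torSub E p := by
    rw [hK0]
    exact comap_zmultiples_eq_torsion φ hp hφker hP₀ hφP₀ (torSub E p)
      (fun x => Iff.rfl) (tcard_eq_sq hEΔ hp.one_le)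
  have hKfin : (((ψ.comp φ).ker : AddSubgroup E.Point) : Set E.Point).Finite := by
    rw [hK]
    have : Finite (torSub E p) := finite_torSub E p hp.one_le
    exact Set.toFinite _
  obtain ⟨N, D, G, hΦ₁, hG⟩ := hasXMapW_comp φ ψ hφnd hψnd hKfin
  have hΦ₂ := hasXMapW_nsmul E hp.one_le
  have hker₂ : (nsmulAddMonoidHom (α := E.Point) p).ker = torSub E p := rfl
  have hP₀0 : P₀ ≠ 0 := fun h => hφP₀ (by rw [h, map_zero])
  -- fibre-good
  have hfib : ∀ P : E.Point, P ∉ (ψ.comp φ).ker → ∃ T ∈ (ψ.comp φ).ker,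
      ∃ (x y : k) (h : E.Nonsingular x y),
        P + T = .some x y h ∧ G.eval x ≠ 0 ∧ (ladG E p).eval x ≠ 0 := by
    intro P hP
    have hpP : p • P ≠ 0 := fun h0 => hP (by rw [hK]; exact h0)
    obtain ⟨T, hT, hPT⟩ := exists_add_torsion_nsmul_ne_zero hp hpP hP₀ hP₀0
    have hTK : T ∈ (ψ.comp φ).ker := by rw [hK]; exact hT
    have hPT0 : P + T ≠ 0 := by
      have := hPT 1 le_rfl hp.one_le
      rwa [one_smul] at this
    have hPTK : P + T ∉ (ψ.comp φ).ker := by
      intro h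
      have := hPT p hp.one_le le_rfl
      apply this
      rw [hK] at h
      exact h
    obtain ⟨x, y, h, e⟩ := exists_some_of_ne_zero hPT0
    refine ⟨T, hTK, x, y, h, e, hG x y h (e ▸ hPTK), ?_⟩
    have := ladG_eval_ne_zero (W := E) (P := P + T) p hp.one_le hPT
    rwa [e, px_some] at this
  exact hU k E (veluCurve F
      ((AddSubgroup.zmultiples (φ P₀) : AddSubgroup F.Point) : Set F.Point)) E
    hEΔ hF''Δ hEΔ (ψ.comp φ) (nsmulAddMonoidHom (α := E.Point) p) (hψsurj.comp hφsurj)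
    (smul_surjective hEΔ hp.one_le) (hK.trans hker₂.symm) hKfin N D G _ _ _ hΦ₁ hΦ₂ hfib

end Fermat.Agent.EMZ
end MergeWrap_E_MC_Zero_DualQb

section MergeWrap_E_MC_Zero_Core -- from E/MC/Zero/Core.lean

set_option autoImplicit false
set_option linter.unusedSectionVars false
set_option linter.style.haveILetI false

open WeierstrassCurve WeierstrassCurve.Affine

namespace Fermat.Agent.EMZ

open Fermat.Agent.MultRed Fermat.Agent.EllRed Fermat.Agent.EV Fermat.Agent.EVC
  Fermat.Agent.ES12 Fermat.Agent.ED Fermat.Agent.EU IsLocalRing S05H5 S05H65 S05H75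

/-- **(MP3-zero), normal form.** -/
theorem zero_core (hV : VeluStatement) (hVx : VeluXAll Qb) {A : ValuationSubring Qb}
    {E : Affine Qb} {α β : Qb} {p : ℕ} {Q : E.Point} (S : ZSetup A E α β p Q) (hΔ : E.Δ ≠ 0) :
    A.valuation (veluCurve E (AddSubgroup.zmultiples Q : Set E.Point)).c₄ = 1 ∧
      A.valuation (veluCurve E (AddSubgroup.zmultiples Q : Set E.Point)).Δ
        = A.valuation E.Δ ^ p := by
  classical
  have hp := S.hp
  haveI : Fact p.Prime := ⟨hp⟩
  have hCfin := S.finite_C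
  have hCcard : Nat.card (AddSubgroup.zmultiples Q) = p := by
    rw [Nat.card_zmultiples, S.hQ]
  have hCodd : Odd (Nat.card (AddSubgroup.zmultiples Q)) := by
    rw [hCcard]; exact hp.odd_of_ne_two S.hp2
  -- Vélu
  obtain ⟨hΔ', φ, hφsurj, hφker, hφX⟩ := hV Qb E hΔ (AddSubgroup.zmultiples Q) hCfin hCodd
  obtain ⟨n, d, hφnd⟩ := hasXMap_velu E (AddSubgroup.zmultiples Q) hCfin
    (hVx E hΔ _ hCfin hCodd) φ hφker hφX
  have hc₄' := S.veluCurve_c₄_unit
  -- a torsion point outside the zero component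
  obtain ⟨R, hpR, hR⟩ := exists_torsion_isNodePt S.nf hΔ hp S.hvp
  have hsing := S.isSingPt_velu φ hφX hR hpR
  have hΔlt := S.veluCurve_Δ_lt φ hφX hR hpR
  have hφR : φ R ≠ 0 := by
    intro h0
    have : R ∈ φ.ker := h0
    rw [hφker] at this
    exact S.notMem_of_isNodePt hR this
  have hpφ : p • φ R = 0 := by rw [← map_nsmul, hpR, map_zero]
  have hord : addOrderOf (φ R) = p := addOrderOf_eq_prime hpφ hφR
  -- (L1) on the Vélu model
  obtain ⟨hc₄'', hΔ''⟩ := l1_general hp S.hp2 A _ S.intCoeff_velu hΔ' hΔlt hc₄' (φ R) hord hsing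
  -- (DUAL)
  have hker : Nat.card φ.ker = p := by rw [hφker]; exact hCcard
  have hdual := dual_general hp S.hp2 hV hVx E _ hΔ hΔ' φ hφsurj hker ⟨n, d, hφnd⟩ R hpR hφR
  have hc₄ : A.valuation E.c₄ = 1 := by
    rw [c₄_of_normal E S.nf.a₃ S.nf.a₄, map_pow]
    have hb : E.b₂ = (α - β) ^ 2 := by
      have h1 := S.nf.hsum
      have h2 := S.nf.hprod
      simp only [WeierstrassCurve.b₂]
      have ha₁ : E.a₁ = -(α + β) := by rw [h1]; ring
      have ha₂ : E.a₂ = -(α * β) := by rw [h2]; ring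
      rw [ha₁, ha₂]
      ring
    rw [hb, map_pow, S.nf.vαβ, one_pow, one_pow]
  have hv := congrArg A.valuation hdual
  rw [map_mul, map_mul, map_pow, map_pow, hc₄'', hc₄, one_pow, one_mul, one_mul] at hv
  refine ⟨hc₄', ?_⟩
  rw [← hΔ'', hv]

end Fermat.Agent.EMZ
end MergeWrap_E_MC_Zero_Core

section MergeWrap_E_MC_Zero_Final -- from E/MC/Zero/Final.lean

set_option autoImplicit false
set_option linter.unusedSectionVars false
set_option linter.style.haveILetI false

open WeierstrassCurve WeierstrassCurve.Affine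

namespace Fermat.Agent.EMZ

open Fermat.Agent.MultRed Fermat.Agent.EllRed Fermat.Agent.EV Fermat.Agent.EVC
  Fermat.Agent.ES12 Fermat.Agent.ED Fermat.Agent.VarChange IsLocalRing S05H5 S05H65 S05H75

/-- **(MP3-zero)** from Vélu's theorem (V1) and the explicit `x`-map (V1x). -/
theorem zeroVal_of {p : ℕ} (hp : p.Prime) (hp2 : p ≠ 2) (hV : VeluStatement)
    (hVx : VeluXAll Qb) (W : WeierstrassCurve ℤ) (hΔ : W.Δ ≠ 0) (ℓ : ℕ) (hℓ : ℓ.Prime)
    (hℓp : ℓ ≠ p) (hdvd : (ℓ : ℤ) ∣ W.Δ) (hc₄ : ¬ (ℓ : ℤ) ∣ W.c₄) (A : ValuationSubring Qb)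
    (hA : A.LiesOverPrime ℓ) (Q : Pts W) (hQ : addOrderOf Q = p)
    (hz : W.InZeroComponentAt A Q) :
    A.valuation (veluCurve (CurveQb W) (AddSubgroup.zmultiples Q : Set (Pts W))).c₄ = 1 ∧
      A.valuation (veluCurve (CurveQb W) (AddSubgroup.zmultiples Q : Set (Pts W))).Δ
        = A.valuation ((W.Δ : ℤ) : Qb) ^ p := by
  have : Fact ℓ.Prime := ⟨hℓ⟩
  obtain ⟨r, t, α, β, hr, ht, nf, -⟩ := exists_nodalNF W hdvd hc₄ A hA
  set E : Affine Qb := CurveQb W with hE
  set E' : Affine Qb := (transl r t) • E with hE'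
  -- the point in the normal form
  set Q' : E'.Point := (vcEquiv (W₁ := E) (transl r t) rfl).symm Q with hQ'
  have hQQ' : vcHom (W₁ := E) (transl r t) rfl Q' = Q :=
    (vcEquiv (W₁ := E) (transl r t) rfl).apply_symm_apply Q
  have hordQ' : addOrderOf Q' = p := by
    rw [← addOrderOf_vcHom (W₁ := E) (transl r t) rfl Q', hQQ']
    exact hQ
  have hQ'0 : ¬ IsNodePt A.valuation Q' := by
    intro hn
    have hs := isSingPt_vcHom_of_isNodePt A.valuation E hr nf Q' hn
    rw [hQQ'] at hs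
    exact (not_isSingPt_iff_inE0v Q).mpr ((inZeroComponentAt_iff_inE0v W A Q).mp hz) hs
  have hvℓ : A.valuation ((ℓ : ℕ) : Qb) < 1 := A.mem_nonunits_iff.mp hA
  have hvp : A.valuation ((p : ℕ) : Qb) = 1 := by
    have h1 : ¬ (ℓ : ℤ) ∣ (p : ℤ) := by
      intro h
      have h2 : ℓ ∣ p := by exact_mod_cast h
      exact hℓp ((Nat.prime_dvd_prime_iff_eq hℓ hp).mp h2)
    have := v_intCast_eq_one A.valuation hℓ hvℓ h1
    exact_mod_cast this
  have S : ZSetup A E' α β p Q' :=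
    { nf := nf
      hp := hp
      hp2 := hp2
      hvp := hvp
      h2 := two_ne_zero
      hQ := hordQ'
      hQ0 := hQ'0 }
  have hΔE : E.Δ = ((W.Δ : ℤ) : Qb) := curveQb_Δ W
  have hΔE' : E'.Δ = E.Δ := by
    rw [hE', variableChange_Δ]
    have : (((transl r t).u⁻¹ : Qbˣ) : Qb) = 1 := by
      show (((1 : Qbˣ)⁻¹ : Qbˣ) : Qb) = 1
      simp
    rw [this, one_pow, one_mul]
  have hΔ0 : E'.Δ ≠ 0 := by
    rw [hΔE', hΔE]
    exact_mod_cast hΔ
  obtain ⟨h1, h2⟩ := zero_core hV hVx S hΔ0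
  -- transfer to the original model
  have hfin : ((AddSubgroup.zmultiples Q : Set E.Point)).Finite := by
    rw [finite_zmultiples, ← addOrderOf_pos_iff, hQ]
    exact hp.pos
  have hpre : (vcHom (W₁ := E) (transl r t) rfl) ⁻¹' (AddSubgroup.zmultiples Q : Set E.Point)
      = (AddSubgroup.zmultiples Q' : Set E'.Point) :=
    preimage_zmultiples (W₁ := E) (transl r t) rfl Q
  have hu : (((transl r t).u : Qbˣ) : Qb) = 1 := rfl
  have e₄ := veluCurve_c₄_vc (W₁ := E) (transl r t) rfl _ hfin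
  have eΔ := veluCurve_Δ_vc (W₁ := E) (transl r t) rfl _ hfin
  rw [hpre, hu, one_pow, one_mul] at e₄ eΔ
  constructor
  · show A.valuation (veluCurve E (AddSubgroup.zmultiples Q : Set E.Point)).c₄ = 1
    rw [e₄]
    exact h1
  · show A.valuation (veluCurve E (AddSubgroup.zmultiples Q : Set E.Point)).Δ = _
    rw [eΔ, h2, hΔE', hΔE]

end Fermat.Agent.EMZ
end MergeWrap_E_MC_Zero_Final

section MergeWrap_E_MC_Zero -- from E/MC/Zero.lean

set_option autoImplicit false

namespace Fermat.Agent.EMZ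

open Fermat.Agent.EV Fermat.Agent.ES12

/-- **(MP3-zero)** -/
theorem zeroValStatement {p : ℕ} (hp : p.Prime) (hp2 : p ≠ 2) (hV : VeluStatement)
    (hVx : VeluXAll Qb) : Fermat.Agent.EMC.ZeroValStatement p :=
  fun W hΔ ℓ hℓ hℓp hdvd hc₄ A hA Q hQ hz =>
    zeroVal_of hp hp2 hV hVx W hΔ ℓ hℓ hℓp hdvd hc₄ A hA Q hQ hz

end Fermat.Agent.EMZ
end MergeWrap_E_MC_Zero

section MergeWrap_E_MC_MPFinal -- from E/MC/MPFinal.lean

set_option autoImplicit false

noncomputable section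

namespace Fermat.Agent.EMC

open Fermat.Agent.ES12

/-- (V1x) for all curves over `ℚ̄`. -/
theorem veluXAll_Qb : Fermat.Agent.EMZ.VeluXAll Qb := by
  intro W _ C hfin _
  exact Fermat.Agent.Velu.veluXFormula (W := W) (C := C) hfin (by norm_num)

/-- MP3-zero. -/
theorem zeroVal {p : ℕ} (hp : p.Prime) (hp2 : p ≠ 2) : ZeroValStatement p :=
  Fermat.Agent.EMZ.zeroValStatement hp hp2 Fermat.Agent.Velu.veluStatement veluXAll_Qb

/-- **(MP)** the moduli point of `(W, ⟨Q⟩)` on `X₀(p)` and its position at the multiplicative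
primes, for every odd prime `p`. -/
theorem moduliPoint {p : ℕ} (hp : p.Prime) (hp2 : p ≠ 2) : @ES15.ModuliPoint p ⟨hp.ne_zero⟩ :=
  moduliPoint_of_zero hp hp2 (zeroVal hp hp2)

end Fermat.Agent.EMC
end
end MergeWrap_E_MC_MPFinal

section MergeWrap_E_S15_Final -- from E/S15/Final.lean

set_option autoImplicit false

noncomputable section

namespace Fermat.Agent.ES15

open ModularCurve AlgebraicCurve Fermat.Agent.EDesc

/-- a divisor of `3 * 2 ^ k` which does not divide `12` is divisible by `8`. -/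
theorem eight_dvd_of_dvd_three_mul_two_pow {d k : ℕ} (hd : d ∣ 3 * 2 ^ k) (h12 : ¬ d ∣ 12) :
    8 ∣ d := by
  obtain ⟨d₁, d₂, h₁, h₂, rfl⟩ := (Nat.dvd_mul).mp hd
  obtain ⟨a, -, rfl⟩ := (Nat.dvd_prime_pow Nat.prime_two).mp h₂
  by_cases ha : 3 ≤ a
  · obtain ⟨b, rfl⟩ := Nat.exists_eq_add_of_le ha
    exact Dvd.dvd.mul_left ⟨2 ^ b, by rw [pow_add]; norm_num⟩ d₁
  · exfalso
    apply h12
    have h3 : d₁ = 1 ∨ d₁ = 3 := (Nat.dvd_prime Nat.prime_three).mp h₁
    have ha' : a = 0 ∨ a = 1 ∨ a = 2 := by omega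
    rcases h3 with rfl | rfl <;> rcases ha' with rfl | rfl | rfl <;> norm_num

/-- the choice of the Eisenstein prime: either an odd prime divides `m`, or `2 ∣ m` and
`8 ∣ p - 1`. -/
theorem exists_odd_prime_dvd_or {p m : ℕ} (h12 : ¬ (p - 1) ∣ 12) (h1 : m ≠ 1)
    (hdvd : (p - 1) ∣ 12 * m) :
    (∃ l' : ℕ, l'.Prime ∧ l' ≠ 2 ∧ l' ∣ m) ∨ (2 ∣ m ∧ 8 ∣ p - 1) := by
  rcases Nat.eq_two_pow_or_exists_odd_prime_and_dvd m with ⟨k, rfl⟩ | ⟨l', hl', hlm, hodd⟩
  · right
    have hk : k ≠ 0 := by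
      rintro rfl
      exact h1 (pow_zero 2)
    refine ⟨dvd_pow_self 2 hk, ?_⟩
    apply eight_dvd_of_dvd_three_mul_two_pow (k := k + 2) _ h12
    have : 12 * 2 ^ k = 3 * 2 ^ (k + 2) := by rw [pow_add]; ring
    rw [← this]
    exact hdvd
  · left
    refine ⟨l', hl', ?_, hlm⟩
    rintro rfl
    exact absurd hodd (by decide)

/-- **S15 from the reduction inputs and Mazur's descent.** -/
theorem s15At_of_descent {p : ℕ} [NeZero p] (hp : p.Prime)
    (hp' : p ∉ ({2, 3, 5, 7, 13} : Finset ℕ)) (hB : RedInputs p) (hF : HeckeRedStable p)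
    (hodd : ∀ l' : ℕ, l'.Prime → l' ≠ 2 → l' ∣ p - 1 →
      ∀ S : Finset ℕ, p ∈ S → l' ∈ S → EisDescentAt p l' S)
    (htwo : 8 ∣ p - 1 → ∀ S : Finset ℕ, p ∈ S → 2 ∈ S → EisDescentAt p 2 S) :
    S15At p := by
  have hp'' := hp'
  simp only [Finset.mem_insert, Finset.mem_singleton, not_or] at hp''
  obtain ⟨h2, h3, h5, h7, h13⟩ := hp''
  have h12 : ¬ (p - 1) ∣ 12 := not_pred_dvd_twelve hp h2 h3 h5 h7 h13
  have hD0 : CuspZeroData p := cuspZeroData hp
  obtain ⟨P0, hP0⟩ := hD0.ex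
  have hT : ∀ P0 : Pl p, IsCuspZero p P0 → ∀ r : Nat.Primes, (r : ℕ) ≠ p →
      heckeOperatorBar p r (cuspClass p P0) = (1 + (r : ℕ)) • cuspClass p P0 :=
    fun P0' hP0' r hr => heckeOperatorBar_cuspClass hp hD0 r hr P0' hP0'
  -- divisibility by a prime divisor of the order of the cuspidal class
  have hord : ∀ l' : ℕ, l' ∣ addOrderOf (cuspClass p P0) →
      ∀ P0' : Pl p, IsCuspZero p P0' → ∀ n : ℕ, n • cuspClass p P0' = 0 → l' ∣ n := by
    intro l' hl' P0' hP0' n hn
    rw [hD0.uniq P0' P0 hP0' hP0] at hn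
    exact hl'.trans (addOrderOf_dvd_of_nsmul_eq_zero hn)
  have hne1 : addOrderOf (cuspClass p P0) ≠ 1 := fun h =>
    cuspClass_ne_zero hp h12 hP0 (AddMonoid.addOrderOf_eq_one_iff.mp h)
  have hE : EisensteinDescent p := by
    rcases exists_odd_prime_dvd_or h12 hne1 (dvd_twelve_mul_addOrderOf hp hP0) with
      ⟨l', hl', hl2, hlm⟩ | ⟨h2m, h8⟩
    · exact eisensteinDescent_of p l'
        (hodd l' hl' hl2 (hlm.trans (addOrderOf_cuspClass_dvd hp hP0))) hT (hord l' hlm)
    · exact eisensteinDescent_of p 2 (htwo h8) hT (hord 2 h2m)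
  exact s15_of_inputs hp hp' hD0 (cuspTorsion hp) hB (Fermat.Agent.ES15C.cuspReduction hp) hF
    (zeroCompOrder hp) (Fermat.Agent.EMC.moduliPoint hp h2) hE

end Fermat.Agent.ES15
end
end MergeWrap_E_S15_Final
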