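import Mathlib
import Fermat.Prelude.Def_GaloisRep_CompletionBridge
import Fermat.Agent.MU.E.Desc.Main2Defs
import Fermat.Agent.MU.E.Desc.Dev.Final
import Fermat.Agent.MU.E.Desc.Toric
import Fermat.Agent.MU.Lib.BadRed.Final.Main
import Fermat.Agent.S17.H.Defs
import Fermat.Agent.MU.S17.H.Global
import Fermat.Agent.MU.S17.H.Setup.Cusp
import Fermat.Agent.MU.S17.Rat.Modular
import Fermat.Agent.MU.Lib.RR.OfModularBar
import Fermat.Agent.S17.H.NST
import Fermat.Agent.MU.S17.H.MoveGlobal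
import Fermat.Agent.MU.S17.H.ImmSec
import Fermat.Agent.MU.S17.H.Pos.OneProp
import Fermat.Agent.MU.S17.H.Pos.AdjFin
import Fermat.Agent.MU.S17.H.GaussMore
import Fermat.Agent.MU.S17.H.L7.PolyRep
import Fermat.Agent.MU.S17.H.Pos.Elim
import Fermat.Agent.MU.S17.H.Pos.PosLocal
import Fermat.Agent.MU.S17.H.ImmCoord
import Fermat.Agent.MU.S17.H.Pairing.Defs
import Fermat.Agent.MU.S17.H.Pairing.ProdLC
import Fermat.Agent.MU.S17.H.Pos.Fin
import Fermat.Agent.MU.S17.H.Pos.FinalPre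
import Fermat.Agent.MU.S17.H.Pos.DetLocal
import Fermat.Agent.MU.Lib.GenusEq.Bridge
import Fermat.Agent.MU.S24.LocalDiff
import Fermat.Agent.MU.S17.Pts.Galois
import Fermat.Agent.S24.Residue
import Fermat.Agent.MU.S17.H.ImmCurve
import Fermat.Agent.MU.S17.H.Pos.Props
import Fermat.Agent.MU.S17.H.Pos.Data
import Fermat.Agent.MU.S17.Assembly
import Fermat.Agent.MU.S17.W.Final
import Fermat.Agent.MU.S17.H.Pairing.Final
import Fermat.Agent.MU.E.S15.Final
import Fermat.Agent.MU.E.S15.RedInputsAll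
import Fermat.Agent.MU.E.Desc.Eis
import Fermat.Agent.MU.E.Desc.FlatAsmK
import Fermat.Agent.MU.E.Desc.W.Main
import Fermat.Agent.MU.E.Desc.W.ThetaConj
import Fermat.Agent.E.Desc.Kp.Defs
import Fermat.Agent.MU.E.Desc.LocalTw2
import Fermat.Agent.MU.E.Desc.W.Final
import Fermat.Agent.MU.E.Desc.W.SwapAll

section MergeWrap_E_Desc_Alg -- from E/Desc/Alg.lean

set_option autoImplicit false

open Polynomial

namespace Fermat.Agent.EDesc

section TorsionFree

variable {V : Type*} [AddCommGroup V] [Module.Finite ℤ V] {R : Type*} [Ring R] [Module R V]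

/-- **Cayley–Hamilton step.**  If `g V ⊆ l' V` then some `t = χ (g)`, `χ ≡ X ^ d` modulo `l'`,
kills `V`. -/
theorem desc_alg_cayley (l' : ℕ) (ε : R →+* ZMod l') (g : R)
    (hg : ∀ v : V, ∃ y : V, g • v = l' • y) :
    ∃ (t : R) (d : ℕ), ε t = ε g ^ d ∧ ∀ v : V, t • v = 0 := by
  set f : Module.End ℤ V := Module.toModuleEnd ℤ (S := R) V g with hf
  have hrange : LinearMap.range f ≤ (Ideal.span {(l' : ℤ)}) • (⊤ : Submodule ℤ V) := by
    rintro _ ⟨v, rfl⟩
    obtain ⟨y, hy⟩ := hg v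
    have : f v = (l' : ℤ) • y := by
      rw [hf]
      simp only [Module.toModuleEnd_apply, DistribSMul.toLinearMap_apply]
      rw [hy, natCast_zsmul]
    rw [this]
    exact Submodule.smul_mem_smul (Ideal.subset_span rfl) Submodule.mem_top
  obtain ⟨p, hmonic, -, hcoeff, hzero⟩ :=
    LinearMap.exists_monic_and_natDegree_eq_and_coeff_mem_pow_and_aeval_eq_zero ℤ f _ hrange
  refine ⟨aeval g p, p.natDegree, ?_, ?_⟩
  · -- `ε (χ g) = (ε g) ^ d`
    have h1 : ε (aeval g p) = aeval (ε g) p :=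
      (aeval_algHom_apply (ε.toIntAlgHom) g p).symm
    rw [h1, aeval_eq_sum_range, Finset.sum_range_succ]
    have hlow : ∀ i ∈ Finset.range p.natDegree, p.coeff i • ε g ^ i = 0 := by
      intro i hi
      have hi' : i < p.natDegree := Finset.mem_range.mp hi
      have hmem : p.coeff i ∈ Ideal.span {(l' : ℤ)} := by
        have := hcoeff i
        have hle : Ideal.span {(l' : ℤ)} ^ (p.natDegree - i) ≤ Ideal.span {(l' : ℤ)} :=
          Ideal.pow_le_self (by omega)
        exact hle this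
      obtain ⟨c, hc⟩ := Ideal.mem_span_singleton.mp hmem
      rw [hc, zsmul_eq_mul]
      push_cast
      rw [ZMod.natCast_self]
      ring
    rw [Finset.sum_eq_zero hlow, zero_add, hmonic.coeff_natDegree, one_smul]
  · intro v
    have h2 : (Module.toModuleEnd ℤ (S := R) V) (aeval g p) = aeval f p :=
      (aeval_algHom_apply ((Module.toModuleEnd ℤ (S := R) V).toIntAlgHom) g p).symm
    have h3 : (aeval g p) • v = (Module.toModuleEnd ℤ (S := R) V (aeval g p)) v := by
      simp only [Module.toModuleEnd_apply, DistribSMul.toLinearMap_apply]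
    rw [h3, h2, hzero]
    rfl

omit [Module.Finite ℤ V] in
/-- If `D ≠ 0`, `|D| < l' ^ (C + 1)` and `D w ∈ l' ^ k V`, then `l' ^ C w ∈ l' ^ k V`. -/
theorem desc_alg_gcd (l' : ℕ) (hl : l'.Prime) (C k : ℕ) (D : ℤ) (hD : D ≠ 0)
    (hDlt : D.natAbs < l' ^ (C + 1)) (w y : V) (h : D • w = (l' ^ k) • y) :
    ∃ y' : V, (l' ^ C) • w = (l' ^ k) • y' := by
  -- `gcd (D, l' ^ k) = l' ^ c` with `c ≤ C`
  have hgdvd : (Int.gcd D ((l' : ℤ) ^ k)) ∣ l' ^ k := by
    have := Int.gcd_dvd_natAbs_right D ((l' : ℤ) ^ k)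
    rwa [Int.natAbs_pow, Int.natAbs_natCast] at this
  obtain ⟨c, -, hc⟩ := (Nat.dvd_prime_pow hl).mp hgdvd
  have hcC : c ≤ C := by
    have h1 : l' ^ c ∣ D.natAbs := by
      rw [← hc]; exact Int.gcd_dvd_natAbs_left D ((l' : ℤ) ^ k)
    have h2 : l' ^ c ≤ D.natAbs :=
      Nat.le_of_dvd (Int.natAbs_pos.mpr hD) h1
    have h3 : l' ^ c < l' ^ (C + 1) := lt_of_le_of_lt h2 hDlt
    have := (Nat.pow_lt_pow_iff_right hl.one_lt).mp h3
    omega
  have hbez := Int.gcd_eq_gcd_ab D ((l' : ℤ) ^ k)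
  rw [hc] at hbez
  set α := Int.gcdA D ((l' : ℤ) ^ k)
  set β := Int.gcdB D ((l' : ℤ) ^ k)
  have hL : D • w = ((l' : ℤ) ^ k) • y := by
    rw [h, ← natCast_zsmul]; push_cast; rfl
  -- `l'^c w = (D α + l'^k β) w ∈ l'^k V`
  have h4 : ((l' ^ c : ℕ) : ℤ) • w = ((l' : ℤ) ^ k) • (α • y + β • w) := by
    rw [hbez, add_smul, mul_comm D α, mul_smul, mul_comm ((l' : ℤ) ^ k) β, mul_smul, hL,
      smul_add, smul_comm ((l' : ℤ) ^ k) α, smul_comm ((l' : ℤ) ^ k) β]
  refine ⟨(l' ^ (C - c)) • (α • y + β • w), ?_⟩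
  have h5 : (l' ^ C) • w = (l' ^ (C - c)) • ((l' ^ c) • w) := by
    rw [← mul_smul, ← pow_add]
    congr 2
    omega
  have h6 : (l' ^ c) • w = ((l' ^ c : ℕ) : ℤ) • w := (natCast_zsmul w (l' ^ c)).symm
  have h7 : ((l' : ℤ) ^ k) • (α • y + β • w) = (l' ^ k) • (α • y + β • w) := by
    rw [← natCast_zsmul]; push_cast; rfl
  rw [h5, h6, h4, h7, smul_comm]

/-- **DESC-ALG, torsion-free case.** -/
theorem desc_alg_torsionFree (htf : ∀ (n : ℕ) (v : V), n ≠ 0 → n • v = 0 → v = 0)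
    (l' : ℕ) [Fact l'.Prime] (ε : R →+* ZMod l') (m C : ℕ) (hm : m ≠ 0)
    (h : ∀ k : ℕ, ∃ e : R, ε e ≠ 0 ∧ ∀ (n : ℕ) (x : Fin n → V),
      (∀ i j, i ≠ j → ∀ y : V, e • (m • (x i - x j)) ≠ (l' ^ k) • y) → n ≤ C) :
    ∃ t : R, ε t ≠ 0 ∧ ∀ v : V, t • v = 0 := by
  have hl : l'.Prime := Fact.out
  obtain ⟨a, m', hm', rfl⟩ := Nat.exists_eq_pow_mul_and_not_dvd hm l' hl.ne_one
  obtain ⟨e, hεe, hbound⟩ := h (a + C + 1)
  -- step 1: `l'^C e (m v) ∈ l'^k V`
  have hkey : ∀ v : V, ∃ y : V,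
      (l' ^ C) • (e • ((l' ^ a * m') • v)) = (l' ^ (a + C + 1)) • y := by
    intro v
    by_contra hcon
    push Not at hcon
    have hn := hbound (l' ^ (C + 1)) (fun i => (i : ℕ) • v) ?_
    · exact absurd hn (not_le.mpr (lt_trans (Nat.lt_succ_self C)
        (Nat.lt_pow_self hl.one_lt)))
    · intro i j hij y hy
      have hD : ((i : ℕ) : ℤ) - ((j : ℕ) : ℤ) ≠ 0 := by
        intro h0
        apply hij
        apply Fin.ext
        have : ((i : ℕ) : ℤ) = ((j : ℕ) : ℤ) := by linarith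
        exact_mod_cast this
      have hlt : (((i : ℕ) : ℤ) - ((j : ℕ) : ℤ)).natAbs < l' ^ (C + 1) := by
        have hi := i.isLt
        have hj := j.isLt
        omega
      have hw : (((i : ℕ) : ℤ) - ((j : ℕ) : ℤ)) • (e • ((l' ^ a * m') • v))
          = (l' ^ (a + C + 1)) • y := by
        rw [← hy, sub_smul, natCast_zsmul, natCast_zsmul, smul_sub, smul_sub]
        congr 1
        · rw [smul_comm ((i : ℕ)) e, smul_comm ((i : ℕ)) (l' ^ a * m')]
        · rw [smul_comm ((j : ℕ)) e, smul_comm ((j : ℕ)) (l' ^ a * m')]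
      obtain ⟨y', hy'⟩ := desc_alg_gcd l' hl C (a + C + 1) _ hD hlt _ y hw
      exact hcon y' hy'
  -- step 2: `(m' e) V ⊆ l' V`
  have hg : ∀ v : V, ∃ y : V, ((m' : R) * e) • v = l' • y := by
    intro v
    obtain ⟨y, hy⟩ := hkey v
    refine ⟨y, ?_⟩
    have h3 : ((m' : R) * e) • v = m' • (e • v) := by
      rw [mul_smul, Nat.cast_smul_eq_nsmul]
    have h4 : e • ((l' ^ a * m') • v) = (l' ^ a * m') • (e • v) := by
      rw [smul_comm]
    have h1 : (l' ^ (a + C)) • (((m' : R) * e) • v - l' • y) = 0 := by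
      rw [smul_sub, sub_eq_zero]
      have h2 : (l' ^ (a + C)) • (l' • y) = (l' ^ (a + C + 1)) • y := by
        rw [← mul_smul, ← pow_succ]
      rw [h2, ← hy, h3, h4, ← mul_smul, ← mul_smul]
      congr 1
      ring
    have := htf _ _ (pow_ne_zero _ hl.ne_zero) h1
    exact sub_eq_zero.mp this
  obtain ⟨t, d, hεt, ht⟩ := desc_alg_cayley l' ε ((m' : R) * e) hg
  refine ⟨t, ?_, ht⟩
  rw [hεt]
  apply pow_ne_zero
  rw [map_mul, map_natCast]
  apply mul_ne_zero _ hεe
  rwa [Ne, ZMod.natCast_eq_zero_iff]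

end TorsionFree

section General

variable {M : Type*} [AddCommGroup M] [Module.Finite ℤ M] {R : Type*} [Ring R] [Module R M]

/-- The torsion subgroup as an `R`-submodule. -/
def torsionSub (R : Type*) [Ring R] (M : Type*) [AddCommGroup M] [Module R M] :
    Submodule R M where
  carrier := {x | ∃ n : ℕ, n ≠ 0 ∧ n • x = 0}
  zero_mem' := ⟨1, one_ne_zero, smul_zero _⟩
  add_mem' := by
    rintro x y ⟨n, hn, hx⟩ ⟨n', hn', hy⟩
    refine ⟨n * n', mul_ne_zero hn hn', ?_⟩
    rw [smul_add, mul_comm, mul_smul, hx, smul_zero, zero_add, mul_comm, mul_smul, hy, smul_zero]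
  smul_mem' := by
    rintro c x ⟨n, hn, hx⟩
    exact ⟨n, hn, by rw [smul_comm, hx, smul_zero]⟩

omit [Module.Finite ℤ M] in
theorem mem_torsionSub {x : M} : x ∈ torsionSub R M ↔ ∃ n : ℕ, n ≠ 0 ∧ n • x = 0 := Iff.rfl

/-- **DESC-ALG.**  See the header. -/
theorem desc_alg (l' : ℕ) [Fact l'.Prime] (ε : R →+* ZMod l') (m C : ℕ) (hm : m ≠ 0)
    (h : ∀ k : ℕ, ∃ e : R, ε e ≠ 0 ∧ ∀ (n : ℕ) (x : Fin n → M),
      (∀ i j, i ≠ j → ∀ y : M, e • (m • (x i - x j)) ≠ (l' ^ k) • y) → n ≤ C) :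
    ∃ t : R, ε t ≠ 0 ∧ ∀ x : M, IsOfFinAddOrder (t • x) := by
  set T := torsionSub R M with hT
  have hfin : Module.Finite ℤ (M ⧸ T) :=
    Module.Finite.of_surjective (T.mkQ.toAddMonoidHom.toIntLinearMap) T.mkQ_surjective
  have htf : ∀ (n : ℕ) (v : M ⧸ T), n ≠ 0 → n • v = 0 → v = 0 := by
    intro n v hn hv
    obtain ⟨x, rfl⟩ := T.mkQ_surjective v
    rw [← map_nsmul, Submodule.mkQ_apply, Submodule.Quotient.mk_eq_zero] at hv
    obtain ⟨n', hn', hx⟩ := hv
    rw [Submodule.mkQ_apply, Submodule.Quotient.mk_eq_zero]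
    exact ⟨n' * n, mul_ne_zero hn' hn, by rw [mul_smul, hx]⟩
  have h' : ∀ k : ℕ, ∃ e : R, ε e ≠ 0 ∧ ∀ (n : ℕ) (x : Fin n → M ⧸ T),
      (∀ i j, i ≠ j → ∀ y : M ⧸ T, e • (m • (x i - x j)) ≠ (l' ^ k) • y) → n ≤ C := by
    intro k
    obtain ⟨e, he, hb⟩ := h k
    refine ⟨e, he, fun n x hx => ?_⟩
    choose x' hx' using fun i => T.mkQ_surjective (x i)
    apply hb n x'
    intro i j hij y hy
    apply hx i j hij (T.mkQ y)
    rw [← hx' i, ← hx' j, ← map_sub, ← map_nsmul, ← map_smul, hy, map_nsmul]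
  obtain ⟨t, ht, hzero⟩ := desc_alg_torsionFree htf l' ε m C hm h'
  refine ⟨t, ht, fun x => ?_⟩
  have := hzero (T.mkQ x)
  rw [← map_smul, Submodule.mkQ_apply, Submodule.Quotient.mk_eq_zero] at this
  obtain ⟨n, hn, hx⟩ := this
  exact isOfFinAddOrder_iff_nsmul_eq_zero.mpr ⟨n, Nat.pos_of_ne_zero hn, hx⟩

end General

end Fermat.Agent.EDesc
end MergeWrap_E_Desc_Alg

section MergeWrap_E_Desc_Main -- from E/Desc/Main.lean

/-!
# E' / Desc / Main : DESC-MAIN, the assembly of Mazur's descent (seat DESC-MAIN, helper90)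

`desc_main : J₀(N)(ℚ) f.g. → EisIdem → EisLocal → EisToric → EisKp → EisDescentAt N l' S`
(`N` prime `≠ l'`, both in `S`).

Proof: for every `k` the Selmer count `DevStatement` (E/Desc/Dev) for `W_k = EisW N l' S k`, with
`(W)`, `(FL)` (`EisLocal`), `(T1)` (`EisToric`), `(K-p)` (`EisKp`), bounds the number of classes of
`e_k (m J(ℚ))` modulo `l'^k J(ℚ)` by a constant; then DESC-ALG (`desc_alg`).
-/

set_option autoImplicit false
set_option linter.unusedSectionVars false
set_option linter.style.haveILetI false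

noncomputable section

namespace Fermat.Agent.EDesc

open ModularCurve AlgebraicCurve

local notation "Qb" => AlgebraicClosure ℚ
local notation "GQb" => (AlgebraicClosure ℚ ≃ₐ[ℚ] AlgebraicClosure ℚ)

variable (N : ℕ) [NeZero N]

/-! ### the Hecke ring acts on the rational points -/

theorem dm_gal_smul_zsmul (σ : GQb) (z : ℤ) (x : JZero N) : σ • (z • x) = z • (σ • x) :=
  map_zsmul (galAdd σ) z x

/-- the free Hecke ring commutes with the Galois action. -/
theorem dm_heckeAct_smul (S : Finset ℕ) (e : FreeAlgebra ℤ (OutPrimes S)) (σ : GQb)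
    (x : JZero N) : heckeAct N S e (σ • x) = σ • heckeAct N S e x := by
  induction e using FreeAlgebra.induction generalizing x with
  | grade0 r =>
    rw [AlgHom.commutes]
    simp only [Module.algebraMap_end_apply]
    rw [dm_gal_smul_zsmul]
  | grade1 r =>
    simp only [heckeAct, FreeAlgebra.lift_ι_apply]
    exact Fermat.Agent.F3G.heckeGaloisComm N r.1 σ x
  | mul a b ha hb =>
    rw [map_mul]
    simp only [Module.End.mul_apply]
    rw [hb, ha]
  | add a b ha hb =>
    rw [map_add]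
    simp only [LinearMap.add_apply]
    rw [ha, hb, gal_smul_add]

theorem dm_heckeAct_ratPt (S : Finset ℕ) (e : FreeAlgebra ℤ (OutPrimes S)) {x : JZero N}
    (hx : RatPt x) : RatPt (heckeAct N S e x) := fun σ => by
  rw [← dm_heckeAct_smul, hx σ]

/-- the action of the free Hecke ring on the rational points, as a ring homomorphism. -/
def dm_ratHecke (S : Finset ℕ) : FreeAlgebra ℤ (OutPrimes S) →+*
    AddMonoid.End ↥(FixedPoints.addSubgroup GQb (JZero N)) where
  toFun e :=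
    { toFun := fun x => ⟨heckeAct N S e x.1, fun σ => by
        have hx : RatPt (x.1 : JZero N) := fun τ => x.2 τ
        exact dm_heckeAct_ratPt N S e hx σ⟩
      map_zero' := Subtype.ext (map_zero (heckeAct N S e))
      map_add' := fun x y => Subtype.ext (map_add (heckeAct N S e) x.1 y.1) }
  map_one' := by
    ext x
    show heckeAct N S 1 x.1 = x.1
    rw [map_one]
    rfl
  map_mul' a b := by
    ext x
    show heckeAct N S (a * b) x.1 = heckeAct N S a (heckeAct N S b x.1)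
    rw [map_mul]
    rfl
  map_zero' := by
    ext x
    show heckeAct N S 0 x.1 = 0
    rw [map_zero]
    rfl
  map_add' a b := by
    ext x
    show heckeAct N S (a + b) x.1 = heckeAct N S a x.1 + heckeAct N S b x.1
    rw [map_add]
    rfl

/-- the module structure of the rational points over the free Hecke ring. -/
@[reducible] def dm_ratHeckeModule (S : Finset ℕ) :
    Module (FreeAlgebra ℤ (OutPrimes S)) ↥(FixedPoints.addSubgroup GQb (JZero N)) :=
  Module.compHom _ (dm_ratHecke N S)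

theorem dm_ratHeckeModule_smul_coe (S : Finset ℕ) (e : FreeAlgebra ℤ (OutPrimes S))
    (x : ↥(FixedPoints.addSubgroup GQb (JZero N))) :
    (((letI := dm_ratHeckeModule N S; e • x) : ↥(FixedPoints.addSubgroup GQb (JZero N))) :
      JZero N) = heckeAct N S e x.1 := rfl

/-! ### `W_k` is smooth and unramified outside `{N, l'}` -/

theorem dm_eisW_smoothMod (l' : ℕ) [Fact l'.Prime] (S : Finset ℕ) (k : ℕ) :
    SmoothMod (EisW N l' S k) := by
  choose L hL hfix using fun w : EisW N l' S k => Fermat.Agent.S17W.openStab N (w : JZero N)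
  haveI := hL
  refine ⟨⨆ w, L w, inferInstance, fun σ hσ w => Subtype.ext ?_⟩
  refine hfix w σ fun a ha => ?_
  exact (IntermediateField.mem_fixingSubgroup_iff _ σ).mp hσ a (le_iSup L w ha)

theorem dm_eisW_unramMod (hN : N.Prime) (l' : ℕ) (hl : l'.Prime) (S : Finset ℕ) (k : ℕ) :
    UnramMod (EisW N l' S k) {N, l'} := by
  intro r hr hrS A hA σ hσ w
  apply Subtype.ext
  have hn : l' ^ k ≠ 0 := pow_ne_zero _ hl.ne_zero
  have hrS' : r ≠ N ∧ r ≠ l' := by
    simpa only [Set.mem_insert_iff, Set.mem_singleton_iff, not_or] using hrS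
  have hrn : ¬ r ∣ N * l' ^ k := by
    intro h
    rcases (Nat.Prime.dvd_mul hr).1 h with h1 | h1
    · exact hrS'.1 ((Nat.prime_dvd_prime_iff_eq hr hN).1 h1)
    · exact hrS'.2 ((Nat.prime_dvd_prime_iff_eq hr hl).1 (hr.dvd_of_dvd_pow h1))
  refine Fermat.Agent.S17.inertia_smul_eq_of_nsmul_fixed
    (Fermat.Agent.GaussInt.keyLemmaAt_all N) (l' ^ k) hn (w : JZero N) (fun τ => ?_) r hr hrn
    A hA σ hσ
  rw [w.2.1, gal_smul_zero]

/-! ### the count for a fixed `k` -/

/-- **the Selmer count** for `W_k`: the points `x i` whose classes `e (2 m_K (x i - x j))` are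
not in `l'^k J(ℚ)` give pairwise non-cohomologous Selmer cocycles, to which `devStatement`
applies. -/
theorem desc_count (hN : N.Prime) (l' : ℕ) [Fact l'.Prime] (hNl : N ≠ l') (S : Finset ℕ)
    (τ : GQb) (k : ℕ) (e : FreeAlgebra ℤ (OutPrimes S))
    (he : ∀ x : JZero N, l' ^ k • x = 0 → heckeAct N S e x ∈ eisTors N l' S k)
    (C : TypedChain (EisW N l' S k) l') (Ap Al : ValuationSubring Qb)
    (hAp : Ap.LiesOverPrime N) (hAl : Al.LiesOverPrime l')
    (hFlat : EisFlatAtTw N τ l' S k C Al) (mK : ℕ)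
    (hmK : ∀ (P R : JZero N), RatPt P → l' ^ k • R = mK • P →
      ∃ w : JZero N, l' ^ k • w = 0 ∧ ∀ σ ∈ Ap.inertiaSubgroupIn ℚ, σ • R - R = σ • w - w)
    (n : ℕ) (x : Fin n → JZero N) (hx : ∀ i, RatPt (x i))
    (hdist : ∀ i j, i ≠ j → ¬ ∃ Q : JZero N, RatPt Q ∧
      heckeAct N S e ((2 * mK) • (x i - x j)) = l' ^ k • Q) :
    n * l' ^ C.alpha * Nat.card (fixedBy (EisW N l' S k) (Ap.inertiaSubgroupIn ℚ)) ≤
      Nat.card (fixedBy (EisW N l' S k) ⊤) * Nat.card (EisW N l' S k) := by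
  have hl : l'.Prime := Fact.out
  have hpos : 0 < l' ^ k := pow_pos hl.pos k
  -- roots
  choose R₀ hR₀ using fun i => exists_nsmul_eq (N := N) hpos (mK • x i)
  have hR₀rat : ∀ i, RatPt (l' ^ k • R₀ i) := fun i => by
    rw [hR₀ i]; exact (hx i).nsmul mK
  have hτR₀ : ∀ i, l' ^ k • (τ • R₀ i) = mK • x i := fun i => by
    rw [← gal_smul_nsmul, hR₀ i, gal_smul_nsmul, hx i τ]
  -- the points `e (R₀ + τ R₀)`
  set R : Fin n → JZero N := fun i => heckeAct N S e (R₀ i + τ • R₀ i) with hRdef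
  have hRsum : ∀ i, l' ^ k • (R₀ i + τ • R₀ i) = (2 * mK) • x i := fun i => by
    rw [nsmul_add, hR₀ i, hτR₀ i, ← two_nsmul, mul_smul]
  have hRnsmul : ∀ i, l' ^ k • R i = heckeAct N S e ((2 * mK) • x i) := fun i => by
    rw [hRdef]
    simp only
    rw [← map_nsmul, hRsum i]
  have hrat : ∀ i, RatPt (l' ^ k • R i) := fun i => by
    rw [hRnsmul i]
    exact dm_heckeAct_ratPt N S e ((hx i).nsmul _)
  have hkumR : ∀ i σ, kum (R i) σ = heckeAct N S e (kum (R₀ i + τ • R₀ i) σ) := fun i σ =>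
    kum_map (heckeAct N S e).toAddMonoidHom (fun ρ y => dm_heckeAct_smul N S e ρ y) _ σ
  have hsumrat : ∀ i, RatPt (l' ^ k • (R₀ i + τ • R₀ i)) := fun i => by
    rw [hRsum i]; exact (hx i).nsmul _
  have hval : ∀ i σ, kum (R i) σ ∈ Set.range (eisEmb N l' S k).ι := fun i σ => by
    have h1 : kum (R i) σ ∈ eisTors N l' S k := by
      rw [hkumR i σ]
      exact he _ (nsmul_kum (hsumrat i) σ)
    exact ⟨⟨_, h1⟩, rfl⟩
  have hdist' : ∀ i j, i ≠ j →
      ¬ ∃ Q : JZero N, RatPt Q ∧ l' ^ k • R i - l' ^ k • R j = l' ^ k • Q := by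
    intro i j hij ⟨Q, hQ, hQe⟩
    refine hdist i j hij ⟨Q, hQ, ?_⟩
    rw [← hQe, hRnsmul i, hRnsmul j, ← map_sub, nsmul_sub]
  have hS : ∀ r : ℕ, r.Prime → r ∣ N * l' ^ k → r ∈ ({N, l'} : Set ℕ) := by
    intro r hr h
    rcases (Nat.Prime.dvd_mul hr).1 h with h1 | h1
    · exact Or.inl ((Nat.prime_dvd_prime_iff_eq hr hN).1 h1)
    · exact Or.inr ((Nat.prime_dvd_prime_iff_eq hr hl).1 (hr.dvd_of_dvd_pow h1))
  obtain ⟨c, hc, hcoc, hcts, hunr, hne⟩ :=
    exists_selmer_family (eisEmb N l' S k) hpos.ne' ({N, l'} : Set ℕ) hS n R hrat hval hdist'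
  have hc' : ∀ i σ, ((c i σ : EisW N l' S k) : JZero N) = kum (R i) σ := hc
  -- the condition at `p`
  have hcob : ∀ i, ∃ w : EisW N l' S k, IsCobOn (Ap.inertiaSubgroupIn ℚ) (c i) w := by
    intro i
    obtain ⟨w₀, hw₀, hw₀'⟩ := hmK (x i) (R₀ i) (hx i) (hR₀ i)
    obtain ⟨w₁, hw₁, hw₁'⟩ := hmK (x i) (τ • R₀ i) (hx i) (hτR₀ i)
    have hw : l' ^ k • (w₀ + w₁) = 0 := by rw [nsmul_add, hw₀, hw₁, add_zero]
    refine ⟨⟨heckeAct N S e (w₀ + w₁), he _ hw⟩, fun σ hσ => Subtype.ext ?_⟩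
    rw [hc' i σ, hkumR i σ]
    show _ = σ • heckeAct N S e (w₀ + w₁) - heckeAct N S e (w₀ + w₁)
    rw [← dm_heckeAct_smul, ← map_sub, kum_add, kum_apply, kum_apply, hw₀' σ hσ, hw₁' σ hσ,
      gal_smul_add]
    congr 1
    abel
  -- flatness
  obtain ⟨Flat, hFC, hFK⟩ := hFlat
  have hflat : ∀ i, Flat (c i) := fun i => by
    refine hFK (heckeAct N S e (R₀ i)) (c i) ?_ (fun σ => ?_)
    · rw [← map_nsmul]
      exact dm_heckeAct_ratPt N S e (hR₀rat i)
    · rw [hc' i σ, hRdef]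
      simp only
      rw [map_add, dm_heckeAct_smul]
  exact devStatement N l' hN hl hNl (EisW N l' S k) (dm_eisW_smoothMod N l' S k)
    (dm_eisW_unramMod N hN l' hl S k) (fun w => ⟨k, Subtype.ext w.2.1⟩) C Ap Al hAp hAl Flat hFC
    n c hcoc hcts hunr hcob hflat hne

/-! ### the constants -/

/-- the numerical step: `n a A ≤ G W`, `W ≤ c₁ a²`, `W ≤ c₂ A²` give `n ≤ c₁ c₂ G`. -/
theorem desc_numeric {n a A G W c₁ c₂ : ℕ} (hW : 0 < W) (h : n * a * A ≤ G * W)
    (h1 : W ≤ c₁ * a ^ 2) (h2 : W ≤ c₂ * A ^ 2) : n ≤ c₁ * c₂ * G := by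
  have e1 : n ^ 2 * (W * W) ≤ n ^ 2 * ((c₁ * a ^ 2) * (c₂ * A ^ 2)) :=
    Nat.mul_le_mul_left _ (Nat.mul_le_mul h1 h2)
  have e2 : (n * a * A) ^ 2 ≤ (G * W) ^ 2 := Nat.pow_le_pow_left h 2
  have e3 : n ^ 2 * (W * W) ≤ c₁ * c₂ * G ^ 2 * (W * W) := by
    calc n ^ 2 * (W * W) ≤ n ^ 2 * ((c₁ * a ^ 2) * (c₂ * A ^ 2)) := e1
      _ = c₁ * c₂ * (n * a * A) ^ 2 := by ring
      _ ≤ c₁ * c₂ * (G * W) ^ 2 := Nat.mul_le_mul_left _ e2
      _ = c₁ * c₂ * G ^ 2 * (W * W) := by ring
  have e4 : n ^ 2 ≤ c₁ * c₂ * G ^ 2 := Nat.le_of_mul_le_mul_right e3 (Nat.mul_pos hW hW)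
  have e5 : c₁ * c₂ * G ^ 2 ≤ (c₁ * c₂ * G) ^ 2 := by
    have : c₁ * c₂ ≤ (c₁ * c₂) ^ 2 := by
      rw [pow_two]
      exact Nat.le_mul_self _
    calc c₁ * c₂ * G ^ 2 ≤ (c₁ * c₂) ^ 2 * G ^ 2 := Nat.mul_le_mul_right _ this
      _ = (c₁ * c₂ * G) ^ 2 := by ring
  exact (Nat.pow_le_pow_iff_left (by norm_num : (2 : ℕ) ≠ 0)).1 (e4.trans e5)

/-- the rational points of `W_k` inject into the torsion of `J₀(N)(ℚ)`. -/
theorem dm_card_fixed_le (hFG : AddGroup.FG ↥(FixedPoints.addSubgroup GQb (JZero N)))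
    (l' : ℕ) [Fact l'.Prime] (S : Finset ℕ) (k : ℕ) :
    Nat.card (fixedBy (EisW N l' S k) (⊤ : Subgroup GQb)) ≤
      Nat.card ↥(Submodule.torsion ℤ ↥(FixedPoints.addSubgroup GQb (JZero N))) := by
  have hl : l'.Prime := Fact.out
  haveI : Module.Finite ℤ ↥(FixedPoints.addSubgroup GQb (JZero N)) :=
    Module.Finite.iff_addGroup_fg.mpr hFG
  haveI : Finite ↥(Submodule.torsion ℤ ↥(FixedPoints.addSubgroup GQb (JZero N))) :=
    Module.finite_of_fg_torsion _ (Submodule.torsion_isTorsion)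
  have hrat : ∀ w : fixedBy (EisW N l' S k) (⊤ : Subgroup GQb),
      ((w : EisW N l' S k) : JZero N) ∈ FixedPoints.addSubgroup GQb (JZero N) := fun w σ =>
    congrArg Subtype.val (w.2 σ (Subgroup.mem_top σ))
  have htors : ∀ w : fixedBy (EisW N l' S k) (⊤ : Subgroup GQb),
      (⟨((w : EisW N l' S k) : JZero N), hrat w⟩ : ↥(FixedPoints.addSubgroup GQb (JZero N))) ∈
        Submodule.torsion ℤ ↥(FixedPoints.addSubgroup GQb (JZero N)) := fun w => by
    rw [Submodule.mem_torsion_iff]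
    refine ⟨⟨((l' ^ k : ℕ) : ℤ), mem_nonZeroDivisors_of_ne_zero ?_⟩, Subtype.ext ?_⟩
    · exact_mod_cast pow_ne_zero k hl.ne_zero
    · show ((l' ^ k : ℕ) : ℤ) • ((w : EisW N l' S k) : JZero N) = 0
      rw [natCast_zsmul]
      exact w.1.2.1
  refine Nat.card_le_card_of_injective (fun w => ⟨⟨((w : EisW N l' S k) : JZero N), hrat w⟩,
    htors w⟩) (fun w w' h => ?_)
  have h1 : ((w : EisW N l' S k) : JZero N) = ((w' : EisW N l' S k) : JZero N) :=
    congrArg (fun z => ((z : ↥(FixedPoints.addSubgroup GQb (JZero N))) : JZero N))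
      (congrArg Subtype.val h)
  exact Subtype.ext (Subtype.ext h1)

/-! ### DESC-MAIN -/

/-- **DESC-MAIN**, twisted form (every `l'`; at `l' = 2` take `τ` = complex conjugation). -/
theorem desc_main_tw (hN : N.Prime) (l' : ℕ) (hl : l'.Prime) (hNl : N ≠ l')
    (S : Finset ℕ) (_hNS : N ∈ S) (_hlS : l' ∈ S) (τ : GQb)
    (hFG : AddGroup.FG ↥(FixedPoints.addSubgroup GQb (JZero N)))
    (hIdem : EisIdem N l' S) (hLocal : EisLocalTw N τ l' S) (hToric : EisToric N l' S)
    (hKp : EisKp N l') : EisDescentAt N l' S := by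
  haveI : Fact l'.Prime := ⟨hl⟩
  obtain ⟨c₁, hc₁, hLoc⟩ := hLocal
  obtain ⟨c₂, hc₂, hTor⟩ := hToric
  obtain ⟨mK, hmK, hKp'⟩ := hKp
  obtain ⟨Ap, hAp⟩ := Fermat.Agent.FrobExists.exists_valuationSubring_liesOver N hN
  obtain ⟨Al, hAl⟩ := Fermat.Agent.FrobExists.exists_valuationSubring_liesOver l' hl
  letI := dm_ratHeckeModule N S
  haveI : Module.Finite ℤ ↥(FixedPoints.addSubgroup GQb (JZero N)) :=
    Module.Finite.iff_addGroup_fg.mpr hFG
  obtain ⟨t, ht, htors⟩ := desc_alg (M := ↥(FixedPoints.addSubgroup GQb (JZero N))) l'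
    ((eisChar l' S : FreeAlgebra ℤ (OutPrimes S) →ₐ[ℤ] ZMod l') :
      FreeAlgebra ℤ (OutPrimes S) →+* ZMod l') (2 * mK)
    (c₁ * c₂ * Nat.card ↥(Submodule.torsion ℤ ↥(FixedPoints.addSubgroup GQb (JZero N))))
    (Nat.mul_ne_zero two_ne_zero hmK.ne') (fun k => by
      obtain ⟨e, he1, he⟩ := hIdem k
      refine ⟨e, ?_, fun n x hx => ?_⟩
      · show eisChar l' S e ≠ 0
        rw [he1]
        exact one_ne_zero
      · obtain ⟨C, hC, hF⟩ := hLoc k
        have hcount := desc_count N hN l' hNl S τ k e he C Ap Al hAp hAl (hF Al hAl) mK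
          (fun P R hP hR => hKp' k P R hP hR Ap hAp) n (fun i => ((x i : _) : JZero N))
          (fun i σ => (x i).2 σ) (fun i j hij ⟨Q, hQ, hQe⟩ => by
            refine hx i j hij ⟨Q, fun σ => hQ σ⟩ (Subtype.ext ?_)
            exact hQe)
        have hWpos : 0 < Nat.card (EisW N l' S k) := Nat.card_pos
        have h1 : Nat.card (EisW N l' S k) ≤ c₁ * (l' ^ C.alpha) ^ 2 := by
          rw [← pow_mul, mul_comm C.alpha 2]; exact hC
        have h2 := hTor k Ap hAp
        have h3 := desc_numeric hWpos hcount h1 h2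
        exact h3.trans (Nat.mul_le_mul_left _ (dm_card_fixed_le N hFG l' S k)))
  refine ⟨t, ht, fun z hz => ?_⟩
  have h := htors ⟨z, fun σ => hz σ⟩
  obtain ⟨m, hm, hm'⟩ := h.exists_nsmul_eq_zero
  refine ⟨m, hm, ?_⟩
  exact congrArg Subtype.val hm'

/-- **DESC-MAIN** (the form of the blueprint, for `EisLocal`). -/
theorem desc_main (hN : N.Prime) (l' : ℕ) (hl : l'.Prime) (hNl : N ≠ l') (S : Finset ℕ)
    (hNS : N ∈ S) (hlS : l' ∈ S)
    (hFG : AddGroup.FG ↥(FixedPoints.addSubgroup GQb (JZero N)))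
    (hIdem : EisIdem N l' S) (hLocal : EisLocal N l' S) (hToric : EisToric N l' S)
    (hKp : EisKp N l') : EisDescentAt N l' S :=
  desc_main_tw N hN l' hl hNl S hNS hlS 1 hFG hIdem (eisLocalTw_of 1 hLocal) hToric hKp

end Fermat.Agent.EDesc
end
end MergeWrap_E_Desc_Main

section MergeWrap_E_Desc_ToricFinal -- from E/Desc/ToricFinal.lean

set_option autoImplicit false

namespace Fermat.Agent.EDesc

/-- **(T1), counting form, unconditional**: the inertia at the prime level `N = p` fixes at least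
"half" of the Eisenstein part `W_k` of `J₀(N)[l'^k]`, `l' ≠ p`. -/
theorem eisToric (N : ℕ) [NeZero N] (hN : N.Prime) (l' : ℕ) [Fact l'.Prime] (hNl : N ≠ l')
    (S : Finset ℕ) : EisToric N l' S :=
  eisToric_of_T1 N hN l' hNl S (Fermat.Agent.BadRed.torsionInertiaUnipotent_all N)

end Fermat.Agent.EDesc
end MergeWrap_E_Desc_ToricFinal

section MergeWrap_S17_Abs_Rat -- from S17/Abs/Rat.lean

set_option autoImplicit false
set_option linter.unusedSectionVars false
set_option linter.style.haveILetI false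

namespace Fermat.Agent.S17.Abs

/-- The logarithm of the `p`-adic norm of a rational number. -/
noncomputable def logPadic (p : Nat.Primes) (r : ℚ) : ℝ :=
  Real.log ((padicNorm p.1 r : ℚ) : ℝ)

theorem logPadic_mul (p : Nat.Primes) {r s : ℚ} (hr : r ≠ 0) (hs : s ≠ 0) :
    logPadic p (r * s) = logPadic p r + logPadic p s := by
  haveI : Fact p.1.Prime := ⟨p.2⟩
  unfold logPadic
  rw [padicNorm.mul, Rat.cast_mul, Real.log_mul]
  · exact_mod_cast (padicNorm.nonzero hr)
  · exact_mod_cast (padicNorm.nonzero hs)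

theorem logPadic_eq_zero_of_not_dvd (p : Nat.Primes) {r : ℚ} (hnum : ¬ (p.1 : ℤ) ∣ r.num)
    (hden : ¬ p.1 ∣ r.den) : logPadic p r = 0 := by
  haveI : Fact p.1.Prime := ⟨p.2⟩
  unfold logPadic
  have h1 : padicNorm p.1 r = 1 := by
    have hr : r = (r.num : ℚ) / (r.den : ℚ) := (Rat.num_div_den r).symm
    rw [hr, padicNorm.div, (padicNorm.int_eq_one_iff _).mpr hnum]
    have : padicNorm p.1 ((r.den : ℕ) : ℚ) = 1 := (padicNorm.nat_eq_one_iff _).mpr hden
    rw [this, div_one]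
  rw [h1, Rat.cast_one, Real.log_one]

/-- `log |r|_p ≠ 0` only for finitely many primes. -/
theorem finite_support_logPadic {r : ℚ} (hr : r ≠ 0) :
    (Function.support fun p : Nat.Primes => logPadic p r).Finite := by
  have hm : r.num.natAbs * r.den ≠ 0 :=
    Nat.mul_ne_zero (Int.natAbs_ne_zero.mpr (Rat.num_ne_zero.mpr hr)) r.den_nz
  have hfin : {n : ℕ | n ∣ r.num.natAbs * r.den}.Finite :=
    Set.Finite.subset (Set.finite_Iic (r.num.natAbs * r.den))
      fun n hn => Nat.le_of_dvd (Nat.pos_of_ne_zero hm) hn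
  refine Set.Finite.subset (hfin.preimage (f := fun p : Nat.Primes => p.1)
    (fun a _ b _ h => Subtype.ext h)) ?_
  intro p hp
  rw [Function.mem_support] at hp
  show p.1 ∣ r.num.natAbs * r.den
  by_contra hnd
  apply hp
  refine logPadic_eq_zero_of_not_dvd p ?_ ?_
  · intro h
    exact hnd (Dvd.dvd.mul_right (Int.natCast_dvd.mp h) _)
  · intro h
    exact hnd (Dvd.dvd.mul_left h _)

/-- The logarithmic "product": `log |r| + ∑ᶠ p, log |r|_p`. -/
noncomputable def logProd (r : ℚ) : ℝ :=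
  Real.log |(r : ℝ)| + ∑ᶠ p : Nat.Primes, logPadic p r

theorem logProd_mul {r s : ℚ} (hr : r ≠ 0) (hs : s ≠ 0) :
    logProd (r * s) = logProd r + logProd s := by
  unfold logProd
  have h1 : (fun p : Nat.Primes => logPadic p (r * s)) =
      fun p => logPadic p r + logPadic p s := by
    funext p
    exact logPadic_mul p hr hs
  rw [h1, finsum_add_distrib (finite_support_logPadic hr) (finite_support_logPadic hs),
    Rat.cast_mul, abs_mul, Real.log_mul]
  · ring
  · exact abs_ne_zero.mpr (by exact_mod_cast hr)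
  · exact abs_ne_zero.mpr (by exact_mod_cast hs)

theorem logProd_one : logProd 1 = 0 := by
  have h := logProd_mul (r := 1) (s := 1) one_ne_zero one_ne_zero
  rw [mul_one] at h
  linarith

theorem logProd_neg_one : logProd (-1) = 0 := by
  have h := logProd_mul (r := -1) (s := -1) (by norm_num) (by norm_num)
  rw [neg_mul_neg, mul_one, logProd_one] at h
  linarith

theorem logProd_prime (q : ℕ) (hq : q.Prime) : logProd (q : ℚ) = 0 := by
  unfold logProd
  have hsingle : ∑ᶠ p : Nat.Primes, logPadic p (q : ℚ) = logPadic ⟨q, hq⟩ (q : ℚ) := by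
    refine finsum_eq_single _ (⟨q, hq⟩ : Nat.Primes) fun p hp => ?_
    haveI : Fact p.1.Prime := ⟨p.2⟩
    refine logPadic_eq_zero_of_not_dvd p ?_ ?_
    · rw [Rat.num_natCast]
      intro h
      have h2 : p.1 ∣ q := Int.natCast_dvd_natCast.mp h
      exact hp (Subtype.ext ((Nat.prime_dvd_prime_iff_eq p.2 hq).mp h2))
    · rw [Rat.den_natCast]
      exact fun h => p.2.one_lt.ne' (Nat.dvd_one.mp h)
  rw [hsingle]
  unfold logPadic
  rw [padicNorm.padicNorm_p hq.one_lt]
  have hq0 : (0 : ℝ) < q := by exact_mod_cast hq.pos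
  rw [Rat.cast_natCast, abs_of_pos hq0, Rat.cast_inv, Rat.cast_natCast, Real.log_inv]
  ring

theorem logProd_natCast (n : ℕ) (hn : n ≠ 0) : logProd (n : ℚ) = 0 := by
  induction n using Nat.recOnMul with
  | zero => exact absurd rfl hn
  | one => rw [Nat.cast_one]; exact logProd_one
  | prime p hp => exact logProd_prime p hp
  | mul a b ha hb =>
    have ha0 : a ≠ 0 := fun h => hn (by rw [h, zero_mul])
    have hb0 : b ≠ 0 := fun h => hn (by rw [h, mul_zero])
    rw [Nat.cast_mul, logProd_mul (by exact_mod_cast ha0) (by exact_mod_cast hb0), ha ha0,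
      hb hb0, add_zero]

theorem logProd_intCast (a : ℤ) (ha : a ≠ 0) : logProd (a : ℚ) = 0 := by
  rcases Int.natAbs_eq a with h | h
  · rw [h, Int.cast_natCast]
    exact logProd_natCast _ (Int.natAbs_ne_zero.mpr ha)
  · have hn : (a.natAbs : ℚ) ≠ 0 := by exact_mod_cast Int.natAbs_ne_zero.mpr ha
    have e : (a : ℚ) = (-1) * (a.natAbs : ℚ) := by
      have h' : (a : ℚ) = ((-(a.natAbs : ℤ) : ℤ) : ℚ) := by rw [← h]
      rw [h', Int.cast_neg, Int.cast_natCast]
      ring
    rw [e, logProd_mul (by norm_num) hn, logProd_neg_one,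
      logProd_natCast _ (Int.natAbs_ne_zero.mpr ha), add_zero]

/-- **Product formula for `ℚ`** (logarithmic form). -/
theorem logProd_eq_zero (r : ℚ) (hr : r ≠ 0) : logProd r = 0 := by
  have hden : (r.den : ℚ) ≠ 0 := by exact_mod_cast r.den_nz
  have h := logProd_mul hr hden
  rw [Rat.mul_den_eq_num, logProd_intCast _ (Rat.num_ne_zero.mpr hr),
    logProd_natCast _ r.den_nz, add_zero] at h
  exact h.symm

/-- **Product formula for `ℚ`**, unfolded. -/
theorem rat_product_formula (r : ℚ) (hr : r ≠ 0) :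
    Real.log |(r : ℝ)| + ∑ᶠ p : Nat.Primes, Real.log ((padicNorm p.1 r : ℚ) : ℝ) = 0 :=
  logProd_eq_zero r hr

end Fermat.Agent.S17.Abs
end MergeWrap_S17_Abs_Rat

section MergeWrap_S17_Abs_Basic -- from S17/Abs/Basic.lean

set_option autoImplicit false
set_option linter.unusedSectionVars false
set_option linter.style.haveILetI false

open Polynomial

namespace Fermat.Agent.S17.Abs

local notation "ℚbar" => AlgebraicClosure ℚ

/-- A fixed embedding `ℚ̄ → ℂ`. -/
noncomputable def complexEmbedding : ℚbar →ₐ[ℚ] ℂ :=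
  haveI : Algebra.IsAlgebraic ℚ (AlgebraicClosure ℚ) := AlgebraicClosure.isAlgebraic ℚ
  IsAlgClosed.lift

/-- The archimedean absolute value on `ℚ̄`. -/
noncomputable def absInf : AbsoluteValue ℚbar ℝ where
  toFun a := ‖complexEmbedding a‖
  map_mul' a b := by rw [map_mul, norm_mul]
  nonneg' a := norm_nonneg _
  eq_zero' a := by rw [norm_eq_zero, map_eq_zero]
  add_le' a b := by rw [map_add]; exact norm_add_le _ _

/-- The `p`-adic absolute value on `ℚ̄`. -/
noncomputable def absFin (p : ℕ) [Fact p.Prime] : AbsoluteValue ℚbar ℝ where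
  toFun a := ‖padicEmbedding p a‖
  map_mul' a b := by rw [map_mul, norm_mul]
  nonneg' a := norm_nonneg _
  eq_zero' a := by rw [norm_eq_zero, map_eq_zero]
  add_le' a b := by rw [map_add]; exact norm_add_le _ _

/-- The `p`-adic absolute value on `ℚ̄`, indexed by `Nat.Primes`. -/
noncomputable def absAt (p : Nat.Primes) : AbsoluteValue ℚbar ℝ :=
  haveI : Fact p.1.Prime := ⟨p.2⟩
  absFin p.1

theorem absInf_apply (a : ℚbar) : absInf a = ‖complexEmbedding a‖ := rfl

theorem absFin_apply (p : ℕ) [Fact p.Prime] (a : ℚbar) : absFin p a = ‖padicEmbedding p a‖ := rfl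

theorem absAt_apply (p : Nat.Primes) (a : ℚbar) :
    absAt p a = (haveI : Fact p.1.Prime := ⟨p.2⟩; absFin p.1 a) := rfl

/-! ### Restriction to `ℚ` -/

theorem absInf_algebraMap (r : ℚ) : absInf (algebraMap ℚ ℚbar r) = |(r : ℝ)| := by
  rw [absInf_apply, AlgHom.commutes, eq_ratCast, Complex.norm_ratCast]

theorem absFin_algebraMap (p : ℕ) [Fact p.Prime] (r : ℚ) :
    absFin p (algebraMap ℚ ℚbar r) = ((padicNorm p r : ℚ) : ℝ) := by
  rw [absFin_apply, AlgHom.commutes, ← Padic.eq_padicNorm, ← PadicAlgCl.norm_extends p (r : ℚ_[p])]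
  congr 1

theorem absAt_algebraMap (p : Nat.Primes) (r : ℚ) :
    absAt p (algebraMap ℚ ℚbar r) = ((padicNorm p.1 r : ℚ) : ℝ) := by
  haveI : Fact p.1.Prime := ⟨p.2⟩
  exact absFin_algebraMap p.1 r

/-! ### The nonarchimedean property -/

theorem absFin_add_le_max (p : ℕ) [Fact p.Prime] (a b : ℚbar) :
    absFin p (a + b) ≤ max (absFin p a) (absFin p b) := by
  rw [absFin_apply, absFin_apply, absFin_apply, map_add]
  exact IsUltrametricDist.norm_add_le_max _ _

theorem absAt_add_le_max (p : Nat.Primes) (a b : ℚbar) :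
    absAt p (a + b) ≤ max (absAt p a) (absAt p b) := by
  haveI : Fact p.1.Prime := ⟨p.2⟩
  exact absFin_add_le_max p.1 a b

theorem isNonarchimedean_absAt (p : Nat.Primes) : IsNonarchimedean (absAt p) :=
  fun a b => absAt_add_le_max p a b

/-- A root of a monic polynomial with coefficients of norm `≤ 1` in an ultrametric normed field
has norm `≤ 1`. -/
theorem norm_le_one_of_monic_root {K : Type*} [NormedField K] [IsUltrametricDist K]
    {f : K[X]} (hf : f.Monic) (hc : ∀ i, ‖f.coeff i‖ ≤ 1) {b : K} (hb : f.eval b = 0) :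
    ‖b‖ ≤ 1 := by
  by_contra hlt
  rw [not_le] at hlt
  have hn : f.natDegree ≠ 0 := by
    intro h0
    have h1 : f = 1 := hf.natDegree_eq_zero.mp h0
    rw [h1, eval_one] at hb
    exact one_ne_zero hb
  have hsum : b ^ f.natDegree = - ∑ i ∈ Finset.range f.natDegree, f.coeff i * b ^ i := by
    have h := hb
    rw [eval_eq_sum_range, Finset.sum_range_succ, hf.coeff_natDegree, one_mul] at h
    rw [eq_neg_iff_add_eq_zero, add_comm]
    exact h
  have hne : (Finset.range f.natDegree).Nonempty :=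
    Finset.nonempty_range_iff.mpr hn
  obtain ⟨i, hi, hle⟩ := IsUltrametricDist.exists_norm_finsetSum_le_of_nonempty hne
    (fun i => f.coeff i * b ^ i)
  have h1 : ‖b‖ ^ f.natDegree ≤ ‖f.coeff i * b ^ i‖ := by
    rw [← norm_pow, hsum, norm_neg]
    exact hle
  have h2 : ‖f.coeff i * b ^ i‖ ≤ ‖b‖ ^ i := by
    rw [norm_mul, norm_pow]
    exact mul_le_of_le_one_left (pow_nonneg (norm_nonneg _) _) (hc i)
  have h3 : ‖b‖ ^ i < ‖b‖ ^ f.natDegree :=
    pow_lt_pow_right₀ hlt (Finset.mem_range.mp hi)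
  exact absurd (h1.trans h2) (not_le.mpr h3)

/-- A root in `ℚ̄` of a monic rational polynomial with `p`-integral coefficients has
`|a|_p ≤ 1`. -/
theorem absFin_le_one_of_root (p : ℕ) [Fact p.Prime] {f : ℚ[X]} (hf : f.Monic)
    (hc : ∀ i, padicNorm p (f.coeff i) ≤ 1) {a : ℚbar} (ha : aeval a f = 0) :
    absFin p a ≤ 1 := by
  rw [absFin_apply]
  refine norm_le_one_of_monic_root (f := f.map (algebraMap ℚ (PadicAlgCl p)))
    (hf.map _) (fun i => ?_) ?_
  · rw [coeff_map]
    have h := absFin_algebraMap p (f.coeff i)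
    rw [absFin_apply, AlgHom.commutes] at h
    rw [h]
    exact_mod_cast hc i
  · rw [eval_map_algebraMap, aeval_algHom_apply, ha, map_zero]

/-! ### Galois conjugates -/

/-- The Galois conjugates of `a`: the roots of `minpoly ℚ a` in `ℚ̄`. -/
noncomputable def conjRoots (a : ℚbar) : Multiset ℚbar :=
  (minpoly ℚ a).aroots ℚbar

theorem isIntegral_qbar (a : ℚbar) : IsIntegral ℚ a :=
  haveI : Algebra.IsAlgebraic ℚ (AlgebraicClosure ℚ) := AlgebraicClosure.isAlgebraic ℚ
  Algebra.IsIntegral.isIntegral a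

theorem mem_conjRoots {a b : ℚbar} : b ∈ conjRoots a ↔ aeval b (minpoly ℚ a) = 0 := by
  unfold conjRoots
  rw [mem_aroots]
  exact ⟨fun h => h.2, fun h => ⟨minpoly.ne_zero (isIntegral_qbar a), h⟩⟩

theorem self_mem_conjRoots (a : ℚbar) : a ∈ conjRoots a :=
  mem_conjRoots.mpr (minpoly.aeval ℚ a)

/-- Vieta: the product of the conjugates is `± ` the constant coefficient of the minimal
polynomial. -/
theorem prod_conjRoots (a : ℚbar) :
    (conjRoots a).prod =
      (-1) ^ (minpoly ℚ a).natDegree * algebraMap ℚ ℚbar ((minpoly ℚ a).coeff 0) := by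
  have hspl : ((minpoly ℚ a).map (algebraMap ℚ ℚbar)).Splits := IsAlgClosed.splits _
  have hm : ((minpoly ℚ a).map (algebraMap ℚ ℚbar)).Monic :=
    (minpoly.monic (isIntegral_qbar a)).map _
  have h := hspl.coeff_zero_eq_prod_roots_of_monic hm
  rw [coeff_map, natDegree_map] at h
  unfold conjRoots aroots
  rw [h, ← mul_assoc, ← pow_add, ← two_mul, pow_mul, neg_one_sq, one_pow, one_mul]

theorem coeff_zero_minpoly_ne_zero {a : ℚbar} (ha : a ≠ 0) : (minpoly ℚ a).coeff 0 ≠ 0 :=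
  minpoly.coeff_zero_ne_zero (isIntegral_qbar a) ha

theorem ne_zero_of_mem_conjRoots {a b : ℚbar} (ha : a ≠ 0) (hb : b ∈ conjRoots a) : b ≠ 0 := by
  rintro rfl
  have h := mem_conjRoots.mp hb
  rw [← coeff_zero_eq_aeval_zero', map_eq_zero] at h
  exact coeff_zero_minpoly_ne_zero ha h

/-- The product of an absolute value over the conjugates. -/
theorem prod_abv_conjRoots (v : AbsoluteValue ℚbar ℝ) (a : ℚbar) :
    ((conjRoots a).map v).prod = v (algebraMap ℚ ℚbar ((minpoly ℚ a).coeff 0)) := by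
  have h : ((conjRoots a).map v).prod = v (conjRoots a).prod :=
    (map_multiset_prod v.toMonoidHom (conjRoots a)).symm
  rw [h, prod_conjRoots, map_mul, map_pow, AbsoluteValue.map_neg, map_one, one_pow, one_mul]

/-- The sum of `log |a'|_v` over the conjugates. -/
theorem sum_log_abv_conjRoots (v : AbsoluteValue ℚbar ℝ) {a : ℚbar} (ha : a ≠ 0) :
    ((conjRoots a).map fun b => Real.log (v b)).sum =
      Real.log (v (algebraMap ℚ ℚbar ((minpoly ℚ a).coeff 0))) := by
  rw [← prod_abv_conjRoots v a, Real.log_multiset_prod, Multiset.map_map]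
  · rfl
  · intro x hx
    rw [Multiset.mem_map] at hx
    obtain ⟨b, hb, rfl⟩ := hx
    exact (v.ne_zero_iff.mpr (ne_zero_of_mem_conjRoots ha hb))

/-! ### Almost all absolute values are `1` -/

/-- The primes that are bad for a nonzero polynomial: those dividing a denominator or a
numerator of a nonzero coefficient. -/
theorem finite_bad_primes (f : ℚ[X]) :
    {p : Nat.Primes | ∃ i, f.coeff i ≠ 0 ∧ logPadic p (f.coeff i) ≠ 0}.Finite := by
  have h : {p : Nat.Primes | ∃ i, f.coeff i ≠ 0 ∧ logPadic p (f.coeff i) ≠ 0} ⊆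
      ⋃ i ∈ f.support, Function.support fun p : Nat.Primes => logPadic p (f.coeff i) := by
    rintro p ⟨i, hi, hp⟩
    simp only [Set.mem_iUnion]
    exact ⟨i, mem_support_iff.mpr hi, hp⟩
  refine Set.Finite.subset ?_ h
  exact Set.Finite.biUnion f.support.finite_toSet fun i hi =>
    finite_support_logPadic (mem_support_iff.mp hi)

theorem padicNorm_eq_one_of_logPadic_eq_zero (p : Nat.Primes) {r : ℚ} (hr : r ≠ 0)
    (h : logPadic p r = 0) : padicNorm p.1 r = 1 := by
  haveI : Fact p.1.Prime := ⟨p.2⟩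
  unfold logPadic at h
  have hpos : (0 : ℝ) < ((padicNorm p.1 r : ℚ) : ℝ) := by
    exact_mod_cast lt_of_le_of_ne (padicNorm.nonneg r) (Ne.symm (padicNorm.nonzero hr))
  have := Real.eq_one_of_pos_of_log_eq_zero hpos h
  exact_mod_cast this

/-- Outside the bad primes of `minpoly ℚ a`, all conjugates of `a` have absolute value `1`. -/
theorem absAt_eq_one_of_good {a : ℚbar} (ha : a ≠ 0) (p : Nat.Primes)
    (hp : p ∉ {p : Nat.Primes | ∃ i, (minpoly ℚ a).coeff i ≠ 0 ∧
      logPadic p ((minpoly ℚ a).coeff i) ≠ 0}) :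
    ∀ b ∈ conjRoots a, absAt p b = 1 := by
  haveI : Fact p.1.Prime := ⟨p.2⟩
  have hgood : ∀ i, (minpoly ℚ a).coeff i ≠ 0 → padicNorm p.1 ((minpoly ℚ a).coeff i) = 1 := by
    intro i hi
    refine padicNorm_eq_one_of_logPadic_eq_zero p hi ?_
    by_contra hne
    exact hp ⟨i, hi, hne⟩
  have hc : ∀ i, padicNorm p.1 ((minpoly ℚ a).coeff i) ≤ 1 := by
    intro i
    by_cases hi : (minpoly ℚ a).coeff i = 0
    · rw [hi, padicNorm.zero]; exact zero_le_one
    · exact (hgood i hi).le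
  have hle : ∀ b ∈ conjRoots a, absAt p b ≤ 1 := fun b hb =>
    absFin_le_one_of_root p.1 (minpoly.monic (isIntegral_qbar a)) hc (mem_conjRoots.mp hb)
  have hprod : ((conjRoots a).map (absAt p)).prod = 1 := by
    rw [prod_abv_conjRoots, absAt_algebraMap, hgood 0 (coeff_zero_minpoly_ne_zero ha),
      Rat.cast_one]
  -- a product of numbers in `(0, 1]` equal to `1` has all factors equal to `1`
  intro b hb
  by_contra hne
  have hlt : absAt p b < 1 := lt_of_le_of_ne (hle b hb) hne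
  obtain ⟨t, ht⟩ := Multiset.exists_cons_of_mem hb
  have hle' : ∀ c ∈ t, absAt p c ≤ 1 := fun c hc' =>
    hle c (by rw [ht]; exact Multiset.mem_cons_of_mem hc')
  have h1 : (t.map (absAt p)).prod ≤ 1 := by
    refine Multiset.prod_induction (fun x : ℝ => 0 ≤ x ∧ x ≤ 1) _ ?_ ?_ ?_ |>.2
    · rintro x y ⟨hx0, hx1⟩ ⟨hy0, hy1⟩
      exact ⟨mul_nonneg hx0 hy0, mul_le_one₀ hx1 hy0 hy1⟩
    · exact ⟨zero_le_one, le_rfl⟩
    · intro x hx
      obtain ⟨c, hc', rfl⟩ := Multiset.mem_map.mp hx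
      exact ⟨(absAt p).nonneg c, hle' c hc'⟩
  have h0 : 0 ≤ (t.map (absAt p)).prod := by
    refine Multiset.prod_nonneg fun x hx => ?_
    obtain ⟨c, -, rfl⟩ := Multiset.mem_map.mp hx
    exact (absAt p).nonneg c
  rw [ht, Multiset.map_cons, Multiset.prod_cons] at hprod
  have : absAt p b * (t.map (absAt p)).prod < 1 := by
    calc absAt p b * (t.map (absAt p)).prod ≤ absAt p b * 1 :=
          mul_le_mul_of_nonneg_left h1 ((absAt p).nonneg b)
      _ = absAt p b := mul_one _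
      _ < 1 := hlt
  exact absurd hprod this.ne

/-- `|a|_p = 1` for almost all primes `p`, uniformly over the conjugates of `a`. -/
theorem finite_absAt_conj_ne_one {a : ℚbar} (ha : a ≠ 0) :
    {p : Nat.Primes | ∃ b ∈ conjRoots a, absAt p b ≠ 1}.Finite := by
  refine Set.Finite.subset (finite_bad_primes (minpoly ℚ a)) ?_
  rintro p ⟨b, hb, hne⟩
  by_contra hp
  exact hne (absAt_eq_one_of_good ha p hp b hb)

/-- `|a|_p = 1` for almost all primes `p`. -/
theorem finite_absAt_ne_one {a : ℚbar} (ha : a ≠ 0) :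
    {p : Nat.Primes | absAt p a ≠ 1}.Finite :=
  Set.Finite.subset (finite_absAt_conj_ne_one ha) fun _ hp => ⟨a, self_mem_conjRoots a, hp⟩

/-! ### The product formula over Galois orbits -/

/-- **Product formula** over the Galois orbit of `a ≠ 0`. -/
theorem product_formula {a : ℚbar} (ha : a ≠ 0) :
    ((conjRoots a).map fun b => Real.log (absInf b)).sum +
      ∑ᶠ p : Nat.Primes, ((conjRoots a).map fun b => Real.log (absAt p b)).sum = 0 := by
  have hc := coeff_zero_minpoly_ne_zero ha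
  rw [sum_log_abv_conjRoots absInf ha, absInf_algebraMap]
  have h : (fun p : Nat.Primes => ((conjRoots a).map fun b => Real.log (absAt p b)).sum) =
      fun p => logPadic p ((minpoly ℚ a).coeff 0) := by
    funext p
    rw [sum_log_abv_conjRoots (absAt p) ha, absAt_algebraMap]
    rfl
  rw [h]
  exact logProd_eq_zero _ hc

end Fermat.Agent.S17.Abs
end MergeWrap_S17_Abs_Basic

section MergeWrap_S17_Abs_Sys -- from S17/Abs/Sys.lean

set_option autoImplicit false
set_option linter.unusedSectionVars false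
set_option linter.style.haveILetI false

noncomputable section

namespace Fermat.Agent.S17

open Fermat.Agent.S17.Abs

/-- The absolute value of `ℚ̄` at the place `v` (`none` = archimedean). -/
def absOpt : Option Nat.Primes → AbsoluteValue Qbar ℝ
  | none => Abs.absInf
  | some p => Abs.absAt p

@[simp] lemma absOpt_none : absOpt none = Abs.absInf := rfl
@[simp] lemma absOpt_some (p : Nat.Primes) : absOpt (some p) = Abs.absAt p := rfl

lemma absOpt_nonarch (v : Option Nat.Primes) (hv : v ∉ ({none} : Finset (Option Nat.Primes))) :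
    IsNonarchimedean (absOpt v) := by
  cases v with
  | none => exact absurd (Finset.mem_singleton_self _) hv
  | some p => exact Abs.isNonarchimedean_absAt p

lemma finite_absOpt_ne_one (a : Qbar) (ha : a ≠ 0) : {v | absOpt v a ≠ 1}.Finite := by
  have h := Abs.finite_absAt_ne_one ha
  apply ((h.image some).insert none).subset
  intro v hv
  cases v with
  | none => exact Set.mem_insert _ _
  | some p => exact Set.mem_insert_of_mem _ ⟨p, hv, rfl⟩

/-- finite support of `v ↦ F (|a|_v)` when `F 1 = 0` -/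
lemma finite_support_comp_absOpt (F : ℝ → ℝ) (hF : F 1 = 0) (a : Qbar) (ha : a ≠ 0) :
    (Function.support fun v => F (absOpt v a)).Finite := by
  apply (finite_absOpt_ne_one a ha).subset
  intro v hv h1
  rw [Function.mem_support] at hv
  apply hv
  rw [h1, hF]

lemma finite_support_comp_absAt (F : ℝ → ℝ) (hF : F 1 = 0) (a : Qbar) (ha : a ≠ 0) :
    (Function.support fun p : Nat.Primes => F (Abs.absAt p a)).Finite := by
  apply (Abs.finite_absAt_ne_one ha).subset
  intro v hv h1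
  rw [Function.mem_support] at hv
  apply hv
  rw [h1, hF]

/-- splitting a sum over all places -/
lemma finsum_absOpt (F : ℝ → ℝ) (hF : F 1 = 0) (a : Qbar) (ha : a ≠ 0) :
    ∑ᶠ v, F (absOpt v a) = F (Abs.absInf a) + ∑ᶠ p : Nat.Primes, F (Abs.absAt p a) := by
  have h := finsum_option (f := fun v => F (absOpt v a))
    (finite_support_comp_absAt F hF a ha)
  exact h

lemma algebraMap_ne_zero {a : ℚ} (ha : a ≠ 0) : algebraMap ℚ Qbar a ≠ 0 :=
  (map_ne_zero_iff _ (algebraMap ℚ Qbar).injective).2 ha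

/-- **Product formula on `ℚ`.** -/
theorem absOpt_product_formula (a : ℚ) (ha : a ≠ 0) :
    ∑ᶠ v, Real.log (absOpt v (algebraMap ℚ Qbar a)) = 0 := by
  rw [finsum_absOpt Real.log Real.log_one _ (algebraMap_ne_zero ha), Abs.absInf_algebraMap]
  have h : (fun p : Nat.Primes => Real.log (Abs.absAt p (algebraMap ℚ Qbar a)))
      = fun p : Nat.Primes => Real.log ((padicNorm p.1 a : ℚ) : ℝ) := by
    funext p
    rw [Abs.absAt_algebraMap]
  rw [h]
  exact Abs.rat_product_formula a ha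

/-! ### Northcott on `ℚ` -/

/-- the local height function `log max(1, ·)` -/
def logPlus (x : ℝ) : ℝ := Real.log (max 1 x)

lemma logPlus_one : logPlus 1 = 0 := by simp [logPlus]

lemma logPlus_nonneg (x : ℝ) : 0 ≤ logPlus x := Real.log_nonneg (le_max_left _ _)

lemma log_le_logPlus {x : ℝ} (hx : 0 < x) : Real.log x ≤ logPlus x :=
  Real.log_le_log hx (le_max_right _ _)

/-- the height of a rational number -/
def ratHeight (a : ℚ) : ℝ := ∑ᶠ v, logPlus (absOpt v (algebraMap ℚ Qbar a))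

lemma ratHeight_eq (a : ℚ) (ha : a ≠ 0) :
    ratHeight a = logPlus |(a : ℝ)|
      + ∑ᶠ p : Nat.Primes, logPlus ((padicNorm p.1 a : ℚ) : ℝ) := by
  unfold ratHeight
  rw [finsum_absOpt logPlus logPlus_one _ (algebraMap_ne_zero ha), Abs.absInf_algebraMap]
  congr 1
  apply finsum_congr
  intro p
  rw [Abs.absAt_algebraMap]

lemma finite_support_logPlus_padic (a : ℚ) (ha : a ≠ 0) :
    (Function.support fun p : Nat.Primes => logPlus ((padicNorm p.1 a : ℚ) : ℝ)).Finite := by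
  have h := finite_support_comp_absAt logPlus logPlus_one _ (algebraMap_ne_zero ha)
  have e : (fun p : Nat.Primes => logPlus (Abs.absAt p (algebraMap ℚ Qbar a)))
      = fun p : Nat.Primes => logPlus ((padicNorm p.1 a : ℚ) : ℝ) := by
    funext p
    rw [Abs.absAt_algebraMap]
  rwa [e] at h

/-- local comparison: `log⁺ |a|_p ≥ - log |den a|_p`. -/
lemma neg_log_den_le (a : ℚ) (p : Nat.Primes) :
    -Real.log ((padicNorm p.1 (a.den : ℚ) : ℚ) : ℝ) ≤ logPlus ((padicNorm p.1 a : ℚ) : ℝ) := by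
  haveI : Fact p.1.Prime := ⟨p.2⟩
  by_cases hd : p.1 ∣ a.den
  · -- then `p ∤ num`
    have hnum : ¬ (p.1 : ℤ) ∣ a.num := by
      intro h
      have h1 : p.1 ∣ a.num.natAbs := Int.natCast_dvd.1 h
      have hcop : Nat.Coprime a.num.natAbs a.den := a.reduced
      have := Nat.dvd_gcd h1 hd
      rw [hcop.gcd_eq_one] at this
      exact p.2.one_lt.ne' (Nat.dvd_one.1 this)
    have h3 : padicNorm p.1 (a.num : ℚ) = 1 := (padicNorm.int_eq_one_iff a.num).2 hnum
    have h5 : padicNorm p.1 a = (padicNorm p.1 (a.den : ℚ))⁻¹ := by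
      conv_lhs => rw [← Rat.num_div_den a]
      rw [padicNorm.div, h3, one_div]
    have hpos : (0 : ℝ) < ((padicNorm p.1 (a.den : ℚ) : ℚ) : ℝ) := by
      have : (0 : ℚ) < padicNorm p.1 (a.den : ℚ) :=
        lt_of_le_of_ne (padicNorm.nonneg _)
          (Ne.symm (padicNorm.nonzero (Nat.cast_ne_zero.2 a.den_nz)))
      exact_mod_cast this
    rw [h5, Rat.cast_inv, ← Real.log_inv]
    exact log_le_logPlus (inv_pos.2 hpos)
  · have h4 : padicNorm p.1 (a.den : ℚ) = 1 := (padicNorm.nat_eq_one_iff a.den).2 hd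
    rw [h4, Rat.cast_one, Real.log_one, neg_zero]
    exact logPlus_nonneg _

/-- `∑ᶠ p, log⁺ |a|_p ≥ log (den a)`. -/
lemma log_den_le_finsum (a : ℚ) (ha : a ≠ 0) :
    Real.log (a.den : ℝ) ≤ ∑ᶠ p : Nat.Primes, logPlus ((padicNorm p.1 a : ℚ) : ℝ) := by
  have hden : (a.den : ℚ) ≠ 0 := Nat.cast_ne_zero.2 a.den_nz
  have hpf := Abs.rat_product_formula (a.den : ℚ) hden
  have habs : |((a.den : ℚ) : ℝ)| = (a.den : ℝ) := by
    rw [Rat.cast_natCast]
    exact abs_of_nonneg (Nat.cast_nonneg _)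
  rw [habs] at hpf
  have h1 : Real.log (a.den : ℝ)
      = ∑ᶠ p : Nat.Primes, -Real.log ((padicNorm p.1 (a.den : ℚ) : ℚ) : ℝ) := by
    rw [finsum_neg_distrib]
    linarith
  rw [h1]
  have hs1 : (Function.support fun p : Nat.Primes =>
      -Real.log ((padicNorm p.1 (a.den : ℚ) : ℚ) : ℝ)).Finite := by
    have := Abs.finite_support_logPadic hden
    apply this.subset
    intro p hp
    rw [Function.mem_support] at hp ⊢
    intro h0
    apply hp
    show -Real.log ((padicNorm p.1 (a.den : ℚ) : ℚ) : ℝ) = 0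
    have : Abs.logPadic p (a.den : ℚ) = Real.log ((padicNorm p.1 (a.den : ℚ) : ℚ) : ℝ) := rfl
    rw [← this, h0, neg_zero]
  exact finsum_le_finsum' hs1 (finite_support_logPlus_padic a ha) (neg_log_den_le a)

lemma finsum_logPlus_padic_nonneg (a : ℚ) :
    0 ≤ ∑ᶠ p : Nat.Primes, logPlus ((padicNorm p.1 a : ℚ) : ℝ) :=
  finsum_nonneg fun _ => logPlus_nonneg _

/-- the height of `a ≠ 0` bounds the denominator -/
lemma log_den_le_ratHeight (a : ℚ) (ha : a ≠ 0) : Real.log (a.den : ℝ) ≤ ratHeight a := by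
  rw [ratHeight_eq a ha]
  have := log_den_le_finsum a ha
  have h0 := logPlus_nonneg |(a : ℝ)|
  linarith

/-- the height of `a ≠ 0` bounds the numerator -/
lemma log_num_le_ratHeight (a : ℚ) (ha : a ≠ 0) :
    Real.log (a.num.natAbs : ℝ) ≤ ratHeight a := by
  rw [ratHeight_eq a ha]
  have h1 := log_den_le_finsum a ha
  have hapos : (0 : ℝ) < |(a : ℝ)| := abs_pos.2 (Rat.cast_ne_zero.2 ha)
  have h2 := log_le_logPlus hapos
  have hdpos : (0 : ℝ) < (a.den : ℝ) := Nat.cast_pos.2 a.den_pos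
  have hnum : ((a.num.natAbs : ℕ) : ℝ) = |(a : ℝ)| * (a.den : ℝ) := by
    have e1 : (a : ℝ) = (a.num : ℝ) / (a.den : ℝ) := by
      have := Rat.cast_def (K := ℝ) a
      exact this
    rw [e1, abs_div, abs_of_pos hdpos, div_mul_cancel₀ _ hdpos.ne']
    rw [Nat.cast_natAbs]
    push_cast
    rfl
  rw [hnum, Real.log_mul hapos.ne' hdpos.ne']
  linarith

/-- **Northcott on `ℚ`.** -/
theorem ratHeight_northcott (B : ℝ) : {a : ℚ | ratHeight a ≤ B}.Finite := by
  obtain ⟨M, hM⟩ := exists_nat_gt (Real.exp B)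
  have hfin : {a : ℚ | a.num.natAbs ≤ M ∧ a.den ≤ M}.Finite := by
    have hinj : Set.InjOn (fun a : ℚ => (a.num, a.den)) {a : ℚ | a.num.natAbs ≤ M ∧ a.den ≤ M} := by
      intro a _ b _ h
      simp only [Prod.mk.injEq] at h
      exact Rat.ext h.1 h.2
    apply Set.Finite.of_finite_image _ hinj
    have hbox : ({z : ℤ | z.natAbs ≤ M} ×ˢ {n : ℕ | n ≤ M}).Finite := by
      apply Set.Finite.prod
      · have : {z : ℤ | z.natAbs ≤ M} ⊆ Set.Icc (-(M : ℤ)) M := by
          intro z hz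
          have hz' : z.natAbs ≤ M := hz
          rw [Set.mem_Icc]
          constructor <;> omega
        exact (Set.finite_Icc _ _).subset this
      · exact Set.finite_le_nat M
    apply hbox.subset
    rintro _ ⟨a, ha, rfl⟩
    exact ⟨ha.1, ha.2⟩
  apply (hfin.union (Set.finite_singleton 0)).subset
  intro a ha
  by_cases h0 : a = 0
  · exact Or.inr h0
  left
  have hB : ratHeight a ≤ B := ha
  have key : ∀ n : ℕ, 0 < n → Real.log (n : ℝ) ≤ B → n ≤ M := by
    intro n hn hlog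
    have h1 : (n : ℝ) ≤ Real.exp B := by
      rw [← Real.exp_log (Nat.cast_pos.2 hn)]
      exact Real.exp_le_exp.2 hlog
    have h2 : (n : ℝ) < M := lt_of_le_of_lt h1 hM
    exact_mod_cast h2.le
  constructor
  · exact key _ (Int.natAbs_pos.2 (Rat.num_ne_zero.2 h0))
      ((log_num_le_ratHeight a h0).trans hB)
  · exact key _ a.den_pos ((log_den_le_ratHeight a h0).trans hB)

/-! ### The system -/

/-- **Package ABS**: the system of absolute values on `ℚ̄`. -/
def absSys : AbsSys where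
  ι := Option Nat.Primes
  abv := absOpt
  arch := {none}
  nonarch := absOpt_nonarch
  finite_ne_one := finite_absOpt_ne_one
  product_formula := absOpt_product_formula
  northcott := ratHeight_northcott

theorem nonempty_absSys : Nonempty AbsSys := ⟨absSys⟩

@[simp] lemma absSys_abv (v : Option Nat.Primes) : absSys.abv v = absOpt v := rfl

end Fermat.Agent.S17
end
end MergeWrap_S17_Abs_Sys

section MergeWrap_S17_H_Setup_Main -- from S17/H/Setup/Main.lean

/-!
# S17 / package H, seat SETUP (helper19): the fixed data `HSetup N` exists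

* `P₀ = cuspPlace N` (the place of the `q`-adic order, Galois-fixed);
* `𝔸 = absSys` (seat ABS);
* `e = 20 g + 10`;
* `φ = (1, b₁, …, b_r)` where `b` is a Galois-fixed basis (seat RAT) of the Galois-stable subspace
  `{f ∈ L(e P₀) | a₀(f) = 0}` (`a₀` = constant coefficient of the `q`-expansion).

`nonempty_hSetup N : Nonempty (HSetup N)` for every `N ≠ 0`.
-/

set_option autoImplicit false
set_option linter.style.haveILetI false
set_option synthInstance.maxHeartbeats 400000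
set_option maxHeartbeats 800000

noncomputable section

open AlgebraicCurve ModularCurve Fermat.Agent.RR

namespace Fermat.Agent.S17.Setup

local notation "Qb" => AlgebraicClosure ℚ

section Generic

variable {K F : Type*} [Field K] [Field F] [Algebra K F]

theorem smul_mem_rr (g : SemilinearAut K F) {D : Divisor K F} {f : F}
    (hf : f ∈ riemannRochSpace D) : g • f ∈ riemannRochSpace (g • D) := by
  rw [mem_riemannRochSpace_iff] at hf ⊢
  intro w
  rcases hf (g⁻¹ • w) with h0 | h1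
  · left
    rw [h0, smul_zero]
  · right
    rw [SemilinearAut.divisor_smul_apply]
    have := SemilinearAut.ord_smul g (g⁻¹ • w) f
    rw [smul_inv_smul] at this
    rw [this]
    exact h1

theorem smul_mem_rr_single (g : SemilinearAut K F) {P : Place K F} (hP : g • P = P) (n : ℤ)
    {f : F} (hf : f ∈ riemannRochSpace (Finsupp.single P n)) :
    g • f ∈ riemannRochSpace (Finsupp.single P n) := by
  have h := smul_mem_rr g hf
  rwa [SemilinearAut.smul_single, hP] at h

theorem one_mem_rr_single (P : Place K F) (n : ℕ) :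
    (1 : F) ∈ riemannRochSpace (Finsupp.single P (n : ℤ)) := by
  rw [mem_riemannRochSpace_iff]
  intro v
  right
  rw [Place.ord_one]
  have h0 : (0 : ℤ) ≤ (Finsupp.single P (n : ℤ) : Divisor K F) v := by
    classical
    rw [Finsupp.single_apply]
    split_ifs
    · exact Int.natCast_nonneg n
    · exact le_rfl
  omega

/-- a basis of `U` from a basis of the kernel of a functional `lam` on `U` with
`lam x₀ = 1`. -/
theorem cons_basis (U : Submodule K F) (lam : F →ₗ[K] K) {x₀ : F} (hx₀ : x₀ ∈ U)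
    (hlam : lam x₀ = 1) {n : ℕ} (b : Fin n → F) (hb : LinearIndependent K b)
    (hspan : Submodule.span K (Set.range b) = U ⊓ LinearMap.ker lam) :
    LinearIndependent K (Fin.cons x₀ b : Fin (n + 1) → F) ∧
      Submodule.span K (Set.range (Fin.cons x₀ b : Fin (n + 1) → F)) = U := by
  constructor
  · rw [linearIndependent_finCons]
    refine ⟨hb, ?_⟩
    rw [hspan]
    intro h2
    have h3 := (Submodule.mem_inf.mp h2).2
    rw [LinearMap.mem_ker, hlam] at h3
    exact one_ne_zero h3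
  · rw [Fin.range_cons, Submodule.span_insert, hspan]
    apply le_antisymm
    · refine sup_le ?_ inf_le_left
      rw [Submodule.span_singleton_le_iff_mem]
      exact hx₀
    · intro f hf
      have h1 : f - lam f • x₀ ∈ U ⊓ LinearMap.ker lam := by
        rw [Submodule.mem_inf]
        refine ⟨U.sub_mem hf (U.smul_mem _ hx₀), ?_⟩
        rw [LinearMap.mem_ker, map_sub, map_smul, hlam, smul_eq_mul, mul_one, sub_self]
      have h2 : f = lam f • x₀ + (f - lam f • x₀) := by abel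
      rw [h2]
      exact Submodule.add_mem _
        (Submodule.mem_sup_left (Submodule.smul_mem _ _ (Submodule.mem_span_singleton_self x₀)))
        (Submodule.mem_sup_right h1)

end Generic

section Modular

variable (N : ℕ)

/-- the constant coefficient of the `q`-expansion. -/
def coeff0 : FN N →ₗ[Qb] Qb where
  toFun f := (f : LaurentSeries Qb).coeff 0
  map_add' f g := rfl
  map_smul' c f := by
    show ((c • f : FN N) : LaurentSeries Qb).coeff 0 = c • (f : LaurentSeries Qb).coeff 0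
    rw [IntermediateField.coe_smul, Algebra.smul_def, algebraMap_laurentSeries_eq_single,
      HahnSeries.coeff_single_zero_mul, smul_eq_mul]

theorem coeff0_apply (f : FN N) : coeff0 N f = (f : LaurentSeries Qb).coeff 0 := rfl

theorem coeff0_one : coeff0 N 1 = 1 := by
  rw [coeff0_apply]
  show (1 : LaurentSeries Qb).coeff 0 = 1
  rw [HahnSeries.coeff_one, if_pos rfl]

theorem coeff0_galFun (σ : GQ) (f : FN N) : coeff0 N (Pts.galFun N σ f) = σ (coeff0 N f) := by
  rw [coeff0_apply, Pts.coe_galFun, coeffMap_coeff]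
  rfl

variable [NeZero N]

/-- **SETUP**: the fixed data of package H exist. -/
theorem exists_hSetup : ∃ S : HSetup N, S.𝔸 = absSys ∧ S.P₀ = cuspPlace N ∧
    S.e = 20 * genusFF Qbar (FN N) + 10 := by
  have hRR : IsRRField Qb (FN N) := Fermat.Agent.RRMod.isRRField_bar N
  set e : ℕ := 20 * genusFF Qbar (FN N) + 10 with he
  set U : Submodule Qb (FN N) := secSpace (cuspPlace N) e 1 with hU
  have hUdef : U = riemannRochSpace (Finsupp.single (cuspPlace N) ((1 * e : ℕ) : ℤ)) := rfl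
  haveI hfin : FiniteDimensional Qb U := by
    rw [hUdef]
    exact finite_riemannRochSpace hRR _
  have hfix : ∀ σ : GQ, arithmeticGalois (modularFunctionFieldFull N) σ • cuspPlace N
      = cuspPlace N := fun σ => galPlace_cuspPlace N σ
  have hUst : ∀ σ : GQ, ∀ f ∈ U, arithmeticGalois (modularFunctionFieldFull N) σ • f ∈ U := by
    intro σ f hf
    rw [hUdef] at hf ⊢
    exact smul_mem_rr_single _ (hfix σ) _ hf
  have hU'st : ∀ σ : GQ, ∀ f ∈ U ⊓ LinearMap.ker (coeff0 N),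
      arithmeticGalois (modularFunctionFieldFull N) σ • f ∈ U ⊓ LinearMap.ker (coeff0 N) := by
    intro σ f hf
    rw [Submodule.mem_inf] at hf ⊢
    obtain ⟨hf1, hf2⟩ := hf
    refine ⟨hUst σ f hf1, ?_⟩
    rw [LinearMap.mem_ker] at hf2 ⊢
    have := coeff0_galFun N σ f
    rw [hf2, map_zero] at this
    exact this
  haveI hfin' : FiniteDimensional Qb ↥(U ⊓ LinearMap.ker (coeff0 N)) :=
    Submodule.finiteDimensional_inf_left U _
  obtain ⟨n, b, hb, hspan, hbfix⟩ :=
    Fermat.Agent.S17.RatDesc.exists_fixed_family' N (U ⊓ LinearMap.ker (coeff0 N)) hU'st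
  have h1U : (1 : FN N) ∈ U := by
    rw [hUdef]
    exact one_mem_rr_single _ _
  obtain ⟨hli, hsp⟩ := cons_basis U (coeff0 N) h1U (coeff0_one N) b hb hspan
  refine ⟨{ 𝔸 := absSys
            P₀ := cuspPlace N
            P₀_fixed := galPlace_cuspPlace N
            e := e
            e_large := le_rfl
            r := n
            φ := Fin.cons 1 b
            isEmbBasis := ⟨hli, hsp, rfl⟩
            φ_fixed := ?_ }, rfl, rfl, rfl⟩
  intro σ a
  refine Fin.cases ?_ (fun i => ?_) a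
  · show Pts.galFun N σ 1 = 1
    exact smul_one _
  · show Pts.galFun N σ (b i) = b i
    exact hbfix i σ

theorem nonempty_hSetup : Nonempty (HSetup N) := by
  obtain ⟨S, -⟩ := exists_hSetup N
  exact ⟨S⟩

/-- a chosen setup, with base point the cusp `∞`. -/
def hSetup : HSetup N := (exists_hSetup N).choose

theorem hSetup_P₀ : (hSetup N).P₀ = cuspPlace N := (exists_hSetup N).choose_spec.2.1

theorem hSetup_𝔸 : (hSetup N).𝔸 = absSys := (exists_hSetup N).choose_spec.1

theorem hSetup_e : (hSetup N).e = 20 * genusFF Qbar (FN N) + 10 :=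
  (exists_hSetup N).choose_spec.2.2

end Modular

end Fermat.Agent.S17.Setup
end
end MergeWrap_S17_H_Setup_Main

section MergeWrap_S17_H_Setup -- from S17/H/Setup.lean

/-!
# S17 / package H, seat SETUP (helper19): `nonempty_hSetup`

The fixed data of package H exist for every `N ≠ 0`:
`P₀ = Setup.cuspPlace N` (the cusp `∞`, Galois-fixed), `𝔸 = absSys`, `e = 20 g + 10`,
`φ` = a Galois-fixed basis of `L(e P₀)` with `φ 0 = 1`.
Details and the chosen setup `Setup.hSetup N` are in `Setup/Main.lean`, the cusp in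
`Setup/Cusp.lean`.
-/

set_option autoImplicit false

namespace Fermat.Agent.S17

/-- **SETUP.** -/
theorem nonempty_hSetup (N : ℕ) [NeZero N] : Nonempty (HSetup N) :=
  Setup.nonempty_hSetup N

end Fermat.Agent.S17
end MergeWrap_S17_H_Setup

section MergeWrap_S17_H_NorthcottRoots -- from S17/H/NorthcottRoots.lean

set_option autoImplicit false
set_option linter.unusedSectionVars false

/-!
# S17, package H, seat GC — part 1: Northcott for Galois-stable finite families in `ℚ̄`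

`northcott_roots 𝔸 d B` : there is a FINITE set `Σ ⊂ ℚ̄` such that every finite family
`(u_i)_{i ∈ T}`, `#T ≤ d`, whose polynomial `∏ (X - u_i)` is Galois-fixed and whose height
`Σ_v Σ_i log⁺ |u_i|_v` is at most `B`, takes its values in `Σ`.

Proof: the coefficients of `∏ (X - u_i)` are rational (`RatDesc.fixed_const`) and satisfy
`|c_k|_v ≤ 2^{#T} ∏ max(1, |u_i|_v)` (`2` only at archimedean places; induction on `T`), hence
have bounded height; `AbsSys.northcott` leaves finitely many polynomials.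
-/

noncomputable section

open Polynomial

namespace Fermat.Agent.S17

/-! ### totals of `M`-constants -/

namespace MConst

variable {𝔸 : AbsSys}

theorem hasFiniteSupport (γ : MConst 𝔸) : Function.HasFiniteSupport γ.c := γ.finite

theorem total_le_total {γ γ' : MConst 𝔸} (h : ∀ v, γ v ≤ γ' v) : γ.total ≤ γ'.total :=
  finsum_le_finsum' γ.hasFiniteSupport γ'.hasFiniteSupport h

theorem total_add (γ γ' : MConst 𝔸) : (γ + γ').total = γ.total + γ'.total :=
  finsum_add_distrib γ.finite γ'.finite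

theorem total_nsmul' (n : ℕ) (γ : MConst 𝔸) : (nsmul' n γ).total = n * γ.total := by
  unfold total
  simp only [nsmul'_apply]
  exact (mul_finsum _ _).symm

/-- comparison of a finite-support function with an `M`-constant -/
theorem finsum_le_total {f : 𝔸.ι → ℝ} (γ : MConst 𝔸) (h0 : ∀ v, 0 ≤ f v)
    (h : ∀ v, f v ≤ γ v) : ∑ᶠ v, f v ≤ γ.total := by
  refine finsum_le_finsum' (γ.finite.subset fun v hv => ?_) γ.hasFiniteSupport h
  intro hγ
  exact hv (le_antisymm (hγ ▸ h v) (h0 v))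

end MConst

/-! ### the coefficient bound -/

/-- the two-term triangle inequality, uniformly in the place -/
theorem abv_add_le_two (𝔸 : AbsSys) (v : 𝔸.ι) (x y : Qbar) {B : ℝ}
    (hx : 𝔸.abv v x ≤ B) (hy : 𝔸.abv v y ≤ B) :
    𝔸.abv v (x + y) ≤ Real.exp ((MConst.archNat (𝔸 := 𝔸) 2) v) * B := by
  classical
  have hB : 0 ≤ B := le_trans ((𝔸.abv v).nonneg x) hx
  have := abv_sum_le 𝔸 v (Finset.univ : Finset (Fin 2)) (fun i => if i = 0 then x else y) hB
    (by
      intro i _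
      by_cases hi : i = 0
      · simpa [hi] using hx
      · simpa [hi] using hy)
  simpa [Fin.sum_univ_two] using this

/-- `|coeff_k ∏_{i ∈ T} (X - u_i)|_v ≤ 2^{#T} ∏ max(1, |u_i|_v)` (`2` only at the archimedean
places). -/
theorem abv_coeff_prod_le (𝔸 : AbsSys) (v : 𝔸.ι) {ι : Type*} (T : Finset ι) (u : ι → Qbar)
    (k : ℕ) :
    𝔸.abv v ((∏ i ∈ T, (X - C (u i))).coeff k) ≤
      Real.exp (T.card * (MConst.archNat (𝔸 := 𝔸) 2) v) * ∏ i ∈ T, max 1 (𝔸.abv v (u i)) := by
  classical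
  induction T using Finset.induction_on generalizing k with
  | empty =>
    simp only [Finset.prod_empty, Finset.card_empty, Nat.cast_zero, zero_mul, Real.exp_zero,
      mul_one, coeff_one]
    split_ifs
    · simp
    · simp
  | insert j T hj ih =>
    rw [Finset.prod_insert hj, Finset.prod_insert hj, Finset.card_insert_of_notMem hj,
      mul_comm (X - C (u j))]
    set Q := ∏ i ∈ T, (X - C (u i)) with hQ
    set M : ℝ := Real.exp (T.card * (MConst.archNat (𝔸 := 𝔸) 2) v)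
      * ∏ i ∈ T, max 1 (𝔸.abv v (u i)) with hM
    have hM0 : 0 ≤ M := mul_nonneg (Real.exp_pos _).le
      (Finset.prod_nonneg fun i _ => le_trans zero_le_one (le_max_left _ _))
    have hm1 : (1 : ℝ) ≤ max 1 (𝔸.abv v (u j)) := le_max_left _ _
    have hmu : 𝔸.abv v (u j) ≤ max 1 (𝔸.abv v (u j)) := le_max_right _ _
    -- the bound `B` for both terms
    have hB1 : ∀ k, 𝔸.abv v (Q.coeff k) ≤ M * max 1 (𝔸.abv v (u j)) := fun k =>
      le_trans (ih k) (le_mul_of_one_le_right hM0 hm1)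
    have hB2 : ∀ k, 𝔸.abv v (-(Q.coeff k * u j)) ≤ M * max 1 (𝔸.abv v (u j)) := fun k => by
      rw [AbsoluteValue.map_neg, map_mul]
      exact mul_le_mul (ih k) hmu ((𝔸.abv v).nonneg _) hM0
    have hfin : Real.exp (((T.card + 1 : ℕ) : ℝ) * (MConst.archNat (𝔸 := 𝔸) 2) v)
        * (max 1 (𝔸.abv v (u j)) * ∏ i ∈ T, max 1 (𝔸.abv v (u i)))
        = Real.exp ((MConst.archNat (𝔸 := 𝔸) 2) v) * (M * max 1 (𝔸.abv v (u j))) := by
      rw [hM]
      push_cast
      rw [add_mul, one_mul, Real.exp_add]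
      ring
    rw [hfin]
    rcases k with _ | k
    · have h0 : (Q * (X - C (u j))).coeff 0 = 0 + -(Q.coeff 0 * u j) := by
        rw [mul_coeff_zero]
        simp
      rw [h0]
      exact abv_add_le_two 𝔸 v _ _ (by rw [map_zero]; exact mul_nonneg hM0 (le_trans zero_le_one hm1))
        (hB2 0)
    · have h1 : (Q * (X - C (u j))).coeff (k + 1) = Q.coeff k + -(Q.coeff (k + 1) * u j) := by
        rw [coeff_mul_X_sub_C]
        ring
      rw [h1]
      exact abv_add_le_two 𝔸 v _ _ (hB1 k) (hB2 (k + 1))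

/-! ### Northcott -/

/-- the height `Σ_i log⁺ |u_i|_v` of a finite family, as an `M`-constant -/
def famHeight (𝔸 : AbsSys) {ι : Type*} (T : Finset ι) (u : ι → Qbar) : MConst 𝔸 :=
  MConst.finsetSum T fun i => MConst.logPlus (u i)

theorem famHeight_apply (𝔸 : AbsSys) {ι : Type*} (T : Finset ι) (u : ι → Qbar) (v : 𝔸.ι) :
    (famHeight 𝔸 T u) v = ∑ i ∈ T, Real.log (max 1 (𝔸.abv v (u i))) := rfl

/-- the polynomials of degree `≤ d` all of whose coefficients lie in a finite set are finitely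
many -/
theorem finite_poly_of_coeff_mem (d : ℕ) {Z : Set Qbar} (hZ : Z.Finite) :
    {Q : Qbar[X] | Q.natDegree ≤ d ∧ ∀ k, Q.coeff k ∈ Z}.Finite := by
  have hpi : (Set.univ.pi fun _ : Fin (d + 1) => Z).Finite := Set.Finite.pi fun _ => hZ
  refine Set.Finite.of_finite_image (f := fun Q : Qbar[X] => fun k : Fin (d + 1) => Q.coeff k)
    (hpi.subset ?_) ?_
  · rintro _ ⟨Q, hQ, rfl⟩
    exact fun k _ => hQ.2 k
  · intro Q hQ Q' hQ' h
    ext k
    by_cases hk : k ≤ d
    · exact congrFun h ⟨k, Nat.lt_succ_of_le hk⟩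
    · rw [coeff_eq_zero_of_natDegree_lt (lt_of_le_of_lt hQ.1 (not_le.mp hk)),
        coeff_eq_zero_of_natDegree_lt (lt_of_le_of_lt hQ'.1 (not_le.mp hk))]

/-- the finite set of `northcott_roots` -/
def northcottSet (𝔸 : AbsSys) (d : ℕ) (B : ℝ) : Set Qbar :=
  ⋃ Q ∈ {Q : Qbar[X] | Q.natDegree ≤ d ∧ ∀ k, Q.coeff k ∈
      algebraMap ℚ Qbar '' {a : ℚ | ∑ᶠ v, Real.log (max 1 (𝔸.abv v (algebraMap ℚ Qbar a)))
        ≤ d * (MConst.archNat (𝔸 := 𝔸) 2).total + B}},
    {α : Qbar | Q ≠ 0 ∧ Q.IsRoot α}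

theorem finite_northcottSet (𝔸 : AbsSys) (d : ℕ) (B : ℝ) : (northcottSet 𝔸 d B).Finite := by
  refine Set.Finite.biUnion (finite_poly_of_coeff_mem d ((𝔸.northcott _).image _)) ?_
  intro Q _
  by_cases hQ : Q = 0
  · refine Set.Finite.subset Set.finite_empty ?_
    intro α hα
    exact (hα.1 hQ).elim
  · exact (Polynomial.finite_setOfPred_isRoot hQ).subset fun α hα => hα.2

theorem natDegree_prod_X_sub_C_le {ι : Type*} (T : Finset ι) (u : ι → Qbar) :
    (∏ i ∈ T, (X - C (u i))).natDegree ≤ T.card := by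
  refine le_trans (natDegree_prod_le _ _) ?_
  have : ∑ i ∈ T, (X - C (u i)).natDegree = T.card := by
    rw [Finset.sum_congr rfl fun i _ => natDegree_X_sub_C (u i)]
    simp
  exact this.le

theorem prod_X_sub_C_ne_zero {ι : Type*} (T : Finset ι) (u : ι → Qbar) :
    (∏ i ∈ T, (X - C (u i))) ≠ 0 :=
  Finset.prod_ne_zero_iff.2 fun i _ => X_sub_C_ne_zero _

/-- **Northcott for Galois-stable finite families.** -/
theorem northcott_roots (𝔸 : AbsSys) {ι : Type*} (d : ℕ) (B : ℝ) (T : Finset ι) (u : ι → Qbar)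
    (hT : T.card ≤ d)
    (hfix : ∀ σ : GQ, (∏ i ∈ T, (X - C (u i))).map (σ : Qbar →+* Qbar)
      = ∏ i ∈ T, (X - C (u i)))
    (hB : (famHeight 𝔸 T u).total ≤ B) {i : ι} (hi : i ∈ T) : u i ∈ northcottSet 𝔸 d B := by
  classical
  set Q := ∏ i ∈ T, (X - C (u i)) with hQ
  refine Set.mem_biUnion (x := Q) ⟨le_trans (natDegree_prod_X_sub_C_le T u) hT, fun k => ?_⟩
    ⟨prod_X_sub_C_ne_zero T u, ?_⟩
  · -- the coefficient is rational of bounded height
    have hfixk : ∀ σ : GQ, σ (Q.coeff k) = Q.coeff k := fun σ => by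
      have := congrArg (fun P => P.coeff k) (hfix σ)
      simpa [coeff_map] using this
    obtain ⟨q, hq⟩ := RatDesc.fixed_const (Q.coeff k) hfixk
    refine ⟨q, ?_, hq⟩
    show ∑ᶠ v, Real.log (max 1 (𝔸.abv v (algebraMap ℚ Qbar q))) ≤ _
    rw [hq]
    set γ : MConst 𝔸 := MConst.nsmul' T.card (MConst.archNat 2) + famHeight 𝔸 T u with hγ
    have h1 : ∑ᶠ v, Real.log (max 1 (𝔸.abv v (Q.coeff k))) ≤ γ.total := by
      refine MConst.finsum_le_total γ (fun v => Real.log_nonneg (le_max_left _ _)) fun v => ?_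
      have hpos : ∀ j ∈ T, (0 : ℝ) < max 1 (𝔸.abv v (u j)) := fun j _ =>
        lt_of_lt_of_le one_pos (le_max_left _ _)
      have hprod1 : (1 : ℝ) ≤ ∏ i ∈ T, max 1 (𝔸.abv v (u i)) :=
        Finset.one_le_prod fun i _ => le_max_left _ _
      have hexp1 : (1 : ℝ) ≤ Real.exp (T.card * (MConst.archNat (𝔸 := 𝔸) 2) v) :=
        Real.one_le_exp (mul_nonneg (Nat.cast_nonneg _) ((MConst.archNat 2).nonneg v))
      have hle : max 1 (𝔸.abv v (Q.coeff k)) ≤
          Real.exp (T.card * (MConst.archNat (𝔸 := 𝔸) 2) v)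
            * ∏ i ∈ T, max 1 (𝔸.abv v (u i)) :=
        max_le (one_le_mul_of_one_le_of_one_le hexp1 hprod1) (abv_coeff_prod_le 𝔸 v T u k)
      calc Real.log (max 1 (𝔸.abv v (Q.coeff k)))
          ≤ Real.log (Real.exp (T.card * (MConst.archNat (𝔸 := 𝔸) 2) v)
              * ∏ i ∈ T, max 1 (𝔸.abv v (u i))) :=
            Real.log_le_log (lt_of_lt_of_le one_pos (le_max_left _ _)) hle
        _ = T.card * (MConst.archNat (𝔸 := 𝔸) 2) v
              + ∑ i ∈ T, Real.log (max 1 (𝔸.abv v (u i))) := by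
            rw [Real.log_mul (Real.exp_pos _).ne' (lt_of_lt_of_le one_pos hprod1).ne',
              Real.log_exp, Real.log_prod fun i hi => (hpos i hi).ne']
        _ = γ v := rfl
    refine le_trans h1 ?_
    rw [hγ, MConst.total_add, MConst.total_nsmul']
    have h2 : (T.card : ℝ) * (MConst.archNat (𝔸 := 𝔸) 2).total
        ≤ d * (MConst.archNat (𝔸 := 𝔸) 2).total :=
      mul_le_mul_of_nonneg_right (by exact_mod_cast hT) (MConst.total_nonneg _)
    linarith
  · -- `u i` is a root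
    show Q.eval (u i) = 0
    rw [hQ, eval_prod]
    exact Finset.prod_eq_zero hi (by simp)

end Fermat.Agent.S17
end
end MergeWrap_S17_H_NorthcottRoots

section MergeWrap_S17_H_Northcott -- from S17/H/Northcott.lean

set_option autoImplicit false
set_option linter.unusedSectionVars false

/-!
# S17, package H, seat GC (G8): canonical divisors and Northcott — `northcottThm`

`northcottThm (S : HSetup N) : NorthcottThm S`, UNCONDITIONAL.

* existence of the canonical divisor      : `Move.exists_isCanon` (seat G3, helper30);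
* `0 ≤ nHeight S A` for effective `A`     : `φ 0 = 1`, so `‖(φ_a(P))_a‖_v ≥ 1`;
* Northcott                               : the canonical divisor `A` of a rational class is
  Galois-stable of degree `d ≤ g` (`Move.IsCanon.galStable`), so for each coordinate `a` the family
  `(φ_a(P))_{P ∈ supp A}` is Galois-stable of height `≤ e · nHeight S A`; by `northcott_roots` all
  coordinates of all points of `supp A` lie in ONE finite set `Σ ⊂ ℚ̄`; the coordinates separate
  the points `≠ P₀` (`IsEmbBasis.exists_minor_ne_zero`), so `supp A` lies in one finite set of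
  points, `A` in a finite set of divisors, and `x = [A - d P₀]` in a finite set of classes.
-/

noncomputable section

open AlgebraicCurve ModularCurve Polynomial

namespace Fermat.Agent.S17

/-! ### local statements on the embedded curve -/

section emb

variable {F : Type*} [Field F] [Algebra Qbar F]
variable {P₀ : Place Qbar F} {e r : ℕ} {φ : Fin (r + 1) → F}

/-- the coordinate functions are regular away from the base point -/
theorem IsEmbBasis.ord_nonneg_of_ne (hφ : IsEmbBasis P₀ e φ) {P : Place Qbar F} (hP : P ≠ P₀)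
    (a : Fin (r + 1)) : 0 ≤ P.ord (φ a) := by
  classical
  have h2 := ((mem_riemannRochSpace_iff.mp (hφ.mem a)) P).resolve_left (hφ.ne_zero a)
  rw [Finsupp.single_apply, if_neg (Ne.symm hP), neg_zero] at h2
  exact h2

variable (𝔸 : AbsSys) (v : 𝔸.ι)

theorem IsEmbBasis.one_le_vnorm_val (hφ : IsEmbBasis P₀ e φ) (P : Place Qbar F) :
    1 ≤ vnorm 𝔸 v fun a => val P (φ a) := by
  have h1 := abv_le_vnorm 𝔸 v (fun a => val P (φ a)) 0
  have h2 : val P (φ 0) = 1 := by
    rw [hφ.zero_eq_one]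
    exact Pts.ev_one P
  simp only [h2, map_one] at h1
  exact h1

theorem IsEmbBasis.lamloc_nonneg (hφ : IsEmbBasis P₀ e φ) (P : Place Qbar F) :
    0 ≤ lamloc 𝔸 v φ P :=
  Real.log_nonneg (hφ.one_le_vnorm_val 𝔸 v P)

theorem IsEmbBasis.logPlus_le_lamloc (hφ : IsEmbBasis P₀ e φ) (P : Place Qbar F)
    (a : Fin (r + 1)) :
    Real.log (max 1 (𝔸.abv v (val P (φ a)))) ≤ lamloc 𝔸 v φ P := by
  unfold lamloc
  refine Real.log_le_log (lt_of_lt_of_le one_pos (le_max_left _ _)) ?_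
  exact max_le (hφ.one_le_vnorm_val 𝔸 v P) (abv_le_vnorm 𝔸 v (fun a => val P (φ a)) a)

theorem IsEmbBasis.lamloc_le (hφ : IsEmbBasis P₀ e φ) (P : Place Qbar F) :
    lamloc 𝔸 v φ P ≤
      (MConst.finsetSum Finset.univ fun a => MConst.logPlus (𝔸 := 𝔸) (val P (φ a))) v := by
  obtain ⟨a, ha⟩ := exists_abv_eq_vnorm 𝔸 v (fun a => val P (φ a))
  have hpos : 0 < vnorm 𝔸 v (fun a => val P (φ a)) :=
    lt_of_lt_of_le one_pos (hφ.one_le_vnorm_val 𝔸 v P)
  have h1 : lamloc 𝔸 v φ P ≤ (MConst.logPlus (𝔸 := 𝔸) (val P (φ a))) v := by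
    unfold lamloc
    rw [MConst.logPlus_apply]
    refine Real.log_le_log hpos ?_
    rw [← ha]
    exact le_max_right _ _
  refine le_trans h1 ?_
  rw [MConst.finsetSum_apply]
  exact Finset.single_le_sum (f := fun a => (MConst.logPlus (𝔸 := 𝔸) (val P (φ a))) v)
    (fun i _ => MConst.nonneg _ v) (Finset.mem_univ a)

theorem IsEmbBasis.lamloc_finite (hφ : IsEmbBasis P₀ e φ) (P : Place Qbar F) :
    {v | lamloc 𝔸 v φ P ≠ 0}.Finite := by
  refine (MConst.finite
    (MConst.finsetSum Finset.univ fun a => MConst.logPlus (𝔸 := 𝔸) (val P (φ a)))).subset ?_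
  intro v hv
  simp only [Set.mem_ofPred_eq] at hv ⊢
  intro h0
  apply hv
  have h1 := hφ.lamloc_le 𝔸 v P
  have h2 := hφ.lamloc_nonneg 𝔸 v P
  have h0' : (MConst.finsetSum Finset.univ
      fun a => MConst.logPlus (𝔸 := 𝔸) (val P (φ a))) v = 0 := h0
  rw [h0'] at h1
  exact le_antisymm h1 h2

/-- the coordinates separate the points away from the base point -/
theorem IsEmbBasis.eq_of_val_eq (hφ : IsEmbBasis P₀ e φ) (h : Fermat.Agent.RR.IsRRField Qbar F)
    (he : 2 * genusFF Qbar F + 1 ≤ e) {P Q : Place Qbar F} (hP : P ≠ P₀) (hQ : Q ≠ P₀)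
    (hval : ∀ a, val P (φ a) = val Q (φ a)) : P = Q := by
  by_contra hPQ
  obtain ⟨a, b, hab⟩ := hφ.exists_minor_ne_zero h he hPQ
  apply hab
  have he' : 2 * genusFF Qbar F ≤ e := by omega
  have hcoord : ∀ R : Place Qbar F, R ≠ P₀ → ∀ c,
      coord φ R c = val R (φ c) / val R (φ (pivot φ R)) := by
    intro R hR c
    exact Pts.ev_div h R (hφ.ord_nonneg_of_ne hR c) (hφ.ord_pivot_of_ne h he' hR)
  rw [hcoord P hP, hcoord P hP, hcoord Q hQ, hcoord Q hQ]
  simp only [hval]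
  ring

end emb

/-! ### the global statements -/

variable {N : ℕ} [NeZero N]

theorem nHeight_nonneg (S : HSetup N) {A : DivN N} (hA : 0 ≤ A) : 0 ≤ nHeight S A := by
  unfold nHeight
  refine mul_nonneg (by positivity) (finsum_nonneg fun v => Finset.sum_nonneg fun P _ =>
    mul_nonneg ?_ (S.isEmbBasis.lamloc_nonneg S.𝔸 v P))
  exact_mod_cast Finsupp.le_def.mp hA P

theorem GalStable.apply_galPlace {A : DivN N} (hA : GalStable N A) (σ : GQ) (P : PtN N) :
    A (Pts.galPlace N σ P) = A P := by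
  have h1 := SemilinearAut.divisor_smul_apply_smul
    (arithmeticGalois (modularFunctionFieldFull N) σ) A P
  have h2 : arithmeticGalois (modularFunctionFieldFull N) σ • A = A := hA σ
  rw [h2] at h1
  exact h1

theorem GalStable.galPlace_mem_support {A : DivN N} (hA : GalStable N A) (σ : GQ) {P : PtN N}
    (hP : P ∈ A.support) : Pts.galPlace N σ P ∈ A.support := by
  rw [Finsupp.mem_support_iff] at hP ⊢
  rwa [hA.apply_galPlace σ P]

/-- the polynomial of the values of a Galois-fixed function on the support of a Galois-stable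
divisor is Galois-fixed -/
theorem GalStable.prod_fixed (S : HSetup N) {A : DivN N} (hA : GalStable N A)
    (a : Fin (S.r + 1)) (σ : GQ) :
    (∏ P ∈ A.support, (X - C (val P (S.φ a)))).map (σ : Qbar →+* Qbar)
      = ∏ P ∈ A.support, (X - C (val P (S.φ a))) := by
  rw [Polynomial.map_prod]
  have h1 : ∀ P : PtN N, (X - C (val P (S.φ a))).map (σ : Qbar →+* Qbar)
      = X - C (val (Pts.galPlace N σ P) (S.φ a)) := by
    intro P
    rw [Polynomial.map_sub, Polynomial.map_X, Polynomial.map_C]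
    have h2 := Pts.evBar_galois (N := N) σ P (S.φ a)
    rw [S.φ_fixed σ a] at h2
    have h3 : val (Pts.galPlace N σ P) (S.φ a) = σ (val P (S.φ a)) := h2
    rw [h3]
    rfl
  simp only [h1]
  refine Finset.prod_bij' (fun P _ => Pts.galPlace N σ P) (fun P _ => Pts.galPlace N σ⁻¹ P)
    (fun P hP => hA.galPlace_mem_support σ hP) (fun P hP => hA.galPlace_mem_support σ⁻¹ hP)
    (fun P _ => ?_) (fun P _ => ?_) (fun P _ => rfl)
  · rw [← Pts.galPlace_mul, inv_mul_cancel, Pts.galPlace_one]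
  · rw [← Pts.galPlace_mul, mul_inv_cancel, Pts.galPlace_one]

/-- the class `[A - (deg A) P₀]` -/
def canonClass (S : HSetup N) (A : DivN N) : JZero N :=
  open Classical in
  if h : A - Finsupp.single S.P₀ (Divisor.degree A) ∈ Divisor.degZero (K := Qbar) (F := FN N)
  then Pic0.mk ⟨A - Finsupp.single S.P₀ (Divisor.degree A), h⟩ else 0

theorem IsCanon.canonClass_eq (S : HSetup N) {x : JZero N} {A : DivN N} {d : ℕ}
    (hA : IsCanon S x A d) : canonClass S A = x := by
  classical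
  have key : ∀ z : ℤ, z = (d : ℤ) →
      (if h : A - Finsupp.single S.P₀ z ∈ Divisor.degZero (K := Qbar) (F := FN N)
        then Pic0.mk ⟨A - Finsupp.single S.P₀ z, h⟩ else (0 : JZero N)) = x := by
    intro z hz
    subst hz
    rw [dif_pos hA.mem]
    exact hA.mk_eq
  exact key _ hA.degree_eq

/-- support, multiplicities of a canonical divisor -/
theorem IsCanon.support_props (S : HSetup N) {x : JZero N} {A : DivN N} {d : ℕ}
    (hA : IsCanon S x A d) :
    (∀ P ∈ A.support, P ≠ S.P₀ ∧ 1 ≤ A P) ∧ (∀ P, 0 ≤ A P ∧ A P ≤ d) ∧ A.support.card ≤ d := by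
  classical
  have h := Fermat.Agent.RRMod.isRRField_bar N
  have h0 : ∀ P, 0 ≤ A P := fun P => Finsupp.le_def.mp hA.nonneg P
  have h1 : ∀ P ∈ A.support, P ≠ S.P₀ ∧ 1 ≤ A P := by
    intro P hP
    rw [Finsupp.mem_support_iff] at hP
    refine ⟨?_, ?_⟩
    · rintro rfl
      exact hP hA.base
    · have := h0 P
      omega
  have hsum : ∑ P ∈ A.support, A P = d := by
    rw [← Fermat.Agent.RR.degree_eq_sum h A]
    exact hA.degree_eq
  refine ⟨h1, fun P => ⟨h0 P, ?_⟩, ?_⟩
  · by_cases hP : P ∈ A.support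
    · rw [← hsum]
      exact Finset.single_le_sum (f := fun P => A P) (fun Q _ => h0 Q) hP
    · rw [Finsupp.notMem_support_iff.mp hP]
      exact Int.natCast_nonneg d
  · have h2 : (A.support.card : ℤ) ≤ d := by
      rw [← hsum, Finset.card_eq_sum_ones, Nat.cast_sum]
      refine Finset.sum_le_sum fun P hP => ?_
      simpa using (h1 P hP).2
    exact_mod_cast h2

/-- the height of the family of the `a`-th coordinates of the points of an effective divisor is
at most `e · n(A)` -/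
theorem famHeight_le_nHeight (S : HSetup N) {A : DivN N} (h1 : ∀ P ∈ A.support, 1 ≤ A P)
    (a : Fin (S.r + 1)) :
    (famHeight S.𝔸 A.support (fun P => val P (S.φ a))).total ≤ S.e * nHeight S A := by
  classical
  have he : (S.e : ℝ) ≠ 0 := by
    have := S.e_large
    have : 0 < S.e := by omega
    exact_mod_cast this.ne'
  have hGfin : Function.HasFiniteSupport
      (fun v : S.𝔸.ι => ∑ P ∈ A.support, (A P : ℝ) * lamloc S.𝔸 v S.φ P) := by
    refine ((A.support.finite_toSet.biUnion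
      fun P _ => S.isEmbBasis.lamloc_finite S.𝔸 P)).subset ?_
    intro v hv
    by_contra hcon
    apply hv
    refine Finset.sum_eq_zero fun P hP => ?_
    have h0 : lamloc S.𝔸 v S.φ P = 0 := by
      by_contra h0
      exact hcon (Set.mem_biUnion (Finset.mem_coe.2 hP) h0)
    rw [h0, mul_zero]
  have hle : (famHeight S.𝔸 A.support (fun P => val P (S.φ a))).total
      ≤ ∑ᶠ v : S.𝔸.ι, ∑ P ∈ A.support, (A P : ℝ) * lamloc S.𝔸 v S.φ P := by
    refine finsum_le_finsum' (MConst.hasFiniteSupport _) hGfin fun v => ?_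
    rw [show (famHeight S.𝔸 A.support (fun P => val P (S.φ a))).c v
      = ∑ P ∈ A.support, Real.log (max 1 (S.𝔸.abv v (val P (S.φ a)))) from rfl]
    refine Finset.sum_le_sum fun P hP => ?_
    have h2 := S.isEmbBasis.logPlus_le_lamloc S.𝔸 v P a
    have h3 := S.isEmbBasis.lamloc_nonneg S.𝔸 v P
    have h4 : (1 : ℝ) ≤ (A P : ℝ) := by exact_mod_cast h1 P hP
    calc Real.log (max 1 (S.𝔸.abv v (val P (S.φ a)))) ≤ lamloc S.𝔸 v S.φ P := h2
      _ = 1 * lamloc S.𝔸 v S.φ P := (one_mul _).symm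
      _ ≤ (A P : ℝ) * lamloc S.𝔸 v S.φ P := mul_le_mul_of_nonneg_right h4 h3
  refine le_trans hle (le_of_eq ?_)
  unfold nHeight
  rw [← mul_assoc, mul_one_div, div_self he, one_mul]

/-- **Northcott**: finitely many rational classes have a canonical divisor of bounded height. -/
theorem northcott_finite (S : HSetup N) (B : ℝ) :
    {x : MW N | ∃ (A : DivN N) (d : ℕ), IsCanon S x A d ∧ nHeight S A ≤ B}.Finite := by
  classical
  have h := Fermat.Agent.RRMod.isRRField_bar N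
  have heL := S.e_large
  have hepos : (0 : ℝ) ≤ S.e := Nat.cast_nonneg _
  -- the finite set of coordinates
  have hZfin : (northcottSet S.𝔸 (genusFF Qbar (FN N)) (S.e * B)).Finite :=
    finite_northcottSet _ _ _
  -- the finite set of points
  have hPfin : {P : PtN N | P ≠ S.P₀ ∧ ∀ a, val P (S.φ a) ∈
      northcottSet S.𝔸 (genusFF Qbar (FN N)) (S.e * B)}.Finite := by
    have hpi : (Set.univ.pi fun _ : Fin (S.r + 1) =>
        northcottSet S.𝔸 (genusFF Qbar (FN N)) (S.e * B)).Finite := Set.Finite.pi fun _ => hZfin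
    refine Set.Finite.of_finite_image (f := fun P : PtN N => fun a => val P (S.φ a))
      (hpi.subset ?_) ?_
    · rintro _ ⟨P, hP, rfl⟩
      exact fun a _ => hP.2 a
    · intro P hP Q hQ hPQ
      exact S.isEmbBasis.eq_of_val_eq h (by omega) hP.1 hQ.1 (fun a => congrFun hPQ a)
  -- the finite set of divisors
  have hAfin : (↑(hPfin.toFinset.finsupp fun _ => Finset.Icc (0 : ℤ) (genusFF Qbar (FN N)))
      : Set (DivN N)).Finite := Finset.finite_toSet _
  refine Set.Finite.of_finite_image (f := fun x : MW N => (x : JZero N))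
    ((hAfin.image (canonClass S)).subset ?_) Subtype.val_injective.injOn
  rintro _ ⟨x, ⟨A, d, hA, hB⟩, rfl⟩
  refine ⟨A, ?_, hA.canonClass_eq S⟩
  obtain ⟨hstab, hdg⟩ := Move.IsCanon.galStable S hA
  obtain ⟨hs1, hs2, hs3⟩ := hA.support_props S
  rw [Finset.mem_coe, Finset.mem_finsupp_iff]
  refine ⟨fun P hP => ?_, fun P _ => ?_⟩
  · rw [Set.Finite.mem_toFinset]
    refine ⟨(hs1 P hP).1, fun a => ?_⟩
    refine northcott_roots S.𝔸 (genusFF Qbar (FN N)) (S.e * B) A.support
      (fun P => val P (S.φ a)) (le_trans hs3 hdg) (fun σ => hstab.prod_fixed S a σ) ?_ hP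
    refine le_trans (famHeight_le_nHeight S (fun P hP => (hs1 P hP).2) a) ?_
    exact mul_le_mul_of_nonneg_left hB hepos
  · rw [Finset.mem_Icc]
    refine ⟨(hs2 P).1, le_trans (hs2 P).2 ?_⟩
    exact_mod_cast hdg

/-- **Seat GC (G8): canonical divisors and Northcott.** -/
theorem northcottThm (S : HSetup N) : NorthcottThm S := by
  refine ⟨fun x => ?_, fun x A d hA => nHeight_nonneg S hA.nonneg, fun B => northcott_finite S B⟩
  obtain ⟨A, d, hA, -, -⟩ := Move.exists_isCanon S x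
  exact ⟨A, d, hA⟩

end Fermat.Agent.S17
end
end MergeWrap_S17_H_Northcott

section MergeWrap_S17_H_Pos_One -- from S17/H/Pos/One.lean

set_option autoImplicit false
set_option linter.unusedSectionVars false
set_option linter.unusedVariables false

/-!
# S17, package H, seat GB-ONE: the one-step bound

`oneStep_of_baseElim`: `OneStep S` from `LocalDecompLe` at `j = 1` and the elimination of the base
locus (`BaseElim S ξ` for every family `ξ`, seat ELIM).

`oneStep`: `OneStep S` from `LocalDecompLe` and `LocalDecompGe` at `j = 1` (with `exists_base_elim`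
of seat ELIM, helper35).
-/

noncomputable section

open AlgebraicCurve ModularCurve Fermat.Agent.RR Fermat.Agent.S17.Pairing

namespace Fermat.Agent.S17.Pos

variable {N : ℕ} [NeZero N]

/-- the conclusion of seat ELIM for the family `ξ`: a divisor `B ≤ Z_s` for all `s ∈ span ξ`,
zero where some `ξ_i` does not vanish, with `λ_v(P) - Σ_c B(c) g_v(P,c) ≤ log ‖ξ(P)‖_v + γ_v`. -/
def BaseElim (S : HSetup N) {n : ℕ} (ξ : Fin (n + 1) → FN N) : Prop :=
  ∃ (B : DivN N) (γ : MConst S.𝔸), 0 ≤ B ∧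
    (∀ s ∈ Submodule.span Qbar (Set.range ξ), s ≠ 0 →
      B ≤ zdiv (Pairing.hRR N) S.P₀ S.e 1 s) ∧
    (∀ P : PtN N, (∃ i, zdiv (Pairing.hRR N) S.P₀ S.e 1 (ξ i) P = 0) → B P = 0) ∧
    ∀ (v : S.𝔸.ι) (P : PtN N), P ≠ S.P₀ → (∃ i, val P (ξ i) ≠ 0) →
      lamloc S.𝔸 v S.φ P - Pairing.glin S v P B ≤ famloc S v ξ P + γ v

/-- off the base point the zero divisor of a section is the divisor of the function -/
theorem one_zdiv_of_ne (S : HSetup N) (f : FN N) {P : PtN N} (hP : P ≠ S.P₀) :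
    zdiv (Pairing.hRR N) S.P₀ S.e 1 f P = P.ord f := by
  classical
  rw [zdiv_apply, Finsupp.single_apply, if_neg (Ne.symm hP), add_zero]

/-- a section which does not vanish at `P ≠ P₀` has order `0` at `P` -/
theorem one_ord_eq_zero_of_val_ne_zero (S : HSetup N) {f : FN N}
    (hf : f ∈ secSpace S.P₀ S.e 1) {P : PtN N} (hP : P ≠ S.P₀) (hv : val P f ≠ 0) :
    P.ord f = 0 := by
  have hf0 : f ≠ 0 := by
    rintro rfl
    exact hv (Pts.ev_zero P)
  have h1 := L7.zdiv_nonneg (Pairing.hRR N) 1 hf hf0 P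
  rw [one_zdiv_of_ne S f hP] at h1
  by_contra hne
  have hpos : 0 < P.ord f := lt_of_le_of_ne h1 (Ne.symm hne)
  exact hv ((Pts.ev_eq_zero_iff (Pairing.hRR N) P hf0 h1).2 hpos)

/-- for `P ≠ P₀`: the size of the leading term of `s` at `P` -/
theorem one_log_secSize (S : HSetup N) (v : S.𝔸.ι) {P : PtN N} (hP : P ≠ S.P₀) {π : FN N}
    (hπ : P.ord π = 1) {s : FN N} (hs0 : s ≠ 0) (l : ℕ) (hl : (l : ℤ) = P.ord s) :
    Real.log (secSize S.𝔸 v S.φ 1 P π l s)
      = Real.log (S.𝔸.abv v (val P (s / π ^ l))) - lamloc S.𝔸 v S.φ P := by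
  have he := e_ge_two_genus S
  have hpiv := S.isEmbBasis.ord_pivot_of_ne (hRR N) he hP
  have hp0 : S.φ (pivot S.φ P) ≠ 0 := S.isEmbBasis.ne_zero _
  have hv0 : val P (S.φ (pivot S.φ P)) ≠ 0 := Pts.ev_ne_zero_of_ord_eq_zero (hRR N) P hp0 hpiv
  have habs : 0 < S.𝔸.abv v (val P (S.φ (pivot S.φ P))) := (S.𝔸.abv v).pos hv0
  have hπ0 : π ≠ 0 := by
    rintro rfl
    rw [P.ord_zero] at hπ
    exact zero_ne_one hπ
  have hsl0 : s / π ^ l ≠ 0 := div_ne_zero hs0 (pow_ne_zero _ hπ0)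
  have hordsl : P.ord (s / π ^ l) = 0 := by
    rw [imm_ord_div P hs0 (pow_ne_zero _ hπ0), imm_ord_pow, hπ, ← hl]
    ring
  have hvsl : val P (s / π ^ l) ≠ 0 := Pts.ev_ne_zero_of_ord_eq_zero (hRR N) P hsl0 hordsl
  have hsplit : s / (S.φ (pivot S.φ P) ^ 1 * π ^ l) = (s / π ^ l) / S.φ (pivot S.φ P) := by
    rw [pow_one]
    field_simp
  have hval : val P (s / (S.φ (pivot S.φ P) ^ 1 * π ^ l))
      = val P (s / π ^ l) / val P (S.φ (pivot S.φ P)) := by
    rw [hsplit]
    exact Pts.ev_div (hRR N) P hordsl.ge hpiv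
  have hvn : 0 < vnorm S.𝔸 v (fun a => val P (S.φ a)) := by
    have h1 := S.isEmbBasis.vnorm_coord_pos S.𝔸 v P
    rw [adj_vnorm_coord S v hP] at h1
    by_contra hcon
    have h2 : vnorm S.𝔸 v (fun a => val P (S.φ a)) ≤ 0 := not_lt.1 hcon
    have h3 := div_nonpos_of_nonpos_of_nonneg h2 habs.le
    linarith
  unfold secSize lamloc
  rw [hval, pow_one, adj_vnorm_coord S v hP, map_div₀]
  have h4 : S.𝔸.abv v (val P (s / π ^ l)) / S.𝔸.abv v (val P (S.φ (pivot S.φ P)))
      / (vnorm S.𝔸 v (fun a => val P (S.φ a)) / S.𝔸.abv v (val P (S.φ (pivot S.φ P))))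
      = S.𝔸.abv v (val P (s / π ^ l)) / vnorm S.𝔸 v (fun a => val P (S.φ a)) := by
    field_simp
  rw [h4, Real.log_div ((S.𝔸.abv v).pos hvsl).ne' hvn.ne']

open Classical in
/-- `gsum` as a sum over any finite set containing the support -/
theorem one_gsum_eq (S : HSetup N) (v : S.𝔸.ι) (P : PtN N) (D : DivN N) (T : Finset (PtN N))
    (hT : D.support ⊆ T) :
    gsum S.𝔸 v S.φ P D
      = ∑ c ∈ T, if c = P then 0 else (D c : ℝ) * gloc S.𝔸 v S.φ P c := by
  classical
  unfold gsum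
  rw [Finset.sum_filter]
  have h1 : ∀ c ∈ D.support, (if c ≠ P then (D c : ℝ) * gloc S.𝔸 v S.φ P c else 0)
      = if c = P then 0 else (D c : ℝ) * gloc S.𝔸 v S.φ P c := by
    intro c _
    by_cases hc : c = P
    · simp [hc]
    · simp [hc]
  rw [Finset.sum_congr rfl h1]
  refine Finset.sum_subset hT fun c _ hc => ?_
  rw [Finsupp.notMem_support_iff] at hc
  rw [hc]
  simp

open Classical in
/-- `glin` as a sum over any finite set containing the support, for `D P = 0` -/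
theorem one_glin_eq (S : HSetup N) (v : S.𝔸.ι) (P : PtN N) (D : DivN N) (hDP : D P = 0)
    (T : Finset (PtN N)) (hT : D.support ⊆ T) :
    glin S v P D = ∑ c ∈ T, if c = P then 0 else (D c : ℝ) * gloc S.𝔸 v S.φ P c := by
  classical
  unfold glin
  have h1 : ∀ c ∈ D.support, (D c : ℝ) * gloc S.𝔸 v S.φ P c
      = if c = P then 0 else (D c : ℝ) * gloc S.𝔸 v S.φ P c := by
    intro c _
    by_cases hc : c = P
    · rw [if_pos hc, hc, hDP]
      simp
    · rw [if_neg hc]
  rw [Finset.sum_congr rfl h1]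
  refine Finset.sum_subset hT fun c _ hc => ?_
  rw [Finsupp.notMem_support_iff] at hc
  rw [hc]
  simp

/-- the coefficient norm of `Σ c_i ξ_i` is bounded by `‖c‖_v` -/
theorem one_cnorm_le (S : HSetup N) {d : ℕ}
    (b : Module.Basis (Fin (d + 1)) Qbar (secSpace S.P₀ S.e 1)) {n : ℕ}
    (ξ : Fin (n + 1) → FN N) (hξ : ∀ i, ξ i ∈ secSpace S.P₀ S.e 1) :
    ∃ γ : MConst S.𝔸, ∀ (v : S.𝔸.ι) (c : Fin (n + 1) → Qbar),
      cnorm S.𝔸 v b (∑ i, c i • ξ i) ≤ Real.exp (γ v) * vnorm S.𝔸 v c := by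
  classical
  obtain ⟨γ, hγ⟩ := gauss_linear_le S.𝔸 (fun k i => b.repr ⟨ξ i, hξ i⟩ k)
  refine ⟨γ, fun v c => ?_⟩
  have hs : ∑ i, c i • ξ i ∈ secSpace S.P₀ S.e 1 :=
    Submodule.sum_mem _ fun i _ => Submodule.smul_mem _ _ (hξ i)
  have hsub : (⟨∑ i, c i • ξ i, hs⟩ : secSpace S.P₀ S.e 1)
      = ∑ i, c i • (⟨ξ i, hξ i⟩ : secSpace S.P₀ S.e 1) := by
    apply Subtype.ext
    simp
  rw [gauss_cnorm_of_mem S.𝔸 v b hs]
  have hrepr : (fun k => b.repr ⟨∑ i, c i • ξ i, hs⟩ k)
      = fun k => ∑ i, (b.repr ⟨ξ i, hξ i⟩ k) * c i := by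
    funext k
    rw [hsub, map_sum, Finsupp.finsetSum_apply]
    refine Finset.sum_congr rfl fun i _ => ?_
    rw [map_smul, Finsupp.smul_apply, smul_eq_mul, mul_comm]
  rw [hrepr]
  exact hγ v c

/-- **Seat ONE**, from `LocalDecompLe` at `j = 1` and the elimination of the base locus. -/
theorem oneStep_of_baseElim (S : HSetup N) {d : ℕ}
    (b : Module.Basis (Fin (d + 1)) Qbar (secSpace S.P₀ S.e 1))
    (hLe : LocalDecompLe S.𝔸 (Pairing.hRR N) S.P₀ S.e S.φ 1 b)
    (hE : ∀ (n : ℕ) (ξ : Fin (n + 1) → FN N), (∀ i, ξ i ∈ secSpace S.P₀ S.e 1) →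
      (∀ i, ξ i ≠ 0) → BaseElim S ξ) : OneStep S := by
  classical
  intro n ξ hξ hli
  obtain ⟨γ₁, hγ₁⟩ := hLe
  obtain ⟨B, γ₃, hB0, hBle, hBz, hBineq⟩ := hE n ξ hξ (fun i => hli.ne_zero i)
  obtain ⟨γ₂, hγ₂⟩ := one_cnorm_le S b ξ hξ
  refine ⟨γ₁ + γ₂ + γ₃ + MConst.nsmul' S.e (archLogTwo S.𝔸), ?_⟩
  intro v c P π l A' hc hP hval hπ hl hA'0 hA'P₀ hnb hA'le
  set s : FN N := ∑ i, c i • ξ i with hs_def
  have h := Pairing.hRR N
  have he2 : 2 * genusFF Qbar (FN N) + 1 ≤ S.e := by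
    have := S.e_large
    omega
  have hs : s ∈ secSpace S.P₀ S.e 1 :=
    Submodule.sum_mem _ fun i _ => Submodule.smul_mem _ _ (hξ i)
  have hsspan : s ∈ Submodule.span Qbar (Set.range ξ) :=
    Submodule.sum_mem _ fun i _ => Submodule.smul_mem _ _ (Submodule.subset_span ⟨i, rfl⟩)
  have hs0 : s ≠ 0 := by
    intro h0
    apply hc
    funext i
    exact (Fintype.linearIndependent_iff.1 hli) c h0 i
  have hm : (l : ℤ) = zdiv (Pairing.hRR N) S.P₀ S.e 1 s P := by
    rw [one_zdiv_of_ne S s hP]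
    exact hl
  -- L7 for `s`
  have hL7 := hγ₁ v s hs hs0 P π hπ l hm
  rw [one_log_secSize S v hP hπ hs0 l hl] at hL7
  -- the coefficient norm
  have hcn : Real.log (cnorm S.𝔸 v b s) ≤ γ₂ v + Real.log (vnorm S.𝔸 v c) := by
    have h1 := hγ₂ v c
    have h2 : 0 < cnorm S.𝔸 v b s := gauss_cnorm_pos S.𝔸 v b hs hs0
    have h3 : 0 < vnorm S.𝔸 v c := vnorm_pos S.𝔸 v hc
    have h4 := Real.log_le_log h2 h1
    rwa [Real.log_mul (Real.exp_pos _).ne' h3.ne', Real.log_exp] at h4
  -- the base divisor does not meet `P` and `A'`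
  have hordξ : ∀ Q : PtN N, Q ≠ S.P₀ → (∃ i, val Q (ξ i) ≠ 0) → B Q = 0 := by
    intro Q hQ ⟨i, hi⟩
    refine hBz Q ⟨i, ?_⟩
    rw [one_zdiv_of_ne S (ξ i) hQ]
    exact one_ord_eq_zero_of_val_ne_zero S (hξ i) hQ hi
  have hBP : B P = 0 := hordξ P hP hval
  have hBs := hBle s hsspan hs0
  -- `Z_s = A' + B + R`
  set Z : DivN N := zdiv (Pairing.hRR N) S.P₀ S.e 1 s with hZ
  have hZ0 : ∀ Q, 0 ≤ Z Q := fun Q => L7.zdiv_nonneg (Pairing.hRR N) 1 hs hs0 Q
  have hsum_le : ∀ Q, A' Q + B Q ≤ Z Q := by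
    intro Q
    by_cases hQ : Q ∈ A'.support
    · have hQP₀ : Q ≠ S.P₀ := by
        rintro rfl
        exact (Finsupp.mem_support_iff.1 hQ) hA'P₀
      rw [hordξ Q hQP₀ (hnb Q hQ), add_zero]
      exact Finsupp.le_def.1 hA'le Q
    · rw [Finsupp.notMem_support_iff.1 hQ, zero_add]
      exact Finsupp.le_def.1 hBs Q
  have hA'nn : ∀ Q, 0 ≤ A' Q := fun Q => Finsupp.le_def.1 hA'0 Q
  have hBnn : ∀ Q, 0 ≤ B Q := fun Q => Finsupp.le_def.1 hB0 Q
  set T : Finset (PtN N) := Z.support with hT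
  have hsupp : ∀ D : DivN N, (∀ Q, 0 ≤ D Q) → (∀ Q, D Q ≤ Z Q) → D.support ⊆ T := by
    intro D hD0 hDZ Q hQ
    rw [hT, Finsupp.mem_support_iff]
    have h1 := Finsupp.mem_support_iff.1 hQ
    have h2 := hD0 Q
    have h3 := hDZ Q
    omega
  have hA'T : A'.support ⊆ T := hsupp A' hA'nn fun Q => by
    have := hsum_le Q
    have := hBnn Q
    omega
  have hBT : B.support ⊆ T := hsupp B hBnn fun Q => by
    have := hsum_le Q
    have := hA'nn Q
    omega
  -- degree of `Z`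
  have hdegZ : ∑ Q ∈ T, Z Q = (S.e : ℤ) := by
    have h1 := L7.degree_zdiv (P₀ := S.P₀) (e := S.e) (Pairing.hRR N) 1 s
    rw [degree_eq_sum (Pairing.hRR N), one_mul] at h1
    exact h1
  -- the comparison of the sums
  have hγa : 0 ≤ archLogTwo S.𝔸 v := (archLogTwo S.𝔸).nonneg v
  have hgs : gsum S.𝔸 v S.φ P A' + glin S v P B - (S.e : ℝ) * archLogTwo S.𝔸 v
      ≤ gsum S.𝔸 v S.φ P Z := by
    rw [one_gsum_eq S v P A' T hA'T, one_glin_eq S v P B hBP T hBT,
      one_gsum_eq S v P Z T (Finset.Subset.refl _)]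
    have hterm : ∀ Q ∈ T,
        (if Q = P then (0 : ℝ) else (A' Q : ℝ) * gloc S.𝔸 v S.φ P Q)
          + (if Q = P then (0 : ℝ) else (B Q : ℝ) * gloc S.𝔸 v S.φ P Q)
          - (Z Q : ℝ) * archLogTwo S.𝔸 v
        ≤ if Q = P then (0 : ℝ) else (Z Q : ℝ) * gloc S.𝔸 v S.φ P Q := by
      intro Q _
      have hZQ : (0 : ℝ) ≤ (Z Q : ℝ) := by exact_mod_cast hZ0 Q
      by_cases hQ : Q = P
      · rw [if_pos hQ, if_pos hQ, if_pos hQ]
        have := mul_nonneg hZQ hγa
        linarith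
      · rw [if_neg hQ, if_neg hQ, if_neg hQ]
        have hg := S.isEmbBasis.gloc_ge S.𝔸 v (Pairing.hRR N) he2 (Ne.symm hQ)
        have hR : (0 : ℝ) ≤ (Z Q : ℝ) - (A' Q : ℝ) - (B Q : ℝ) := by
          have := hsum_le Q
          have h5 : ((A' Q + B Q : ℤ) : ℝ) ≤ (Z Q : ℝ) := by exact_mod_cast this
          push_cast at h5
          linarith
        have hA'Q : (0 : ℝ) ≤ (A' Q : ℝ) := by exact_mod_cast hA'nn Q
        have hBQ : (0 : ℝ) ≤ (B Q : ℝ) := by exact_mod_cast hBnn Q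
        -- `(Z - A' - B) (g + γ) ≥ 0` and `(A' + B) γ ≥ 0`
        have h6 : 0 ≤ ((Z Q : ℝ) - (A' Q : ℝ) - (B Q : ℝ))
            * (gloc S.𝔸 v S.φ P Q + archLogTwo S.𝔸 v) :=
          mul_nonneg hR (by linarith)
        have h7 : 0 ≤ ((A' Q : ℝ) + (B Q : ℝ)) * archLogTwo S.𝔸 v :=
          mul_nonneg (by linarith) hγa
        nlinarith
    have hsum := Finset.sum_le_sum hterm
    rw [Finset.sum_sub_distrib, Finset.sum_add_distrib, ← Finset.sum_mul] at hsum
    have hcast : (∑ Q ∈ T, (Z Q : ℝ)) = (S.e : ℝ) := by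
      have : ((∑ Q ∈ T, Z Q : ℤ) : ℝ) = ((S.e : ℤ) : ℝ) := by rw [hdegZ]
      push_cast at this
      exact this
    rw [hcast] at hsum
    exact hsum
  -- the elimination
  have hel := hBineq v P hP hval
  simp only [MConst.add_apply, MConst.nsmul'_apply]
  linarith

/-- **Seat ONE.** -/
theorem oneStep (S : HSetup N) {d : ℕ}
    (b : Module.Basis (Fin (d + 1)) Qbar (secSpace S.P₀ S.e 1))
    (hLe : LocalDecompLe S.𝔸 (Pairing.hRR N) S.P₀ S.e S.φ 1 b)
    (hGe : LocalDecompGe S.𝔸 (Pairing.hRR N) S.P₀ S.e S.φ 1 b) : OneStep S :=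
  oneStep_of_baseElim S b hLe fun n ξ hξ hξ0 => exists_base_elim S b hGe ξ hξ hξ0

end Fermat.Agent.S17.Pos
end
end MergeWrap_S17_H_Pos_One

section MergeWrap_S17_H_Pos_PosDom -- from S17/H/Pos/PosDom.lean

set_option autoImplicit false

/-!
# S17, package H, seat GB-POS-LOC: the domination lemma

`dominate`: if every member of a finite family `w` has, at every place, at least the order of
some member of the finite family `u` (both families of nonzero functions), then at every place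
`P` where all `u i` are regular and one of them is a unit:
`|w_j(P)|_v ≤ exp(γ_v) · max_i |u_i(P)|_v`.   (`WeilCompare` for `u` and `cat(u, w)`, `s = 1`.)
-/

noncomputable section

open AlgebraicCurve ModularCurve Fermat.Agent.RR

namespace Fermat.Agent.S17.Pos

variable {N : ℕ} [NeZero N]

/-- order of a finite product of nonzero functions -/
theorem ord_prod' {ι : Type*} (P : PtN N) (s : Finset ι) (f : ι → FN N)
    (hf : ∀ i ∈ s, f i ≠ 0) : P.ord (∏ i ∈ s, f i) = ∑ i ∈ s, P.ord (f i) := by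
  classical
  induction s using Finset.induction_on with
  | empty => simp
  | insert a s ha ih =>
    rw [Finset.prod_insert ha, Finset.sum_insert ha,
      P.ord_mul (hf a (Finset.mem_insert_self a s))
        (Finset.prod_ne_zero_iff.mpr fun i hi => hf i (Finset.mem_insert_of_mem hi)),
      ih fun i hi => hf i (Finset.mem_insert_of_mem hi)]

/-- order of a natural power -/
theorem ord_npow (P : PtN N) (f : FN N) (n : ℕ) : P.ord (f ^ n) = n * P.ord f := by
  have := P.ord_zpow f (n : ℤ)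
  rwa [zpow_natCast] at this

/-- value of a finite product of regular functions -/
theorem val_prod' {ι : Type*} (P : PtN N) (s : Finset ι) (f : ι → FN N)
    (hf0 : ∀ i ∈ s, f i ≠ 0) (hf : ∀ i ∈ s, 0 ≤ P.ord (f i)) :
    val P (∏ i ∈ s, f i) = ∏ i ∈ s, val P (f i) := by
  classical
  induction s using Finset.induction_on with
  | empty => simp [val, Pts.ev_one]
  | insert a s ha ih =>
    have h0 : ∀ i ∈ s, f i ≠ 0 := fun i hi => hf0 i (Finset.mem_insert_of_mem hi)
    have h1 : ∀ i ∈ s, 0 ≤ P.ord (f i) := fun i hi => hf i (Finset.mem_insert_of_mem hi)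
    rw [Finset.prod_insert ha, Finset.prod_insert ha, ← ih h0 h1]
    refine Pts.ev_mul (Pairing.hRR N) P (hf a (Finset.mem_insert_self a s)) ?_
    rw [ord_prod' P s f h0]
    exact Finset.sum_nonneg h1

/-- **the domination lemma** -/
theorem dominate (S : HSetup N) (hWC : WeilCompareAll S) {ι κ : Type} [Fintype ι] [Nonempty ι]
    [Fintype κ] (u : ι → FN N) (w : κ → FN N) (hu : ∀ i, u i ≠ 0) (hw : ∀ j, w j ≠ 0)
    (hpol : ∀ (P : PtN N) (j : κ), ∃ i, P.ord (u i) ≤ P.ord (w j)) :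
    ∃ γ : MConst S.𝔸, ∀ (v : S.𝔸.ι) (P : PtN N), (∀ i, 0 ≤ P.ord (u i)) →
      (∃ i, P.ord (u i) = 0) → ∀ (j : κ) (B : ℝ), (∀ i, S.𝔸.abv v (val P (u i)) ≤ B) →
        S.𝔸.abv v (val P (w j)) ≤ Real.exp (γ v) * B := by
  classical
  -- reindex by `Fin`
  obtain ⟨k, ⟨eι⟩⟩ : ∃ k : ℕ, Nonempty (ι ≃ Fin (k + 1)) := by
    have hpos : 0 < Fintype.card ι := Fintype.card_pos
    obtain ⟨k, hk⟩ : ∃ k, Fintype.card ι = k + 1 := ⟨Fintype.card ι - 1, by omega⟩
    exact ⟨k, ⟨(Fintype.equivFin ι).trans (finCongr hk)⟩⟩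
  obtain ⟨k', ⟨eσ⟩⟩ : ∃ k : ℕ, Nonempty ((ι ⊕ κ) ≃ Fin (k + 1)) := by
    have hpos : 0 < Fintype.card (ι ⊕ κ) := Fintype.card_pos
    obtain ⟨k, hk⟩ : ∃ k, Fintype.card (ι ⊕ κ) = k + 1 := ⟨Fintype.card (ι ⊕ κ) - 1, by omega⟩
    exact ⟨k, ⟨(Fintype.equivFin (ι ⊕ κ)).trans (finCongr hk)⟩⟩
  set u' : Fin (k + 1) → FN N := fun i => u (eι.symm i) with hu'
  set c' : Fin (k' + 1) → FN N := fun i => Sum.elim u w (eσ.symm i) with hc'
  have hsame : SamePolar u' c' := by
    refine ⟨fun i => hu _, fun i => ?_, fun P => ⟨fun i => ?_, fun i' => ?_⟩⟩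
    · rcases h : eσ.symm i with x | y
      · simp only [hc', h, Sum.elim_inl]; exact hu x
      · simp only [hc', h, Sum.elim_inr]; exact hw y
    · refine ⟨eσ (Sum.inl (eι.symm i)), ?_⟩
      simp only [hc', hu', Equiv.symm_apply_apply, Sum.elim_inl, le_refl]
    · rcases h : eσ.symm i' with x | y
      · refine ⟨eι x, ?_⟩
        simp only [hc', hu', h, Sum.elim_inl, Equiv.symm_apply_apply, le_refl]
      · obtain ⟨i, hi⟩ := hpol P y
        refine ⟨eι i, ?_⟩
        simp only [hc', hu', h, Sum.elim_inr, Equiv.symm_apply_apply]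
        exact hi
  obtain ⟨γ, hγ⟩ := hWC k k' u' c' hsame
  refine ⟨γ, fun v P hreg hunit j B hB => ?_⟩
  have h1 := hγ v P 1 (fun i => by rw [P.ord_one]; exact hreg _)
    (by
      obtain ⟨i, hi⟩ := hunit
      refine ⟨eι i, ?_⟩
      rw [P.ord_one]
      simp only [hu', Equiv.symm_apply_apply]
      exact hi.symm)
  simp only [div_one] at h1
  -- positivity of the two norms
  obtain ⟨i₀, hi₀⟩ := hunit
  have hval0 : val P (u i₀) ≠ 0 := Pts.ev_ne_zero_of_ord_eq_zero (Pairing.hRR N) P (hu i₀) hi₀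
  have hupos : 0 < vnorm S.𝔸 v fun i => val P (u' i) := by
    refine lt_of_lt_of_le ((S.𝔸.abv v).pos hval0) ?_
    have := abv_le_vnorm S.𝔸 v (fun i => val P (u' i)) (eι i₀)
    simpa only [hu', Equiv.symm_apply_apply] using this
  have hcpos : 0 < vnorm S.𝔸 v fun i => val P (c' i) := by
    refine lt_of_lt_of_le ((S.𝔸.abv v).pos hval0) ?_
    have := abv_le_vnorm S.𝔸 v (fun i => val P (c' i)) (eσ (Sum.inl i₀))
    simpa only [hc', Equiv.symm_apply_apply, Sum.elim_inl] using this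
  have h2 : Real.log (vnorm S.𝔸 v fun i => val P (c' i))
      ≤ Real.log (vnorm S.𝔸 v fun i => val P (u' i)) + γ v := by
    have := (abs_le.mp h1).1
    linarith
  have h3 : (vnorm S.𝔸 v fun i => val P (c' i))
      ≤ Real.exp (γ v) * vnorm S.𝔸 v fun i => val P (u' i) := by
    have h4 := Real.exp_le_exp.mpr h2
    rw [Real.exp_log hcpos, Real.exp_add, Real.exp_log hupos, mul_comm] at h4
    exact h4
  have h5 : (vnorm S.𝔸 v fun i => val P (u' i)) ≤ B := by
    apply Finset.sup'_le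
    intro i _
    exact hB _
  have h6 : S.𝔸.abv v (val P (w j)) ≤ vnorm S.𝔸 v fun i => val P (c' i) := by
    have := abv_le_vnorm S.𝔸 v (fun i => val P (c' i)) (eσ (Sum.inr j))
    simpa only [hc', Equiv.symm_apply_apply, Sum.elim_inr] using this
  calc S.𝔸.abv v (val P (w j)) ≤ _ := h6
    _ ≤ _ := h3
    _ ≤ Real.exp (γ v) * B := mul_le_mul_of_nonneg_left h5 (Real.exp_pos _).le

end Fermat.Agent.S17.Pos
end
end MergeWrap_S17_H_Pos_PosDom

section MergeWrap_S17_H_Pos_PosExist -- from S17/H/Pos/PosExist.lean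

set_option autoImplicit false
set_option linter.unusedSectionVars false
set_option linter.unusedVariables false

/-!
# S17, package H, seat GB-POS, sub-seat POS-EXIST

`exists_fixed_pair`: for a Galois-stable divisor `D` of degree `≥ 2 g` there are two Galois-fixed
nonzero sections `f₀, f₁ ∈ L(D)` without common zero (as sections of `𝒪(D)`): at every place one
of them has order exactly `-D(P)`.
-/

noncomputable section

open AlgebraicCurve ModularCurve Fermat.Agent.RR

namespace Fermat.Agent.S17.Pos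

variable {N : ℕ} [NeZero N]

/-- `L(D)` is not contained in `L(D - Q)` for `deg D ≥ 2 g` -/
theorem posExist_not_le_sub_single (D : DivN N)
    (hdeg : 2 * (genusFF Qbar (FN N) : ℤ) ≤ Divisor.degree D) (Q : PtN N) :
    ¬ riemannRochSpace D ≤ riemannRochSpace (D - Finsupp.single Q 1) := by
  intro hle
  obtain ⟨f, hf, hf0, hord⟩ := imm_exists_ord_eq (Pairing.hRR N) D Q hdeg
  have h1 := (imm_mem_sub_single_iff hf).1 (hle hf)
  rcases h1 with h1 | h1
  · exact hf0 h1
  · omega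

/-- `L(D) ≠ 0` for `deg D ≥ 2 g` -/
theorem posExist_not_le_bot (D : DivN N)
    (hdeg : 2 * (genusFF Qbar (FN N) : ℤ) ≤ Divisor.degree D) :
    ¬ riemannRochSpace D ≤ (⊥ : Submodule Qbar (FN N)) := by
  intro hle
  obtain ⟨Q⟩ := Fermat.Agent.RR.nonempty_place (Pairing.hRR N)
  obtain ⟨f, hf, hf0, -⟩ := imm_exists_ord_eq (Pairing.hRR N) D Q hdeg
  exact hf0 ((Submodule.mem_bot Qbar).1 (hle hf))

/-- `L(D)` is Galois-stable for a Galois-stable divisor `D` -/
theorem posExist_stable (D : DivN N) (hD : GalStable N D) (σ : GQ) (f : FN N)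
    (hf : f ∈ riemannRochSpace D) :
    arithmeticGalois (modularFunctionFieldFull N) σ • f ∈ riemannRochSpace D := by
  have h1 := Move.smul_mem_riemannRochSpace (arithmeticGalois (modularFunctionFieldFull N) σ) hf
  have h2 : arithmeticGalois (modularFunctionFieldFull N) σ • D = D := hD σ
  rwa [h2] at h1

/-- **POS-EXIST**: two Galois-fixed sections of `L(D)` without common zero. -/
theorem exists_fixed_pair (D : DivN N) (hD : GalStable N D)
    (hdeg : 2 * (genusFF Qbar (FN N) : ℤ) ≤ Divisor.degree D) :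
    ∃ f₀ f₁ : FN N, f₀ ≠ 0 ∧ f₁ ≠ 0 ∧ (∀ σ : GQ, Pts.galFun N σ f₀ = f₀) ∧
      (∀ σ : GQ, Pts.galFun N σ f₁ = f₁) ∧
      (∀ P : PtN N, - D P ≤ P.ord f₀) ∧ (∀ P : PtN N, - D P ≤ P.ord f₁) ∧
      ∀ P : PtN N, P.ord f₀ = - D P ∨ P.ord f₁ = - D P := by
  classical
  have h := Pairing.hRR N
  -- the first section
  obtain ⟨f₀, hf₀U, hf₀fix, hf₀out⟩ := RatDesc.exists_fixed_notMem' N (riemannRochSpace D)
    (posExist_stable D hD) (fun _ : Unit => (⊥ : Submodule Qbar (FN N)))
    (fun _ => posExist_not_le_bot D hdeg)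
  have hf₀0 : f₀ ≠ 0 := fun h0 => hf₀out () ((Submodule.mem_bot Qbar).2 h0)
  have hord₀ : ∀ P : PtN N, - D P ≤ P.ord f₀ := fun P =>
    ((mem_riemannRochSpace_iff.mp hf₀U) P).resolve_left hf₀0
  -- the residual zeros of `f₀`
  set T : Finset (PtN N) := (divOf h f₀ + D).support with hT
  have hTmem : ∀ P : PtN N, P ∉ T → P.ord f₀ = - D P := by
    intro P hP
    rw [hT, Finsupp.notMem_support_iff, Finsupp.add_apply, divOf_apply] at hP
    omega
  -- the second section
  obtain ⟨f₁, hf₁U, hf₁fix, hf₁out⟩ := RatDesc.exists_fixed_notMem' N (riemannRochSpace D)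
    (posExist_stable D hD)
    (fun Q : Option T => Q.elim (⊥ : Submodule Qbar (FN N))
      fun Q => riemannRochSpace (D - Finsupp.single (Q : PtN N) 1))
    (fun Q => by
      cases Q with
      | none => exact posExist_not_le_bot D hdeg
      | some Q => exact posExist_not_le_sub_single D hdeg Q)
  have hf₁0 : f₁ ≠ 0 := fun h0 => hf₁out none ((Submodule.mem_bot Qbar).2 h0)
  have hord₁ : ∀ P : PtN N, - D P ≤ P.ord f₁ := fun P =>
    ((mem_riemannRochSpace_iff.mp hf₁U) P).resolve_left hf₁0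
  refine ⟨f₀, f₁, hf₀0, hf₁0, hf₀fix, hf₁fix, hord₀, hord₁, fun P => ?_⟩
  by_cases hP : P ∈ T
  · right
    have h1 : f₁ ∉ riemannRochSpace (D - Finsupp.single P 1) := hf₁out (some ⟨P, hP⟩)
    rw [imm_mem_sub_single_iff hf₁U] at h1
    push Not at h1
    have h2 := hord₁ P
    omega
  · exact Or.inl (hTmem P hP)

end Fermat.Agent.S17.Pos
end
end MergeWrap_S17_H_Pos_PosExist

section MergeWrap_S17_H_Pos_PosLoc -- from S17/H/Pos/PosLoc.lean

set_option autoImplicit false
set_option linter.unusedSectionVars false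
set_option maxHeartbeats 400000

/-!
# S17, package H, seat GB-POS-LOC: the local positivity inequality

`posLocal_of`: `KappaFam` + `WeilCompareAll` (+ the existence of two Galois-fixed sections without
common zero, seat POS-EXIST) ⟹ `PosLocal S U n X` for every determinant datum `X`.

Proof.  `M = e|X|`, `m₁ = |X|(2e - 2d + 1) = m⁺ - m⁻`, `M₂ = 2e`.  For the index `a` let `(w, D)`
be the Gauss family of `KappaFam`.  `D_tot := M D - m₁ e P₀ + M₂ Σ_ξ min_i div ξ_i` is Galois-stable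
of degree `≥ e|X| ≥ 2g`; `f₀, f₁ ∈ L(D_tot)` Galois-fixed without common zero.  The families
`u = (w_i^M φ_j^{m⁻})` and `f φ_j^{m⁺} ∏_ξ ξ_{ρ ξ}^{M₂}` satisfy the hypothesis of `dominate`.
-/

noncomputable section

open AlgebraicCurve ModularCurve Fermat.Agent.RR

namespace Fermat.Agent.S17.Pos

variable {N : ℕ} [NeZero N]

/-! ### the divisor `P ↦ min_i ord_P (ξ i)` -/

/-- `min_i ord_P (ξ i)` -/
def ordMin {n : ℕ} (ξ : Fin (n + 1) → FN N) (P : PtN N) : ℤ :=
  Finset.univ.inf' Finset.univ_nonempty fun i => P.ord (ξ i)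

theorem ordMin_le {n : ℕ} (ξ : Fin (n + 1) → FN N) (P : PtN N) (i : Fin (n + 1)) :
    ordMin ξ P ≤ P.ord (ξ i) :=
  Finset.inf'_le (fun i => P.ord (ξ i)) (Finset.mem_univ i)

theorem le_ordMin {n : ℕ} (ξ : Fin (n + 1) → FN N) (P : PtN N) (c : ℤ)
    (h : ∀ i, c ≤ P.ord (ξ i)) : c ≤ ordMin ξ P :=
  Finset.le_inf' _ _ fun i _ => h i

theorem exists_ordMin_eq {n : ℕ} (ξ : Fin (n + 1) → FN N) (P : PtN N) :
    ∃ i, ordMin ξ P = P.ord (ξ i) := by
  obtain ⟨i, -, hi⟩ := Finset.exists_mem_eq_inf' Finset.univ_nonempty fun i => P.ord (ξ i)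
  exact ⟨i, hi⟩

open Classical in
/-- the divisor `P ↦ min_i ord_P (ξ i)` -/
def ordMinDiv {n : ℕ} (ξ : Fin (n + 1) → FN N) : DivN N :=
  Finsupp.onFinset (Finset.univ.biUnion fun i => (divOf (Pairing.hRR N) (ξ i)).support)
    (fun P => ordMin ξ P) (by
      intro P hP
      obtain ⟨i, hi⟩ := exists_ordMin_eq ξ P
      rw [Finset.mem_biUnion]
      refine ⟨i, Finset.mem_univ i, ?_⟩
      rw [Finsupp.mem_support_iff, divOf_apply, ← hi]
      exact hP)

theorem ordMinDiv_apply {n : ℕ} (ξ : Fin (n + 1) → FN N) (P : PtN N) :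
    ordMinDiv ξ P = ordMin ξ P := rfl

/-- Galois equivariance of `ordMin` -/
theorem ordMin_gal {n : ℕ} (σ : GQ) (ξ : Fin (n + 1) → FN N) (P : PtN N) :
    ordMin (fun i => Pts.galFun N σ (ξ i)) (Pts.galPlace N σ P) = ordMin ξ P := by
  unfold ordMin
  refine Finset.inf'_congr _ rfl fun i _ => ?_
  exact Pts.ord_galPlace_galFun N σ P (ξ i)

/-- `Σ_{ξ ∈ X} ordMin ξ` is Galois-invariant for a Galois-stable set `X` of tuples -/
theorem sum_ordMin_gal {n : ℕ} (X : Finset (Fin (n + 1) → FN N))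
    (hX : ∀ (σ : GQ), ∀ ξ ∈ X, (fun i => Pts.galFun N σ (ξ i)) ∈ X) (σ : GQ) (P : PtN N) :
    ∑ ξ ∈ X, ordMin ξ (Pts.galPlace N σ P) = ∑ ξ ∈ X, ordMin ξ P := by
  classical
  symm
  refine Finset.sum_bij (fun ξ _ => fun i => Pts.galFun N σ (ξ i)) (fun ξ hξ => hX σ ξ hξ) ?_ ?_
    (fun ξ _ => (ordMin_gal σ ξ P).symm)
  · intro ξ₁ _ ξ₂ _ h12
    funext i
    have := congrFun h12 i
    exact MulAction.injective (arithmeticGalois (modularFunctionFieldFull N) σ) this
  · intro ξ hξ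
    refine ⟨fun i => Pts.galFun N σ⁻¹ (ξ i), hX σ⁻¹ ξ hξ, ?_⟩
    funext i
    show Pts.galFun N σ (Pts.galFun N σ⁻¹ (ξ i)) = ξ i
    rw [← Pts.galFun_mul, mul_inv_cancel, Pts.galFun_one]


/-! ### the divisor `D_tot` -/

/-- `D_tot = M D - m₁ e P₀ + M₂ Σ_ξ min_i div ξ_i` -/
def dtot (S : HSetup N) {n : ℕ} (X : Finset (Fin (n + 1) → FN N)) (D : DivN N) : DivN N :=
  ((S.e * X.card : ℕ) : ℤ) • D
    - (((X.card : ℤ) * (2 * (S.e : ℤ) - 2 * ((n : ℤ) + 1) + 1)) * (S.e : ℤ)) •
        Finsupp.single S.P₀ (1 : ℤ)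
    + (2 * (S.e : ℤ)) • ∑ ξ ∈ X, ordMinDiv ξ

theorem dtot_apply (S : HSetup N) {n : ℕ} (X : Finset (Fin (n + 1) → FN N)) (D : DivN N)
    (P : PtN N) :
    dtot S X D P = ((S.e * X.card : ℕ) : ℤ) * D P
      - (((X.card : ℤ) * (2 * (S.e : ℤ) - 2 * ((n : ℤ) + 1) + 1)) * (S.e : ℤ)) *
          (Finsupp.single S.P₀ (1 : ℤ) P)
      + (2 * (S.e : ℤ)) * ∑ ξ ∈ X, ordMin ξ P := by
  unfold dtot
  rw [Finsupp.add_apply, Finsupp.sub_apply, Finsupp.smul_apply, Finsupp.smul_apply,
    Finsupp.smul_apply, Finsupp.finset_sum_apply]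
  simp only [smul_eq_mul, ordMinDiv_apply]

theorem single_galPlace (S : HSetup N) (σ : GQ) (P : PtN N) :
    Finsupp.single S.P₀ (1 : ℤ) (Pts.galPlace N σ P) = Finsupp.single S.P₀ (1 : ℤ) P := by
  classical
  rw [Finsupp.single_apply, Finsupp.single_apply]
  have hiff : S.P₀ = Pts.galPlace N σ P ↔ S.P₀ = P := by
    constructor
    · intro h
      have h1 : Pts.galPlace N σ S.P₀ = Pts.galPlace N σ P := by rw [S.P₀_fixed σ]; exact h
      exact MulAction.injective (arithmeticGalois (modularFunctionFieldFull N) σ) h1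
    · intro h
      rw [← h, S.P₀_fixed σ]
  by_cases h : S.P₀ = P
  · rw [if_pos h, if_pos (hiff.mpr h)]
  · rw [if_neg h, if_neg (fun h' => h (hiff.mp h'))]

theorem dtot_galStable (S : HSetup N) {n : ℕ} (X : Finset (Fin (n + 1) → FN N))
    (hX : ∀ (σ : GQ), ∀ ξ ∈ X, (fun i => Pts.galFun N σ (ξ i)) ∈ X) (D : DivN N)
    (hD : GalStable N D) : GalStable N (dtot S X D) := by
  intro σ
  ext P
  have hP : P = Pts.galPlace N σ (Pts.galPlace N σ⁻¹ P) := by
    rw [← Pts.galPlace_mul, mul_inv_cancel, Pts.galPlace_one]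
  have h1 : galDiv N σ (dtot S X D) P = dtot S X D (Pts.galPlace N σ⁻¹ P) := by
    unfold galDiv
    rw [SemilinearAut.divisor_smul_apply]
    unfold Pts.galPlace
    rw [map_inv]
  rw [h1, dtot_apply, dtot_apply]
  have h2 : D (Pts.galPlace N σ⁻¹ P) = D P := by
    have := Pairing.galStable_apply hD σ (Pts.galPlace N σ⁻¹ P)
    rw [← this]
    congr 1
    exact hP.symm
  have h3 := single_galPlace S σ⁻¹ P
  have h4 := sum_ordMin_gal X hX σ⁻¹ P
  rw [h2, h3, h4]


/-- degree of `ordMinDiv ξ` for a member of a determinant datum -/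
theorem degree_ordMinDiv_ge (S : HSetup N) {n : ℕ} {X : Finset (Fin (n + 1) → FN N)}
    (hX : IsDetDatum S n X) {ξ : Fin (n + 1) → FN N} (hξ : ξ ∈ X) :
    -((genusFF Qbar (FN N) : ℤ) + n - 1) ≤ Divisor.degree (ordMinDiv ξ) := by
  classical
  obtain ⟨B, -, hBdeg, hBle⟩ := hX.base ξ hξ
  have hle : B - Finsupp.single S.P₀ ((S.e : ℕ) : ℤ) ≤ ordMinDiv ξ := by
    rw [Finsupp.le_def]
    intro P
    rw [Finsupp.sub_apply, ordMinDiv_apply]
    refine le_ordMin ξ P _ fun i => ?_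
    have h1 := Finsupp.le_def.mp (hBle i) P
    rw [zdiv_apply, one_mul] at h1
    linarith
  have h2 := degree_le_of_le (Pairing.hRR N) hle
  rw [map_sub, Divisor.degree_single] at h2
  have hdeg1 : (Place.deg S.P₀ : ℤ) = 1 := by
    have := degree_single_one (Pairing.hRR N) S.P₀ 1
    rw [Divisor.degree_single] at this
    simpa using this
  rw [hdeg1] at h2
  linarith

theorem degree_dtot_ge (S : HSetup N) {n : ℕ} {X : Finset (Fin (n + 1) → FN N)}
    (hX : IsDetDatum S n X) (D : DivN N)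
    (hD : 2 * (S.e : ℤ) + 2 * (genusFF Qbar (FN N) : ℤ) - 2 ≤ Divisor.degree D) :
    2 * (genusFF Qbar (FN N) : ℤ) ≤ Divisor.degree (dtot S X D) := by
  classical
  have hdeg1 : Divisor.degree (Finsupp.single S.P₀ (1 : ℤ)) = 1 :=
    degree_single_one (Pairing.hRR N) S.P₀ 1
  have hsum : -((X.card : ℤ) * ((genusFF Qbar (FN N) : ℤ) + n - 1))
      ≤ ∑ ξ ∈ X, Divisor.degree (ordMinDiv ξ) := by
    have := Finset.card_nsmul_le_sum X (fun ξ => Divisor.degree (ordMinDiv ξ))
      (-((genusFF Qbar (FN N) : ℤ) + n - 1)) (fun ξ hξ => degree_ordMinDiv_ge S hX hξ)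
    rw [nsmul_eq_mul] at this
    linarith
  have hc : (1 : ℤ) ≤ (X.card : ℤ) := by
    have := Finset.card_pos.mpr hX.nonempty
    exact_mod_cast this
  have he : 20 * (genusFF Qbar (FN N) : ℤ) + 10 ≤ (S.e : ℤ) := by
    exact_mod_cast S.e_large
  unfold dtot
  rw [map_add, map_sub, map_zsmul, map_zsmul, map_zsmul, map_sum, hdeg1]
  simp only [smul_eq_mul, mul_one]
  push_cast
  set E : ℤ := (S.e : ℤ)
  set C : ℤ := (X.card : ℤ)
  set G : ℤ := (genusFF Qbar (FN N) : ℤ)
  set T : ℤ := ∑ ξ ∈ X, Divisor.degree (ordMinDiv ξ)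
  set dD : ℤ := Divisor.degree D
  have hE0 : 0 ≤ E := by positivity
  have hG0 : 0 ≤ G := by positivity
  have h1 : E * C * (2 * E + 2 * G - 2) ≤ E * C * dD :=
    mul_le_mul_of_nonneg_left hD (mul_nonneg hE0 (by linarith))
  have h2 : 2 * E * (-(C * (G + n - 1))) ≤ 2 * E * T :=
    mul_le_mul_of_nonneg_left hsum (by linarith)
  have h3 : E * 1 ≤ E * C := mul_le_mul_of_nonneg_left hc hE0
  nlinarith


/-! ### the key inequality -/

theorem single_e_apply (S : HSetup N) (P : PtN N) :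
    Finsupp.single S.P₀ ((S.e : ℕ) : ℤ) P = (S.e : ℤ) * Finsupp.single S.P₀ (1 : ℤ) P := by
  classical
  rw [Finsupp.single_apply, Finsupp.single_apply]
  split_ifs <;> simp

theorem ord_phi_ge (S : HSetup N) (P : PtN N) (j : Fin (S.r + 1)) :
    -((S.e : ℤ) * Finsupp.single S.P₀ (1 : ℤ) P) ≤ P.ord (S.φ j) := by
  have h2 := ((mem_riemannRochSpace_iff.mp (S.isEmbBasis.mem j)) P).resolve_left
    (S.isEmbBasis.ne_zero j)
  rw [single_e_apply] at h2
  exact h2

theorem ord_phi_pivot (S : HSetup N) (P : PtN N) :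
    P.ord (S.φ (pivot S.φ P)) = -((S.e : ℤ) * Finsupp.single S.P₀ (1 : ℤ) P) := by
  have he : 2 * genusFF Qbar (FN N) ≤ S.e := by
    have := S.e_large
    omega
  rw [S.isEmbBasis.ord_pivot (Pairing.hRR N) he P, single_e_apply]

theorem ord_xi_nonneg (S : HSetup N) {n : ℕ} {X : Finset (Fin (n + 1) → FN N)}
    (hX : IsDetDatum S n X) {ξ : Fin (n + 1) → FN N} (hξ : ξ ∈ X) {P : PtN N} (hP : P ≠ S.P₀)
    (i : Fin (n + 1)) : 0 ≤ P.ord (ξ i) := by
  classical
  have h1 := hX.mem ξ hξ i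
  unfold secSpace at h1
  have h2 := ((mem_riemannRochSpace_iff.mp h1) P).resolve_left (hX.ne_zero ξ hξ i)
  rw [Finsupp.single_apply, if_neg (Ne.symm hP), neg_zero] at h2
  exact h2

set_option maxHeartbeats 1600000 in
/-- the key inequality of POS-LOC, for one function `f ∈ L(D_tot)` -/
theorem posLocal_key (S : HSetup N) (hWC : WeilCompareAll S) {n : ℕ}
    {X : Finset (Fin (n + 1) → FN N)} (hX : IsDetDatum S n X) {m : ℕ} (w : Fin (m + 1) → FN N)
    (D : DivN N) (hw0 : ∀ i, w i ≠ 0) (hpolar : ∀ P : PtN N, ∃ i, P.ord (w i) ≤ - D P)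
    (f : FN N) (hf : f ≠ 0) (hford : ∀ P : PtN N, - dtot S X D P ≤ P.ord f) :
    ∃ γ : MConst S.𝔸, ∀ (v : S.𝔸.ι) (P : PtN N), P ≠ S.P₀ → (∀ i, 0 ≤ P.ord (w i)) →
      (∃ i, P.ord (w i) = 0) → (∀ ξ ∈ X, ∃ i, val P (ξ i) ≠ 0) → P.ord f = 0 →
      Real.log (S.𝔸.abv v (val P f))
          + ((X.card : ℝ) * (2 * (S.e : ℝ) - 2 * ((n : ℝ) + 1) + 1)) * lamloc S.𝔸 v S.φ P
          + 2 * (S.e : ℝ) * ∑ ξ ∈ X, famloc S v ξ P
        ≤ ((S.e : ℝ) * (X.card : ℝ)) * Real.log (vnorm S.𝔸 v fun i => val P (w i)) + γ v := by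
  classical
  have h := Pairing.hRR N
  have hφ := S.isEmbBasis
  set m₁ : ℤ := (X.card : ℤ) * (2 * (S.e : ℤ) - 2 * ((n : ℤ) + 1) + 1) with hm₁
  set mp : ℕ := m₁.toNat with hmp
  set mn : ℕ := (-m₁).toNat with hmn
  have hm : (mp : ℤ) - (mn : ℤ) = m₁ := Int.toNat_sub_toNat_neg m₁
  set M : ℕ := S.e * X.card with hM
  -- the two families
  set u : Fin (m + 1) × Fin (S.r + 1) → FN N := fun p => w p.1 ^ M * S.φ p.2 ^ mn with hu
  set Wf : Fin (S.r + 1) × (↥X → Fin (n + 1)) → FN N :=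
    fun p => f * S.φ p.1 ^ mp * ∏ ξ : ↥X, (ξ.1 (p.2 ξ)) ^ (2 * S.e) with hWf
  have hu0 : ∀ p, u p ≠ 0 := fun p =>
    mul_ne_zero (pow_ne_zero _ (hw0 _)) (pow_ne_zero _ (hφ.ne_zero _))
  have hξ0 : ∀ (ρ : ↥X → Fin (n + 1)) (ξ : ↥X), (ξ.1 (ρ ξ)) ^ (2 * S.e) ≠ 0 := fun ρ ξ =>
    pow_ne_zero _ (hX.ne_zero ξ.1 ξ.2 _)
  have hW0 : ∀ p, Wf p ≠ 0 := fun p =>
    mul_ne_zero (mul_ne_zero hf (pow_ne_zero _ (hφ.ne_zero _)))
      (Finset.prod_ne_zero_iff.mpr fun ξ _ => hξ0 p.2 ξ)
  -- orders of the members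
  have hordu : ∀ (P : PtN N) (p : Fin (m + 1) × Fin (S.r + 1)),
      P.ord (u p) = (M : ℤ) * P.ord (w p.1) + (mn : ℤ) * P.ord (S.φ p.2) := by
    intro P p
    simp only [hu]
    rw [P.ord_mul (pow_ne_zero _ (hw0 _)) (pow_ne_zero _ (hφ.ne_zero _)), ord_npow, ord_npow]
  have hordW : ∀ (P : PtN N) (p : Fin (S.r + 1) × (↥X → Fin (n + 1))),
      P.ord (Wf p) = P.ord f + (mp : ℤ) * P.ord (S.φ p.1)
        + ∑ ξ : ↥X, (2 * (S.e : ℤ)) * P.ord (ξ.1 (p.2 ξ)) := by
    intro P p
    simp only [hWf]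
    rw [P.ord_mul (mul_ne_zero hf (pow_ne_zero _ (hφ.ne_zero _)))
        (Finset.prod_ne_zero_iff.mpr fun ξ _ => hξ0 p.2 ξ),
      P.ord_mul hf (pow_ne_zero _ (hφ.ne_zero _)), ord_npow,
      ord_prod' P Finset.univ _ (fun ξ _ => hξ0 p.2 ξ)]
    congr 1
    refine Finset.sum_congr rfl fun ξ _ => ?_
    rw [ord_npow]
    push_cast
    ring
  -- the polar condition
  have hpol : ∀ (P : PtN N) (p : Fin (S.r + 1) × (↥X → Fin (n + 1))),
      ∃ i, P.ord (u i) ≤ P.ord (Wf p) := by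
    intro P p
    obtain ⟨i₁, hi₁⟩ := hpolar P
    refine ⟨(i₁, pivot S.φ P), ?_⟩
    rw [hordu, hordW]
    simp only
    rw [ord_phi_pivot]
    have h3 := ord_phi_ge S P p.1
    have h5 := hford P
    rw [dtot_apply] at h5
    have h4 : (2 * (S.e : ℤ)) * ∑ ξ ∈ X, ordMin ξ P
        ≤ ∑ ξ : ↥X, (2 * (S.e : ℤ)) * P.ord (ξ.1 (p.2 ξ)) := by
      rw [← Finset.sum_coe_sort X (fun ξ => ordMin ξ P), Finset.mul_sum]
      refine Finset.sum_le_sum fun ξ _ => ?_
      exact mul_le_mul_of_nonneg_left (ordMin_le ξ.1 P (p.2 ξ)) (by positivity)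
    set δ : ℤ := (S.e : ℤ) * Finsupp.single S.P₀ (1 : ℤ) P with hδ
    have h1' : (M : ℤ) * P.ord (w i₁) ≤ (M : ℤ) * (- D P) :=
      mul_le_mul_of_nonneg_left hi₁ (by positivity)
    have h3' : (mp : ℤ) * (-δ) ≤ (mp : ℤ) * P.ord (S.φ p.1) :=
      mul_le_mul_of_nonneg_left h3 (by positivity)
    have h6 : m₁ * (S.e : ℤ) * Finsupp.single S.P₀ (1 : ℤ) P = (mp : ℤ) * δ - (mn : ℤ) * δ := by
      rw [← hm, hδ]
      ring
    have hMc : ((S.e * X.card : ℕ) : ℤ) = (M : ℤ) := rfl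
    rw [hMc, h6] at h5
    have e1 : (M : ℤ) * (- D P) = - ((M : ℤ) * D P) := by ring
    have e2 : (mp : ℤ) * (-δ) = -((mp : ℤ) * δ) := by ring
    have e3 : (mn : ℤ) * (-δ) = -((mn : ℤ) * δ) := by ring
    rw [e1] at h1'
    rw [e2] at h3'
    rw [e3]
    linarith
  obtain ⟨γ, hγ⟩ := dominate S hWC u Wf hu0 hW0 hpol
  refine ⟨γ, fun v P hP hreg hunit hnb hfu => ?_⟩
  -- regularity at `P`
  have hφreg : ∀ j, 0 ≤ P.ord (S.φ j) := fun j => hφ.ord_nonneg_of_ne hP j
  have hξreg : ∀ (ξ : ↥X) (i : Fin (n + 1)), 0 ≤ P.ord (ξ.1 i) := fun ξ i =>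
    ord_xi_nonneg S hX ξ.2 hP i
  have hureg : ∀ p, 0 ≤ P.ord (u p) := by
    intro p
    rw [hordu]
    exact add_nonneg (mul_nonneg (by positivity) (hreg _)) (mul_nonneg (by positivity) (hφreg _))
  have huunit : ∃ p, P.ord (u p) = 0 := by
    obtain ⟨i₀, hi₀⟩ := hunit
    refine ⟨(i₀, 0), ?_⟩
    rw [hordu]
    simp only
    rw [hi₀, hφ.zero_eq_one, P.ord_one]
    ring
  -- the norms
  set Wn : ℝ := vnorm S.𝔸 v fun i => val P (w i) with hWn
  set L : ℝ := vnorm S.𝔸 v fun a => val P (S.φ a) with hL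
  have hWnpos : 0 < Wn := by
    obtain ⟨i₀, hi₀⟩ := hunit
    have hv0 : val P (w i₀) ≠ 0 := Pts.ev_ne_zero_of_ord_eq_zero h P (hw0 i₀) hi₀
    exact lt_of_lt_of_le ((S.𝔸.abv v).pos hv0) (abv_le_vnorm S.𝔸 v (fun i => val P (w i)) i₀)
  have hLpos : 0 < L := lt_of_lt_of_le one_pos (hφ.one_le_vnorm_val S.𝔸 v P)
  have hΞpos : ∀ ξ : ↥X, 0 < vnorm S.𝔸 v fun i => val P (ξ.1 i) := by
    intro ξ
    obtain ⟨i, hi⟩ := hnb ξ.1 ξ.2
    exact lt_of_lt_of_le ((S.𝔸.abv v).pos hi) (abv_le_vnorm S.𝔸 v (fun i => val P (ξ.1 i)) i)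
  -- the bound for `u`
  have hB : ∀ p, S.𝔸.abv v (val P (u p)) ≤ Wn ^ M * L ^ mn := by
    intro p
    simp only [hu]
    have e1 : val P (w p.1 ^ M * S.φ p.2 ^ mn) = val P (w p.1) ^ M * val P (S.φ p.2) ^ mn := by
      unfold val
      rw [Pts.ev_mul h P (by rw [ord_npow]; exact mul_nonneg (by positivity) (hreg _))
        (by rw [ord_npow]; exact mul_nonneg (by positivity) (hφreg _)),
        Pts.ev_pow h P (hreg _), Pts.ev_pow h P (hφreg _)]
    rw [e1, map_mul, map_pow, map_pow]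
    exact mul_le_mul
      (pow_le_pow_left₀ ((S.𝔸.abv v).nonneg _) (abv_le_vnorm S.𝔸 v (fun i => val P (w i)) p.1) M)
      (pow_le_pow_left₀ ((S.𝔸.abv v).nonneg _)
        (abv_le_vnorm S.𝔸 v (fun a => val P (S.φ a)) p.2) mn)
      (pow_nonneg ((S.𝔸.abv v).nonneg _) _) (pow_nonneg hWnpos.le _)
  -- the maximising index
  obtain ⟨j₀, hj₀⟩ := exists_abv_eq_vnorm S.𝔸 v (fun a => val P (S.φ a))
  have hρ : ∀ ξ : ↥X, ∃ i, S.𝔸.abv v (val P (ξ.1 i)) = vnorm S.𝔸 v fun i => val P (ξ.1 i) :=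
    fun ξ => exists_abv_eq_vnorm S.𝔸 v (fun i => val P (ξ.1 i))
  choose ρ hρ' using hρ
  have hmain := hγ v P hureg huunit (j₀, ρ) (Wn ^ M * L ^ mn) hB
  have e2 : val P (Wf (j₀, ρ)) = val P f * val P (S.φ j₀) ^ mp
      * ∏ ξ : ↥X, val P (ξ.1 (ρ ξ)) ^ (2 * S.e) := by
    simp only [hWf]
    have hreg1 : 0 ≤ P.ord (f * S.φ j₀ ^ mp) := by
      rw [P.ord_mul hf (pow_ne_zero _ (hφ.ne_zero _)), ord_npow, hfu, zero_add]
      exact mul_nonneg (by positivity) (hφreg _)
    have hreg2 : 0 ≤ P.ord (∏ ξ : ↥X, (ξ.1 (ρ ξ)) ^ (2 * S.e)) := by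
      rw [ord_prod' P Finset.univ _ (fun ξ _ => hξ0 ρ ξ)]
      refine Finset.sum_nonneg fun ξ _ => ?_
      rw [ord_npow]
      exact mul_nonneg (by positivity) (hξreg ξ _)
    unfold val
    rw [Pts.ev_mul h P hreg1 hreg2, Pts.ev_mul h P hfu.ge
      (by rw [ord_npow]; exact mul_nonneg (by positivity) (hφreg _)), Pts.ev_pow h P (hφreg _)]
    congr 1
    have := val_prod' P Finset.univ (fun ξ : ↥X => (ξ.1 (ρ ξ)) ^ (2 * S.e))
      (fun ξ _ => hξ0 ρ ξ)
      (fun ξ _ => by rw [ord_npow]; exact mul_nonneg (by positivity) (hξreg ξ _))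
    unfold val at this
    rw [this]
    refine Finset.prod_congr rfl fun ξ _ => ?_
    exact Pts.ev_pow h P (hξreg ξ _) _
  rw [e2, map_mul, map_mul, map_pow, map_prod, hj₀] at hmain
  have e3 : ∏ ξ : ↥X, S.𝔸.abv v (val P (ξ.1 (ρ ξ)) ^ (2 * S.e))
      = ∏ ξ : ↥X, (vnorm S.𝔸 v fun i => val P (ξ.1 i)) ^ (2 * S.e) := by
    refine Finset.prod_congr rfl fun ξ _ => ?_
    rw [map_pow, hρ']
  rw [e3] at hmain
  -- take logarithms
  have hfpos : 0 < S.𝔸.abv v (val P f) :=
    (S.𝔸.abv v).pos (Pts.ev_ne_zero_of_ord_eq_zero h P hf hfu)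
  have hprodpos : 0 < ∏ ξ : ↥X, (vnorm S.𝔸 v fun i => val P (ξ.1 i)) ^ (2 * S.e) :=
    Finset.prod_pos fun ξ _ => pow_pos (hΞpos ξ) _
  have hlog := Real.log_le_log (mul_pos (mul_pos hfpos (pow_pos hLpos _)) hprodpos) hmain
  rw [Real.log_mul (mul_pos hfpos (pow_pos hLpos _)).ne' hprodpos.ne',
    Real.log_mul hfpos.ne' (pow_pos hLpos _).ne', Real.log_pow,
    Real.log_prod (fun ξ _ => (pow_pos (hΞpos ξ) _).ne'),
    Real.log_mul (Real.exp_pos _).ne' (mul_pos (pow_pos hWnpos _) (pow_pos hLpos _)).ne',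
    Real.log_exp, Real.log_mul (pow_pos hWnpos _).ne' (pow_pos hLpos _).ne', Real.log_pow,
    Real.log_pow] at hlog
  have e4 : ∑ ξ : ↥X, Real.log ((vnorm S.𝔸 v fun i => val P (ξ.1 i)) ^ (2 * S.e))
      = 2 * (S.e : ℝ) * ∑ ξ ∈ X, famloc S v ξ P := by
    rw [← Finset.sum_coe_sort X (fun ξ => famloc S v ξ P), Finset.mul_sum]
    refine Finset.sum_congr rfl fun ξ _ => ?_
    rw [Real.log_pow]
    unfold famloc
    push_cast
    ring
  rw [e4] at hlog
  have e5 : ((X.card : ℝ) * (2 * (S.e : ℝ) - 2 * ((n : ℝ) + 1) + 1)) = (mp : ℝ) - (mn : ℝ) := by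
    have := congrArg (fun z : ℤ => (z : ℝ)) hm
    simp only [hm₁] at this
    push_cast at this
    linarith
  have e6 : lamloc S.𝔸 v S.φ P = Real.log L := rfl
  have e7 : ((S.e : ℝ) * (X.card : ℝ)) = (M : ℝ) := by
    rw [hM]
    push_cast
    ring
  rw [e5, e6, e7]
  linarith


/-- `ordMin ξ P = 0` at a point which is not a base point of `ξ` -/
theorem ordMin_eq_zero (S : HSetup N) {n : ℕ} {X : Finset (Fin (n + 1) → FN N)}
    (hX : IsDetDatum S n X) {ξ : Fin (n + 1) → FN N} (hξ : ξ ∈ X) {P : PtN N} (hP : P ≠ S.P₀)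
    (hnb : ∃ i, val P (ξ i) ≠ 0) : ordMin ξ P = 0 := by
  apply le_antisymm
  · obtain ⟨i, hi⟩ := hnb
    refine le_trans (ordMin_le ξ P i) ?_
    by_contra hcon
    push_neg at hcon
    exact hi ((Pts.ev_eq_zero_iff (Pairing.hRR N) P (hX.ne_zero ξ hξ i)
      (ord_xi_nonneg S hX hξ hP i)).mpr hcon)
  · exact le_ordMin ξ P 0 fun i => ord_xi_nonneg S hX hξ hP i

/-- **Seat POS-LOC.** -/
theorem posLoc (S : HSetup N) (U : Unif S) : PosLocStatement S U := by
  classical
  intro hK hWC n X hX a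
  by_cases hval : ∃ P : PtN N, P ≠ S.P₀ ∧
      U.π P = S.φ a - algebraMap Qbar (FN N) (val P (S.φ a))
  swap
  · refine ⟨1, 1, 0, one_ne_zero, one_ne_zero, fun σ => ?_, fun σ => ?_,
      fun P hP hπ _ => absurd ⟨P, hP, hπ⟩ hval⟩
    · have := Pts.galFun_algebraMap N σ 1
      simpa using this
    · have := Pts.galFun_algebraMap N σ 1
      simpa using this
  obtain ⟨m, w, D, hw0, -, hDst, hDdeg, hpolar, hgood⟩ := hK a hval
  have hDtst := dtot_galStable S X hX.galStable D hDst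
  have hDtdeg := degree_dtot_ge S hX D hDdeg
  obtain ⟨f₀, f₁, hf₀, hf₁, hfix₀, hfix₁, hord₀, hord₁, hor⟩ :=
    exists_fixed_pair (dtot S X D) hDtst hDtdeg
  obtain ⟨γ₀, hγ₀⟩ := posLocal_key S hWC hX w D hw0 hpolar f₀ hf₀ hord₀
  obtain ⟨γ₁, hγ₁⟩ := posLocal_key S hWC hX w D hw0 hpolar f₁ hf₁ hord₁
  refine ⟨f₀, f₁, γ₀ + γ₁, hf₀, hf₁, hfix₀, hfix₁, fun P hP hπ hnb => ?_⟩
  obtain ⟨hD0, hreg, hunit, hκ⟩ := hgood P hP hπ
  have hdt0 : dtot S X D P = 0 := by
    rw [dtot_apply, hD0]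
    have h1 : Finsupp.single S.P₀ (1 : ℤ) P = 0 := by
      rw [Finsupp.single_apply, if_neg (Ne.symm hP)]
    have h2 : ∑ ξ ∈ X, ordMin ξ P = 0 :=
      Finset.sum_eq_zero fun ξ hξ => ordMin_eq_zero S hX hξ hP (hnb ξ hξ)
    rw [h1, h2]
    ring
  refine ⟨?_, fun f hf hfu v => ?_⟩
  · have := hor P
    rw [hdt0, neg_zero] at this
    exact this
  · have hκv := hκ v
    have e1 : ((S.e : ℝ) * (X.card : ℝ)) * (kappa S U v P + 2 * lamloc S.𝔸 v S.φ P)
        = ((S.e : ℝ) * (X.card : ℝ)) * Real.log (vnorm S.𝔸 v fun i => val P (w i)) := by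
      rw [hκv]
      ring
    rw [e1, MConst.add_apply]
    have hn0 := γ₀.nonneg v
    have hn1 := γ₁.nonneg v
    rcases hf with rfl | rfl
    · have := hγ₀ v P hP hreg hunit hnb hfu
      linarith
    · have := hγ₁ v P hP hreg hunit hnb hfu
      linarith

end Fermat.Agent.S17.Pos
end
end MergeWrap_S17_H_Pos_PosLoc

section MergeWrap_S17_H_Pos_FinalCore -- from S17/H/Pos/FinalCore.lean

set_option autoImplicit false

/-!
# S17, package H, seat GB: assembly modulo DATA and KAPPA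

`positivityThm_of_data_kappa S hD hK : PositivityThm S` from `hD : DetData S` (seat DATA) and
`hK : ∀ U, KappaFam S U` (seat KAPPA).
-/

noncomputable section

open AlgebraicCurve ModularCurve Fermat.Agent.RR

namespace Fermat.Agent.S17.Pos

variable {N : ℕ} [NeZero N]

/-- the one-step bound, unconditionally -/
theorem oneStep' (S : HSetup N) : OneStep S :=
  oneStep S (embBasis S) (localLe S) (localGe S)

/-- **Seat GB modulo DATA and KAPPA.** -/
theorem positivityThm_of_data_kappa (S : HSetup N) (hD : DetData S)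
    (hK : ∀ U : Unif S, KappaFam S U) : PositivityThm S := by
  obtain ⟨U⟩ := nonempty_unif S
  exact positivityThm_pre S U (jetData S U (oneStep' S)) hD (hK U) (posLoc S U)

end Fermat.Agent.S17.Pos
end
end MergeWrap_S17_H_Pos_FinalCore

section MergeWrap_S17_H_Pos_Kappa_Deriv -- from S17/H/Pos/Kappa/Deriv.lean

set_option autoImplicit false

/-!
# S17, package H, seat GB-KAPPA: the derivation `d/dx` of a function field (generic part)

`K` algebraically closed of characteristic `0`, `F` a function field over `K`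
(`h : IsFunctionFieldOver K F x`).

* `kdDeriv h`            : the derivation `d/dx : F → F`  (`kdDeriv h x = 1`);
* `kdDeriv_eq_mul`       : every `K`-derivation `δ` of `F` is `δ f = (d f/dx) * δ x`;
* `kdDeriv_eq_zero`      : `d f / dx = 0` only for constants `f`;
* `kdDeriv_ord`          : `ord_v (d z/dx) = ord_v z - 1 - ord_v (dx)` if `ord_v z ≠ 0`;
* `kdDeriv_ord_nonneg`   : `d/dx` preserves the local ring at `v` if `x - c` is a uniformizer;
* `kdDeriv_ev_div`       : `(f / (x - c))(v) = (d f/dx)(v)` if `f(v) = 0`, `x - c` a uniformizer;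
* `kdDeriv_smul`         : `g • (d f/dx) = d (g • f)/dx` for a semilinear automorphism fixing `x`;
* `kd_kap_smul`          : `ord_{g v} (dx) = ord_v (dx)` for such `g`.
-/

noncomputable section

open AlgebraicCurve KaehlerDifferential

namespace Fermat.Agent.S17.Pos

open Fermat.Agent.S24Diff Fermat.Agent.GenusEq

variable {K F : Type*} [Field K] [Field F] [Algebra K F] [IsAlgClosed K] [CharZero K] {x : F}

/-- the derivation `d/dx` -/
def kdDeriv (h : IsFunctionFieldOver K F x) : Derivation K F F :=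
  derivOf x (D_ne_zero h h.transcendental) (span_D_eq_top h h.transcendental)

theorem kdDeriv_smul_D (h : IsFunctionFieldOver K F x) (f : F) :
    kdDeriv h f • KaehlerDifferential.D K F x = KaehlerDifferential.D K F f :=
  derivOf_smul x _ _ f

theorem kdDeriv_self (h : IsFunctionFieldOver K F x) : kdDeriv h x = 1 :=
  derivOf_self x _ _

/-- every derivation is a multiple of `d/dx` -/
theorem kdDeriv_eq_mul (h : IsFunctionFieldOver K F x) (δ : Derivation K F F) (f : F) :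
    δ f = kdDeriv h f * δ x := by
  have h1 : ∀ y : F, δ.liftKaehlerDifferential (KaehlerDifferential.D K F y) = δ y :=
    fun y => Derivation.liftKaehlerDifferential_comp_D δ y
  rw [← h1 f, ← kdDeriv_smul_D h f, map_smul, h1 x, smul_eq_mul]

/-- the kernel of `d/dx` consists of the constants -/
theorem kdDeriv_eq_zero (h : IsFunctionFieldOver K F x) {f : F} (hf : kdDeriv h f = 0) :
    ∃ c : K, algebraMap K F c = f := by
  by_contra hcon
  have htr : Transcendental K f := fun halg => hcon (exists_algebraMap_eq_of_isAlgebraic halg)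
  have h1 := D_ne_zero h htr
  rw [← kdDeriv_smul_D h f, hf, zero_smul] at h1
  exact h1 rfl

theorem kdDeriv_ne_zero_of_ord (h : IsFunctionFieldOver K F x) (v : Place K F) {z : F}
    (hz : v.ord z ≠ 0) : kdDeriv h z ≠ 0 := by
  intro h0
  obtain ⟨c, rfl⟩ := kdDeriv_eq_zero h h0
  exact hz (ord_algebraMap_eq_zero v c)

/-- `ord_v (d z / dx) = ord_v z - 1 - ord_v (dx)` whenever `ord_v z ≠ 0` -/
theorem kdDeriv_ord (h : IsFunctionFieldOver K F x) (v : Place K F) {z : F}
    (hz : v.ord z ≠ 0) : v.ord (kdDeriv h z) = v.ord z - 1 - kap x v := by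
  have h1 := ordDifferential_D_of_ord_ne_zero h v hz
  rw [← kdDeriv_smul_D h z, ordDifferential_smul_D h v (kdDeriv_ne_zero_of_ord h v hz)] at h1
  omega

end Fermat.Agent.S17.Pos
end
end MergeWrap_S17_H_Pos_Kappa_Deriv

section MergeWrap_S17_H_Pos_Kappa_Local -- from S17/H/Pos/Kappa/Local.lean

set_option autoImplicit false

/-!
# S17, package H, seat GB-KAPPA: the derivation `d/dx` at a place where `x - c` is a uniformizer

* `kd_exists_irreducible`  : an element of order `1` is an irreducible element of the local ring;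
* `kdDeriv_ord_nonneg`     : `d/dx` preserves the local ring at `v` if `x - c` is a uniformizer;
* `kdDeriv_ev_div`         : `(f / (x - c))(v) = (d f/dx)(v)` if `f(v) = 0`;
* `kd_kap_eq_zero`         : `ord_v (dx) = 0` if `x - c` is a uniformizer at `v`.
-/

noncomputable section

open AlgebraicCurve KaehlerDifferential

namespace Fermat.Agent.S17.Pos

open Fermat.Agent.S24Diff Fermat.Agent.GenusEq Fermat.Agent.RR

variable {K F : Type*} [Field K] [Field F] [Algebra K F]

/-- an element of order `1` is (the image of) an irreducible element of the local ring -/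
theorem kd_exists_irreducible (v : Place K F) {π : F} (hπ : v.ord π = 1) :
    ∃ ϖ : v.toValuationSubring, Irreducible ϖ ∧ (ϖ : F) = π := by
  have hπ0 : π ≠ 0 := by
    rintro rfl
    rw [v.ord_zero] at hπ
    exact zero_ne_one hπ
  obtain ⟨ϖ₀, hϖ₀⟩ := IsDiscreteValuationRing.exists_irreducible v.toValuationSubring
  obtain ⟨u, hu⟩ := v.exists_unit_mul_zpow hπ0 hϖ₀
  rw [hπ, zpow_one] at hu
  refine ⟨(u : v.toValuationSubring) * ϖ₀, ?_, ?_⟩
  · exact (irreducible_units_mul u).mpr hϖ₀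
  · rw [hu]
    rfl

variable [IsAlgClosed K] [CharZero K] {x : F}

/-- `d/dx` preserves the local ring at `v` if `x - c` is a uniformizer at `v` -/
theorem kdDeriv_ord_nonneg (h : IsFunctionFieldOver K F x) (v : Place K F) (c : K)
    (hπ : v.ord (x - algebraMap K F c) = 1) {f : F} (hf : 0 ≤ v.ord f) :
    0 ≤ v.ord (kdDeriv h f) := by
  obtain ⟨ϖ, hϖ, hϖe⟩ := kd_exists_irreducible v hπ
  have hδ : kdDeriv h (ϖ : F) = 1 := by
    rw [hϖe, map_sub, Derivation.map_algebraMap, sub_zero, kdDeriv_self]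
  have := derivation_mem h v ϖ hϖ (kdDeriv h) hδ f (Fermat.Agent.S24Res.mem_of_ord_nonneg v hf)
  exact Fermat.Agent.S24Res.ord_nonneg_of_mem v this

/-- `ord_v (dx) = 0` if `x - c` is a uniformizer at `v` -/
theorem kd_kap_eq_zero (h : IsFunctionFieldOver K F x) (v : Place K F) (c : K)
    (hπ : v.ord (x - algebraMap K F c) = 1) : kap x v = 0 := by
  rw [kap_of_pos h v c (by rw [hπ]; exact one_pos), hπ]
  rfl

/-- `(f / (x - c))(v) = (d f/dx)(v)` if `f` is regular at `v` with `f(v) = 0` and `x - c` is a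
uniformizer at `v` -/
theorem kdDeriv_ev_div (hRR : IsRRField K F) (h : IsFunctionFieldOver K F x) (v : Place K F)
    (c : K) (hπ : v.ord (x - algebraMap K F c) = 1) {f : F} (hf : 0 ≤ v.ord f)
    (hf0 : Pts.ev v f = 0) :
    0 ≤ v.ord (f / (x - algebraMap K F c)) ∧
      Pts.ev v (f / (x - algebraMap K F c)) = Pts.ev v (kdDeriv h f) := by
  rcases eq_or_ne f 0 with rfl | hfne
  · simp
  set π : F := x - algebraMap K F c with hπdef
  have hπ0 : π ≠ 0 := by
    intro h0
    rw [h0, v.ord_zero] at hπ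
    exact zero_ne_one hπ
  have hpos : 0 < v.ord f := (Pts.ev_eq_zero_iff hRR v hfne hf).mp hf0
  have hq : v.ord (f / π) = v.ord f - 1 := by
    rw [div_eq_mul_inv, v.ord_mul hfne (inv_ne_zero hπ0), v.ord_inv, hπ]
    ring
  have hq0 : 0 ≤ v.ord (f / π) := by rw [hq]; omega
  refine ⟨hq0, ?_⟩
  have hfe : f = π * (f / π) := by field_simp
  have hδπ : kdDeriv h π = 1 := by
    rw [hπdef, map_sub, Derivation.map_algebraMap, sub_zero, kdDeriv_self]
  have hd : kdDeriv h f = f / π + π * kdDeriv h (f / π) := by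
    conv_lhs => rw [hfe]
    rw [Derivation.leibniz, hδπ, smul_eq_mul, smul_eq_mul, mul_one, add_comm]
  have hdq : 0 ≤ v.ord (kdDeriv h (f / π)) := kdDeriv_ord_nonneg h v c hπ hq0
  have hπnn : 0 ≤ v.ord π := by rw [hπ]; exact zero_le_one
  have hπev : Pts.ev v π = 0 := (Pts.ev_eq_zero_iff hRR v hπ0 hπnn).mpr (by rw [hπ]; exact one_pos)
  have hprod : 0 ≤ v.ord (π * kdDeriv h (f / π)) := by
    rcases eq_or_ne (kdDeriv h (f / π)) 0 with h0 | h0
    · rw [h0, mul_zero, v.ord_zero]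
    · rw [v.ord_mul hπ0 h0]; omega
  rw [hd, Pts.ev_add hRR v hq0 hprod, Pts.ev_mul hRR v hπnn hdq, hπev, zero_mul, add_zero]

end Fermat.Agent.S17.Pos
end
end MergeWrap_S17_H_Pos_Kappa_Local

section MergeWrap_S17_H_Pos_Kappa_Fam -- from S17/H/Pos/Kappa/Fam.lean

set_option autoImplicit false

/-!
# S17, package H, seat GB-KAPPA: the Gauss map `w_{bc} = φ_c D φ_b - φ_b D φ_c`, `D = d/dφ_a`

`F` a function field over `ℚ̄`, `φ` an embedding basis of `L(e P₀)`, `e ≥ 2 g + 1`,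
`h : IsFunctionFieldOver Qbar F x` (in the application `x = φ a`).

* `kdW h φ p`           : the function `φ_{p.2} D φ_{p.1} - φ_{p.1} D φ_{p.2}`;
* `kdW_ne_zero`         : `w_p ≠ 0` for `p.1 ≠ p.2`;
* `kdW_exists_ord`      : at every `P` some `w_p`, `p.1 ≠ p.2`, has
                          `ord_P w_p = - 2 (e P₀)(P) - ord_P (dx)`;
* `kdW_ord_nonneg`      : `w_p` is regular at `P ≠ P₀` if `x - c` is a uniformizer at `P`;
* `kdW_theta`           : `θ_v(P; x - x(P)) = max_p |w_p(P)|_v / ‖φ(P)‖_v²` at such a point.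
-/

noncomputable section

open AlgebraicCurve KaehlerDifferential

namespace Fermat.Agent.S17.Pos

open Fermat.Agent.S24Diff Fermat.Agent.GenusEq Fermat.Agent.RR

variable {F : Type*} [Field F] [Algebra Qbar F] {x : F}
variable {P₀ : Place Qbar F} {e r : ℕ} {φ : Fin (r + 1) → F}

/-- the Gauss map: `w_p = φ_{p.2} D φ_{p.1} - φ_{p.1} D φ_{p.2}` -/
def kdW (h : IsFunctionFieldOver Qbar F x) (φ : Fin (r + 1) → F)
    (p : Fin (r + 1) × Fin (r + 1)) : F :=
  φ p.2 * kdDeriv h (φ p.1) - φ p.1 * kdDeriv h (φ p.2)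

theorem kdW_diag (h : IsFunctionFieldOver Qbar F x) (φ : Fin (r + 1) → F) (b : Fin (r + 1)) :
    kdW h φ (b, b) = 0 := by
  unfold kdW
  ring

/-- `w_{bc} = φ_c² D (φ_b / φ_c)` -/
theorem kdW_eq (h : IsFunctionFieldOver Qbar F x) (φ : Fin (r + 1) → F)
    (b c : Fin (r + 1)) (hc : φ c ≠ 0) :
    kdW h φ (b, c) = φ c ^ 2 * kdDeriv h (φ b / φ c) := by
  have h1 : φ b = φ b / φ c * φ c := by field_simp
  have h2 : kdDeriv h (φ b) = φ b / φ c * kdDeriv h (φ c) + φ c * kdDeriv h (φ b / φ c) := by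
    conv_lhs => rw [h1]
    rw [Derivation.leibniz, smul_eq_mul, smul_eq_mul]
  unfold kdW
  simp only
  rw [h2]
  field_simp
  ring

/-- `w_{bc} ≠ 0` for `b ≠ c` -/
theorem kdW_ne_zero (h : IsFunctionFieldOver Qbar F x) (hφ : IsEmbBasis P₀ e φ)
    {b c : Fin (r + 1)} (hbc : b ≠ c) : kdW h φ (b, c) ≠ 0 := by
  intro h0
  rw [kdW_eq h φ b c (hφ.ne_zero c)] at h0
  have h1 : kdDeriv h (φ b / φ c) = 0 := by
    rcases mul_eq_zero.mp h0 with h2 | h2
    · exact absurd (pow_eq_zero_iff (two_ne_zero)|>.mp h2) (hφ.ne_zero c)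
    · exact h2
  obtain ⟨k, hk⟩ := kdDeriv_eq_zero h h1
  have h3 : φ b = k • φ c := by
    rw [Algebra.smul_def, hk]
    field_simp [hφ.ne_zero c]
  have hli := hφ.linearIndependent
  rw [Fintype.linearIndependent_iff] at hli
  have h4 := hli (fun i => if i = b then 1 else if i = c then -k else 0) (by
    rw [Finset.sum_eq_add_of_mem b c (Finset.mem_univ _) (Finset.mem_univ _) hbc]
    · simp only [if_true, if_neg hbc.symm, one_smul, neg_smul]
      rw [h3]
      exact add_neg_cancel _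
    · intro i _ hi
      simp only [if_neg hi.1, if_neg hi.2, zero_smul]) b
  simp at h4

/-- regular functions form a ring (order form) -/
theorem kd_ord_mul_nonneg (P : Place Qbar F) {f g : F} (hf : 0 ≤ P.ord f) (hg : 0 ≤ P.ord g) :
    0 ≤ P.ord (f * g) :=
  Fermat.Agent.S24Res.ord_nonneg_of_mem P
    (mul_mem (Fermat.Agent.S24Res.mem_of_ord_nonneg P hf) (Fermat.Agent.S24Res.mem_of_ord_nonneg P hg))

theorem kd_ord_sub_nonneg (P : Place Qbar F) {f g : F} (hf : 0 ≤ P.ord f) (hg : 0 ≤ P.ord g) :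
    0 ≤ P.ord (f - g) :=
  Fermat.Agent.S24Res.ord_nonneg_of_mem P
    (sub_mem (Fermat.Agent.S24Res.mem_of_ord_nonneg P hf) (Fermat.Agent.S24Res.mem_of_ord_nonneg P hg))

/-- the `φ_b` are regular away from `P₀` -/
theorem kd_ord_phi_nonneg (hφ : IsEmbBasis P₀ e φ) {P : Place Qbar F} (hP : P ≠ P₀)
    (b : Fin (r + 1)) : 0 ≤ P.ord (φ b) := by
  have h1 := (mem_riemannRochSpace_iff.mp (hφ.mem b) P).resolve_left (hφ.ne_zero b)
  rwa [Finsupp.single_eq_of_ne hP, neg_zero] at h1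

/-- at every place some `w_{bc}`, `b ≠ c`, has the minimal order `-2 (e P₀)(P) - ord_P (dx)` -/
theorem kdW_exists_ord (hRR : IsRRField Qbar F) (h : IsFunctionFieldOver Qbar F x)
    (hφ : IsEmbBasis P₀ e φ) (he : 2 * genusFF Qbar F + 1 ≤ e) (P : Place Qbar F) :
    ∃ b c, b ≠ c ∧
      P.ord (kdW h φ (b, c)) = -(2 * (Finsupp.single P₀ (e : ℤ)) P) - kap x P := by
  have he' : 2 * genusFF Qbar F ≤ e := by omega
  have hord0 := hφ.ord_pivot hRR he' P
  obtain ⟨b, hb0, hb1⟩ := Fermat.Agent.S17.imm_exists_simple_coord hRR (Finsupp.single P₀ (e : ℤ)) P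
    (by rw [Fermat.Agent.S17.imm_degree_single hRR]; exact_mod_cast he) φ hφ.span_eq'
    (pivot φ P) (hφ.ne_zero _) hord0
  set a0 := pivot φ P with ha0
  have hba : b ≠ a0 := by
    rintro rfl
    apply hb0
    rw [div_self (hφ.ne_zero _), Pts.ev_one, one_smul, sub_self]
  refine ⟨b, a0, hba, ?_⟩
  set k := Pts.ev P (φ b / φ a0) with hk
  have hz : (φ b - k • φ a0) / φ a0 = φ b / φ a0 - algebraMap Qbar F k := by
    rw [Algebra.smul_def, sub_div, mul_div_assoc, div_self (hφ.ne_zero _), mul_one]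
  have hdz : kdDeriv h ((φ b - k • φ a0) / φ a0) = kdDeriv h (φ b / φ a0) := by
    rw [hz, map_sub, Derivation.map_algebraMap, sub_zero]
  have hne1 : P.ord ((φ b - k • φ a0) / φ a0) ≠ 0 := by rw [hb1]; exact one_ne_zero
  have h1 := kdDeriv_ord h P hne1
  have h2 := kdDeriv_ne_zero_of_ord h P hne1
  rw [hdz] at h1 h2
  rw [hb1] at h1
  rw [kdW_eq h φ b a0 (hφ.ne_zero _), P.ord_mul (pow_ne_zero 2 (hφ.ne_zero _)) h2, h1, pow_two,
    P.ord_mul (hφ.ne_zero _) (hφ.ne_zero _), hord0]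
  ring

/-- `w_p` is regular at `P ≠ P₀` if `x - c` is a uniformizer at `P` -/
theorem kdW_ord_nonneg (h : IsFunctionFieldOver Qbar F x) (hφ : IsEmbBasis P₀ e φ)
    {P : Place Qbar F} (hP : P ≠ P₀) (c : Qbar) (hπ : P.ord (x - algebraMap Qbar F c) = 1)
    (p : Fin (r + 1) × Fin (r + 1)) : 0 ≤ P.ord (kdW h φ p) := by
  unfold kdW
  exact kd_ord_sub_nonneg P
    (kd_ord_mul_nonneg P (kd_ord_phi_nonneg hφ hP _)
      (kdDeriv_ord_nonneg h P c hπ (kd_ord_phi_nonneg hφ hP _)))
    (kd_ord_mul_nonneg P (kd_ord_phi_nonneg hφ hP _)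
      (kdDeriv_ord_nonneg h P c hπ (kd_ord_phi_nonneg hφ hP _)))

/-- the value at `P` of a term of `theta` -/
theorem kdW_theta_term (hRR : IsRRField Qbar F) (h : IsFunctionFieldOver Qbar F x)
    (hφ : IsEmbBasis P₀ e φ) (he : 2 * genusFF Qbar F + 1 ≤ e)
    {P : Place Qbar F} (hP : P ≠ P₀) (c : Qbar) (hπ : P.ord (x - algebraMap Qbar F c) = 1)
    (p : Fin (r + 1) × Fin (r + 1)) :
    val P ((algebraMap Qbar F (coord φ P p.2) * φ p.1
        - algebraMap Qbar F (coord φ P p.1) * φ p.2)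
          / (φ (pivot φ P) * (x - algebraMap Qbar F c)))
      = val P (kdW h φ p) / val P (φ (pivot φ P)) ^ 2 := by
  have he' : 2 * genusFF Qbar F ≤ e := by omega
  have hA0 : P.ord (φ (pivot φ P)) = 0 := by
    rw [hφ.ord_pivot hRR he' P, Finsupp.single_eq_of_ne hP, neg_zero]
  set a0 := pivot φ P with ha0
  set A := Pts.ev P (φ a0) with hAdef
  have hA : A ≠ 0 := Pts.ev_ne_zero_of_ord_eq_zero hRR P (hφ.ne_zero _) hA0
  have hreg : ∀ b, 0 ≤ P.ord (φ b) := kd_ord_phi_nonneg hφ hP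
  have hdreg : ∀ b, 0 ≤ P.ord (kdDeriv h (φ b)) := fun b => kdDeriv_ord_nonneg h P c hπ (hreg b)
  have hcoord : ∀ b, coord φ P b = Pts.ev P (φ b) / A := fun b => Pts.ev_div hRR P (hreg b) hA0
  set k1 := coord φ P p.1 with hk1
  set k2 := coord φ P p.2 with hk2
  have hfe : algebraMap Qbar F k2 * φ p.1 - algebraMap Qbar F k1 * φ p.2
      = k2 • φ p.1 - k1 • φ p.2 := by
    rw [Algebra.smul_def, Algebra.smul_def]
  set f : F := k2 • φ p.1 - k1 • φ p.2 with hf
  have hsm : ∀ (k : Qbar) {g : F}, 0 ≤ P.ord g → 0 ≤ P.ord (k • g) := fun k g hg => by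
    rw [Algebra.smul_def]
    exact kd_ord_mul_nonneg P (by rw [ord_algebraMap_eq_zero]) hg
  have hf0 : 0 ≤ P.ord f := kd_ord_sub_nonneg P (hsm k2 (hreg _)) (hsm k1 (hreg _))
  have hfev : Pts.ev P f = 0 := by
    rw [hf, Pts.ev_sub hRR P (hsm k2 (hreg _)) (hsm k1 (hreg _)),
      Pts.ev_smul_const hRR P k2 (hreg _), Pts.ev_smul_const hRR P k1 (hreg _), hk1, hk2,
      hcoord, hcoord]
    field_simp
    ring
  obtain ⟨hq0, hq⟩ := kdDeriv_ev_div hRR h P c hπ hf0 hfev
  have hdf : kdDeriv h f = k2 • kdDeriv h (φ p.1) - k1 • kdDeriv h (φ p.2) := by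
    rw [hf, map_sub, Derivation.map_smul, Derivation.map_smul]
  have hdfev : Pts.ev P (kdDeriv h f)
      = k2 * Pts.ev P (kdDeriv h (φ p.1)) - k1 * Pts.ev P (kdDeriv h (φ p.2)) := by
    rw [hdf, Pts.ev_sub hRR P (hsm k2 (hdreg _)) (hsm k1 (hdreg _)),
      Pts.ev_smul_const hRR P k2 (hdreg _), Pts.ev_smul_const hRR P k1 (hdreg _)]
  have hwev : Pts.ev P (kdW h φ p)
      = Pts.ev P (φ p.2) * Pts.ev P (kdDeriv h (φ p.1))
        - Pts.ev P (φ p.1) * Pts.ev P (kdDeriv h (φ p.2)) := by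
    unfold kdW
    rw [Pts.ev_sub hRR P (kd_ord_mul_nonneg P (hreg _) (hdreg _))
      (kd_ord_mul_nonneg P (hreg _) (hdreg _)),
      Pts.ev_mul hRR P (hreg _) (hdreg _), Pts.ev_mul hRR P (hreg _) (hdreg _)]
  show Pts.ev P _ = Pts.ev P _ / A ^ 2
  rw [hfe, mul_comm (φ a0), ← div_div, Pts.ev_div hRR P hq0 hA0, hq, hdfev, hwev, hk1, hk2,
    hcoord, hcoord]
  field_simp
  rw [← hAdef]
  field_simp

/-- scaling a finite supremum -/
theorem kd_sup'_div {ι : Type*} (s : Finset ι) (hs : s.Nonempty) (g : ι → ℝ) {C : ℝ}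
    (hC : 0 ≤ C) : s.sup' hs (fun i => g i / C) = s.sup' hs g / C := by
  have hmono : Monotone fun t : ℝ => t / C := fun a b hab => div_le_div_of_nonneg_right hab hC
  exact (Finset.apply_sup'_eq_sup'_comp hs (fun t : ℝ => t / C)
    (fun a b => hmono.map_sup a b)).symm

/-- **the tangent length in terms of the Gauss map**:
`θ_v(P; x - c) = max_p |w_p(P)|_v / ‖φ(P)‖_v²` at a point `P ≠ P₀` where `x - c` is a
uniformizer. -/
theorem kdW_theta (𝔸 : AbsSys) (v : 𝔸.ι) (hRR : IsRRField Qbar F)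
    (h : IsFunctionFieldOver Qbar F x)
    (hφ : IsEmbBasis P₀ e φ) (he : 2 * genusFF Qbar F + 1 ≤ e)
    {P : Place Qbar F} (hP : P ≠ P₀) (c : Qbar) (hπ : P.ord (x - algebraMap Qbar F c) = 1) :
    theta 𝔸 v φ P (x - algebraMap Qbar F c)
      = (Finset.univ.sup' Finset.univ_nonempty fun p : Fin (r + 1) × Fin (r + 1) =>
          𝔸.abv v (val P (kdW h φ p))) / vnorm 𝔸 v (fun b => val P (φ b)) ^ 2 := by
  have he' : 2 * genusFF Qbar F ≤ e := by omega
  have hA0 : P.ord (φ (pivot φ P)) = 0 := by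
    rw [hφ.ord_pivot hRR he' P, Finsupp.single_eq_of_ne hP, neg_zero]
  have hA : Pts.ev P (φ (pivot φ P)) ≠ 0 :=
    Pts.ev_ne_zero_of_ord_eq_zero hRR P (hφ.ne_zero _) hA0
  have hApos : 0 < 𝔸.abv v (val P (φ (pivot φ P))) := (𝔸.abv v).pos hA
  have hreg : ∀ b, 0 ≤ P.ord (φ b) := kd_ord_phi_nonneg hφ hP
  unfold theta
  have h1 : (fun p : Fin (r + 1) × Fin (r + 1) =>
      𝔸.abv v (val P ((algebraMap Qbar F (coord φ P p.2) * φ p.1
        - algebraMap Qbar F (coord φ P p.1) * φ p.2)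
          / (φ (pivot φ P) * (x - algebraMap Qbar F c)))))
      = fun p => 𝔸.abv v (val P (kdW h φ p)) / 𝔸.abv v (val P (φ (pivot φ P))) ^ 2 := by
    funext p
    rw [kdW_theta_term hRR h hφ he hP c hπ p, map_div₀, map_pow]
  have h2 : vnorm 𝔸 v (coord φ P)
      = vnorm 𝔸 v (fun b => val P (φ b)) / 𝔸.abv v (val P (φ (pivot φ P))) := by
    unfold vnorm
    rw [← kd_sup'_div _ _ _ hApos.le]
    congr 1
    funext b
    show 𝔸.abv v (Pts.ev P (φ b / φ (pivot φ P))) = _
    rw [Pts.ev_div hRR P (hreg b) hA0, map_div₀]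
  rw [h1, kd_sup'_div _ _ _ (pow_nonneg hApos.le 2), h2]
  have hV : 0 < vnorm 𝔸 v (fun b => val P (φ b)) := by
    refine lt_of_lt_of_le hApos (abv_le_vnorm 𝔸 v (fun b => val P (φ b)) (pivot φ P))
  field_simp

/-- the supremum over all pairs is the supremum over an enumeration of the off-diagonal pairs -/
theorem kdW_sup_eq (𝔸 : AbsSys) (v : 𝔸.ι) (h : IsFunctionFieldOver Qbar F x)
    (φ : Fin (r + 1) → F) (P : Place Qbar F) {m : ℕ}
    (E : Fin (m + 1) ≃ {p : Fin (r + 1) × Fin (r + 1) // p.1 ≠ p.2}) :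
    (Finset.univ.sup' Finset.univ_nonempty fun p : Fin (r + 1) × Fin (r + 1) =>
        𝔸.abv v (val P (kdW h φ p)))
      = vnorm 𝔸 v (fun i => val P (kdW h φ (E i).1)) := by
  apply le_antisymm
  · refine Finset.sup'_le _ _ fun p _ => ?_
    by_cases hp : p.1 = p.2
    · have h0 : kdW h φ p = 0 := by
        have := kdW_diag h φ p.1
        rw [show (p.1, p.1) = p from Prod.ext rfl hp] at this
        exact this
      rw [h0]
      show 𝔸.abv v (Pts.ev P 0) ≤ _
      rw [Pts.ev_zero, map_zero]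
      exact vnorm_nonneg 𝔸 v _
    · have := abv_le_vnorm 𝔸 v (fun i => val P (kdW h φ (E i).1)) (E.symm ⟨p, hp⟩)
      simpa using this
  · refine Finset.sup'_le _ _ fun i _ => ?_
    exact Finset.le_sup' (fun p : Fin (r + 1) × Fin (r + 1) => 𝔸.abv v (val P (kdW h φ p)))
      (Finset.mem_univ (E i).1)

/-- **`log θ_v(P; x - c) = log ‖w(P)‖_v - 2 log ‖φ(P)‖_v`** at a point `P ≠ P₀` where `x - c` is
a uniformizer, for an enumeration `w` of the `w_{bc}`, `b ≠ c`. -/
theorem kdW_log_theta (𝔸 : AbsSys) (v : 𝔸.ι) (hRR : IsRRField Qbar F)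
    (h : IsFunctionFieldOver Qbar F x)
    (hφ : IsEmbBasis P₀ e φ) (he : 2 * genusFF Qbar F + 1 ≤ e)
    {P : Place Qbar F} (hP : P ≠ P₀) (c : Qbar) (hπ : P.ord (x - algebraMap Qbar F c) = 1)
    {m : ℕ} (E : Fin (m + 1) ≃ {p : Fin (r + 1) × Fin (r + 1) // p.1 ≠ p.2}) :
    Real.log (theta 𝔸 v φ P (x - algebraMap Qbar F c))
      = Real.log (vnorm 𝔸 v (fun i => val P (kdW h φ (E i).1))) - 2 * lamloc 𝔸 v φ P := by
  rw [kdW_theta 𝔸 v hRR h hφ he hP c hπ, kdW_sup_eq 𝔸 v h φ P E]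
  have hV : 0 < vnorm 𝔸 v (fun b => val P (φ b)) := by
    have h1 := abv_le_vnorm 𝔸 v (fun b => val P (φ b)) 0
    have h2 : 𝔸.abv v (val P (φ 0)) = 1 := by
      rw [hφ.zero_eq_one]
      show 𝔸.abv v (Pts.ev P 1) = 1
      rw [Pts.ev_one, map_one]
    rw [h2] at h1
    exact lt_of_lt_of_le one_pos h1
  have hS : 0 < vnorm 𝔸 v (fun i => val P (kdW h φ (E i).1)) := by
    obtain ⟨b, c', hbc, hord⟩ := kdW_exists_ord hRR h hφ he P
    rw [Finsupp.single_eq_of_ne hP, kd_kap_eq_zero h P c hπ] at hord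
    have hord0 : P.ord (kdW h φ (b, c')) = 0 := by rw [hord]; ring
    have hev := Pts.ev_ne_zero_of_ord_eq_zero hRR P (kdW_ne_zero h hφ hbc) hord0
    have h1 := abv_le_vnorm 𝔸 v (fun i => val P (kdW h φ (E i).1)) (E.symm ⟨(b, c'), hbc⟩)
    simp only [Equiv.apply_symm_apply] at h1
    exact lt_of_lt_of_le ((𝔸.abv v).pos hev) h1
  rw [Real.log_div hS.ne' (pow_ne_zero 2 hV.ne'), Real.log_pow]
  unfold lamloc
  push_cast
  ring

end Fermat.Agent.S17.Pos
end
end MergeWrap_S17_H_Pos_Kappa_Fam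

section MergeWrap_S17_H_Pos_Kappa_Galois -- from S17/H/Pos/Kappa/Galois.lean

set_option autoImplicit false
set_option linter.unusedSectionVars false

/-!
# S17, package H, seat GB-KAPPA: the derivation `d/dx` and semilinear automorphisms

`K` algebraically closed of characteristic `0`, `F` a function field over `K`
(`h : IsFunctionFieldOver K F x`), `g : SemilinearAut K F` with `g • x = x`.

* `kdDeriv_smul`   : `g • (d f/dx) = d (g • f)/dx`;
* `kd_kap_smul`    : `ord_{g v} (dx) = ord_v (dx)`;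
* `kd_divD_smul`   : `g • div (dx) = div (dx)`.
-/

noncomputable section

open AlgebraicCurve KaehlerDifferential

namespace Fermat.Agent.S17.Pos

open Fermat.Agent.S24Diff Fermat.Agent.GenusEq

variable {K F : Type*} [Field K] [Field F] [Algebra K F] [IsAlgClosed K] [CharZero K] {x : F}

theorem kd_inv_smul_eq (g : SemilinearAut K F) (hg : g • x = x) : g⁻¹ • x = x := by
  have h1 : g⁻¹ • (g • x) = g⁻¹ • x := by rw [hg]
  rw [inv_smul_smul] at h1
  exact h1.symm

/-- the conjugate `f ↦ g⁻¹ • (d (g • f)/dx)` of the derivation `d/dx`, as a linear map -/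
def kdConjLin (h : IsFunctionFieldOver K F x) (g : SemilinearAut K F) : F →ₗ[K] F where
  toFun f := g⁻¹ • kdDeriv h (g • f)
  map_add' f₁ f₂ := by
    rw [smul_add, map_add, smul_add]
  map_smul' a f := by
    have h1 : g • (a • f) = (SemilinearAut.baseAut g a) • (g • f) := by
      rw [Algebra.smul_def, Algebra.smul_def, smul_mul', SemilinearAut.smul_algebraMap]
    rw [RingHom.id_apply, h1, Derivation.map_smul, Algebra.smul_def, Algebra.smul_def, smul_mul',
      SemilinearAut.smul_algebraMap, SemilinearAut.baseAut_inv, RingEquiv.symm_apply_apply]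

theorem kdConjLin_apply (h : IsFunctionFieldOver K F x) (g : SemilinearAut K F) (f : F) :
    kdConjLin h g f = g⁻¹ • kdDeriv h (g • f) := rfl

/-- the conjugate of `d/dx` is a derivation -/
def kdConj (h : IsFunctionFieldOver K F x) (g : SemilinearAut K F) : Derivation K F F :=
  Derivation.mk' (kdConjLin h g) fun a b => by
    rw [kdConjLin_apply, kdConjLin_apply, kdConjLin_apply, smul_mul', Derivation.leibniz,
      smul_add, smul_eq_mul, smul_eq_mul, smul_eq_mul, smul_eq_mul, smul_mul', smul_mul',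
      inv_smul_smul, inv_smul_smul]

theorem kdConj_apply (h : IsFunctionFieldOver K F x) (g : SemilinearAut K F) (f : F) :
    kdConj h g f = g⁻¹ • kdDeriv h (g • f) := rfl

/-- `d/dx` commutes with the semilinear automorphisms which fix `x` -/
theorem kdDeriv_smul (h : IsFunctionFieldOver K F x) (g : SemilinearAut K F) (hg : g • x = x)
    (f : F) : g • kdDeriv h f = kdDeriv h (g • f) := by
  have h1 := kdDeriv_eq_mul h (kdConj h g) f
  rw [kdConj_apply, kdConj_apply, hg, kdDeriv_self, smul_one, mul_one] at h1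
  rw [← h1, smul_inv_smul]

/-- the order of `dx` is invariant under the semilinear automorphisms which fix `x` -/
theorem kd_kap_smul (h : IsFunctionFieldOver K F x) (g : SemilinearAut K F) (hg : g • x = x)
    (v : Place K F) : GenusEq.kap x (g • v) = GenusEq.kap x v := by
  rcases Fermat.Agent.S24Res.exists_ord_sub_pos_or_neg h v (not_mem_range_of_ff h) with
    ⟨a, ha⟩ | hneg
  · have h1 := SemilinearAut.ord_smul g v (x - algebraMap K F a)
    rw [smul_sub, hg, SemilinearAut.smul_algebraMap] at h1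
    rw [kap_of_pos h v a ha, kap_of_pos h (g • v) (SemilinearAut.baseAut g a) (by rw [h1]; exact ha),
      h1]
  · have h1 := SemilinearAut.ord_smul g v x
    rw [hg] at h1
    rw [kap_of_neg h v hneg, kap_of_neg h (g • v) (by rw [h1]; exact hneg), h1]

/-- the divisor of `dx` is invariant under the semilinear automorphisms which fix `x` -/
theorem kd_divD_smul (h : IsFunctionFieldOver K F x) (g : SemilinearAut K F) (hg : g • x = x) :
    g • GenusEq.divD h = GenusEq.divD h := by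
  ext w
  rw [SemilinearAut.divisor_smul_apply]
  show GenusEq.kap x (g⁻¹ • w) = GenusEq.kap x w
  exact kd_kap_smul h g⁻¹ (kd_inv_smul_eq g hg) w

end Fermat.Agent.S17.Pos
end
end MergeWrap_S17_H_Pos_Kappa_Galois

section MergeWrap_S17_H_Pos_Kappa_Stable -- from S17/H/Pos/Kappa/Stable.lean

set_option autoImplicit false

/-!
# S17, package H, seat GB-KAPPA: invariance of the Gauss map and of its polar divisor

`g : SemilinearAut Qbar F` fixing `x`, the `φ_b` and `P₀`:

* `kdW_smul`       : `g • w_p = w_p`;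
* `kd_polar_smul`  : `g • (n P₀ + div (dx)) = n P₀ + div (dx)`;
* `kd_polar_degree`: `deg (2 e P₀ + div (dx)) = 2 e + 2 g - 2`;
* `kd_polar_apply` : `(2 e P₀ + div (dx))(P) = 2 (e P₀)(P) + ord_P (dx)`.
-/

noncomputable section

open AlgebraicCurve KaehlerDifferential

namespace Fermat.Agent.S17.Pos

open Fermat.Agent.S24Diff Fermat.Agent.GenusEq Fermat.Agent.RR

variable {F : Type*} [Field F] [Algebra Qbar F] {x : F}
variable {P₀ : Place Qbar F} {e r : ℕ} {φ : Fin (r + 1) → F}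

/-- the Gauss map is invariant -/
theorem kdW_smul (h : IsFunctionFieldOver Qbar F x) (g : SemilinearAut Qbar F)
    (hx : g • x = x) (hg : ∀ b, g • φ b = φ b) (p : Fin (r + 1) × Fin (r + 1)) :
    g • kdW h φ p = kdW h φ p := by
  unfold kdW
  rw [smul_sub, smul_mul', smul_mul', kdDeriv_smul h g hx, kdDeriv_smul h g hx, hg, hg]

/-- the polar divisor `n P₀ + div (dx)` -/
def kdPolar (h : IsFunctionFieldOver Qbar F x) (P₀ : Place Qbar F) (n : ℤ) : Divisor Qbar F :=
  Finsupp.single P₀ n + divD h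

theorem kdPolar_smul (h : IsFunctionFieldOver Qbar F x) (g : SemilinearAut Qbar F)
    (hx : g • x = x) (hP₀ : g • P₀ = P₀) (n : ℤ) :
    g • kdPolar h P₀ n = kdPolar h P₀ n := by
  unfold kdPolar
  rw [smul_add, SemilinearAut.smul_single, kd_divD_smul h g hx, hP₀]

theorem kdPolar_degree (hRR : IsRRField Qbar F) (h : IsFunctionFieldOver Qbar F x)
    (P₀ : Place Qbar F) (n : ℤ) :
    Divisor.degree (kdPolar h P₀ n) = n + 2 * (genusFF Qbar F : ℤ) - 2 := by
  unfold kdPolar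
  rw [map_add, degree_single_one hRR, degree_divD h]
  ring

theorem kdPolar_apply (h : IsFunctionFieldOver Qbar F x) (P₀ : Place Qbar F) (e : ℕ)
    (P : Place Qbar F) :
    kdPolar h P₀ (2 * (e : ℤ)) P = 2 * (Finsupp.single P₀ (e : ℤ) : Divisor Qbar F) P + kap x P := by
  classical
  unfold kdPolar
  rw [Finsupp.add_apply, divD_apply, Finsupp.single_apply, Finsupp.single_apply]
  split_ifs
  · rfl
  · simp only [mul_zero]
    rfl

theorem kdPolar_apply_of_ne (h : IsFunctionFieldOver Qbar F x) {P₀ P : Place Qbar F}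
    (hP : P ≠ P₀) (n : ℤ) : kdPolar h P₀ n P = kap x P := by
  unfold kdPolar
  rw [Finsupp.add_apply, Finsupp.single_eq_of_ne hP, zero_add]
  rfl

end Fermat.Agent.S17.Pos
end
end MergeWrap_S17_H_Pos_Kappa_Stable

section MergeWrap_S17_H_Pos_Kappa -- from S17/H/Pos/Kappa.lean

set_option autoImplicit false

/-!
# S17, package H, seat GB-KAPPA: `kappaFam S U : KappaFam S U`

For an index `a` such that `φ_a - φ_a(P)` is the uniformizer `π_P` at some `P ≠ P₀`:
`w` = an enumeration of the functions `φ_c D_a φ_b - φ_b D_a φ_c` (`b ≠ c`, `D_a = d/dφ_a`),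
`D = 2 e P₀ + div (dφ_a)` of degree `2 e + 2 g - 2` (Riemann–Hurwitz, `GenusEq.degree_divD`).
-/

noncomputable section

open AlgebraicCurve ModularCurve Fermat.Agent.RR

namespace Fermat.Agent.S17.Pos

open Fermat.Agent.S24Diff Fermat.Agent.GenusEq

variable {N : ℕ} [NeZero N]

/-- **Seat KAPPA.** -/
theorem kappaFam (S : HSetup N) (U : Unif S) : KappaFam S U := by
  classical
  rintro a ⟨P₁, hP₁, hπ₁⟩
  have hRR : IsRRField Qbar (FN N) := Pairing.hRR N
  have hφ := S.isEmbBasis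
  have he : 2 * genusFF Qbar (FN N) + 1 ≤ S.e := by
    have := S.e_large
    omega
  -- `φ_a` is not constant
  have hord₁ := U.ord_eq P₁
  rw [hπ₁] at hord₁
  have htr0 : Transcendental Qbar (S.φ a - algebraMap Qbar (FN N) (val P₁ (S.φ a))) :=
    transcendental_of_ord_ne_zero' P₁ (by rw [hord₁]; exact one_ne_zero)
  have htr : Transcendental Qbar (S.φ a) := fun halg =>
    htr0 (halg.sub (isAlgebraic_algebraMap _))
  have h : IsFunctionFieldOver Qbar (FN N) (S.φ a) :=
    (Fermat.Agent.S24.isFunctionFieldOver_jBar N).of_transcendental htr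
  have ha0 : a ≠ 0 := by
    rintro rfl
    apply htr
    rw [hφ.zero_eq_one]
    exact isAlgebraic_one
  -- enumeration of the off-diagonal pairs
  have hne : Nonempty {p : Fin (S.r + 1) × Fin (S.r + 1) // p.1 ≠ p.2} := ⟨⟨(a, 0), ha0⟩⟩
  have hcard : 0 < Fintype.card {p : Fin (S.r + 1) × Fin (S.r + 1) // p.1 ≠ p.2} :=
    Fintype.card_pos
  obtain ⟨m, hm⟩ : ∃ m, Fintype.card {p : Fin (S.r + 1) × Fin (S.r + 1) // p.1 ≠ p.2} = m + 1 :=
    ⟨Fintype.card {p : Fin (S.r + 1) × Fin (S.r + 1) // p.1 ≠ p.2} - 1, by omega⟩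
  let E : Fin (m + 1) ≃ {p : Fin (S.r + 1) × Fin (S.r + 1) // p.1 ≠ p.2} :=
    (Fintype.equivFinOfCardEq hm).symm
  -- the uniformizer hypothesis in the form used by the generic lemmas
  have hunif : ∀ P : PtN N, U.π P = S.φ a - algebraMap Qbar (FN N) (val P (S.φ a)) →
      P.ord (S.φ a - algebraMap Qbar (FN N) (val P (S.φ a))) = 1 := fun P hP => by
    rw [← hP]
    exact U.ord_eq P
  refine ⟨m, fun i => kdW h S.φ (E i).1, kdPolar h S.P₀ (2 * (S.e : ℤ)), ?_, ?_, ?_, ?_, ?_, ?_⟩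
  · -- nonzero
    intro i
    exact kdW_ne_zero h hφ (b := (E i).1.1) (c := (E i).1.2) (E i).2
  · -- Galois-fixed
    intro σ i
    exact kdW_smul h (arithmeticGalois (modularFunctionFieldFull N) σ) (S.φ_fixed σ a)
      (fun b => S.φ_fixed σ b) (E i).1
  · -- Galois-stable divisor
    intro σ
    exact kdPolar_smul h (arithmeticGalois (modularFunctionFieldFull N) σ) (S.φ_fixed σ a)
      (S.P₀_fixed σ) _
  · -- degree
    rw [kdPolar_degree hRR h]
  · -- polar bound
    intro P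
    obtain ⟨b, c, hbc, hord⟩ := kdW_exists_ord hRR h hφ he P
    refine ⟨E.symm ⟨(b, c), hbc⟩, ?_⟩
    simp only [Equiv.apply_symm_apply]
    rw [hord, kdPolar_apply h S.P₀ S.e P]
    omega
  · -- the points where `φ_a - φ_a(P)` is the uniformizer
    intro P hP hπP
    have hπ := hunif P hπP
    have hkap : kap (S.φ a) P = 0 := kd_kap_eq_zero h P _ hπ
    refine ⟨?_, ?_, ?_, ?_⟩
    · rw [kdPolar_apply_of_ne h hP]
      exact hkap
    · intro i
      exact kdW_ord_nonneg h hφ hP _ hπ _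
    · obtain ⟨b, c, hbc, hord⟩ := kdW_exists_ord hRR h hφ he P
      refine ⟨E.symm ⟨(b, c), hbc⟩, ?_⟩
      simp only [Equiv.apply_symm_apply]
      rw [hord, Finsupp.single_eq_of_ne hP, hkap]
      ring
    · intro v
      unfold kappa
      rw [hπP]
      exact kdW_log_theta S.𝔸 v hRR h hφ he hP _ hπ E

end Fermat.Agent.S17.Pos
end
end MergeWrap_S17_H_Pos_Kappa

section MergeWrap_S17_H_Pos_Final -- from S17/H/Pos/Final.lean

set_option autoImplicit false

/-!
# S17, package H, seat GB: `positivityThm S hg : PositivityThm S`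

Assembly of the seats DATA (`detData`), KAPPA (`kappaFam`), DETLOC (`jetData`), ONE (`oneStep`),
POS-LOC (`posLoc`), L4 (`weilCompareAll`), UNIF (`nonempty_unif`), ADJ, DET-GLOBAL.
-/

noncomputable section

open AlgebraicCurve ModularCurve Fermat.Agent.RR

namespace Fermat.Agent.S17.Pos

variable {N : ℕ} [NeZero N]

/-- **Package GB.** Positivity of the height, for genus at least one. -/
theorem positivityThm (S : HSetup N) (hg : 1 ≤ genusFF Qbar (FN N)) : PositivityThm S :=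
  positivityThm_of_data_kappa S (detData S hg) (fun U => kappaFam S U)

end Fermat.Agent.S17.Pos
end
end MergeWrap_S17_H_Pos_Final

section MergeWrap_S17_H_Final -- from S17/H/Final.lean

set_option autoImplicit false

noncomputable section

open AlgebraicCurve ModularCurve Fermat.Agent.RR

namespace Fermat.Agent.S17

/-- **Mordell–Weil for `J₀(N)`** (every level `N ≥ 1`). -/
theorem mw_fg (N : ℕ) [NeZero N] : AddGroup.FG (MW N) :=
  fg_of_packages N (fun _ => Fermat.Agent.S17W.weakMW N) (fun hg => by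
    obtain ⟨S⟩ := nonempty_hSetup N
    exact ⟨S, Pairing.pairingThm S (Pos.embBasis S) (Pos.localDecomp S),
      Pos.positivityThm S hg, northcottThm S⟩)

end Fermat.Agent.S17
end
end MergeWrap_S17_H_Final

section MergeWrap_E_S15_FinalAll -- from E/S15/FinalAll.lean

set_option autoImplicit false

noncomputable section

namespace Fermat.Agent.ES15

open ModularCurve AlgebraicCurve Fermat.Agent.EDesc Fermat.Agent.EDescW

/-- a prime divisor of `p - 1` is prime to `p`. -/
theorem fa_prime_ne_of_dvd_pred {p l' : ℕ} (hp : p.Prime) (hl : l'.Prime) (h : l' ∣ p - 1) :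
    p ≠ l' ∧ ¬ l' ∣ p := by
  have hp1 : 0 < p - 1 := Nat.sub_pos_of_lt hp.one_lt
  have hle : l' ≤ p - 1 := Nat.le_of_dvd hp1 h
  have hne : p ≠ l' := by omega
  exact ⟨hne, fun hd => hne ((Nat.prime_dvd_prime_iff_eq hl hp).mp hd).symm⟩

/-- the primes outside `S ∋ p` do not divide `p`. -/
theorem fa_out_not_dvd {p : ℕ} (hp : p.Prime) {S : Finset ℕ} (hpS : p ∈ S) (r : Nat.Primes)
    (hr : (r : ℕ) ∉ S) : ¬ (r : ℕ) ∣ p := fun hd =>
  hr (((Nat.prime_dvd_prime_iff_eq r.2 hp).mp hd) ▸ hpS)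

/-- **(K-p)** in the form used by DESC-MAIN. -/
theorem fa_eisKp_of_kp {p l' : ℕ} [NeZero p] (hp : p.Prime) (hl : l'.Prime) (hne : p ≠ l')
    (h : Fermat.Agent.EKp.KpStatement p) : EisKp p l' := by
  obtain ⟨m, hm, h⟩ := h.exists_cob
  refine ⟨m, hm, fun k P R hP hR Ap hAp => ?_⟩
  have hpn : ¬ p ∣ l' ^ k := fun hd =>
    hne ((Nat.prime_dvd_prime_iff_eq hp hl).mp (hp.dvd_of_dvd_pow hd))
  exact h Ap hAp P hP (l' ^ k) (pow_pos hl.pos k) hpn R hR

/-- **Mazur's descent at an odd Eisenstein prime** `l' ∣ p - 1`. -/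
theorem fa_descent_odd {p : ℕ} [NeZero p] (hp : p.Prime) {l' : ℕ} (hl : l'.Prime)
    (hl2 : l' ≠ 2) (hlp : l' ∣ p - 1) (S : Finset ℕ) (hpS : p ∈ S) (hlS : l' ∈ S)
    (hPar : ParStatement p) (hSwap : SwapStatement p) (hKp : EisKp p l') :
    EisDescentAt p l' S := by
  haveI : Fact l'.Prime := ⟨hl⟩
  obtain ⟨hne, hnd⟩ := fa_prime_ne_of_dvd_pred hp hl hlp
  exact desc_main p hp l' hl hne S hpS hlS (Fermat.Agent.S17.mw_fg p)
    (eisIdem_prime hl.ne_zero hp hpS)
    (eisLocal_of p hl (eisChain_prime hp hpS hlS)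
      (eisOrd_of (fun _ _ _ h => isTheta_conj h) hPar hSwap hl hl2 (fa_out_not_dvd hp hpS))
      (eisFlat_odd hl hl2 hnd S))
    (eisToric p hp l' hne S) hKp

/-- **Mazur's descent at `l' = 2`** (real-place route). -/
theorem fa_descent_two {p : ℕ} [NeZero p] (hp : p.Prime) (h2 : p ≠ 2) (S : Finset ℕ)
    (hpS : p ∈ S) (h2S : 2 ∈ S) (hLoc : EisLocalTw p complexConjugation 2 S)
    (hKp : EisKp p 2) : EisDescentAt p 2 S := by
  haveI : Fact (2 : ℕ).Prime := ⟨Nat.prime_two⟩
  exact desc_main_tw p hp 2 Nat.prime_two h2 S hpS h2S complexConjugation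
    (Fermat.Agent.S17.mw_fg p) (eisIdem_prime two_ne_zero hp hpS) hLoc
    (eisToric p hp 2 h2 S) hKp

/-- **S15 from the open inputs**: `(F)`, W-PAR, W-SWAP, K-p, and the local condition at `2`. -/
theorem s15At_of_open {p : ℕ} [NeZero p] (hp : p.Prime)
    (hp' : p ∉ ({2, 3, 5, 7, 13} : Finset ℕ)) (hF : HeckeRedStable p)
    (hPar : ParStatement p) (hSwap : SwapStatement p)
    (hKp : Fermat.Agent.EKp.KpStatement p)
    (hLoc : 8 ∣ p - 1 → ∀ S : Finset ℕ, p ∈ S → 2 ∈ S →
      EisLocalTw p complexConjugation 2 S) :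
    S15At p := by
  have h2 : p ≠ 2 := fun h => hp' (by rw [h]; decide)
  refine s15At_of_descent hp hp' (redInputs p hp) hF ?_ ?_
  · intro l' hl hl2 hlp S hpS hlS
    exact fa_descent_odd hp hl hl2 hlp S hpS hlS hPar hSwap
      (fa_eisKp_of_kp hp hl (fa_prime_ne_of_dvd_pred hp hl hlp).1 hKp)
  · intro h8 S hpS h2S
    exact fa_descent_two hp h2 S hpS h2S (hLoc h8 S hpS h2S)
      (fa_eisKp_of_kp hp Nat.prime_two h2 hKp)

end Fermat.Agent.ES15
end
end MergeWrap_E_S15_FinalAll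

section MergeWrap_E_S15_FinalTop -- from E/S15/FinalTop.lean

set_option autoImplicit false

noncomputable section

namespace Fermat.Agent.ES15

open ModularCurve AlgebraicCurve Fermat.Agent.EDesc Fermat.Agent.EDescW

/-- **S15 from `(F)` and (K-p).** -/
theorem s15At_of_two {p : ℕ} [NeZero p] (hp : p.Prime)
    (hp' : p ∉ ({2, 3, 5, 7, 13} : Finset ℕ)) (hF : HeckeRedStable p)
    (hKp : Fermat.Agent.EKp.KpStatement p) : S15At p := by
  have hPar : ParStatement p := parStatement p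
  have hSwap : SwapStatement p := swapStatement_all p
  refine s15At_of_open hp hp' hF hPar hSwap hKp fun h8 S hpS h2S => ?_
  haveI : Fact (2 : ℕ).Prime := ⟨Nat.prime_two⟩
  have h4 : p % 4 = 1 := by
    have := hp.two_le
    omega
  exact eisLocalTw_two hp h4 (eisChain_prime hp hpS h2S)
    (eisReal_of_swap hSwap Nat.prime_two (fa_out_not_dvd hp hpS))

end Fermat.Agent.ES15
end
end MergeWrap_E_S15_FinalTop
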