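import Mathlib
import Fermat.Agent.MU.E.S15.HeckeRedMod
import Fermat.Agent.MU.E.S15.Interfaces
import Fermat.Agent.MU.Lib.RedTr.Final
import Fermat.Agent.MU.Lib.RedTr.ModularCompat
import Fermat.Agent.MU.Lib.RedTr.NormDeg
import Fermat.Agent.MU.Lib.GenusEq.Main
import Fermat.Agent.MU.Lib.Div.Inst
import Fermat.Agent.MU.Lib.HeckeInputs.Qbar

section MergeWrap_E_S15_HeckeRedMain -- from E/S15/HeckeRedMain.lean

set_option autoImplicit false
set_option linter.style.haveILetI false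
set_option linter.unusedSectionVars false
set_option synthInstance.maxHeartbeats 400000

noncomputable section

open AlgebraicCurve ModularCurve HahnSeries Fermat.Agent.RR Fermat.Agent.Deuring Fermat.Agent.FF
  Fermat.Agent.RedTr Fermat.Agent.GaussInt

namespace Fermat.Agent.ES15

local notation "Qb" => AlgebraicClosure ℚ

/-- the top level. -/
def heckeRedTop (ℓ p r : ℕ) : ℕ := p * r * (if ℓ = 3 then 4 else 9)

theorem heckeRedTop_ne_zero (ℓ p r : ℕ) [NeZero p] [NeZero r] : heckeRedTop ℓ p r ≠ 0 := by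
  unfold heckeRedTop
  have hp := NeZero.ne p
  have hr := NeZero.ne r
  split_ifs <;> positivity

theorem heckeRedTop_dvd (ℓ p r : ℕ) : p * r ∣ heckeRedTop ℓ p r := Dvd.intro _ rfl

theorem heckeRedTop_dvd' (ℓ p r : ℕ) : p ∣ heckeRedTop ℓ p r :=
  (Dvd.intro _ rfl).trans (heckeRedTop_dvd ℓ p r)

theorem heckeRedTop_four_or_nine (ℓ p r : ℕ) :
    4 ∣ heckeRedTop ℓ p r ∨ 9 ∣ heckeRedTop ℓ p r := by
  unfold heckeRedTop
  split_ifs
  · exact Or.inl (Dvd.intro_left _ rfl)
  · exact Or.inr (Dvd.intro_left _ rfl)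

theorem heckeRedTop_not_dvd {ℓ p r : ℕ} (hℓ : ℓ.Prime) (hr : r.Prime) (hℓp : ¬ ℓ ∣ p)
    (hrℓ : r ≠ ℓ) : ¬ ℓ ∣ heckeRedTop ℓ p r := by
  unfold heckeRedTop
  intro h
  rcases (Nat.Prime.dvd_mul hℓ).mp h with h1 | h1
  · rcases (Nat.Prime.dvd_mul hℓ).mp h1 with h2 | h2
    · exact hℓp h2
    · exact hrℓ ((Nat.prime_dvd_prime_iff_eq hℓ hr).mp h2).symm
  · split_ifs at h1 with h3
    · subst h3
      omega
    · have h4 : ℓ ∣ 3 ^ 2 := by simpa using h1
      have h5 := hℓ.dvd_of_dvd_pow h4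
      exact h3 ((Nat.prime_dvd_prime_iff_eq hℓ Nat.prime_three).mp h5)

section Transfer

theorem heckeRed_inclC_isIntegral (A : ValuationSubring Qb) (ℓ N M : ℕ) [NeZero N] [NeZero M]
    (hℓ : ℓ.Prime) (hA : A.LiesOverPrime ℓ) (hℓN : ¬ ℓ ∣ N) (hℓM : ¬ ℓ ∣ M) (h : N ∣ M) :
    (mc_inclC (IsLocalRing.ResidueField A) h).toRingHom.IsIntegral :=
  isIntegral_of_finiteAlong (φ := mc_inclC (IsLocalRing.ResidueField A) h)
    (mc_compat A ℓ N M hℓ hA hℓN hℓM h).finite_k

/-- the reduction of the places of level `N` transferred from Deuring's reduction at level `M`. -/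
theorem heckeRed_exists_rE (A : ValuationSubring Qb) (ℓ N M : ℕ) [NeZero N] [NeZero M]
    (hℓ : ℓ.Prime) (hA : A.LiesOverPrime ℓ) (hℓN : ¬ ℓ ∣ N) (hℓM : ¬ ℓ ∣ M) (h : N ∣ M)
    (hg : genusFF Qb (modularFunctionFieldBar M) =
      genusFF (IsLocalRing.ResidueField A)
        (modularFunctionFieldFullC (IsLocalRing.ResidueField A) M)) :
    ∃ rE : Place Qb (modularFunctionFieldBar N) →
        Place (IsLocalRing.ResidueField A)
          (modularFunctionFieldFullC (IsLocalRing.ResidueField A) N),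
      IsPush (modularValSetup A ℓ N hℓ hA hℓN) rE ∧
      ∀ P' : Place Qb (modularFunctionFieldBar M),
        rE (P'.restrictAlong (Fermat.Agent.F3T.inclBar h)
            (Fermat.Agent.F3T.inclBar_isIntegral h)) =
          (redPlace A ℓ M hℓ hA hℓM hg P').restrictAlong
            (mc_inclC (IsLocalRing.ResidueField A) h)
            (heckeRed_inclC_isIntegral A ℓ N M hℓ hA hℓN hℓM h) := by
  have hN2 : NormDegLe (modularValSetup A ℓ N hℓ hA hℓN) (modularValSetup A ℓ M hℓ hA hℓM)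
      (Fermat.Agent.F3T.inclBar h) :=
    normDegLe _ _ _ (Fermat.Agent.S24.isFunctionFieldOver_jBar N)
      (Fermat.Agent.S24.isFunctionFieldOver_jBar M)
  exact exists_isPush_compatible (mc_compat A ℓ N M hℓ hA hℓN hℓM h) hN2
    (isReduction_redPlace A ℓ M hℓ hA hℓM hg) hg (Fermat.Agent.F3T.inclBar_isIntegral h)
    (heckeRed_inclC_isIntegral A ℓ N M hℓ hA hℓN hℓM h)

end Transfer

section Main

/-- the inclusion of level `p` into the top level factors through level `p r`. -/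
theorem heckeRed_incl_comp_alpha (p r M : ℕ) [NeZero p] [NeZero r] [NeZero M] [NeZero (p * r)]
    (h1 : p * r ∣ M) (h2 : p ∣ M) :
    (Fermat.Agent.F3T.inclBar h1).comp (heckeAlphaBar Qb p r) = Fermat.Agent.F3T.inclBar h2 := by
  refine AlgHom.ext fun x => Subtype.ext ?_
  rw [AlgHom.comp_apply, Fermat.Agent.F3T.coe_inclBar, Fermat.Agent.F3T.coe_inclBar,
    coe_heckeAlphaBar]

set_option maxHeartbeats 1600000 in
/-- **S15-F, divisor form**: if the reduction of `D` (degree `0`) is `0`, so is the reduction of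
`T_r D`, for every map of places `r₀` of level `p` with the push property. -/
theorem heckeRed_divisor (p : ℕ) [NeZero p] (A : ValuationSubring Qb) (ℓ : ℕ) (hℓ : ℓ.Prime)
    (hA : A.LiesOverPrime ℓ) (hℓp : ¬ ℓ ∣ p) (r : ℕ) [NeZero r] (M : ℕ) [NeZero M]
    (hℓM : ¬ ℓ ∣ M) (h1 : p * r ∣ M) (h2 : p ∣ M) [NeZero (p * r)]
    [HasPrincipalDivisors Qb (modularFunctionFieldBar (p * r))]
    (hg : genusFF Qb (modularFunctionFieldBar M) =
      genusFF (IsLocalRing.ResidueField A)
        (modularFunctionFieldFullC (IsLocalRing.ResidueField A) M))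
    (hα : HeckeAlphaBarIntegral Qb p r) (hβ : HeckeBetaBarIntegral Qb p r)
    {r₀ : Place Qb (modularFunctionFieldBar p) →
      Place (IsLocalRing.ResidueField A)
        (modularFunctionFieldFullC (IsLocalRing.ResidueField A) p)}
    (hr₀ : IsPush (modularValSetup A ℓ p hℓ hA hℓp) r₀)
    {D : Divisor Qb (modularFunctionFieldBar p)}
    (hD : D ∈ Divisor.degZero (K := Qb) (F := modularFunctionFieldBar p))
    (hTD : Divisor.correspondence (heckeBetaBar Qb p r) (heckeAlphaBar Qb p r) hβ hα D ∈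
      Divisor.degZero (K := Qb) (F := modularFunctionFieldBar p))
    (hD0 : redDiv r₀ D = 0) :
    redDiv r₀ (Divisor.correspondence (heckeBetaBar Qb p r) (heckeAlphaBar Qb p r) hβ hα D) =
      0 := by
  haveI : HasPrincipalDivisors Qb (modularFunctionFieldBar M) :=
    hasPD (modularValSetup A ℓ M hℓ hA hℓM).hF
  haveI : HasPrincipalDivisors (IsLocalRing.ResidueField A)
      (modularFunctionFieldFullC (IsLocalRing.ResidueField A) M) :=
    hasPD (modularValSetup A ℓ M hℓ hA hℓM).hFk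
  obtain ⟨rE, hrE, hcompat⟩ := heckeRed_exists_rE A ℓ p M hℓ hA hℓp hℓM h2 hg
  have hι : (Fermat.Agent.F3T.inclBar h1).toRingHom.IsIntegral :=
    Fermat.Agent.F3T.inclBar_isIntegral h1
  have hια : (Fermat.Agent.F3T.inclBar h1).comp (heckeAlphaBar Qb p r) =
      Fermat.Agent.F3T.inclBar h2 := heckeRed_incl_comp_alpha p r M h1 h2
  have hcompat' : ∀ P' : Place Qb (modularFunctionFieldBar M),
      rE (P'.restrictAlong ((Fermat.Agent.F3T.inclBar h1).comp (heckeAlphaBar Qb p r))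
        (Fermat.Agent.EDescComm.isIntegral_comp _ _ hα hι)) =
        (redPlace A ℓ M hℓ hA hℓM hg P').restrictAlong
          (mc_inclC (IsLocalRing.ResidueField A) h2)
          (heckeRed_inclC_isIntegral A ℓ p M hℓ hA hℓp hℓM h2) := by
    intro P'
    rw [Place.restrictAlong_congr hια _ (Fermat.Agent.F3T.inclBar_isIntegral h2)]
    exact hcompat P'
  have hE' := Fermat.Agent.RRMod.isRRField_bar (p * r)
  have hbk : (heckeRed_betaTopC p r M h1 (IsLocalRing.ResidueField A)).toRingHom.IsIntegral :=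
    isIntegral_of_finiteAlong (φ := heckeRed_betaTopC p r M h1 (IsLocalRing.ResidueField A))
      (heckeRed_finiteAlong (modularValSetup A ℓ p hℓ hA hℓp).hFk
        (modularValSetup A ℓ M hℓ hA hℓM).hFk _)
  have hFIι : FundamentalIdentityAlong Qb (Fermat.Agent.F3T.inclBar h1) hι :=
    fundIdK hE' (modularValSetup A ℓ M hℓ hA hℓM).hF _ hι
  have hfinι : FiniteAlong Qb (Fermat.Agent.F3T.inclBar h1) :=
    heckeRed_finiteAlong hE' (modularValSetup A ℓ M hℓ hA hℓM).hF _
  have hdiv : ∀ n : ℕ, n ≠ 0 → ∀ x : JZero p, ∃ y : JZero p, n • y = x :=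
    fun n hn x => Fermat.Agent.Div.jZero_divisible p n (Nat.pos_of_ne_zero hn) x
  exact heckeRed_stable (SE := modularValSetup A ℓ p hℓ hA hℓp)
    (SF := modularValSetup A ℓ M hℓ hA hℓM) (α := heckeAlphaBar Qb p r)
    (β := heckeBetaBar Qb p r) (ι := Fermat.Agent.F3T.inclBar h1)
    (ak := mc_inclC (IsLocalRing.ResidueField A) h2)
    (bk := heckeRed_betaTopC p r M h1 (IsLocalRing.ResidueField A))
    (hα := hα) (hβ := hβ) (hι := hι)
    (hak := heckeRed_inclC_isIntegral A ℓ p M hℓ hA hℓp hℓM h2) hE' hbk hFIι hfinι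
    (isReduction_redPlace A ℓ M hℓ hA hℓM hg).push hrE hcompat'
    (fun f hf => heckeRed_betaTop_mem A ℓ p r M hℓ hA hℓp hℓM h1 f hf)
    (fun f hf => heckeRed_betaTop_red A ℓ p r M hℓ hA hℓp hℓM h1 f hf)
    hdiv hr₀ hD hTD hD0

end Main

end Fermat.Agent.ES15
end
end MergeWrap_E_S15_HeckeRedMain

section MergeWrap_E_S15_HeckeRed -- from E/S15/HeckeRed.lean

set_option autoImplicit false
set_option linter.style.haveILetI false
set_option linter.unusedSectionVars false
set_option synthInstance.maxHeartbeats 400000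

noncomputable section

open AlgebraicCurve ModularCurve HahnSeries Fermat.Agent.RR Fermat.Agent.Deuring Fermat.Agent.FF
  Fermat.Agent.RedTr Fermat.Agent.GaussInt

namespace Fermat.Agent.ES15

local notation "Qb" => AlgebraicClosure ℚ

section Abstract

variable {K E k Ek : Type*} [Field K] [Field E] [Algebra K E]
  [Field k] [Field Ek] [Algebra k Ek]

/-- every nonzero element of the residue field is the reduction of a unit. -/
theorem heckeRed_exists_lift (S : ValSetup K E k Ek) {gk : Ek} (hgk : gk ≠ 0) :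
    ∃ g : E, g ∈ S.Ov ∧ g⁻¹ ∈ S.Ov ∧ g ≠ 0 ∧ S.red g = gk := by
  obtain ⟨g', hg'⟩ := S.ρ_surj gk
  have hgmem : (g' : E) ∈ S.Ov := g'.2
  have hgred : S.red (g' : E) = gk := by
    rw [S.red_of_mem hgmem]
    exact hg'
  have hg0 : (g' : E) ≠ 0 := by
    intro h0
    apply hgk
    rw [← hgred, h0, S.red_zero]
  refine ⟨g', hgmem, ?_, hg0, hgred⟩
  by_contra hcon
  exact hgk (hgred ▸ (S.red_eq_zero_iff hgmem hg0).mpr hcon)

/-- a divisor of degree `0` with principal reduction is linearly equivalent to a divisor with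
reduction `0`. -/
theorem heckeRed_exists_rep_abs (S : ValSetup K E k Ek) {r₀ : Place K E → Place k Ek}
    (hr₀ : IsPush S r₀) (D₀ : Divisor.degZero (K := K) (F := E))
    (hprin : redDiv r₀ (D₀ : Divisor K E) ∈ Divisor.principal (K := k) (F := Ek)) :
    ∃ D : Divisor.degZero (K := K) (F := E),
      Pic0.mk D = Pic0.mk D₀ ∧ redDiv r₀ (D : Divisor K E) = 0 := by
  obtain ⟨gk, hgk0, hgk⟩ := hprin
  obtain ⟨g, hgmem, hginv, hg0, hgred⟩ := heckeRed_exists_lift S hgk0
  have hdiv0 : divOf S.hF g ∈ Divisor.degZero (K := K) (F := E) := by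
    rw [Divisor.mem_degZero, degree_divOf]
  refine ⟨D₀ - ⟨_, hdiv0⟩, ?_, ?_⟩
  · symm
    refine QuotientAddGroup.eq_iff_sub_mem.mpr ?_
    rw [AddSubgroup.mem_addSubgroupOf, sub_sub_cancel]
    exact ⟨g, hg0, fun P => divOf_apply S.hF g P⟩
  · rw [AddSubgroupClass.coe_sub, map_sub, heckeRed_redDiv_divOf hr₀ hgmem hginv hg0, hgred,
      sub_eq_zero]
    ext Q
    rw [hgk Q, divOf_apply]

end Abstract

/-- a class with reduction `0` has a representative with reduction `0`. -/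
theorem heckeRed_exists_rep (p : ℕ) [NeZero p] (A : ValuationSubring Qb) (ℓ : ℕ) (hℓ : ℓ.Prime)
    (hA : A.LiesOverPrime ℓ) (hℓp : ¬ ℓ ∣ p) (hin : ReductionInputsModL A p)
    (z : JZero p) (hz : reductionModL A p z = 0) :
    ∃ D : Divisor.degZero (K := Qb) (F := modularFunctionFieldBar p),
      Pic0.mk D = z ∧ redDiv (placeReductionModL hin)
        (D : Divisor Qb (modularFunctionFieldBar p)) = 0 := by
  have hr₀ : IsPush (modularValSetup A ℓ p hℓ hA hℓp) (placeReductionModL hin) :=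
    heckeRed_isPush_of_isPlaceReduction A ℓ p hℓ hA hℓp
      (isPlaceReductionModL_placeReductionModL hin)
  obtain ⟨D₀, rfl⟩ := Pic0.mk_surjective z
  rw [reductionModL_mk hin] at hz
  have hprin : redDiv (placeReductionModL hin)
      (D₀ : Divisor Qb (modularFunctionFieldBar p)) ∈
      Divisor.principal (K := IsLocalRing.ResidueField A)
        (F := modularFunctionFieldFullC (IsLocalRing.ResidueField A) p) := by
    have := (QuotientAddGroup.eq_zero_iff _).mp hz
    rwa [AddSubgroup.mem_addSubgroupOf] at this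
  exact heckeRed_exists_rep_abs (modularValSetup A ℓ p hℓ hA hℓp) hr₀ D₀ hprin

/-- **S15-F** at a place `A` over `ℓ ∤ p`, for a prime `r ≠ ℓ`. -/
theorem heckeRed_of_not_dvd (p : ℕ) [NeZero p] (A : ValuationSubring Qb) (ℓ : ℕ) (hℓ : ℓ.Prime)
    (hA : A.LiesOverPrime ℓ) (hℓp : ¬ ℓ ∣ p) (r : Nat.Primes) (hrℓ : (r : ℕ) ≠ ℓ)
    (z : JZero p) (hz : reductionModL A p z = 0) :
    reductionModL A p (heckeOperatorBar p r z) = 0 := by
  classical
  haveI : NeZero (r : ℕ) := ⟨r.2.ne_zero⟩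
  haveI : NeZero (heckeRedTop ℓ p r) := ⟨heckeRedTop_ne_zero ℓ p r⟩
  haveI : NeZero (p * (r : ℕ)) := ⟨Nat.mul_ne_zero (NeZero.ne p) (NeZero.ne (r : ℕ))⟩
  by_cases hin : ReductionInputsModL A p
  swap
  · rw [reductionModL_of_not hin]
    rfl
  have hℓM : ¬ ℓ ∣ heckeRedTop ℓ p r := heckeRedTop_not_dvd hℓ r.2 hℓp hrℓ
  obtain ⟨hα, hβ, hP, hfin, hFI, hN⟩ := Fermat.Agent.HeckeInputs.hi_heckeInputsAlong_Qbar p (r : ℕ)
  haveI := hP
  rw [heckeOperatorBar_apply, heckeOperatorAlong_eq hα hβ hFI hfin hN]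
  have hg := Fermat.Agent.GenusEq.genusFF_eq (heckeRedTop ℓ p r) (heckeRedTop_four_or_nine ℓ p r)
    ℓ hℓ hℓM A hA
  have hr₀ : IsPush (modularValSetup A ℓ p hℓ hA hℓp) (placeReductionModL hin) :=
    heckeRed_isPush_of_isPlaceReduction A ℓ p hℓ hA hℓp
      (isPlaceReductionModL_placeReductionModL hin)
  obtain ⟨D, rfl, hD0⟩ := heckeRed_exists_rep p A ℓ hℓ hA hℓp hin z hz
  have hTD : Divisor.correspondence (heckeBetaBar Qb p (r : ℕ)) (heckeAlphaBar Qb p (r : ℕ))
      hβ hα (D : Divisor Qb (modularFunctionFieldBar p)) ∈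
      Divisor.degZero (K := Qb) (F := modularFunctionFieldBar p) :=
    Divisor.correspondence_mem_degZero _ _ hβ hα hFI D.2
  have hmain := heckeRed_divisor p A ℓ hℓ hA hℓp (r : ℕ) (heckeRedTop ℓ p r) hℓM
    (heckeRedTop_dvd ℓ p r) (heckeRedTop_dvd' ℓ p r) hg hα hβ hr₀ D.2 hTD hD0
  show reductionModL A p (Pic0.mk (Pic0.degZeroCorrespondence (heckeBetaBar Qb p (r : ℕ))
    (heckeAlphaBar Qb p (r : ℕ)) hβ hα hFI D)) = 0
  rw [reductionModL_mk hin]
  have hzero : reductionDegZeroAlong (placeReductionModL hin)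
      (isPlaceReductionModL_placeReductionModL hin).1
      (Pic0.degZeroCorrespondence (heckeBetaBar Qb p (r : ℕ))
        (heckeAlphaBar Qb p (r : ℕ)) hβ hα hFI D) = 0 := by
    apply Subtype.ext
    rw [coe_reductionDegZeroAlong]
    exact hmain
  rw [hzero]
  rfl

/-- **Seat S15-F**: `HeckeRedStable p` for a prime level `p`. -/
theorem heckeRedStable (p : ℕ) [NeZero p] (hp : p.Prime) : HeckeRedStable p := by
  intro ℓ hℓ hℓp A hA r hrℓ _ z hz
  have hℓp' : ¬ ℓ ∣ p := fun h => hℓp ((Nat.prime_dvd_prime_iff_eq hℓ hp).mp h)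
  exact heckeRed_of_not_dvd p A ℓ hℓ hA hℓp' r hrℓ z hz

end Fermat.Agent.ES15
end
end MergeWrap_E_S15_HeckeRed
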